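import Mathlib
import Fermat.Agent.S18.T.Spec
import Fermat.Agent.S18.V.Spec
import Fermat.Agent.S18.A.Defs
import Fermat.Agent.S18.Core.Defs
import Fermat.Agent.S18.Core.DescentBasic
import Fermat.Agent.S24.PlacesInt

/-!
# Program G, package G/Red (place reduction for `X₀(M)` at a prime `ℓ ∤ M`) : DEFINITIONS

Sub-architect: helper12.  Namespace `Fermat.Agent.G`, prefix `grd` / `Grd`.

Notation: `𝔸 ⊂ ℚ̄` a valuation subring, `k = 𝔸/𝔪`, `F = F_ℚ̄(M) = modularFunctionFieldBar M`,
`F_k = modularFunctionFieldFullC k M`.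

* `grdSer υ R`, `GrdSerMem M υ`, `grdQ`, `grdK` : a CHART COORDINATE is an integral series
  `υ : LaurentSeries ℤ` (`j`, `j⁻¹`, a Hauptmodul `h_a`, `h_a⁻¹`) whose base changes lie in the
  level-`M` function fields; `grdQ = υ_ℚ̄ ∈ F`, `grdK = υ_k ∈ F_k`;
* `GrdVal P x a` : "`x(P) = a`" (`x - a` is a non-unit of the valuation ring of the place `P`);
* `grdO M A`     : the GAUSS RING of `F` : all `x` with `x · b = a`, `a, b` good integral series
  (S18 `S18Good`), `b̄ ≠ 0`  (a valuation ring of `F` with `grdO ∩ ℚ̄ = 𝔸`);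
* `grdRed M A : grdO →+* F_k` : THE REDUCTION HOMOMORPHISM `x = a/b ↦ ā/b̄`;
* `GrdIsInt M A u x` : `x ∈ F` is integral over `𝔸[u]`;  `grdB M A u` the subring of these;
* `GrdInChart M A u P` : `u(P) ∈ 𝔸`;
* `GrdRel M A u P Q` : THE REDUCTION RELATION in the chart `u` : for every `x ∈ F` integral over
  `𝔸[u]` (then `x ∈ grdO`) and every `a ∈ 𝔸` with `x(P) = a` : `x̄(Q) = ā`;
* `GrdIsRed M A τ τ' r` : `r` is THE place reduction map w.r.t. the two charts `τ`, `τ' = τ⁻¹`.
-/

set_option autoImplicit false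
set_option linter.unusedSectionVars false
set_option synthInstance.maxHeartbeats 400000

noncomputable section

namespace Fermat.Agent.G

open ModularCurve AlgebraicCurve IsLocalRing Polynomial Fermat.Agent.S18

/-! ### Chart coordinates -/

section Series

/-- the base change of an integral series to `R((q))` -/
def grdSer (υ : LaurentSeries ℤ) (R : Type*) [CommRing R] : LaurentSeries R :=
  coeffMap (Int.castRingHom R) υ

theorem grdSer_coeffMap (υ : LaurentSeries ℤ) {R S : Type*} [CommRing R] [CommRing S]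
    (f : R →+* S) : coeffMap f (grdSer υ R) = grdSer υ S := by
  unfold grdSer
  rw [coeffMap_coeffMap, RingHom.ext_int (f.comp (Int.castRingHom R)) (Int.castRingHom S)]

/-- `υ_K ∈ F_K(M)` for every field `K`. -/
def GrdSerMem (M : ℕ) (υ : LaurentSeries ℤ) : Prop :=
  ∀ (K : Type) [Field K], grdSer υ K ∈ modularFunctionFieldFullC K M

end Series

/-! ### Values at places -/

/-- `x(P) = a` : `x - a` is a non-unit of the valuation ring of `P`. -/
def GrdVal {K F : Type*} [Field K] [Field F] [Algebra K F] (P : Place K F) (x : F) (a : K) : Prop :=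
  x - algebraMap K F a ∈ P.toValuationSubring.nonunits

section Bar

variable (M : ℕ) [NeZero M] (A : ValuationSubring (AlgebraicClosure ℚ))

/-! ### Closure properties of good integral series -/

theorem grd_coeffMap_subtype_injective :
    Function.Injective (coeffMap A.subtype : LaurentSeries A →+* _) := by
  intro x y hxy
  ext k
  have := congrArg (fun s => HahnSeries.coeff s k) hxy
  simpa using this

variable {M A}

theorem grd_good_zero : S18Good M A (0 : LaurentSeries A) :=
  ⟨by rw [map_zero]; exact zero_mem _, by rw [map_zero]; exact zero_mem _⟩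

theorem grd_good_one : S18Good M A (1 : LaurentSeries A) :=
  ⟨by rw [map_one]; exact one_mem _, by rw [map_one]; exact one_mem _⟩

theorem grd_good_add {u v : LaurentSeries A} (hu : S18Good M A u) (hv : S18Good M A v) :
    S18Good M A (u + v) :=
  ⟨by rw [map_add]; exact add_mem hu.1 hv.1, by rw [map_add]; exact add_mem hu.2 hv.2⟩

theorem grd_good_neg {u : LaurentSeries A} (hu : S18Good M A u) : S18Good M A (-u) :=
  ⟨by rw [map_neg]; exact neg_mem hu.1, by rw [map_neg]; exact neg_mem hu.2⟩

theorem grd_good_mul {u v : LaurentSeries A} (hu : S18Good M A u) (hv : S18Good M A v) :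
    S18Good M A (u * v) :=
  ⟨by rw [map_mul]; exact mul_mem hu.1 hv.1, by rw [map_mul]; exact mul_mem hu.2 hv.2⟩

variable (M A)

/-! ### The Gauss ring of `F_ℚ̄(M)` and the reduction homomorphism -/

/-- THE GAUSS RING of `F = F_ℚ̄(M)` : all `x` with `x · b = a`, `a, b` good integral series,
`b̄ ≠ 0`. -/
def grdO : Subring (modularFunctionFieldBar M) where
  carrier := {x | ∃ a b : LaurentSeries A, S18Good M A a ∧ S18Good M A b ∧
    coeffMap (residue A) b ≠ 0 ∧
    (x : LaurentSeries (AlgebraicClosure ℚ)) * coeffMap A.subtype b = coeffMap A.subtype a}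
  mul_mem' := by
    rintro x y ⟨a, b, ha, hb, hb0, hx⟩ ⟨c, d, hc, hd, hd0, hy⟩
    refine ⟨a * c, b * d, grd_good_mul ha hc, grd_good_mul hb hd, ?_, ?_⟩
    · rw [map_mul]; exact mul_ne_zero hb0 hd0
    · rw [map_mul, map_mul, ← hx, ← hy]; push_cast; ring
  one_mem' := ⟨1, 1, grd_good_one, grd_good_one, by rw [map_one]; exact one_ne_zero, by simp⟩
  add_mem' := by
    rintro x y ⟨a, b, ha, hb, hb0, hx⟩ ⟨c, d, hc, hd, hd0, hy⟩
    refine ⟨a * d + c * b, b * d, grd_good_add (grd_good_mul ha hd) (grd_good_mul hc hb),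
      grd_good_mul hb hd, ?_, ?_⟩
    · rw [map_mul]; exact mul_ne_zero hb0 hd0
    · rw [map_add, map_mul, map_mul, map_mul, ← hx, ← hy]; push_cast; ring
  zero_mem' := ⟨0, 1, grd_good_zero, grd_good_one, by rw [map_one]; exact one_ne_zero, by simp⟩
  neg_mem' := by
    rintro x ⟨a, b, ha, hb, hb0, hx⟩
    refine ⟨-a, b, grd_good_neg ha, hb, hb0, ?_⟩
    rw [map_neg, ← hx]; push_cast; ring

theorem mem_grdO {x : modularFunctionFieldBar M} :
    x ∈ grdO M A ↔ ∃ a b : LaurentSeries A, S18Good M A a ∧ S18Good M A b ∧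
      coeffMap (residue A) b ≠ 0 ∧
      (x : LaurentSeries (AlgebraicClosure ℚ)) * coeffMap A.subtype b = coeffMap A.subtype a :=
  Iff.rfl

/-- well-definedness of `ā / b̄` -/
theorem grd_res_div_eq {x : modularFunctionFieldBar M} {a b a' b' : LaurentSeries A}
    (hb0 : coeffMap (residue A) b ≠ 0) (hb0' : coeffMap (residue A) b' ≠ 0)
    (hx : (x : LaurentSeries (AlgebraicClosure ℚ)) * coeffMap A.subtype b = coeffMap A.subtype a)
    (hx' : (x : LaurentSeries (AlgebraicClosure ℚ)) * coeffMap A.subtype b' =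
      coeffMap A.subtype a') :
    coeffMap (residue A) a / coeffMap (residue A) b =
      coeffMap (residue A) a' / coeffMap (residue A) b' := by
  rw [div_eq_div_iff hb0 hb0']
  have h : a * b' = a' * b := by
    apply grd_coeffMap_subtype_injective A
    rw [map_mul, map_mul, ← hx, ← hx']
    ring
  rw [← map_mul, ← map_mul, h]

/-- the reduction of an element of the Gauss ring, as a series -/
def grdRedSer (x : ↥(grdO M A)) : LaurentSeries (ResidueField A) :=
  coeffMap (residue A) (Classical.choose x.2) /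
    coeffMap (residue A) (Classical.choose (Classical.choose_spec x.2))

theorem grdRedSer_eq (x : ↥(grdO M A)) (a b : LaurentSeries A)
    (hb0 : coeffMap (residue A) b ≠ 0)
    (hx : ((x : modularFunctionFieldBar M) : LaurentSeries (AlgebraicClosure ℚ)) *
      coeffMap A.subtype b = coeffMap A.subtype a) :
    grdRedSer M A x = coeffMap (residue A) a / coeffMap (residue A) b := by
  obtain ⟨-, -, h0, h1⟩ := Classical.choose_spec (Classical.choose_spec x.2)
  exact grd_res_div_eq M A h0 hb0 h1 hx

theorem grdRedSer_mem (x : ↥(grdO M A)) :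
    grdRedSer M A x ∈ modularFunctionFieldFullC (ResidueField A) M := by
  obtain ⟨a, b, ha, hb, hb0, hx⟩ := x.2
  rw [grdRedSer_eq M A x a b hb0 hx]
  exact div_mem ha.2 hb.2

/-- THE REDUCTION HOMOMORPHISM `grdO → F_k`, `x = a/b ↦ ā/b̄`. -/
def grdRed : ↥(grdO M A) →+* modularFunctionFieldFullC (ResidueField A) M where
  toFun x := ⟨grdRedSer M A x, grdRedSer_mem M A x⟩
  map_one' := by
    apply Subtype.ext
    show grdRedSer M A 1 = 1
    rw [grdRedSer_eq M A 1 1 1 (by rw [map_one]; exact one_ne_zero) (by simp), map_one, div_one]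
  map_zero' := by
    apply Subtype.ext
    show grdRedSer M A 0 = 0
    rw [grdRedSer_eq M A 0 0 1 (by rw [map_one]; exact one_ne_zero) (by simp), map_zero, zero_div]
  map_mul' := by
    intro x y
    apply Subtype.ext
    show grdRedSer M A (x * y) = grdRedSer M A x * grdRedSer M A y
    obtain ⟨a, b, -, -, hb0, hx⟩ := x.2
    obtain ⟨c, d, -, -, hd0, hy⟩ := y.2
    rw [grdRedSer_eq M A x a b hb0 hx, grdRedSer_eq M A y c d hd0 hy,
      grdRedSer_eq M A (x * y) (a * c) (b * d) (by rw [map_mul]; exact mul_ne_zero hb0 hd0)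
        (by rw [map_mul, map_mul, ← hx, ← hy]; push_cast; ring),
      map_mul, map_mul, mul_div_mul_comm]
  map_add' := by
    intro x y
    apply Subtype.ext
    show grdRedSer M A (x + y) = grdRedSer M A x + grdRedSer M A y
    obtain ⟨a, b, -, -, hb0, hx⟩ := x.2
    obtain ⟨c, d, -, -, hd0, hy⟩ := y.2
    rw [grdRedSer_eq M A x a b hb0 hx, grdRedSer_eq M A y c d hd0 hy,
      grdRedSer_eq M A (x + y) (a * d + c * b) (b * d)
        (by rw [map_mul]; exact mul_ne_zero hb0 hd0)
        (by rw [map_add, map_mul, map_mul, map_mul, ← hx, ← hy]; push_cast; ring),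
      map_add, map_mul, map_mul, map_mul, div_add_div _ _ hb0 hd0]
    congr 1
    ring

theorem grdRed_eq (x : ↥(grdO M A)) (a b : LaurentSeries A)
    (hb0 : coeffMap (residue A) b ≠ 0)
    (hx : ((x : modularFunctionFieldBar M) : LaurentSeries (AlgebraicClosure ℚ)) *
      coeffMap A.subtype b = coeffMap A.subtype a) :
    ((grdRed M A x : modularFunctionFieldFullC (ResidueField A) M) :
      LaurentSeries (ResidueField A)) = coeffMap (residue A) a / coeffMap (residue A) b :=
  grdRedSer_eq M A x a b hb0 hx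

variable {M A}

/-- a good integral series lies in the Gauss ring -/
theorem grd_gen_mem {y : LaurentSeries A} (hy : S18Good M A y) : hy.gen ∈ grdO M A :=
  ⟨y, 1, hy, grd_good_one, by rw [map_one]; exact one_ne_zero, by rw [map_one, mul_one]; rfl⟩

/-- the reduction of a good integral series is its coefficientwise reduction -/
theorem grdRed_gen {y : LaurentSeries A} (hy : S18Good M A y) :
    grdRed M A ⟨hy.gen, grd_gen_mem hy⟩ = hy.spec := by
  apply Subtype.ext
  rw [grdRed_eq M A ⟨hy.gen, grd_gen_mem hy⟩ y 1 (by rw [map_one]; exact one_ne_zero)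
    (by rw [map_one, mul_one]; rfl), map_one, div_one]
  rfl

variable (M A)

/-! ### Charts -/

/-- the element `υ_ℚ̄` of `F_ℚ̄(M)` -/
def grdQ {υ : LaurentSeries ℤ} (hυ : GrdSerMem M υ) : modularFunctionFieldBar M :=
  ⟨grdSer υ (AlgebraicClosure ℚ), s18db_full_le_bar M (hυ (AlgebraicClosure ℚ))⟩

/-- the element `υ_k` of `F_k(M)`, `k = A/𝔪` -/
def grdK {υ : LaurentSeries ℤ} (hυ : GrdSerMem M υ) :
    modularFunctionFieldFullC (ResidueField A) M :=
  ⟨grdSer υ (ResidueField A), hυ (ResidueField A)⟩

/-- the ring homomorphism `A → F_ℚ̄(M)` -/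
def grdInclA : A →+* modularFunctionFieldBar M :=
  (algebraMap (AlgebraicClosure ℚ) (modularFunctionFieldBar M)).comp A.subtype

/-- `x ∈ F_ℚ̄(M)` is integral over `A[u]`. -/
def GrdIsInt (u x : modularFunctionFieldBar M) : Prop :=
  (Polynomial.eval₂RingHom (grdInclA M A) u).IsIntegralElem x

/-- the subring of `F_ℚ̄(M)` of the elements integral over `A[u]` (THE CHART RING) -/
def grdB (u : modularFunctionFieldBar M) : Subring (modularFunctionFieldBar M) where
  carrier := {x | GrdIsInt M A u x}
  mul_mem' hx hy := RingHom.IsIntegralElem.mul _ hx hy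
  one_mem' := RingHom.isIntegralElem_one _
  add_mem' hx hy := RingHom.IsIntegralElem.add _ hx hy
  zero_mem' := RingHom.isIntegralElem_zero _
  neg_mem' hx := RingHom.IsIntegralElem.neg _ hx

theorem mem_grdB {u x : modularFunctionFieldBar M} : x ∈ grdB M A u ↔ GrdIsInt M A u x := Iff.rfl

/-- `x ∈ F_k(M)` is integral over `k[ū]`. -/
def GrdIsIntK (u x : modularFunctionFieldFullC (ResidueField A) M) : Prop :=
  (Polynomial.eval₂RingHom
    (algebraMap (ResidueField A) (modularFunctionFieldFullC (ResidueField A) M)) u).IsIntegralElem x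

/-- `u(P) ∈ A` -/
def GrdInChart (u : modularFunctionFieldBar M)
    (P : Place (AlgebraicClosure ℚ) (modularFunctionFieldBar M)) : Prop :=
  ∃ a : A, GrdVal P u (a : AlgebraicClosure ℚ)

/-- `ū` is regular at `Q` -/
def GrdInChartK (u : modularFunctionFieldFullC (ResidueField A) M)
    (Q : Place (ResidueField A) (modularFunctionFieldFullC (ResidueField A) M)) : Prop :=
  u ∈ Q.toValuationSubring

/-- THE REDUCTION RELATION in the chart `u` : for every `x` of the Gauss ring which is integral
over `A[u]` and every `a ∈ A` with `x(P) = a` : `x̄(Q) = ā`. -/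
def GrdRel (u : modularFunctionFieldBar M)
    (P : Place (AlgebraicClosure ℚ) (modularFunctionFieldBar M))
    (Q : Place (ResidueField A) (modularFunctionFieldFullC (ResidueField A) M)) : Prop :=
  ∀ (x : modularFunctionFieldBar M) (hx : x ∈ grdO M A), GrdIsInt M A u x →
    ∀ a : A, GrdVal P x (a : AlgebraicClosure ℚ) → GrdVal Q (grdRed M A ⟨x, hx⟩) (residue A a)

/-- `r` is THE place reduction map w.r.t. the charts `τ` (used when `τ(P) ∈ A`) and `τ'`
(used otherwise; in the applications `τ' = τ⁻¹`). -/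
def GrdIsRed {τ τ' : LaurentSeries ℤ} (hτ : GrdSerMem M τ) (hτ' : GrdSerMem M τ')
    (r : Place (AlgebraicClosure ℚ) (modularFunctionFieldBar M) →
      Place (ResidueField A) (modularFunctionFieldFullC (ResidueField A) M)) : Prop :=
  ∀ P, (GrdInChart M A (grdQ M hτ) P → GrdRel M A (grdQ M hτ) P (r P)) ∧
    (¬ GrdInChart M A (grdQ M hτ) P → GrdRel M A (grdQ M hτ') P (r P))

end Bar

end Fermat.Agent.G

namespace Fermat.Agent.G

open ModularCurve AlgebraicCurve IsLocalRing Polynomial Fermat.Agent.S18

/-! ### The chart hypotheses (number-field level, S18 packages T and V) -/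

/-- THE CHART HYPOTHESES for the coordinate `υ` at level `M` : `υ_K ∈ F_K(M)` for all fields `K`;
`υ_ℚ̄`, `υ_k` are separating generators; for every sufficiently large number field `E ⊂ ℚ̄`, with
`A₀ = 𝔸 ∩ E` (a DVR with uniformiser `ϖ`) : `υ_E` is a good coordinate of `F_E(M)` for the Gauss
valuation (S18 `S18Coord` : unique unramified extension of the Gauss valuation of `E(υ)`), and
`F_E(M) / E(υ)` satisfies the chart hypotheses `S18Chart` of S18 theorem (T) (unramified outside a
finite set `S ⊂ A₀` of points with distinct reductions, tame at `S`). -/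
structure GrdChart (M : ℕ) [NeZero M] (A : ValuationSubring (AlgebraicClosure ℚ))
    (υ : LaurentSeries ℤ) : Prop where
  mem : GrdSerMem M υ
  sepQ : Fermat.Agent.S24.IsSepGen (AlgebraicClosure ℚ) (grdQ M mem)
  sepK : Fermat.Agent.S24.IsSepGen (ResidueField A) (grdK M A mem)
  lvl : ∃ E₀ : IntermediateField ℚ (AlgebraicClosure ℚ), FiniteDimensional ℚ E₀ ∧
    ∀ E : IntermediateField ℚ (AlgebraicClosure ℚ), E₀ ≤ E → FiniteDimensional ℚ E →
      ∀ [IsDiscreteValuationRing (s18dVal A E)] [CharZero (s18dVal A E)]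
        (ϖ : s18dVal A E) (hϖ : Irreducible ϖ),
        S18Coord hϖ (modularFunctionFieldFullC E M) ⟨grdSer υ E, mem E⟩ ∧
        ∃ S : Finset (s18dVal A E), S18Chart (s18dVal A E) E ϖ
          (⟨grdSer υ E, mem E⟩ : modularFunctionFieldFullC E M) S

/-- AN ATLAS : two chart coordinates `τ`, `τ'` with `τ τ' = 1`. -/
structure GrdAtlas (M : ℕ) [NeZero M] (A : ValuationSubring (AlgebraicClosure ℚ))
    (τ τ' : LaurentSeries ℤ) : Prop where
  inv : τ * τ' = 1
  c : GrdChart M A τ
  c' : GrdChart M A τ'

end Fermat.Agent.G
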