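import Mathlib
import Fermat.Agent.S18.T.Spec

/-!
# Program G, package G/Red, leaf (M1b): NORMALITY OF THE SPECIAL FIBRE OF A CHART RING

Setting of S18 package T: `A` a DVR of characteristic `0` with uniformiser `ϖ`, `L = Frac A`,
`F / L(t)` finite, `P = s18tInt A t` (integral closure of `A[t]` in `F`), `P_(ϖ) = s18tIntLoc A t
(C ϖ)` (integral closure of the Gauss valuation ring `A[t]_(ϖ)` in `F`).

`GrdnIntMod hC t x` : `x` is integral over `A[t]` MODULO `ϖ P_(ϖ)`:
`m(t, x) ∈ ϖ P_(ϖ)` for some monic `m ∈ A[X][Y]`  (i.e. the class of `x` in `P_(ϖ)/ϖ` is integral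
over `k₀[t̄]`).

MAIN THEOREM `grdn_chart_normal` : under the chart hypotheses `S18Chart A L ϖ t S` (unramified
outside `S`, tame at `S`, distinct reductions) and Gauss self-duality, every `x ∈ P_(ϖ)` which is
integral modulo `ϖ` is congruent modulo `ϖ P_(ϖ)` to an element of `P`:
the image of `P/ϖP` in `P_(ϖ)/ϖ P_(ϖ)` is INTEGRALLY CLOSED.
(S18 theorem (T) proved this for idempotents only; the proofs generalise verbatim.)
-/

set_option autoImplicit false
set_option linter.unusedSectionVars false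
set_option linter.unusedVariables false
set_option linter.style.haveILetI false

noncomputable section

namespace Fermat.Agent.G

open Polynomial IntermediateField Fermat.Agent.S18

universe u

variable {A : Type*} [CommRing A] [IsDomain A] [IsDiscreteValuationRing A] [CharZero A]
variable {L : Type*} [Field L] [Algebra A L] [IsFractionRing A L]
variable {F : Type u} [Field F] [Algebra A F] [Algebra L F] [IsScalarTower A L F]
variable {ϖ : A}

/-- `x` is integral over `A[t]` modulo `ϖ P_(ϖ)`. -/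
def GrdnIntMod (hC : Prime (C ϖ : A[X])) (t x : F) : Prop :=
  ∃ m : A[X][X], m.Monic ∧ ∃ y ∈ s18tIntLoc A t (C ϖ) hC,
    eval₂ ((aeval t : A[X] →ₐ[A] F) : A[X] →+* F) x m = algebraMap A F ϖ * y

/-- the ring hom `A[X] → O'`, `a ↦ a(t)`. -/
def grdnToO' (hC : Prime (C ϖ : A[X])) (t : F) (htA : Transcendental A t) :
    A[X] →+* ↥(s18tlgO' hC t htA) where
  toFun a := ⟨⟨aeval t a, s18tlg_aeval_mem_loc t (C ϖ) hC a⟩, s18tlg_aeval_mem_O' hC t htA a⟩
  map_one' := Subtype.ext (Subtype.ext (map_one _))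
  map_mul' a b := Subtype.ext (Subtype.ext (map_mul _ a b))
  map_zero' := Subtype.ext (Subtype.ext (map_zero _))
  map_add' a b := Subtype.ext (Subtype.ext (map_add _ a b))

theorem grdnToO'_comp (hC : Prime (C ϖ : A[X])) (t : F) (htA : Transcendental A t) :
    (s18tlgO'ToF L hC t htA).comp (grdnToO' hC t htA) =
      ((aeval t : A[X] →ₐ[A] F) : A[X] →+* F) :=
  RingHom.ext fun _ => rfl

/-- integral modulo `ϖ` ⟹ integral over `O' = A[t] + ϖ A[t]_(ϖ)`. -/
theorem grdn_isIntegralElem (hC : Prime (C ϖ : A[X])) (t : F) (htA : Transcendental A t)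
    {x : F} (hx : x ∈ s18tIntLoc A t (C ϖ) hC) (h : GrdnIntMod hC t x) :
    (s18tlgO'ToF L hC t htA).IsIntegralElem x := by
  obtain ⟨m, hm, y, hy, hmy⟩ := h
  letI : Algebra ↥(s18tlgO' hC t htA) F := (s18tlgO'ToF L hC t htA).toAlgebra
  have hw : IsIntegral ↥(s18tlgO' hC t htA) (algebraMap A F ϖ * y) :=
    s18tlg_isIntegralElem_unif_mul (L := L) hC t htA hy
  by_cases hdeg : m.natDegree = 0
  · -- degenerate case `m = 1`
    have hm1 : m = 1 := hm.natDegree_eq_zero.mp hdeg
    rw [hm1, eval₂_one] at hmy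
    have hx' : x = algebraMap A F ϖ * (y * x) := by
      rw [← mul_assoc, ← hmy, one_mul]
    have : IsIntegral ↥(s18tlgO' hC t htA) (algebraMap A F ϖ * (y * x)) :=
      s18tlg_isIntegralElem_unif_mul (L := L) hC t htA (Subring.mul_mem _ hy hx)
    rw [← hx'] at this
    exact this
  · let S' := integralClosure ↥(s18tlgO' hC t htA) F
    let w' : ↥S' := ⟨algebraMap A F ϖ * y, hw⟩
    let g : A[X] →+* ↥S' := (algebraMap ↥(s18tlgO' hC t htA) ↥S').comp (grdnToO' hC t htA)
    have hg : (algebraMap ↥S' F).comp g = ((aeval t : A[X] →ₐ[A] F) : A[X] →+* F) :=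
      RingHom.ext fun _ => rfl
    have hmon : (m.map g).Monic := hm.map g
    have hdeg' : (C w' : (↥S')[X]).degree < (m.map g).degree := by
      refine lt_of_le_of_lt degree_C_le ?_
      rw [degree_eq_natDegree hmon.ne_zero, hm.natDegree_map g]
      exact_mod_cast Nat.pos_of_ne_zero hdeg
    have hint : IsIntegral ↥S' x := by
      refine ⟨m.map g - C w', hmon.sub_of_left hdeg', ?_⟩
      rw [eval₂_sub, eval₂_C, eval₂_map, hg, hmy]
      exact sub_self _
    exact isIntegral_trans (R := ↥(s18tlgO' hC t htA)) x hint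

/-- (T2+T3 generalised) LOCAL form away from the special points: Gauss self-duality +
self-duality at every horizontal prime through the closed point `γ` ⟹ every `x ∈ P_(ϖ)` integral
modulo `ϖ` is local at `γ`. -/
theorem grdn_local_good' (hC : Prime (C ϖ : A[X])) (t : F) (ht : Transcendental L t)
    [FiniteDimensional L⟮t⟯ F]
    (hG : S18SelfDual A L t (C ϖ) hC)
    (x : F) (hx : x ∈ s18tIntLoc A t (C ϖ) hC) (hint : GrdnIntMod hC t x)
    (γ : (IsLocalRing.ResidueField A)[X]) (hγ : Irreducible γ)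
    (hloc : ∀ (g : A[X]) (hg : Prime g), ¬ Associated g (C ϖ) →
      γ ∣ g.map (IsLocalRing.residue A) → S18SelfDual A L t g hg) :
    ∃ c : A[X], ¬ γ ∣ c.map (IsLocalRing.residue A) ∧
      ∃ p ∈ s18tInt A t, ∃ y ∈ s18tIntLoc A t (C ϖ) hC,
        aeval t c * x - p = algebraMap A F ϖ * y := by
  classical
  have htA : Transcendental A t := s18tb_transcendental ht
  obtain ⟨n, B, hBP, h2⟩ := s18tlg_exists_basis hC t ht
  choose M' hM' using fun i j =>
    s18tlg_trace_mem_chart ht (Subring.mul_mem _ (hBP i) (hBP j))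
  have hdet := s18tlg_not_dvd_map_det hC ht B h2 (Matrix.of M') (fun i j => hM' i j) hG γ hγ hloc
  refine ⟨(Matrix.of M').det, hdet, ?_⟩
  obtain ⟨ev, hev, hee'⟩ := s18tlg_spanLoc ht B h2 (C ϖ) hC (s18tlg_gauss_not_dvd hC) x hx
  have heint := grdn_isIntegralElem (L := L) hC t htA hx hint
  have hτ : ∀ j, ∃ q : A[X], ∃ o ∈ s18tLoc A t (C ϖ) hC,
      ((Algebra.trace ↥L⟮t⟯ F (B j * x) : ↥L⟮t⟯) : F) = aeval t q + algebraMap A F ϖ * o :=
    fun j => s18tlg_trace_mem_O' hC ht _ (RingHom.IsIntegralElem.mul _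
      (s18tlg_isIntegralElem_of_mem_int hC t htA (hBP j)) heint)
  choose q o ho hqo using hτ
  have hτ2 : ∀ j, aeval t (q j) + algebraMap A F ϖ * o j = ∑ i, ev i * aeval t (M' j i) := by
    intro j
    rw [← hqo j, hee', s18tlg_trace_sum (B j) ev B (fun i => s18tlg_loc_le_K0 htA (hev i))]
    simp only [hM']
  set Mf : Matrix (Fin n) (Fin n) F := (aeval t).mapMatrix (Matrix.of M') with hMfdef
  have hMf : Mf.mulVec ev = fun j => aeval t (q j) + algebraMap A F ϖ * o j := by
    ext j
    rw [hτ2 j]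
    simp only [Matrix.mulVec, dotProduct, hMfdef, AlgHom.mapMatrix_apply, Matrix.map_apply,
      Matrix.of_apply]
    exact Finset.sum_congr rfl fun i _ => mul_comm _ _
  have hcr : Mf.det • ev =
      Mf.adjugate.mulVec (fun j => aeval t (q j) + algebraMap A F ϖ * o j) := by
    rw [← hMf, Matrix.mulVec_mulVec, Matrix.adjugate_mul, Matrix.smul_mulVec, Matrix.one_mulVec]
  have hdetF : Mf.det = aeval t (Matrix.of M').det := by
    rw [hMfdef, ← AlgHom.map_det]
  have hadj : ∀ i j, Mf.adjugate i j = aeval t ((Matrix.of M').adjugate i j) := by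
    intro i j
    rw [hMfdef, ← AlgHom.map_adjugate]
    rfl
  refine ⟨∑ i, aeval t (∑ j, (Matrix.of M').adjugate i j * q j) * B i, ?_,
    ∑ i, (∑ j, aeval t ((Matrix.of M').adjugate i j) * o j) * B i, ?_, ?_⟩
  · exact Subring.sum_mem _ fun i _ => Subring.mul_mem _ (s18tlg_aeval_mem_int t _) (hBP i)
  · refine Subring.sum_mem _ fun i _ => Subring.mul_mem _ (Subring.sum_mem _ fun j _ => ?_)
      (s18tlg_int_le_intLoc t (C ϖ) hC (hBP i))
    exact Subring.mul_mem _ (s18tlg_int_le_intLoc t (C ϖ) hC (s18tlg_aeval_mem_int t _))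
      (s18tlg_loc_le_intLoc t (C ϖ) hC (ho j))
  · have h1 : aeval t (Matrix.of M').det * x = ∑ i, (Mf.det • ev) i * B i := by
      rw [hee', Finset.mul_sum, ← hdetF]
      refine Finset.sum_congr rfl fun i _ => ?_
      rw [Pi.smul_apply, smul_eq_mul, mul_assoc]
    rw [h1, hcr, Finset.mul_sum, ← Finset.sum_sub_distrib]
    refine Finset.sum_congr rfl fun i _ => ?_
    rw [← sub_mul, ← mul_assoc, Finset.mul_sum]
    congr 1
    rw [map_sum, Matrix.mulVec, dotProduct, ← Finset.sum_sub_distrib]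
    refine Finset.sum_congr rfl fun j _ => ?_
    rw [hadj, map_mul]
    ring

/-- closed points away from the special points. -/
theorem grdn_local_good (hC : Prime (C ϖ : A[X])) (hϖ : Irreducible ϖ) (t : F)
    (ht : Transcendental L t) [FiniteDimensional L⟮t⟯ F] (S : Finset A)
    (hunram : ∀ g : A[X], Prime g → ¬ Associated g (C ϖ) →
      (∀ s ∈ S, ¬ Associated g (X - C s)) → S18UnramAbove A L t g)
    (hG : S18SelfDual A L t (C ϖ) hC)
    (x : F) (hx : x ∈ s18tIntLoc A t (C ϖ) hC) (hint : GrdnIntMod hC t x)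
    (γ : (IsLocalRing.ResidueField A)[X]) (hγ : Irreducible γ)
    (hS : ∀ s ∈ S, γ.eval (IsLocalRing.residue A s) ≠ 0) :
    ∃ c : A[X], ¬ γ ∣ c.map (IsLocalRing.residue A) ∧
      ∃ p ∈ s18tInt A t, ∃ y ∈ s18tIntLoc A t (C ϖ) hC,
        aeval t c * x - p = algebraMap A F ϖ * y := by
  refine grdn_local_good' hC t ht hG x hx hint γ hγ fun g hg hgϖ hgγ => ?_
  refine s18t_selfDual_of_unram t ht g hg hgϖ hϖ (hunram g hg hgϖ fun s hs hass => hS s hs ?_)
  have h1 : g.map (IsLocalRing.residue A) ∣ (X - C s : A[X]).map (IsLocalRing.residue A) :=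
    Polynomial.map_dvd _ hass.dvd
  rw [Polynomial.map_sub, Polynomial.map_X, Polynomial.map_C] at h1
  have h2 : Associated γ (X - C (IsLocalRing.residue A s)) :=
    hγ.associated_of_dvd (Polynomial.irreducible_X_sub_C _) (hgγ.trans h1)
  exact dvd_iff_isRoot.mp h2.symm.dvd

/-- transport of `GrdnIntMod` along `F → F' = F(z)`, `z ^ w = t - s`. -/
theorem grdn_intMod_map (hC : Prime (C ϖ : A[X])) (t : F) (s : A) (w : ℕ)
    (F' : Type u) [Field F'] [Algebra F F'] [Algebra A F'] [IsScalarTower A F F']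
    (z : F') (hz : z ^ w = algebraMap F F' (t - algebraMap A F s))
    (hasc : ∀ b : F, b ∈ s18tIntLoc A t (C ϖ) hC → algebraMap F F' b ∈ s18tIntLoc A z (C ϖ) hC)
    {x : F} (h : GrdnIntMod hC t x) : GrdnIntMod hC z (algebraMap F F' x) := by
  obtain ⟨m, hm, y, hy, hmy⟩ := h
  set φ := algebraMap F F' with hφ
  have hzt : z ^ w + algebraMap A F' s = φ t := by
    rw [hz, map_sub, ← IsScalarTower.algebraMap_apply A F F']
    ring
  have hcomp : (((aeval z : A[X] →ₐ[A] F') : A[X] →+* F')).comp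
      (Polynomial.compRingHom (X ^ w + C s : A[X])) =
      φ.comp ((aeval t : A[X] →ₐ[A] F) : A[X] →+* F) := by
    refine RingHom.ext fun a => ?_
    change aeval z (a.comp (X ^ w + C s)) = φ (aeval t a)
    rw [aeval_comp, map_add, map_pow, aeval_X, aeval_C, hzt, hφ, aeval_algebraMap_apply]
  refine ⟨m.map (Polynomial.compRingHom (X ^ w + C s : A[X])), hm.map _, φ y, hasc y hy, ?_⟩
  rw [eval₂_map, hcomp, ← Polynomial.hom_eval₂, hmy, map_mul, hφ,
    ← IsScalarTower.algebraMap_apply A F F']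

/-- (T4 generalised) the closed point `X - s̄`, `s ∈ S`. -/
theorem grdn_local_tame (hC : Prime (C ϖ : A[X])) (hϖ : Irreducible ϖ) (t : F)
    (ht : Transcendental L t) [FiniteDimensional L⟮t⟯ F] (S : Finset A)
    (hsep : ∀ s ∈ S, ∀ s' ∈ S, s ≠ s' → IsUnit (s - s'))
    (hunram : ∀ g : A[X], Prime g → ¬ Associated g (C ϖ) →
      (∀ s ∈ S, ¬ Associated g (X - C s)) → S18UnramAbove A L t g)
    (htame : ∀ s ∈ S, ∃ w : ℕ, IsUnit (w : A) ∧ (∃ ζ : L, IsPrimitiveRoot ζ w) ∧
      S18TameAbove A L t s w)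
    (hG : S18SelfDual A L t (C ϖ) hC)
    (x : F) (hx : x ∈ s18tIntLoc A t (C ϖ) hC) (hint : GrdnIntMod hC t x)
    (s : A) (hs : s ∈ S) :
    ∃ c : A[X], ¬ (X - C (IsLocalRing.residue A s)) ∣ c.map (IsLocalRing.residue A) ∧
      ∃ p ∈ s18tInt A t, ∃ y ∈ s18tIntLoc A t (C ϖ) hC,
        aeval t c * x - p = algebraMap A F ϖ * y := by
  classical
  obtain ⟨w, hw, hζ, htameV⟩ := htame s hs
  have hw0 : w ≠ 0 := by
    rintro rfl
    simp at hw
  haveI charL : CharZero L := charZero_of_injective_algebraMap (IsFractionRing.injective A L)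
  haveI charF : CharZero F := charZero_of_injective_algebraMap (algebraMap L F).injective
  set a : F := t - algebraMap A F s with ha
  have ha0 : a ≠ 0 := by
    intro h0
    apply ht
    have : t = algebraMap L F (algebraMap A L s) := by
      rw [← IsScalarTower.algebraMap_apply]
      exact sub_eq_zero.mp h0
    rw [this]
    exact isAlgebraic_algebraMap _
  -- the Kummer extension
  have hpoly0 : (X ^ w - C a : F[X]) ≠ 0 := (monic_X_pow_sub_C a hw0).ne_zero
  have hpolyu : ¬ IsUnit (X ^ w - C a : F[X]) := by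
    intro hu
    have := natDegree_eq_zero_of_isUnit hu
    rw [natDegree_X_pow_sub_C] at this
    exact hw0 this
  obtain ⟨f, hf, hfdvd⟩ := WfDvdMonoid.exists_irreducible_factor hpolyu hpoly0
  haveI : Fact (Irreducible f) := ⟨hf⟩
  let F' : Type u := AdjoinRoot f
  let z : F' := AdjoinRoot.root f
  have hz : z ^ w = algebraMap F F' (t - algebraMap A F s) := by
    obtain ⟨q, hq⟩ := hfdvd
    have h1 : aeval z (X ^ w - C a : F[X]) = 0 := by
      rw [hq, map_mul, AdjoinRoot.aeval_eq, AdjoinRoot.mk_self, zero_mul]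
    rw [map_sub, map_pow, aeval_X, aeval_C] at h1
    exact sub_eq_zero.mp h1
  have hF' : F⟮z⟯ = ⊤ :=
    IntermediateField.adjoin_eq_top_of_algebra F {z} AdjoinRoot.adjoinRoot_eq_top
  have htz : Transcendental L z := s18ta_transcendental t ht s w F' z hz
  haveI hfinz : FiniteDimensional L⟮z⟯ F' :=
    s18ta_finiteDimensional (L := L) t s w hw0 F' z hz hF'
  have hζF : ∃ ζ : F, IsPrimitiveRoot ζ w := by
    obtain ⟨ζ, hζ⟩ := hζ
    exact ⟨algebraMap L F ζ, hζ.map_of_injective (algebraMap L F).injective⟩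
  obtain ⟨ζF, hζF⟩ := hζF
  obtain ⟨hgal, hfinFF'⟩ := s18tg_isGalois F' w hw0 ζF hζF a ha0 z hz hF'
  set φ := algebraMap F F' with hφ
  -- Gauss self-duality upstairs
  have hasc : ∀ b : F, b ∈ s18tIntLoc A t (C ϖ) hC → φ b ∈ s18tIntLoc A z (C ϖ) hC :=
    fun b hb => s18tg_map_mem_intLoc F' hC t s w hw0 z hz b hb
  have hG' : S18SelfDual A L z (C ϖ) hC :=
    s18tg_selfDual_gauss_of F' hC t ht s w hw hζ z hz hF'
      (fun y hy => s18tg_isIntegral_loc F' hC t ht s w hw0 hζ z hz y hy) hasc hG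
  -- the element upstairs
  have hx' : φ x ∈ s18tIntLoc A z (C ϖ) hC := hasc x hx
  have hint' : GrdnIntMod hC z (φ x) := grdn_intMod_map hC t s w F' z hz hasc hint
  -- horizontal primes through the closed point
  have hloc : ∀ (g : A[X]) (hg : Prime g), ¬ Associated g (C ϖ) →
      (X : (IsLocalRing.ResidueField A)[X]) ∣ g.map (IsLocalRing.residue A) →
      S18SelfDual A L z g hg := by
    intro g hg hgϖ hg0
    by_cases hgX : Associated g X
    · exact s18tg_selfDual_congr z Polynomial.prime_X hg hgX.symm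
        (s18t_selfDual_of_tame t ht s w hw hζ htameV F' z hz hF')
    · exact s18t_selfDual_of_unram (L := L) z htz g hg hgϖ hϖ
        (s18tg_unramAbove_of_ne F' hϖ t ht S hsep hunram s hs w hw z hz hF' g hg hgϖ hgX hg0)
  -- local at `z̄ = 0` upstairs
  obtain ⟨c', hc', p', hp', y', hy', hcy⟩ :=
    grdn_local_good' hC z htz hG' (φ x) hx' hint' X Polynomial.irreducible_X hloc
  -- the norm polynomial
  obtain ⟨ζA, hζA⟩ := s18tg_exists_primitiveRoot (A := A) (L := L) w hw0 hζ
  obtain ⟨c'', hNP, hc''0⟩ := s18tg_exists_norm_poly ζA w hζA hw0 c'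
  set m : A[X] := s18tgCofactor ζA w c' with hm
  refine ⟨c''.comp (X - C s), ?_, ?_⟩
  · -- the reduction does not vanish at `s̄`
    intro hdvd
    apply hc'
    rw [Polynomial.map_comp, Polynomial.map_sub, map_X, map_C, dvd_iff_isRoot, IsRoot.def,
      eval_comp, eval_sub, eval_X, eval_C, sub_self, ← coeff_zero_eq_eval_zero, coeff_map,
      hc''0, map_pow] at hdvd
    rw [X_dvd_iff, coeff_map]
    exact pow_eq_zero_iff hw0 |>.mp hdvd
  · -- descent
    have hn := s18tg_finrank_dvd F' w hw0 ζF hζF a ha0 z hz hF'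
    set n := Module.finrank F F' with hndef
    obtain ⟨k, hk⟩ := hn
    have hnunit : IsUnit (n : A) := by
      have : (w : A) = (n : A) * (k : A) := by rw [hk]; push_cast; ring
      rw [this] at hw
      exact isUnit_of_mul_isUnit_left hw
    obtain ⟨ninv, hninv⟩ := hnunit.exists_right_inv
    -- the relation upstairs, multiplied by the cofactor
    have hcm : aeval z (c' * m) = φ (aeval t (c''.comp (X - C s))) := by
      have h1 : aeval t (c''.comp (X - C s)) = aeval a c'' := by
        rw [aeval_comp]; simp [ha]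
      rw [hNP, expand_aeval, hz, h1, hφ, aeval_algebraMap_apply]
    have hrel : φ (aeval t (c''.comp (X - C s)) * x) - aeval z m * p' =
        algebraMap A F' ϖ * (aeval z m * y') := by
      have : aeval z m * (aeval z c' * φ x - p') = aeval z m * (algebraMap A F' ϖ * y') := by
        rw [hcy]
      rw [map_mul, ← hcm, map_mul]
      linear_combination this
    -- integrality upstairs
    have hmint : aeval z m ∈ s18tInt A z := by
      rw [mem_s18tInt]
      have h1 : aeval z m ∈ s18tChart A z := by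
        unfold s18tChart
        rw [Algebra.adjoin_singleton_eq_range_aeval]
        exact ⟨m, rfl⟩
      exact isIntegral_algebraMap (R := ↥(s18tChart A z)) (x := ⟨_, h1⟩)
    have hmloc : aeval z m ∈ s18tIntLoc A z (C ϖ) hC := by
      rw [mem_s18tIntLoc]
      exact isIntegral_algebraMap (R := ↥(s18tLoc A z (C ϖ) hC))
        (x := ⟨_, s18tu_aeval_mem z (C ϖ) hC m⟩)
    have hp'' : aeval z m * p' ∈ s18tInt A z := Subring.mul_mem _ hmint hp'
    have hy'' : aeval z m * y' ∈ s18tIntLoc A z (C ϖ) hC := Subring.mul_mem _ hmloc hy'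
    -- take traces
    have htr := congrArg (Algebra.trace F F') hrel
    rw [map_sub, Algebra.trace_algebraMap, ← hndef] at htr
    have htrϖ : Algebra.trace F F' (algebraMap A F' ϖ * (aeval z m * y')) =
        algebraMap A F ϖ * Algebra.trace F F' (aeval z m * y') := by
      rw [IsScalarTower.algebraMap_apply A F F', ← smul_eq_mul (a := algebraMap A F ϖ),
        ← map_smul, Algebra.smul_def]
    rw [htrϖ] at htr
    have hP := s18tg_trace_mem_int F' t s w hw0 z hz _ hp''
    have hB := s18tg_trace_mem_intLoc F' hC t ht s w hw0 hζ z hz _ hy''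
    have hAint : ∀ c : A, algebraMap A F c ∈ s18tInt A t := fun c => s18tc_algebraMap_mem_int t c
    have hAloc : ∀ c : A, algebraMap A F c ∈ s18tIntLoc A t (C ϖ) hC := fun c =>
      s18tc_int_le_intLoc t (C ϖ) hC (hAint c)
    refine ⟨algebraMap A F ninv * Algebra.trace F F' (aeval z m * p'),
      Subring.mul_mem _ (hAint ninv) hP,
      algebraMap A F ninv * Algebra.trace F F' (aeval z m * y'),
      Subring.mul_mem _ (hAloc ninv) hB, ?_⟩
    have hnn : algebraMap A F ninv * (n : F) = 1 := by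
      rw [← map_natCast (algebraMap A F) n, ← map_mul, mul_comm, hninv, map_one]
    have h2 : algebraMap A F ninv * (n • (aeval t (c''.comp (X - C s)) * x) -
        Algebra.trace F F' (aeval z m * p')) =
        algebraMap A F ninv * (algebraMap A F ϖ * Algebra.trace F F' (aeval z m * y')) := by
      rw [htr]
    rw [nsmul_eq_mul] at h2
    linear_combination h2 - (aeval t (c''.comp (X - C s)) * x) * hnn

/-- **NORMALITY OF THE SPECIAL FIBRE OF THE CHART RING.**  Under the chart hypotheses and Gauss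
self-duality, every `x ∈ P_(ϖ)` that is integral over `A[t]` modulo `ϖ P_(ϖ)` is congruent to an
element of `P` modulo `ϖ P_(ϖ)`. -/
theorem grdn_chart_normal (hϖ : Irreducible ϖ) (t : F) (ht : Transcendental L t)
    [FiniteDimensional L⟮t⟯ F] (S : Finset A) (h : S18Chart A L ϖ t S)
    (hG : S18SelfDual A L t (C ϖ) (s18t_prime_C hϖ))
    (x : F) (hx : x ∈ s18tIntLoc A t (C ϖ) (s18t_prime_C hϖ))
    (hint : GrdnIntMod (s18t_prime_C hϖ) t x) :
    ∃ p ∈ s18tInt A t, S18DvdGauss hϖ t (x - p) := by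
  classical
  obtain ⟨p, hp, y, hy, hxy⟩ := s18ta_global_of_local hϖ (s18t_prime_C hϖ) t x hx fun γ hγ => by
    by_cases hS : ∀ s ∈ S, γ.eval (IsLocalRing.residue A s) ≠ 0
    · exact grdn_local_good (s18t_prime_C hϖ) hϖ t ht S h.unram hG x hx hint γ hγ hS
    · push Not at hS
      obtain ⟨s, hs, hroot⟩ := hS
      have hdvd : (X - C (IsLocalRing.residue A s)) ∣ γ := dvd_iff_isRoot.mpr hroot
      have hassoc : Associated (X - C (IsLocalRing.residue A s)) γ :=
        (Polynomial.irreducible_X_sub_C _).associated_of_dvd hγ hdvd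
      obtain ⟨c, hc, p, hp, y, hy, hcp⟩ :=
        grdn_local_tame (s18t_prime_C hϖ) hϖ t ht S h.sep h.unram h.tame hG x hx hint s hs
      exact ⟨c, fun hγc => hc (hassoc.dvd.trans hγc), p, hp, y, hy, hcp⟩
  exact ⟨p, hp, y, hy, hxy⟩

end Fermat.Agent.G
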