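/-
Program G, package G/Red, row G-RED-R3a (helper7): the kernel of a section of a two-dimensional
local algebra is principal (pure commutative algebra, Nakayama).  Statement VERBATIM from helper12's
`G/Red/Spec.lean`.
-/
import Mathlib

set_option autoImplicit false

noncomputable section

namespace Fermat.Agent.G

open IsLocalRing

/-- (R3-abs) ABSTRACT FORM of (R3) (pure commutative algebra, Nakayama) : `R` a noetherian local
`A₀`-algebra with maximal ideal `(ϖ, t₀)`, `χ : R → A₀` a section with `χ t₀ ∈ ϖ A₀`; then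
`ker χ = (t₀ - χ t₀)`.  (`ker χ ⊂ 𝔪_R = (ϖ, t₀)`; `y = ϖ r₁ + t₀ r₂ = (t₀ - β) r₂ + ϖ (r₁ + c r₂)`,
`β = ϖ c`; applying `χ` : `r₁ + c r₂ ∈ ker χ`; so `ker χ ≤ (t₀ - β) ⊔ ϖ • ker χ`.) -/
theorem grd_section_kernel {A₀ R : Type*} [CommRing A₀] [IsDomain A₀] [CommRing R]
    [IsNoetherianRing R] [IsLocalRing R] [Algebra A₀ R] (ϖ : A₀) (hϖ : ϖ ≠ 0) (t₀ : R)
    (hmax : maximalIdeal R = Ideal.span {algebraMap A₀ R ϖ, t₀}) (χ : R →ₐ[A₀] A₀)
    (hβ : ∃ c : A₀, χ t₀ = ϖ * c) :
    RingHom.ker (χ : R →+* A₀) = Ideal.span {t₀ - algebraMap A₀ R (χ t₀)} := by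
  obtain ⟨c, hc⟩ := hβ
  have hχalg : ∀ a : A₀, χ (algebraMap A₀ R a) = a := fun a => by
    rw [AlgHom.commutes]; rfl
  apply le_antisymm
  · -- Nakayama
    have hfg : (RingHom.ker (χ : R →+* A₀)).FG := IsNoetherian.noetherian _
    refine Submodule.le_of_le_smul_of_le_jacobson_bot (I := maximalIdeal R) hfg
      (IsLocalRing.maximalIdeal_le_jacobson ⊥) ?_
    intro y hy
    have hyker : χ y = 0 := hy
    have hproper : RingHom.ker (χ : R →+* A₀) ≠ ⊤ := RingHom.ker_ne_top _
    have hym : y ∈ maximalIdeal R := IsLocalRing.le_maximalIdeal hproper hy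
    rw [hmax, Ideal.mem_span_pair] at hym
    obtain ⟨r₁, r₂, hy12⟩ := hym
    set z : R := r₁ + algebraMap A₀ R c * r₂ with hz
    have hdecomp : y = r₂ * (t₀ - algebraMap A₀ R (χ t₀)) + algebraMap A₀ R ϖ * z := by
      rw [← hy12, hz, hc, map_mul]
      ring
    have hzker : χ z = 0 := by
      have h1 : χ y = ϖ * χ z := by
        rw [hdecomp, map_add, map_mul, map_mul, map_sub, hχalg, hχalg, sub_self, mul_zero,
          zero_add]
      rw [hyker] at h1
      exact (mul_eq_zero.mp h1.symm).resolve_left hϖ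
    rw [hdecomp]
    refine Submodule.add_mem_sup ?_ ?_
    · exact Ideal.mul_mem_left _ _ (Ideal.subset_span (Set.mem_singleton _))
    · have hϖm : algebraMap A₀ R ϖ ∈ maximalIdeal R := by
        rw [hmax]
        exact Ideal.subset_span (Set.mem_insert _ _)
      have : algebraMap A₀ R ϖ • z ∈
          maximalIdeal R • (RingHom.ker (χ : R →+* A₀) : Submodule R R) :=
        Submodule.smul_mem_smul hϖm hzker
      simpa [smul_eq_mul] using this
  · rw [Ideal.span_le, Set.singleton_subset_iff]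
    show χ (t₀ - algebraMap A₀ R (χ t₀)) = 0
    rw [map_sub, hχalg, sub_self]

end Fermat.Agent.G
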