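import Mathlib
import Fermat.Agent.S18.T.Spec
import Fermat.Agent.S18.V.Spec
import Fermat.Agent.G.Red.Normal
import Fermat.Agent.G.Red.SectionKernel

/-!
# Program G, package G/Red : THE SPECIAL FIBRE OF A CHART RING AT NUMBER-FIELD LEVEL
(helper27; the number-field-level core of row 557 `grd_kernel_principal`)

Setting of S18 package T : `A` a DVR of characteristic `0` with uniformiser `ϖ`, `L = Frac A`,
`F / L(t)` finite, `P = s18tInt A t`, `O = P_(ϖ) = s18tIntLoc A t (C ϖ)`.  Under the hypotheses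
`GrdfbHyp` (`O` is local with maximal ideal `ϖ O`; normality of the special fibre = the conclusion
of `grdn_chart_normal`) :

* `grdfb_isNoetherianRing` : `P` is noetherian;
* `grdfb_isDedekindDomain` : `P/ϖP` IS A DEDEKIND DOMAIN (domain by saturation, integrally closed
  by normality + transitivity of integrality in `O/ϖO`, dimension `≤ 1` by integrality over
  `k₀[t̄]`);
* `grdfb_dvd_of_val` (abstract) : in a Dedekind domain, an element with "valuation" `1` at a prime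
  generates that prime locally;
* `grdfb_local_gen` : for a retraction `χ : P → A`, `𝔫 = χ⁻¹(𝔪_A)` and `t₀` with valuation `1` :
  `𝔫 P_𝔫 = (ϖ, t₀)`;
* `grdfb_kernel_principal` : THE NUMBER-FIELD-LEVEL FORM OF (R3) : `χ b = 0 ⟹ s b = (t₀ - χ t₀) c`
  with `χ s` a unit (Nakayama, `grd_section_kernel`);
* `grdfb_hyp_of_coord` : `GrdfbHyp` from `S18Coord` + `S18Chart`.
-/

set_option autoImplicit false
set_option linter.unusedSectionVars false
set_option linter.unusedVariables false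
set_option linter.style.haveILetI false

noncomputable section

namespace Fermat.Agent.G

open Polynomial IntermediateField Fermat.Agent.S18

section AbstractLocal

variable {C : Type*} [CommRing C] [IsDedekindDomain C]
variable {K' : Type*} [Field K']

/-- In a Dedekind domain `C` with a nonzero prime `𝔫` and a "valuation" `w` (through an injective
ring hom into a field) which is `≥ 0` on `C`, positive exactly on `𝔫`, and takes the value `1` at
`t₀ ∈ C`: every element of `𝔫` is, up to a factor outside `𝔫`, a multiple of `t₀`. -/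
theorem grdfb_dvd_of_val (𝔫 : Ideal C) [h𝔫 : 𝔫.IsPrime] (ρ : C →+* K') (hρ : Function.Injective ρ)
    (w : K' → ℤ) (hw_mul : ∀ x y : K', x ≠ 0 → y ≠ 0 → w (x * y) = w x + w y)
    (hw_pos : ∀ z : C, z ≠ 0 → (0 < w (ρ z) ↔ z ∈ 𝔫))
    (hw_nonneg : ∀ z : C, z ≠ 0 → 0 ≤ w (ρ z))
    (t₀ : C) (ht₀ : t₀ ≠ 0) (hwt₀ : w (ρ t₀) = 1) (z : C) (hz : z ∈ 𝔫) :
    ∃ s : C, s ∉ 𝔫 ∧ ∃ c : C, s * z = t₀ * c := by
  have ht₀𝔫 : t₀ ∈ 𝔫 := (hw_pos t₀ ht₀).mp (by rw [hwt₀]; exact one_pos)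
  have h𝔫0 : 𝔫 ≠ ⊥ := fun h => ht₀ (by rw [h] at ht₀𝔫; exact ht₀𝔫)
  by_cases hz0 : z = 0
  · exact ⟨1, fun h => h𝔫.ne_top ((Ideal.eq_top_iff_one _).mpr h), 0, by rw [hz0]; ring⟩
  have : IsDiscreteValuationRing (Localization.AtPrime 𝔫) :=
    IsLocalization.AtPrime.isDiscreteValuationRing_of_dedekind_domain C h𝔫0 _
  have hinj : Function.Injective (algebraMap C (Localization.AtPrime 𝔫)) :=
    IsLocalization.injective _ (Ideal.primeCompl_le_nonZeroDivisors 𝔫)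
  rcases ValuationRing.dvd_total (algebraMap C (Localization.AtPrime 𝔫) t₀)
    (algebraMap C (Localization.AtPrime 𝔫) z) with ⟨m, hm⟩ | ⟨m, hm⟩
  · -- `t₀ ∣ z`
    obtain ⟨c, s, rfl⟩ := IsLocalization.exists_mk'_eq 𝔫.primeCompl m
    refine ⟨s, s.2, c, ?_⟩
    apply hinj
    rw [map_mul, map_mul, hm, mul_left_comm, IsLocalization.mk'_spec']
  · -- `z ∣ t₀`
    obtain ⟨a, s, rfl⟩ := IsLocalization.exists_mk'_eq 𝔫.primeCompl m
    have h1 : (s : C) * t₀ = z * a := by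
      apply hinj
      rw [map_mul, map_mul, hm, mul_left_comm, IsLocalization.mk'_spec']
    by_cases ha : a ∈ 𝔫
    · exfalso
      have hs0 : (s : C) ≠ 0 := fun h => s.2 (by rw [h]; exact 𝔫.zero_mem)
      have ha0 : a ≠ 0 := by
        rintro rfl
        rw [mul_zero] at h1
        exact (mul_ne_zero hs0 ht₀) h1
      have hρ0 : ∀ x : C, x ≠ 0 → ρ x ≠ 0 := fun x hx h => hx (hρ (by rw [h, map_zero]))
      have h2 := congrArg (fun x => w (ρ x)) h1
      simp only [map_mul] at h2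
      rw [hw_mul _ _ (hρ0 _ hs0) (hρ0 _ ht₀), hw_mul _ _ (hρ0 _ hz0) (hρ0 _ ha0), hwt₀] at h2
      have h3 : ¬ 0 < w (ρ (s : C)) := fun h => s.2 ((hw_pos _ hs0).mp h)
      have h4 := hw_nonneg _ hs0
      have h5 : 0 < w (ρ z) := (hw_pos z hz0).mpr hz
      have h6 : 0 < w (ρ a) := (hw_pos a ha0).mpr ha
      omega
    · exact ⟨a, ha, s, by rw [mul_comm, ← h1, mul_comm]⟩

end AbstractLocal

section Fibre

universe u

variable {A : Type*} [CommRing A] [IsDomain A] [IsDiscreteValuationRing A] [CharZero A]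
variable {L : Type*} [Field L] [Algebra A L] [IsFractionRing A L]
variable {F : Type u} [Field F] [Algebra A F] [Algebra L F] [IsScalarTower A L F]
variable {ϖ : A}

/-- `P = s18tInt A t` is a noetherian ring. -/
theorem grdfb_isNoetherianRing (t : F) (ht : Transcendental L t) [FiniteDimensional L⟮t⟯ F] :
    IsNoetherianRing ↥(s18tInt A t) := by
  have htA : Transcendental A t := s18tb_transcendental ht
  haveI : IsIntegrallyClosed ↥(s18tChart A t) :=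
    IsIntegrallyClosed.of_equiv (s18tlgE t htA).toRingEquiv
  haveI : IsNoetherianRing ↥(s18tChart A t) :=
    isNoetherianRing_of_ringEquiv A[X] (s18tlgE t htA).toRingEquiv
  letI : Algebra ↥(s18tChart A t) ↥L⟮t⟯ := (s18tlgChartToK0 L t).toAlgebra
  haveI : IsScalarTower ↥(s18tChart A t) ↥L⟮t⟯ F := IsScalarTower.of_algebraMap_eq (fun _ => rfl)
  haveI : IsFractionRing ↥(s18tChart A t) ↥L⟮t⟯ := s18tlg_isFractionRing ht
  haveI : CharZero L := charZero_of_injective_algebraMap (IsFractionRing.injective A L)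
  haveI : CharZero ↥L⟮t⟯ := charZero_of_injective_algebraMap (algebraMap L ↥L⟮t⟯).injective
  haveI : Module.Finite ↥(s18tChart A t) ↥(integralClosure ↥(s18tChart A t) F) :=
    IsIntegralClosure.finite ↥(s18tChart A t) ↥L⟮t⟯ F ↥(integralClosure ↥(s18tChart A t) F)
  haveI : IsNoetherian ↥(s18tChart A t) ↥(integralClosure ↥(s18tChart A t) F) :=
    isNoetherian_of_isNoetherianRing_of_finite _ _
  have h1 : IsNoetherianRing ↥(integralClosure ↥(s18tChart A t) F) :=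
    isNoetherian_of_tower ↥(s18tChart A t) inferInstance
  let e : ↥(integralClosure ↥(s18tChart A t) F) ≃+* ↥(s18tInt A t) :=
    { toFun := fun x => ⟨x.1, x.2⟩
      invFun := fun x => ⟨x.1, x.2⟩
      left_inv := fun x => rfl
      right_inv := fun x => rfl
      map_mul' := fun x y => rfl
      map_add' := fun x y => rfl }
  exact isNoetherianRing_of_ringEquiv _ e


/-- `x ∈ s18tInt A t` ⟹ `x` integral over `A[t]` (polynomial form). -/
theorem grdfb_isIntegralElem_of_mem_int (t x : F) (hx : x ∈ s18tInt A t) :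
    ((aeval t : A[X] →ₐ[A] F) : A[X] →+* F).IsIntegralElem x := by
  obtain ⟨p, hp, hpx⟩ := hx
  let π : A[X] →ₐ[A] ↥(s18tChart A t) :=
    (aeval t : A[X] →ₐ[A] F).codRestrict (s18tChart A t) (fun a => s18tb_aeval_mem_chart t a)
  have hcomp : (algebraMap ↥(s18tChart A t) F).comp (π : A[X] →+* ↥(s18tChart A t)) =
      ((aeval t : A[X] →ₐ[A] F) : A[X] →+* F) := RingHom.ext fun a => rfl
  have hsurj : Function.Surjective (π : A[X] →+* ↥(s18tChart A t)) := by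
    rintro ⟨y, hy⟩
    have hy' : y ∈ (aeval t : A[X] →ₐ[A] F).range := by
      rw [← Algebra.adjoin_singleton_eq_range_aeval]; exact hy
    obtain ⟨a, rfl⟩ := hy'
    exact ⟨a, Subtype.ext rfl⟩
  have hl : p ∈ lifts (π : A[X] →+* ↥(s18tChart A t)) := by
    rw [mem_lifts]
    exact map_surjective _ hsurj p
  obtain ⟨q, hq, -, hqm⟩ := lifts_and_degree_eq_and_monic hl hp
  refine ⟨q, hqm, ?_⟩
  rw [← hcomp, ← eval₂_map, hq]
  exact hpx

variable (ϖ) in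
/-- `ϖ` as an element of `P` -/
def grdfbPi (t : F) : ↥(s18tInt A t) := ⟨algebraMap A F ϖ, s18tc_algebraMap_mem_int t ϖ⟩

/-- `ϖ` as an element of `O = P_(ϖ)` -/
def grdfbPiO (hϖ : Irreducible ϖ) (t : F) : ↥(s18tIntLoc A t (C ϖ) (s18t_prime_C hϖ)) :=
  ⟨algebraMap A F ϖ, s18tInt_le_intLoc hϖ t (s18tc_algebraMap_mem_int t ϖ)⟩

/-- the inclusion `P → O` -/
def grdfbIncl (hϖ : Irreducible ϖ) (t : F) :
    ↥(s18tInt A t) →+* ↥(s18tIntLoc A t (C ϖ) (s18t_prime_C hϖ)) :=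
  Subring.inclusion (fun x hx => s18tInt_le_intLoc hϖ t hx)

/-- the map `A[X] → P`, `a ↦ a(t)` -/
def grdfbPoly (t : F) : A[X] →+* ↥(s18tInt A t) :=
  RingHom.codRestrict ((aeval t : A[X] →ₐ[A] F) : A[X] →+* F) (s18tInt A t)
    (fun a => s18tlg_aeval_mem_int t a)

theorem grdfb_mem_spanO (hϖ : Irreducible ϖ) (t : F)
    (z : ↥(s18tIntLoc A t (C ϖ) (s18t_prime_C hϖ))) :
    z ∈ Ideal.span {grdfbPiO hϖ t} ↔ S18DvdGauss hϖ t (z : F) := by
  rw [Ideal.mem_span_singleton']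
  constructor
  · rintro ⟨a, rfl⟩
    exact ⟨a, a.2, by rw [mul_comm]; rfl⟩
  · rintro ⟨y, hy, hzy⟩
    exact ⟨⟨y, hy⟩, Subtype.ext (by rw [hzy, mul_comm]; rfl)⟩

theorem grdfb_mem_span (t : F) (z : ↥(s18tInt A t)) :
    z ∈ Ideal.span {grdfbPi ϖ t} ↔ ∃ y : ↥(s18tInt A t), z = grdfbPi ϖ t * y := by
  rw [Ideal.mem_span_singleton']
  constructor
  · rintro ⟨a, rfl⟩
    exact ⟨a, mul_comm _ _⟩
  · rintro ⟨y, rfl⟩
    exact ⟨y, mul_comm _ _⟩

/-- SATURATION : `ϖ O ∩ P = ϖ P`. -/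
theorem grdfb_comap_span (hϖ : Irreducible ϖ) (t : F) (ht : Transcendental L t)
    [FiniteDimensional L⟮t⟯ F] :
    (Ideal.span {grdfbPiO hϖ t}).comap (grdfbIncl hϖ t) = Ideal.span {grdfbPi ϖ t} := by
  ext z
  rw [Ideal.mem_comap, grdfb_mem_spanO, grdfb_mem_span]
  constructor
  · rintro ⟨y, hy, hzy⟩
    have hyP : y ∈ s18tInt A t := by
      apply s18t_saturated (L := L) hϖ t ht y hy
      rw [← hzy]
      exact z.2
    exact ⟨⟨y, hyP⟩, Subtype.ext hzy⟩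
  · rintro ⟨y, rfl⟩
    exact ⟨y, s18tInt_le_intLoc hϖ t y.2, rfl⟩

/-- `x ∈ O` satisfying a monic equation over `P` modulo `ϖ O` is integral over `A[t]` modulo
`ϖ O`. -/
theorem grdfb_intMod_of_monic (hϖ : Irreducible ϖ) (t : F) (o : F)
    (ho : o ∈ s18tIntLoc A t (C ϖ) (s18t_prime_C hϖ)) (q : (↥(s18tInt A t))[X]) (hq : q.Monic)
    (hqo : S18DvdGauss hϖ t (eval₂ (s18tInt A t).subtype o q)) :
    GrdnIntMod (s18t_prime_C hϖ) t o := by
  let J : Ideal ↥(s18tIntLoc A t (C ϖ) (s18t_prime_C hϖ)) := Ideal.span {grdfbPiO hϖ t}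
  let π : ↥(s18tIntLoc A t (C ϖ) (s18t_prime_C hϖ)) →+*
      ↥(s18tIntLoc A t (C ϖ) (s18t_prime_C hϖ)) ⧸ J := Ideal.Quotient.mk J
  let g : ↥(s18tInt A t) →+* ↥(s18tIntLoc A t (C ϖ) (s18t_prime_C hϖ)) ⧸ J :=
    π.comp (grdfbIncl hϖ t)
  letI a1 : Algebra A[X] ↥(s18tInt A t) := (grdfbPoly t).toAlgebra
  letI a2 : Algebra ↥(s18tInt A t) (↥(s18tIntLoc A t (C ϖ) (s18t_prime_C hϖ)) ⧸ J) := g.toAlgebra
  letI a3 : Algebra A[X] (↥(s18tIntLoc A t (C ϖ) (s18t_prime_C hϖ)) ⧸ J) :=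
    (g.comp (grdfbPoly t)).toAlgebra
  haveI : IsScalarTower A[X] ↥(s18tInt A t) (↥(s18tIntLoc A t (C ϖ) (s18t_prime_C hϖ)) ⧸ J) :=
    IsScalarTower.of_algebraMap_eq (fun _ => rfl)
  haveI : Algebra.IsIntegral A[X] ↥(s18tInt A t) := by
    refine ⟨fun p => ?_⟩
    obtain ⟨m, hm, hmp⟩ := grdfb_isIntegralElem_of_mem_int t (p : F) p.2
    refine ⟨m, hm, Subtype.ext ?_⟩
    have h1 := Polynomial.hom_eval₂ m (grdfbPoly t) (s18tInt A t).subtype p
    rw [ZeroMemClass.coe_zero]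
    exact h1.trans hmp
  have hx : IsIntegral ↥(s18tInt A t) (π ⟨o, ho⟩) := by
    refine ⟨q, hq, ?_⟩
    have h1 := Polynomial.hom_eval₂ q (grdfbIncl hϖ t) π ⟨o, ho⟩
    refine h1.symm.trans ?_
    rw [Ideal.Quotient.eq_zero_iff_mem, grdfb_mem_spanO]
    have h2 := Polynomial.hom_eval₂ q (grdfbIncl hϖ t)
      (s18tIntLoc A t (C ϖ) (s18t_prime_C hϖ)).subtype ⟨o, ho⟩
    have h3 : ((eval₂ (grdfbIncl hϖ t) ⟨o, ho⟩ q :
        ↥(s18tIntLoc A t (C ϖ) (s18t_prime_C hϖ))) : F) = eval₂ (s18tInt A t).subtype o q := h2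
    rw [h3]
    exact hqo
  obtain ⟨m, hm, hmo⟩ := isIntegral_trans (R := A[X]) (π ⟨o, ho⟩) hx
  refine ⟨m, hm, ?_⟩
  have h1 := Polynomial.hom_eval₂ m ((grdfbIncl hϖ t).comp (grdfbPoly t)) π ⟨o, ho⟩
  have h2 : π (eval₂ ((grdfbIncl hϖ t).comp (grdfbPoly t)) ⟨o, ho⟩ m) = 0 := h1.trans hmo
  rw [Ideal.Quotient.eq_zero_iff_mem, grdfb_mem_spanO] at h2
  obtain ⟨y, hy, hy2⟩ := h2
  refine ⟨y, hy, ?_⟩
  rw [← hy2]
  exact (Polynomial.hom_eval₂ m ((grdfbIncl hϖ t).comp (grdfbPoly t))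
    (s18tIntLoc A t (C ϖ) (s18t_prime_C hϖ)).subtype ⟨o, ho⟩).symm


/-- HYPOTHESES on the Gauss ring `O = P_(ϖ)` : it is local with maximal ideal `ϖ O` (`val`, `nu` :
true when `O` is the Gauss ring `s18vO`, `S18Coord.intLoc_eq` + `s18v_dvd_or_inv_mem` +
`s18v_unif_not_unit`), and the special fibre of the chart ring is normal (`norm` : the conclusion
of `grdn_chart_normal`). -/
structure GrdfbHyp (hϖ : Irreducible ϖ) (t : F) : Prop where
  val : ∀ x ∈ s18tIntLoc A t (C ϖ) (s18t_prime_C hϖ),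
    S18DvdGauss hϖ t x ∨ x⁻¹ ∈ s18tIntLoc A t (C ϖ) (s18t_prime_C hϖ)
  nu : (algebraMap A F ϖ)⁻¹ ∉ s18tIntLoc A t (C ϖ) (s18t_prime_C hϖ)
  norm : ∀ x ∈ s18tIntLoc A t (C ϖ) (s18t_prime_C hϖ), GrdnIntMod (s18t_prime_C hϖ) t x →
    ∃ p ∈ s18tInt A t, S18DvdGauss hϖ t (x - p)

theorem grdfb_algebraMap_ne_zero (hϖ : Irreducible ϖ) (t : F) (H : GrdfbHyp hϖ t) :
    algebraMap A F ϖ ≠ 0 := by
  intro h0
  apply H.nu
  rw [h0, inv_zero]
  exact Subring.zero_mem _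

/-- `ϖ O` is a maximal ideal of `O`. -/
theorem grdfb_isMaximal (hϖ : Irreducible ϖ) (t : F) (H : GrdfbHyp hϖ t) :
    (Ideal.span {grdfbPiO hϖ t}).IsMaximal := by
  rw [Ideal.isMaximal_iff]
  constructor
  · rw [grdfb_mem_spanO]
    rintro ⟨y, hy, h1y⟩
    apply H.nu
    have h1y' : algebraMap A F ϖ * y = 1 := h1y.symm
    have : (algebraMap A F ϖ)⁻¹ = y := inv_eq_of_mul_eq_one_right h1y'
    rw [this]
    exact hy
  · intro J' x hle hx hxJ'
    rw [grdfb_mem_spanO] at hx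
    rcases H.val x x.2 with h | h
    · exact absurd h hx
    · have hx0 : (x : F) ≠ 0 := by
        intro h0
        apply hx
        rw [h0]
        exact ⟨0, Subring.zero_mem _, by rw [mul_zero]⟩
      have : (1 : ↥(s18tIntLoc A t (C ϖ) (s18t_prime_C hϖ))) = x * ⟨(x : F)⁻¹, h⟩ :=
        Subtype.ext (by
          show (1 : F) = (x : F) * (x : F)⁻¹
          rw [mul_inv_cancel₀ hx0])
      rw [this]
      exact Ideal.mul_mem_right _ _ hxJ'

/-- `ϖ P` is a prime ideal of `P`. -/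
theorem grdfb_isPrime (hϖ : Irreducible ϖ) (t : F) (ht : Transcendental L t)
    [FiniteDimensional L⟮t⟯ F] (H : GrdfbHyp hϖ t) :
    (Ideal.span {grdfbPi ϖ t}).IsPrime := by
  rw [← grdfb_comap_span (L := L) hϖ t ht]
  haveI := (grdfb_isMaximal hϖ t H).isPrime
  exact Ideal.comap_isPrime _ _

/-- the map `P/ϖP → O/ϖO` -/
def grdfbJ (hϖ : Irreducible ϖ) (t : F) (ht : Transcendental L t) [FiniteDimensional L⟮t⟯ F] :
    ↥(s18tInt A t) ⧸ Ideal.span {grdfbPi ϖ t} →+*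
      ↥(s18tIntLoc A t (C ϖ) (s18t_prime_C hϖ)) ⧸ Ideal.span {grdfbPiO hϖ t} :=
  Ideal.quotientMap _ (grdfbIncl hϖ t) (le_of_eq (grdfb_comap_span (L := L) hϖ t ht).symm)

theorem grdfbJ_injective (hϖ : Irreducible ϖ) (t : F) (ht : Transcendental L t)
    [FiniteDimensional L⟮t⟯ F] : Function.Injective (grdfbJ (L := L) hϖ t ht) :=
  Ideal.quotientMap_injective' (le_of_eq (grdfb_comap_span (L := L) hϖ t ht))

theorem grdfbJ_mk (hϖ : Irreducible ϖ) (t : F) (ht : Transcendental L t)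
    [FiniteDimensional L⟮t⟯ F] (p : ↥(s18tInt A t)) :
    grdfbJ (L := L) hϖ t ht (Ideal.Quotient.mk _ p) = Ideal.Quotient.mk _ (grdfbIncl hϖ t p) :=
  rfl


/-- `P/ϖP` is a domain. -/
theorem grdfb_isDomain (hϖ : Irreducible ϖ) (t : F) (ht : Transcendental L t)
    [FiniteDimensional L⟮t⟯ F] (H : GrdfbHyp hϖ t) :
    IsDomain (↥(s18tInt A t) ⧸ Ideal.span {grdfbPi ϖ t}) := by
  haveI := grdfb_isPrime (L := L) hϖ t ht H
  exact Ideal.Quotient.isDomain _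

/-- NORMALITY OF THE SPECIAL FIBRE : `P/ϖP` is integrally closed. -/
theorem grdfb_isIntegrallyClosed (hϖ : Irreducible ϖ) (t : F) (ht : Transcendental L t)
    [FiniteDimensional L⟮t⟯ F] (H : GrdfbHyp hϖ t) :
    IsIntegrallyClosed (↥(s18tInt A t) ⧸ Ideal.span {grdfbPi ϖ t}) := by
  haveI := grdfb_isDomain (L := L) hϖ t ht H
  haveI hJmax := grdfb_isMaximal hϖ t H
  letI : Field (↥(s18tIntLoc A t (C ϖ) (s18t_prime_C hϖ)) ⧸ Ideal.span {grdfbPiO hϖ t}) :=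
    Ideal.Quotient.field _
  rw [isIntegrallyClosed_iff (FractionRing (↥(s18tInt A t) ⧸ Ideal.span {grdfbPi ϖ t}))]
  intro ξ hξ
  -- the embedding of the fraction field into `κ = O/ϖO`
  let ψ : FractionRing (↥(s18tInt A t) ⧸ Ideal.span {grdfbPi ϖ t}) →+*
      ↥(s18tIntLoc A t (C ϖ) (s18t_prime_C hϖ)) ⧸ Ideal.span {grdfbPiO hϖ t} :=
    IsFractionRing.lift (grdfbJ_injective (L := L) hϖ t ht)
  have hψ : ∀ c, ψ (algebraMap _ _ c) = grdfbJ (L := L) hϖ t ht c := fun c =>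
    IsFractionRing.lift_algebraMap _ c
  obtain ⟨q, hq, hqξ⟩ := hξ
  -- lift `q` to `P[X]`
  have hl : q ∈ lifts (Ideal.Quotient.mk (Ideal.span {grdfbPi ϖ t})) := by
    rw [mem_lifts]
    exact map_surjective _ Ideal.Quotient.mk_surjective q
  obtain ⟨q', hq', -, hq'm⟩ := lifts_and_degree_eq_and_monic hl hq
  -- a representative of `ψ ξ`
  obtain ⟨o, ho⟩ := Ideal.Quotient.mk_surjective (ψ ξ)
  -- the equation in `κ`
  have h1 : eval₂ (grdfbJ (L := L) hϖ t ht) (ψ ξ) q = 0 := by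
    have := Polynomial.hom_eval₂ q (algebraMap _ _) ψ ξ
    rw [hqξ, map_zero] at this
    rw [this]
    congr 1
    exact RingHom.ext fun c => (hψ c).symm
  have h2 : eval₂ ((Ideal.Quotient.mk (Ideal.span {grdfbPiO hϖ t})).comp (grdfbIncl hϖ t))
      (Ideal.Quotient.mk (Ideal.span {grdfbPiO hϖ t}) o) q' = 0 := by
    rw [← hq', eval₂_map, ← ho] at h1
    exact h1
  have h3 := Polynomial.hom_eval₂ q' (grdfbIncl hϖ t)
    (Ideal.Quotient.mk (Ideal.span {grdfbPiO hϖ t})) o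
  rw [← h3, Ideal.Quotient.eq_zero_iff_mem, grdfb_mem_spanO] at h2
  have h4 : ((eval₂ (grdfbIncl hϖ t) o q' : ↥(s18tIntLoc A t (C ϖ) (s18t_prime_C hϖ))) : F) =
      eval₂ (s18tInt A t).subtype (o : F) q' :=
    Polynomial.hom_eval₂ q' (grdfbIncl hϖ t)
      (s18tIntLoc A t (C ϖ) (s18t_prime_C hϖ)).subtype o
  rw [h4] at h2
  obtain ⟨p, hp, hop⟩ := H.norm (o : F) o.2 (grdfb_intMod_of_monic hϖ t (o : F) o.2 q' hq'm h2)
  refine ⟨Ideal.Quotient.mk _ ⟨p, hp⟩, ?_⟩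
  apply ψ.injective
  rw [hψ, grdfbJ_mk, ← ho, ← sub_eq_zero, ← map_sub, Ideal.Quotient.eq_zero_iff_mem,
    grdfb_mem_spanO]
  have := S18DvdGauss.neg hϖ hop
  convert this using 1
  show p - (o : F) = -((o : F) - p)
  ring


/-- the map `k₀ → P/ϖP` -/
def grdfbRes (hϖ : Irreducible ϖ) (t : F) :
    IsLocalRing.ResidueField A →+* ↥(s18tInt A t) ⧸ Ideal.span {grdfbPi ϖ t} :=
  Ideal.Quotient.lift (IsLocalRing.maximalIdeal A)
    ((Ideal.Quotient.mk (Ideal.span {grdfbPi ϖ t})).comp ((grdfbPoly t).comp Polynomial.C))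
    (fun a ha => by
      rw [hϖ.maximalIdeal_eq, Ideal.mem_span_singleton] at ha
      obtain ⟨a', rfl⟩ := ha
      rw [RingHom.comp_apply, Ideal.Quotient.eq_zero_iff_mem, grdfb_mem_span]
      refine ⟨(grdfbPoly t) (Polynomial.C a'), Subtype.ext ?_⟩
      show aeval t (Polynomial.C (ϖ * a')) = algebraMap A F ϖ * aeval t (Polynomial.C a')
      rw [aeval_C, aeval_C, map_mul])

theorem grdfbRes_residue (hϖ : Irreducible ϖ) (t : F) (a : A) :
    grdfbRes hϖ t (IsLocalRing.residue A a) =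
      Ideal.Quotient.mk (Ideal.span {grdfbPi ϖ t}) (grdfbPoly t (Polynomial.C a)) := rfl

/-- the map `k₀[X] → P/ϖP`, `X ↦ t̄` -/
def grdfbResPoly (hϖ : Irreducible ϖ) (t : F) :
    (IsLocalRing.ResidueField A)[X] →+* ↥(s18tInt A t) ⧸ Ideal.span {grdfbPi ϖ t} :=
  Polynomial.eval₂RingHom (grdfbRes hϖ t)
    (Ideal.Quotient.mk (Ideal.span {grdfbPi ϖ t}) (grdfbPoly t Polynomial.X))

theorem grdfbResPoly_comp (hϖ : Irreducible ϖ) (t : F) :
    (grdfbResPoly hϖ t).comp (mapRingHom (IsLocalRing.residue A)) =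
      (Ideal.Quotient.mk (Ideal.span {grdfbPi ϖ t})).comp (grdfbPoly t) := by
  apply Polynomial.ringHom_ext
  · intro a
    simp only [RingHom.comp_apply, coe_mapRingHom, map_C]
    show eval₂ (grdfbRes hϖ t) _ (Polynomial.C (IsLocalRing.residue A a)) = _
    rw [eval₂_C, grdfbRes_residue]
  · simp only [RingHom.comp_apply, coe_mapRingHom, map_X]
    show eval₂ (grdfbRes hϖ t) _ Polynomial.X = _
    rw [eval₂_X]

/-- every element of `P/ϖP` is integral over `k₀[t̄]`. -/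
theorem grdfb_isIntegral_resPoly (hϖ : Irreducible ϖ) (t : F)
    (c : ↥(s18tInt A t) ⧸ Ideal.span {grdfbPi ϖ t}) : (grdfbResPoly hϖ t).IsIntegralElem c := by
  obtain ⟨p, rfl⟩ := Ideal.Quotient.mk_surjective c
  obtain ⟨m, hm, hmp⟩ := grdfb_isIntegralElem_of_mem_int t (p : F) p.2
  have h0 : eval₂ (grdfbPoly t) p m = 0 := by
    apply Subtype.ext
    have h1 := Polynomial.hom_eval₂ m (grdfbPoly t) (s18tInt A t).subtype p
    rw [ZeroMemClass.coe_zero]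
    exact h1.trans hmp
  refine ⟨m.map (mapRingHom (IsLocalRing.residue A)), hm.map _, ?_⟩
  rw [eval₂_map, grdfbResPoly_comp, ← Polynomial.hom_eval₂, h0, map_zero]

/-- `P/ϖP` has dimension `≤ 1`. -/
theorem grdfb_dimensionLEOne (hϖ : Irreducible ϖ) (t : F) (ht : Transcendental L t)
    [FiniteDimensional L⟮t⟯ F] (H : GrdfbHyp hϖ t) :
    Ring.DimensionLEOne (↥(s18tInt A t) ⧸ Ideal.span {grdfbPi ϖ t}) := by
  haveI := grdfb_isDomain (L := L) hϖ t ht H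
  letI : Algebra (IsLocalRing.ResidueField A)[X]
      (↥(s18tInt A t) ⧸ Ideal.span {grdfbPi ϖ t}) := (grdfbResPoly hϖ t).toAlgebra
  haveI : Algebra.IsIntegral (IsLocalRing.ResidueField A)[X]
      (↥(s18tInt A t) ⧸ Ideal.span {grdfbPi ϖ t}) :=
    ⟨fun c => grdfb_isIntegral_resPoly hϖ t c⟩
  exact Ring.DimensionLEOne.of_isIntegral (IsLocalRing.ResidueField A)[X] _

/-- THE SPECIAL FIBRE OF THE CHART RING IS A DEDEKIND DOMAIN. -/
theorem grdfb_isDedekindDomain (hϖ : Irreducible ϖ) (t : F) (ht : Transcendental L t)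
    [FiniteDimensional L⟮t⟯ F] (H : GrdfbHyp hϖ t) :
    IsDedekindDomain (↥(s18tInt A t) ⧸ Ideal.span {grdfbPi ϖ t}) := by
  haveI := grdfb_isDomain (L := L) hϖ t ht H
  haveI := grdfb_isIntegrallyClosed (L := L) hϖ t ht H
  haveI := grdfb_dimensionLEOne (L := L) hϖ t ht H
  haveI : IsNoetherianRing ↥(s18tInt A t) := grdfb_isNoetherianRing (L := L) t ht
  haveI : IsNoetherianRing (↥(s18tInt A t) ⧸ Ideal.span {grdfbPi ϖ t}) := inferInstance
  exact { }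


/-- constants of `A` in `P` -/
def grdfbConst (t : F) : A →+* ↥(s18tInt A t) where
  toFun a := ⟨algebraMap A F a, s18tc_algebraMap_mem_int t a⟩
  map_one' := Subtype.ext (map_one _)
  map_mul' a b := Subtype.ext (map_mul _ a b)
  map_zero' := Subtype.ext (map_zero _)
  map_add' a b := Subtype.ext (map_add _ a b)

theorem grdfbConst_unif (t : F) : grdfbConst t ϖ = grdfbPi ϖ t := rfl

/-- LOCAL GENERATION OF THE MAXIMAL IDEAL : let `χ : P → A` be a retraction, `𝔫 = χ⁻¹(𝔪_A)`, and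
`(ρ, w)` valuation data on the special fibre (`ρ : P → K'` with kernel `ϖ P`, `w` multiplicative,
`≥ 0` on `ρ(P)`, positive exactly on `ρ(𝔫)`) with `w (ρ t₀) = 1`; then every `z ∈ 𝔫` satisfies
`s z = t₀ c + ϖ y` with `s ∉ 𝔫`. -/
theorem grdfb_local_gen (hϖ : Irreducible ϖ) (t : F) (ht : Transcendental L t)
    [FiniteDimensional L⟮t⟯ F] (H : GrdfbHyp hϖ t)
    (χ : ↥(s18tInt A t) →+* A) (hχ : ∀ a : A, χ (grdfbConst t a) = a)
    {K' : Type*} [Field K'] (ρ : ↥(s18tInt A t) →+* K')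
    (hρ : ∀ z, ρ z = 0 ↔ ∃ y : ↥(s18tInt A t), z = grdfbPi ϖ t * y)
    (w : K' → ℤ) (hw_mul : ∀ x y : K', x ≠ 0 → y ≠ 0 → w (x * y) = w x + w y)
    (hw_nonneg : ∀ z, ρ z ≠ 0 → 0 ≤ w (ρ z))
    (hw_pos : ∀ z, ρ z ≠ 0 → (0 < w (ρ z) ↔ ¬ IsUnit (χ z)))
    (t₀ : ↥(s18tInt A t)) (ht₀ : ρ t₀ ≠ 0) (hwt₀ : w (ρ t₀) = 1)
    (z : ↥(s18tInt A t)) (hz : ¬ IsUnit (χ z)) :
    ∃ s c y : ↥(s18tInt A t), IsUnit (χ s) ∧ s * z = t₀ * c + grdfbPi ϖ t * y := by
  haveI := grdfb_isDedekindDomain (L := L) hϖ t ht H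
  -- the prime `𝔫`
  let 𝔫 : Ideal ↥(s18tInt A t) := (IsLocalRing.maximalIdeal A).comap χ
  have hmem𝔫 : ∀ x, x ∈ 𝔫 ↔ ¬ IsUnit (χ x) := fun x => by
    show χ x ∈ IsLocalRing.maximalIdeal A ↔ _
    rw [IsLocalRing.mem_maximalIdeal, mem_nonunits_iff]
  haveI h𝔫 : 𝔫.IsPrime := Ideal.comap_isPrime _ _
  have hI𝔫 : Ideal.span {grdfbPi ϖ t} ≤ 𝔫 := by
    rw [Ideal.span_le, Set.singleton_subset_iff]
    show grdfbPi ϖ t ∈ 𝔫
    rw [hmem𝔫, ← grdfbConst_unif, hχ]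
    exact hϖ.not_isUnit
  have hker : RingHom.ker (Ideal.Quotient.mk (Ideal.span {grdfbPi ϖ t})) ≤ 𝔫 := by
    rw [Ideal.mk_ker]; exact hI𝔫
  haveI h𝔫' : (𝔫.map (Ideal.Quotient.mk (Ideal.span {grdfbPi ϖ t}))).IsPrime :=
    Ideal.map_isPrime_of_surjective Ideal.Quotient.mk_surjective hker
  have hmem𝔫' : ∀ x, Ideal.Quotient.mk (Ideal.span {grdfbPi ϖ t}) x ∈
      𝔫.map (Ideal.Quotient.mk (Ideal.span {grdfbPi ϖ t})) ↔ x ∈ 𝔫 := fun x => by
    rw [Ideal.mem_map_iff_of_surjective _ Ideal.Quotient.mk_surjective]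
    constructor
    · rintro ⟨x', hx', hxx'⟩
      have : x - x' ∈ 𝔫 := hI𝔫 (Ideal.Quotient.eq.mp hxx'.symm)
      have h2 := 𝔫.add_mem this hx'
      rwa [sub_add_cancel] at h2
    · exact fun hx => ⟨x, hx, rfl⟩
  -- `ρ` on the quotient
  let ρ' : ↥(s18tInt A t) ⧸ Ideal.span {grdfbPi ϖ t} →+* K' :=
    Ideal.Quotient.lift _ ρ (fun a ha => (hρ a).mpr ((grdfb_mem_span t a).mp ha))
  have hρ'mk : ∀ x, ρ' (Ideal.Quotient.mk _ x) = ρ x := fun x => rfl
  have hmk0 : ∀ x, Ideal.Quotient.mk (Ideal.span {grdfbPi ϖ t}) x = 0 ↔ ρ x = 0 := fun x => by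
    rw [Ideal.Quotient.eq_zero_iff_mem, grdfb_mem_span, hρ]
  have hρ'inj : Function.Injective ρ' := by
    rw [injective_iff_map_eq_zero]
    intro c hc
    obtain ⟨x, rfl⟩ := Ideal.Quotient.mk_surjective c
    rw [hρ'mk] at hc
    exact (hmk0 x).mpr hc
  obtain ⟨s', hs', c', hsc⟩ := grdfb_dvd_of_val
    (𝔫.map (Ideal.Quotient.mk (Ideal.span {grdfbPi ϖ t}))) ρ' hρ'inj w hw_mul
    (fun c hc => by
      obtain ⟨x, rfl⟩ := Ideal.Quotient.mk_surjective c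
      have hx : ρ x ≠ 0 := fun h => hc ((hmk0 x).mpr h)
      rw [hρ'mk, hmem𝔫', hmem𝔫]
      exact hw_pos x hx)
    (fun c hc => by
      obtain ⟨x, rfl⟩ := Ideal.Quotient.mk_surjective c
      have hx : ρ x ≠ 0 := fun h => hc ((hmk0 x).mpr h)
      rw [hρ'mk]
      exact hw_nonneg x hx)
    (Ideal.Quotient.mk _ t₀) (fun h => ht₀ ((hmk0 t₀).mp h)) (by rw [hρ'mk]; exact hwt₀)
    (Ideal.Quotient.mk _ z) ((hmem𝔫' z).mpr ((hmem𝔫 z).mpr hz))
  obtain ⟨s, rfl⟩ := Ideal.Quotient.mk_surjective s'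
  obtain ⟨c, rfl⟩ := Ideal.Quotient.mk_surjective c'
  have h1 : s * z - t₀ * c ∈ Ideal.span {grdfbPi ϖ t} := by
    rw [← Ideal.Quotient.eq_zero_iff_mem, map_sub, map_mul, map_mul, hsc, sub_self]
  obtain ⟨y, hy⟩ := (grdfb_mem_span t _).mp h1
  refine ⟨s, c, y, ?_, ?_⟩
  · by_contra hs
    exact hs' ((hmem𝔫' s).mpr ((hmem𝔫 s).mpr hs))
  · rw [← hy]; ring


/-- THE NUMBER-FIELD-LEVEL CORE OF (R3) : in the setting of `grdfb_local_gen`, every `b ∈ P` with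
`χ b = 0` is `(t₀ - χ t₀) c / s` with `χ s` a unit. -/
theorem grdfb_kernel_principal (hϖ : Irreducible ϖ) (t : F) (ht : Transcendental L t)
    [FiniteDimensional L⟮t⟯ F] (H : GrdfbHyp hϖ t)
    (χ : ↥(s18tInt A t) →+* A) (hχ : ∀ a : A, χ (grdfbConst t a) = a)
    {K' : Type*} [Field K'] (ρ : ↥(s18tInt A t) →+* K')
    (hρ : ∀ z, ρ z = 0 ↔ ∃ y : ↥(s18tInt A t), z = grdfbPi ϖ t * y)
    (w : K' → ℤ) (hw_mul : ∀ x y : K', x ≠ 0 → y ≠ 0 → w (x * y) = w x + w y)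
    (hw_nonneg : ∀ z, ρ z ≠ 0 → 0 ≤ w (ρ z))
    (hw_pos : ∀ z, ρ z ≠ 0 → (0 < w (ρ z) ↔ ¬ IsUnit (χ z)))
    (t₀ : ↥(s18tInt A t)) (ht₀ : ρ t₀ ≠ 0) (hwt₀ : w (ρ t₀) = 1)
    (b : ↥(s18tInt A t)) (hb : χ b = 0) :
    ∃ s c : ↥(s18tInt A t), IsUnit (χ s) ∧ s * b = (t₀ - grdfbConst t (χ t₀)) * c := by
  haveI : IsNoetherianRing ↥(s18tInt A t) := grdfb_isNoetherianRing (L := L) t ht
  let 𝔫 : Ideal ↥(s18tInt A t) := (IsLocalRing.maximalIdeal A).comap χ
  have hmem𝔫 : ∀ x, x ∈ 𝔫 ↔ ¬ IsUnit (χ x) := fun x => by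
    show χ x ∈ IsLocalRing.maximalIdeal A ↔ _
    rw [IsLocalRing.mem_maximalIdeal, mem_nonunits_iff]
  haveI h𝔫 : 𝔫.IsPrime := Ideal.comap_isPrime _ _
  have ht₀𝔫 : ¬ IsUnit (χ t₀) := (hw_pos t₀ ht₀).mp (by rw [hwt₀]; exact one_pos)
  -- the local ring
  letI algR : Algebra A (Localization.AtPrime 𝔫) :=
    ((algebraMap ↥(s18tInt A t) (Localization.AtPrime 𝔫)).comp (grdfbConst t)).toAlgebra
  haveI : IsNoetherianRing (Localization.AtPrime 𝔫) :=
    IsLocalization.isNoetherianRing 𝔫.primeCompl _ inferInstance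
  have hunit : ∀ y : 𝔫.primeCompl, IsUnit (χ y) := fun y => by
    by_contra h
    exact y.2 ((hmem𝔫 y).mpr h)
  let χR : Localization.AtPrime 𝔫 →ₐ[A] A :=
    { toRingHom := IsLocalization.lift (M := 𝔫.primeCompl) hunit
      commutes' := fun a => by
        show IsLocalization.lift hunit
          (algebraMap ↥(s18tInt A t) (Localization.AtPrime 𝔫) (grdfbConst t a)) = a
        rw [IsLocalization.lift_eq, hχ] }
  have hχR : ∀ x, χR (algebraMap ↥(s18tInt A t) (Localization.AtPrime 𝔫) x) = χ x := fun x =>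
    IsLocalization.lift_eq hunit x
  have halgA : ∀ a : A, algebraMap A (Localization.AtPrime 𝔫) a =
      algebraMap ↥(s18tInt A t) (Localization.AtPrime 𝔫) (grdfbConst t a) := fun a => rfl
  -- the maximal ideal
  have hmax : IsLocalRing.maximalIdeal (Localization.AtPrime 𝔫) =
      Ideal.span {algebraMap A (Localization.AtPrime 𝔫) ϖ,
        algebraMap ↥(s18tInt A t) (Localization.AtPrime 𝔫) t₀} := by
    apply le_antisymm
    · rw [← Localization.AtPrime.map_eq_maximalIdeal, Ideal.map_le_iff_le_comap]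
      intro z hz
      rw [Ideal.mem_comap]
      obtain ⟨s, c, y, hs, hszc⟩ := grdfb_local_gen (L := L) hϖ t ht H χ hχ ρ hρ w hw_mul
        hw_nonneg hw_pos t₀ ht₀ hwt₀ z ((hmem𝔫 z).mp hz)
      have hs𝔫 : s ∈ 𝔫.primeCompl := fun h => (hmem𝔫 s).mp h hs
      have hsu : IsUnit (algebraMap ↥(s18tInt A t) (Localization.AtPrime 𝔫) s) :=
        IsLocalization.map_units (Localization.AtPrime 𝔫) ⟨s, hs𝔫⟩
      have h1 : algebraMap ↥(s18tInt A t) (Localization.AtPrime 𝔫) s *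
          algebraMap ↥(s18tInt A t) (Localization.AtPrime 𝔫) z ∈
          Ideal.span {algebraMap A (Localization.AtPrime 𝔫) ϖ,
            algebraMap ↥(s18tInt A t) (Localization.AtPrime 𝔫) t₀} := by
        rw [← map_mul, hszc, map_add, map_mul, map_mul, Ideal.mem_span_pair]
        exact ⟨algebraMap _ _ y, algebraMap _ _ c, by
          rw [halgA, grdfbConst_unif]; ring⟩
      exact (Ideal.unit_mul_mem_iff_mem _ hsu).mp h1
    · rw [Ideal.span_le]
      rintro x (rfl | rfl)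
      · rw [halgA, ← Localization.AtPrime.map_eq_maximalIdeal]
        apply Ideal.mem_map_of_mem
        rw [hmem𝔫, hχ]
        exact hϖ.not_isUnit
      · rw [← Localization.AtPrime.map_eq_maximalIdeal]
        apply Ideal.mem_map_of_mem
        exact (hmem𝔫 t₀).mpr ht₀𝔫
  -- `χ t₀ ∈ ϖ A`
  have hβ : ∃ c : A, χR (algebraMap ↥(s18tInt A t) (Localization.AtPrime 𝔫) t₀) = ϖ * c := by
    rw [hχR]
    have : χ t₀ ∈ IsLocalRing.maximalIdeal A := by
      rw [IsLocalRing.mem_maximalIdeal, mem_nonunits_iff]; exact ht₀𝔫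
    rw [hϖ.maximalIdeal_eq, Ideal.mem_span_singleton] at this
    exact this
  have hkerR := grd_section_kernel ϖ hϖ.ne_zero
    (algebraMap ↥(s18tInt A t) (Localization.AtPrime 𝔫) t₀) hmax χR hβ
  have hbker : algebraMap ↥(s18tInt A t) (Localization.AtPrime 𝔫) b ∈
      RingHom.ker (χR : Localization.AtPrime 𝔫 →+* A) := by
    rw [RingHom.mem_ker]
    show χR _ = 0
    rw [hχR, hb]
  rw [hkerR, Ideal.mem_span_singleton'] at hbker
  obtain ⟨r, hr⟩ := hbker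
  obtain ⟨c, s, rfl⟩ := IsLocalization.exists_mk'_eq 𝔫.primeCompl r
  have hinj : Function.Injective (algebraMap ↥(s18tInt A t) (Localization.AtPrime 𝔫)) :=
    IsLocalization.injective _ (Ideal.primeCompl_le_nonZeroDivisors 𝔫)
  refine ⟨s, c, hunit s, ?_⟩
  apply hinj
  rw [map_mul, ← hr, hχR, map_mul, map_sub, ← halgA]
  rw [← mul_assoc, mul_comm (algebraMap ↥(s18tInt A t) (Localization.AtPrime 𝔫) ↑s),
    IsLocalization.mk'_spec]
  ring

end Fibre

section Coord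

variable {A₀ : Type*} [CommRing A₀] [IsDomain A₀] [IsDiscreteValuationRing A₀] [CharZero A₀]
variable {L₀ : Type*} [Field L₀] [Algebra A₀ L₀] [IsFractionRing A₀ L₀]
variable {ϖ : A₀}

/-- the hypotheses `GrdfbHyp` for a good coordinate satisfying the chart hypotheses. -/
theorem grdfb_hyp_of_coord (hϖ : Irreducible ϖ) (F : IntermediateField L₀ (LaurentSeries L₀))
    (hF : S18VGen A₀ F) (t : F) (hcoord : S18Coord hϖ F t) (S : Finset A₀)
    (hchart : S18Chart A₀ L₀ ϖ t S) : GrdfbHyp hϖ t := by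
  haveI := hcoord.fin
  refine ⟨fun x hx => ?_, ?_, fun x hx hint => ?_⟩
  · rw [hcoord.intLoc_eq] at hx ⊢
    rcases s18v_dvd_or_inv_mem hϖ F x hx with ⟨y, hy, hxy⟩ | h
    · left
      refine ⟨y, ?_, hxy⟩
      rw [hcoord.intLoc_eq]; exact hy
    · exact Or.inr h
  · rw [hcoord.intLoc_eq]
    exact s18v_unif_not_unit hϖ F
  · exact grdn_chart_normal hϖ t hcoord.transc S hchart hcoord.selfDual x hx hint

end Coord


end Fermat.Agent.G
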