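import Mathlib
import Fermat.Prelude.Def_ModularCurve_ReductionModL
import Fermat.Agent.S24.Degree
import Fermat.Agent.S24.PlacesCenter
import Fermat.Agent.S18.V.DegreeDown
import Fermat.Agent.S18.A.Const

/-!
# Program G, package G/Red : the degree clause of `IsPlaceReductionAlong`

* `grdd_isAlgClosed_residueField` : the residue field of a valuation subring of an algebraically
  closed field is algebraically closed;
* `grdd_deg_bar`, `grdd_deg_res` : every place of `F_ℚ̄(N) / ℚ̄` and every place of `F_k(N) / k`
  (`k` the residue field of `A ⊆ ℚ̄` over `ℓ ∤ N`) has degree `1`;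
* `grdd_deg_eq` : hence the first clause of `IsPlaceReductionAlong A (residue A) N r` holds for
  EVERY map `r`.
-/

set_option autoImplicit false
set_option linter.unusedSectionVars false
set_option synthInstance.maxHeartbeats 400000

noncomputable section

namespace Fermat.Agent.G

open ModularCurve AlgebraicCurve IsLocalRing Polynomial Fermat.Agent.S18 Fermat.Agent.S24

/-- the residue field of a valuation subring of an algebraically closed field is algebraically
closed. -/
theorem grdd_isAlgClosed_residueField {K : Type*} [Field K] [IsAlgClosed K]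
    (A : ValuationSubring K) : IsAlgClosed (ResidueField A) := by
  refine IsAlgClosed.of_exists_root _ fun p hpm hpirr => ?_
  -- lift `p` to a monic polynomial over `A`
  have hsurj : Function.Surjective (residue A) := IsLocalRing.residue_surjective
  have hlift : p ∈ Polynomial.lifts (residue A) := by
    rw [Polynomial.mem_lifts]
    exact Polynomial.map_surjective _ hsurj p
  obtain ⟨q, hq, hqdeg, hqm⟩ := Polynomial.lifts_and_degree_eq_and_monic hlift hpm
  -- a root in `K`
  have hdeg : (q.map (algebraMap A K)).degree ≠ 0 := by
    rw [Polynomial.degree_map_eq_of_injective (IsFractionRing.injective A K), hqdeg]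
    exact (Polynomial.degree_pos_of_irreducible hpirr).ne'
  obtain ⟨x, hx⟩ := IsAlgClosed.exists_root (q.map (algebraMap A K)) hdeg
  -- the root is integral over `A`, hence in `A`
  have hint : IsIntegral A x := ⟨q, hqm, by
    rw [← Polynomial.eval_map]
    exact hx⟩
  obtain ⟨y, rfl⟩ := (IsIntegrallyClosed.isIntegral_iff (R := A) (K := K)).mp hint
  refine ⟨residue A y, ?_⟩
  rw [← hq, Polynomial.eval_map, Polynomial.eval₂_hom]
  have hy0 : q.eval y = 0 := by
    have h1 : (q.map (algebraMap A K)).eval (algebraMap A K y) = 0 := hx
    rw [Polynomial.eval_map, Polynomial.eval₂_hom] at h1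
    exact (map_eq_zero_iff _ (IsFractionRing.injective A K)).mp h1
  rw [hy0, map_zero]

section Deg

variable (N : ℕ) [NeZero N] {ℓ : ℕ} [Fact ℓ.Prime]
variable (A : ValuationSubring (AlgebraicClosure ℚ))

/-- every place of `F_ℚ̄(N)` has degree `1`. -/
theorem grdd_deg_bar (P : Place (AlgebraicClosure ℚ) (modularFunctionFieldBar N)) : P.deg = 1 :=
  (Fermat.Agent.S24.isSepGen_jBar N).deg_eq_one P

/-- every place of `F_k(N)` has degree `1` (`ℓ ∤ N`). -/
theorem grdd_deg_res (hℓN : ¬ ℓ ∣ N) (hA : A.LiesOverPrime ℓ)
    (Q : Place (ResidueField A) (modularFunctionFieldFullC (ResidueField A) N)) : Q.deg = 1 := by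
  haveI : CharP (ResidueField A) ℓ := s18ac_charP A hA
  haveI : IsAlgClosed (ResidueField A) := grdd_isAlgClosed_residueField A
  exact (s18v_isSepGen_res (ℓ := ℓ) (ResidueField A) N hℓN).deg_eq_one Q

/-- the degree clause of `IsPlaceReductionAlong` holds for every map of places. -/
theorem grdd_deg_eq (hℓN : ¬ ℓ ∣ N) (hA : A.LiesOverPrime ℓ)
    (r : Place (AlgebraicClosure ℚ) (modularFunctionFieldBar N) →
      Place (ResidueField A) (modularFunctionFieldFullC (ResidueField A) N))
    (P : Place (AlgebraicClosure ℚ) (modularFunctionFieldBar N)) : (r P).deg = P.deg := by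
  rw [grdd_deg_res N A hℓN hA, grdd_deg_bar N]

end Deg

end Fermat.Agent.G
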