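import Mathlib
import Fermat.Agent.G.Red.Defs
import Fermat.Agent.G.Red.Deg
import Fermat.Agent.G.GN
import Fermat.Agent.S24.PlacesInt

/-!
# Program G, package G/Red, leaf B1 (row 550) : basic properties of the Gauss ring `grdO`

* `grd_isAlgClosed_residue` : `k = 𝔸/𝔪` is algebraically closed;
* `grdO_mem_or_inv_mem`, `grdO_inv_mem` : `grdO` is a valuation ring of `F_ℚ̄(M)`;
* `grdO_algebraMap_mem`, `grdRed_algebraMap`, `grdO_algebraMap_mem_iff` : constants;
* `grdB_le_grdO` : the chart ring lies in the Gauss ring;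
* `grdQ_mem_grdO`, `grdRed_grdQ` : the chart coordinate;
* `grdRed_isIntegral` : reductions of elements integral over `𝔸[u]` are integral over `k[ū]`.
-/

set_option autoImplicit false
set_option linter.unusedSectionVars false
set_option linter.unusedVariables false
set_option synthInstance.maxHeartbeats 400000

noncomputable section

namespace Fermat.Agent.G

open ModularCurve AlgebraicCurve IsLocalRing Polynomial Fermat.Agent.S18 Fermat.Agent.S24

section Gauss

variable (M : ℕ) [NeZero M] {ℓ : ℕ} [Fact ℓ.Prime]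
variable (A : ValuationSubring (AlgebraicClosure ℚ))

/-- (B0) the residue field of a valuation ring of `ℚ̄` is algebraically closed. -/
theorem grd_isAlgClosed_residue : IsAlgClosed (ResidueField A) :=
  grdd_isAlgClosed_residueField A

/-- the series of a constant -/
theorem grdga_coe_algebraMap (c : AlgebraicClosure ℚ) :
    ((algebraMap (AlgebraicClosure ℚ) (modularFunctionFieldBar M) c : modularFunctionFieldBar M) :
      LaurentSeries (AlgebraicClosure ℚ)) = HahnSeries.C c := by
  show algebraMap (AlgebraicClosure ℚ) (LaurentSeries (AlgebraicClosure ℚ)) c = HahnSeries.C c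
  rw [algebraMap_laurentSeries_eq_single]
  rfl

theorem grdga_coeffMap_C (a : A) :
    coeffMap A.subtype (HahnSeries.C a) = HahnSeries.C (a : AlgebraicClosure ℚ) := by
  have := coeffMap_single A.subtype (0 : ℤ) a
  exact this

/-- (B2) constants -/
theorem grdO_algebraMap_mem (a : A) :
    algebraMap (AlgebraicClosure ℚ) (modularFunctionFieldBar M) (a : AlgebraicClosure ℚ) ∈
      grdO M A := by
  refine ⟨HahnSeries.C a, 1, ggn_good_C a, grd_good_one, ?_, ?_⟩
  · rw [map_one]; exact one_ne_zero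
  · rw [map_one, mul_one, grdga_coe_algebraMap, grdga_coeffMap_C]

theorem grdRed_algebraMap (a : A) :
    grdRed M A ⟨algebraMap (AlgebraicClosure ℚ) (modularFunctionFieldBar M)
      (a : AlgebraicClosure ℚ), grdO_algebraMap_mem M A a⟩ =
      algebraMap (ResidueField A) (modularFunctionFieldFullC (ResidueField A) M)
        (residue A a) := by
  have h1 : (⟨algebraMap (AlgebraicClosure ℚ) (modularFunctionFieldBar M)
      (a : AlgebraicClosure ℚ), grdO_algebraMap_mem M A a⟩ : ↥(grdO M A)) =
      ⟨(ggn_good_C (N := M) a).gen, grd_gen_mem _⟩ := Subtype.ext (ggn_gen_C a).symm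
  rw [h1, grdRed_gen, ggn_spec_C]

theorem grdO_algebraMap_mem_iff (c : AlgebraicClosure ℚ) :
    algebraMap (AlgebraicClosure ℚ) (modularFunctionFieldBar M) c ∈ grdO M A ↔ c ∈ A := by
  constructor
  · rintro ⟨a, b, -, -, hb0, hx⟩
    rw [grdga_coe_algebraMap] at hx
    -- some coefficient of `b` is a unit
    obtain ⟨n, hn⟩ : ∃ n : ℤ, residue A (b.coeff n) ≠ 0 := by
      by_contra hall
      push Not at hall
      apply hb0
      ext n
      simpa using hall n
    have hu : IsUnit (b.coeff n) := by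
      by_contra hnu
      exact hn ((residue_eq_zero_iff _).mpr hnu)
    have hcoeff := congrArg (fun s => HahnSeries.coeff s n) hx
    have h1 : c * ((b.coeff n : A) : AlgebraicClosure ℚ) = ((a.coeff n : A) : AlgebraicClosure ℚ) := by
      simp only [HahnSeries.C_mul_eq_smul, HahnSeries.coeff_smul] at hcoeff
      simpa using hcoeff
    obtain ⟨v, hv⟩ := hu
    have h2 : c = ((a.coeff n * (v⁻¹ : Aˣ) : A) : AlgebraicClosure ℚ) := by
      have hvb : ((b.coeff n : A) : AlgebraicClosure ℚ) * (((v⁻¹ : Aˣ) : A) : AlgebraicClosure ℚ) = 1 := by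
        rw [← hv]
        have h3 : ((v : A) * ((v⁻¹ : Aˣ) : A) : A) = 1 := Units.mul_inv v
        have := congrArg (fun z : A => (z : AlgebraicClosure ℚ)) h3
        simp only [MulMemClass.coe_mul, OneMemClass.coe_one] at this
        exact this
      push_cast
      rw [← h1, mul_assoc, hvb, mul_one]
    rw [h2]
    exact (a.coeff n * (v⁻¹ : Aˣ) : A).2
  · intro hc
    exact grdO_algebraMap_mem M A ⟨c, hc⟩

/-- (B1) the Gauss ring is a valuation ring of `F` (from `ggn_normal`). -/
theorem grdO_mem_or_inv_mem (hℓM : ¬ ℓ ∣ M) (hA : A.LiesOverPrime ℓ)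
    (x : modularFunctionFieldBar M) : x ∈ grdO M A ∨ x⁻¹ ∈ grdO M A := by
  by_cases hx : x = 0
  · left; rw [hx]; exact zero_mem _
  obtain ⟨c, u₁, u₂, h₁, h₂, hc, hs₁, hs₂, hfu⟩ := ggn_normal' M A hℓM hA x hx
  have hfu' : (x : LaurentSeries (AlgebraicClosure ℚ)) * coeffMap A.subtype u₂ =
      HahnSeries.C c * coeffMap A.subtype u₁ := by
    have := congrArg (fun z : modularFunctionFieldBar M =>
      (z : LaurentSeries (AlgebraicClosure ℚ))) hfu
    simp only [MulMemClass.coe_mul, grdga_coe_algebraMap] at this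
    exact this
  rcases A.mem_or_inv_mem c with hcA | hcA
  · left
    refine ⟨HahnSeries.C ⟨c, hcA⟩ * u₁, u₂, grd_good_mul (ggn_good_C _) h₁, h₂,
      fun h => hs₂ (Subtype.ext h), ?_⟩
    rw [map_mul, grdga_coeffMap_C, hfu']
  · right
    refine ⟨HahnSeries.C ⟨c⁻¹, hcA⟩ * u₂, u₁, grd_good_mul (ggn_good_C _) h₂, h₁,
      fun h => hs₁ (Subtype.ext h), ?_⟩
    rw [map_mul, grdga_coeffMap_C]
    have hx' : (x : LaurentSeries (AlgebraicClosure ℚ)) ≠ 0 := fun h => hx (Subtype.ext h)
    have hcc : (HahnSeries.C c : LaurentSeries (AlgebraicClosure ℚ)) ≠ 0 := by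
      intro h
      apply hc
      have := congrArg (fun s => HahnSeries.coeff s 0) h
      simpa using this
    have hCinv : (HahnSeries.C c⁻¹ : LaurentSeries (AlgebraicClosure ℚ)) * HahnSeries.C c = 1 := by
      rw [← map_mul, inv_mul_cancel₀ hc, map_one]
    show ((x⁻¹ : modularFunctionFieldBar M) : LaurentSeries (AlgebraicClosure ℚ)) *
      coeffMap A.subtype u₁ = HahnSeries.C c⁻¹ * coeffMap A.subtype u₂
    have hxinv : ((x⁻¹ : modularFunctionFieldBar M) : LaurentSeries (AlgebraicClosure ℚ)) *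
        (x : LaurentSeries (AlgebraicClosure ℚ)) = 1 := by
      have := congrArg (fun z : modularFunctionFieldBar M =>
        (z : LaurentSeries (AlgebraicClosure ℚ))) (inv_mul_cancel₀ hx)
      simpa using this
    calc ((x⁻¹ : modularFunctionFieldBar M) : LaurentSeries (AlgebraicClosure ℚ)) *
          coeffMap A.subtype u₁
        = ((x⁻¹ : modularFunctionFieldBar M) : LaurentSeries (AlgebraicClosure ℚ)) *
            ((HahnSeries.C c⁻¹ * HahnSeries.C c) * coeffMap A.subtype u₁) := by
          rw [hCinv, one_mul]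
      _ = HahnSeries.C c⁻¹ * (((x⁻¹ : modularFunctionFieldBar M) :
            LaurentSeries (AlgebraicClosure ℚ)) * (HahnSeries.C c * coeffMap A.subtype u₁)) := by
          ring
      _ = HahnSeries.C c⁻¹ * (((x⁻¹ : modularFunctionFieldBar M) :
            LaurentSeries (AlgebraicClosure ℚ)) * ((x : LaurentSeries (AlgebraicClosure ℚ)) *
              coeffMap A.subtype u₂)) := by rw [hfu']
      _ = HahnSeries.C c⁻¹ * coeffMap A.subtype u₂ := by
          rw [← mul_assoc _ (x : LaurentSeries (AlgebraicClosure ℚ)), hxinv, one_mul]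

/-- (B1') elements with nonzero reduction are units of the Gauss ring. -/
theorem grdO_inv_mem (hℓM : ¬ ℓ ∣ M) (hA : A.LiesOverPrime ℓ) (x : ↥(grdO M A))
    (hx : grdRed M A x ≠ 0) : (x : modularFunctionFieldBar M)⁻¹ ∈ grdO M A := by
  obtain ⟨a, b, ha, hb, hb0, hxab⟩ := x.2
  have hred := grdRed_eq M A x a b hb0 hxab
  have ha0 : coeffMap (residue A) a ≠ 0 := by
    intro h
    apply hx
    apply Subtype.ext
    rw [hred, h, zero_div]
    rfl
  have hx0 : (x : modularFunctionFieldBar M) ≠ 0 := by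
    intro h
    apply hx
    have : x = 0 := Subtype.ext h
    rw [this, map_zero]
  refine ⟨b, a, hb, ha, ha0, ?_⟩
  have hxinv : (((x : modularFunctionFieldBar M)⁻¹ : modularFunctionFieldBar M) :
      LaurentSeries (AlgebraicClosure ℚ)) *
        ((x : modularFunctionFieldBar M) : LaurentSeries (AlgebraicClosure ℚ)) = 1 := by
    have := congrArg (fun z : modularFunctionFieldBar M =>
      (z : LaurentSeries (AlgebraicClosure ℚ))) (inv_mul_cancel₀ hx0)
    simpa using this
  rw [← hxab, ← mul_assoc, hxinv, one_mul]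

/-- the Gauss ring as a `ValuationSubring` -/
def grdgaV (hℓM : ¬ ℓ ∣ M) (hA : A.LiesOverPrime ℓ) :
    ValuationSubring (modularFunctionFieldBar M) :=
  { grdO M A with mem_or_inv_mem' := grdO_mem_or_inv_mem M A hℓM hA }

theorem grdga_mem_V (hℓM : ¬ ℓ ∣ M) (hA : A.LiesOverPrime ℓ) (x : modularFunctionFieldBar M) :
    x ∈ grdgaV M A hℓM hA ↔ x ∈ grdO M A := Iff.rfl

/-- (B4) the chart ring lies in the Gauss ring (a valuation ring is integrally closed). -/
theorem grdB_le_grdO (hℓM : ¬ ℓ ∣ M) (hA : A.LiesOverPrime ℓ) {u : modularFunctionFieldBar M}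
    (hu : u ∈ grdO M A) : grdB M A u ≤ grdO M A := by
  intro x hx
  obtain ⟨p, hp, hpx⟩ := hx
  set V := grdgaV M A hℓM hA with hV
  have hrange : ∀ a : A[X], Polynomial.eval₂RingHom (grdInclA M A) u a ∈ V := by
    intro a
    rw [Polynomial.coe_eval₂RingHom, Polynomial.eval₂_eq_sum_range]
    refine Subring.sum_mem _ fun i _ => ?_
    refine Subring.mul_mem _ ?_ (Subring.pow_mem _ hu i)
    exact grdO_algebraMap_mem M A (a.coeff i)
  let φ' : A[X] →+* V := (Polynomial.eval₂RingHom (grdInclA M A) u).codRestrict V.toSubring hrange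
  have h1 : IsIntegral V x := by
    refine ⟨p.map φ', hp.map _, ?_⟩
    rw [Polynomial.eval₂_map]
    have : (algebraMap V (modularFunctionFieldBar M)).comp φ' =
        Polynomial.eval₂RingHom (grdInclA M A) u := by
      ext <;> rfl
    rw [this]
    exact hpx
  obtain ⟨y, hy⟩ := IsIntegrallyClosed.isIntegral_iff.mp h1
  rw [← hy]
  exact y.2

/-- (C1) the chart coordinate lies in the Gauss ring and reduces to `υ_k`. -/
theorem grdga_good_ser {υ : LaurentSeries ℤ} (hυ : GrdSerMem M υ) :
    S18Good M A (grdSer υ A) := by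
  refine ⟨?_, ?_⟩
  · rw [grdSer_coeffMap]
    exact (grdQ M hυ).2
  · rw [grdSer_coeffMap]
    exact hυ (ResidueField A)

theorem grdga_gen_ser {υ : LaurentSeries ℤ} (hυ : GrdSerMem M υ) :
    (grdga_good_ser M A hυ).gen = grdQ M hυ :=
  Subtype.ext (grdSer_coeffMap υ A.subtype)

theorem grdga_spec_ser {υ : LaurentSeries ℤ} (hυ : GrdSerMem M υ) :
    (grdga_good_ser M A hυ).spec = grdK M A hυ :=
  Subtype.ext (grdSer_coeffMap υ (residue A))

theorem grdQ_mem_grdO {υ : LaurentSeries ℤ} (hυ : GrdSerMem M υ) : grdQ M hυ ∈ grdO M A := by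
  rw [← grdga_gen_ser M A hυ]
  exact grd_gen_mem _

theorem grdRed_grdQ {υ : LaurentSeries ℤ} (hυ : GrdSerMem M υ) :
    grdRed M A ⟨grdQ M hυ, grdQ_mem_grdO M A hυ⟩ = grdK M A hυ := by
  have h1 : (⟨grdQ M hυ, grdQ_mem_grdO M A hυ⟩ : ↥(grdO M A)) =
      ⟨(grdga_good_ser M A hυ).gen, grd_gen_mem _⟩ := Subtype.ext (grdga_gen_ser M A hυ).symm
  rw [h1, grdRed_gen, grdga_spec_ser]

/-- the range of `a ↦ a(u)` lies in the Gauss ring -/
theorem grdga_eval_mem {u : modularFunctionFieldBar M} (hu : u ∈ grdO M A) (a : A[X]) :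
    Polynomial.eval₂RingHom (grdInclA M A) u a ∈ grdO M A := by
  rw [Polynomial.coe_eval₂RingHom, Polynomial.eval₂_eq_sum_range]
  refine Subring.sum_mem _ fun i _ => ?_
  refine Subring.mul_mem _ ?_ (Subring.pow_mem _ hu i)
  exact grdO_algebraMap_mem M A (a.coeff i)

/-- (C2) the reduction of an element integral over `𝔸[u]` is integral over `k[ū]`. -/
theorem grdRed_isIntegral {υ : LaurentSeries ℤ} (hυ : GrdSerMem M υ) (x : ↥(grdO M A))
    (hx : GrdIsInt M A (grdQ M hυ) (x : modularFunctionFieldBar M)) :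
    (grdRed M A x : modularFunctionFieldFullC (ResidueField A) M) ∈
      intRing (ResidueField A) (grdK M A hυ) := by
  obtain ⟨p, hp, hpx⟩ := hx
  have hu := grdQ_mem_grdO M A hυ
  let φ' : A[X] →+* ↥(grdO M A) :=
    (Polynomial.eval₂RingHom (grdInclA M A) (grdQ M hυ)).codRestrict (grdO M A)
      (grdga_eval_mem M A hu)
  let ū' : ↥(Algebra.adjoin (ResidueField A) {grdK M A hυ}) :=
    ⟨grdK M A hυ, Algebra.subset_adjoin rfl⟩
  let ψ : A[X] →+* ↥(Algebra.adjoin (ResidueField A) {grdK M A hυ}) :=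
    Polynomial.eval₂RingHom ((algebraMap (ResidueField A)
      ↥(Algebra.adjoin (ResidueField A) {grdK M A hυ})).comp (residue A)) ū'
  have hcomp : (grdRed M A).comp φ' =
      (algebraMap ↥(Algebra.adjoin (ResidueField A) {grdK M A hυ})
        (modularFunctionFieldFullC (ResidueField A) M)).comp ψ := by
    apply Polynomial.ringHom_ext
    · intro a
      have h1 : φ' (C a) = ⟨algebraMap (AlgebraicClosure ℚ) (modularFunctionFieldBar M)
          (a : AlgebraicClosure ℚ), grdO_algebraMap_mem M A a⟩ := by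
        apply Subtype.ext
        show Polynomial.eval₂RingHom (grdInclA M A) (grdQ M hυ) (C a) = _
        rw [Polynomial.coe_eval₂RingHom, Polynomial.eval₂_C]
        rfl
      rw [RingHom.comp_apply, h1, grdRed_algebraMap, RingHom.comp_apply]
      show _ = algebraMap _ _ (Polynomial.eval₂ _ ū' (C a))
      rw [Polynomial.eval₂_C]
      rfl
    · have h1 : φ' X = ⟨grdQ M hυ, hu⟩ := by
        apply Subtype.ext
        show Polynomial.eval₂RingHom (grdInclA M A) (grdQ M hυ) X = _
        rw [Polynomial.coe_eval₂RingHom, Polynomial.eval₂_X]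
      rw [RingHom.comp_apply, h1, grdRed_grdQ, RingHom.comp_apply]
      show _ = algebraMap _ _ (Polynomial.eval₂ _ ū' X)
      rw [Polynomial.eval₂_X]
      rfl
  have hzero : Polynomial.eval₂ φ' x p = 0 := by
    apply Subtype.ext
    have := Polynomial.hom_eval₂ p φ' (grdO M A).subtype x
    rw [show ((grdO M A).subtype (Polynomial.eval₂ φ' x p) : modularFunctionFieldBar M) =
      ((Polynomial.eval₂ φ' x p : ↥(grdO M A)) : modularFunctionFieldBar M) from rfl] at this
    rw [this]
    have hc : (grdO M A).subtype.comp φ' =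
        Polynomial.eval₂RingHom (grdInclA M A) (grdQ M hυ) := by
      ext <;> rfl
    rw [hc]
    exact hpx
  refine ⟨p.map ψ, hp.map _, ?_⟩
  rw [Polynomial.eval₂_map, ← hcomp, ← Polynomial.hom_eval₂, hzero, map_zero]

end Gauss

end Fermat.Agent.G
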