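/-
Program G, package G/Red, row G-RED-K-c NAK (helper7): the Nakayama step of (R3)
`grd_kernel_principal`, in abstract form.  Statement VERBATIM from helper8's
`G/Red/KernelSpec.lean` (origin/helper8 b1f8f03).

Route: `𝔫 = χ⁻¹(ϖ)` prime, `R = B_𝔫` noetherian local `A₀`-algebra (via `ι`), `χ_R : R → A₀` the
induced section; `hU` says `𝔪_R = (ϖ, t₀)`; `grd_section_kernel` gives `ker χ_R = (t₀ - ι χ t₀)`;
clear denominators.  Private helpers are prefixed `grdkk_`.
-/
import Mathlib
import Fermat.Agent.G.Red.SectionKernel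

set_option autoImplicit false

noncomputable section

namespace Fermat.Agent.G

open IsLocalRing

theorem grdk3_nak {A₀ B : Type*} [CommRing A₀] [IsDomain A₀] [IsDiscreteValuationRing A₀]
    [CommRing B] [IsNoetherianRing B] {ϖ : A₀} (hϖ : Irreducible ϖ) (ι : A₀ →+* B)
    (χ : B →+* A₀) (hχ : ∀ a : A₀, χ (ι a) = a) (t₀ : B) (ht₀ : ϖ ∣ χ t₀)
    (hU : ∀ y : B, ϖ ∣ χ y → ∃ s c d : B, ¬ ϖ ∣ χ s ∧ s * y = t₀ * c + ι ϖ * d)
    (b : B) (hb : χ b = 0) :
    ∃ s c : B, ¬ ϖ ∣ χ s ∧ s * b = (t₀ - ι (χ t₀)) * c := by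
  classical
  -- the prime `𝔫`
  have hmaxA : maximalIdeal A₀ = Ideal.span {ϖ} := hϖ.maximalIdeal_eq
  set 𝔫 : Ideal B := (Ideal.span {ϖ}).comap χ with h𝔫
  have hprimeA : (Ideal.span {ϖ} : Ideal A₀).IsPrime := by
    rw [← hmaxA]; infer_instance
  have h𝔫prime : 𝔫.IsPrime := Ideal.comap_isPrime χ _
  have hmem : ∀ y : B, y ∈ 𝔫 ↔ ϖ ∣ χ y := fun y => by
    rw [h𝔫, Ideal.mem_comap, Ideal.mem_span_singleton]
  -- the localisation
  let R := Localization.AtPrime 𝔫
  have : IsNoetherianRing R := IsLocalization.isNoetherianRing 𝔫.primeCompl R inferInstance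
  let : Algebra A₀ R := ((algebraMap B R).comp ι).toAlgebra
  have halg : ∀ a : A₀, algebraMap A₀ R a = algebraMap B R (ι a) := fun a => rfl
  -- the section
  have hunit : ∀ y : 𝔫.primeCompl, IsUnit (χ (y : B)) := by
    intro y
    have hy : (y : B) ∉ 𝔫 := y.2
    rw [hmem] at hy
    by_contra hnu
    have : χ (y : B) ∈ maximalIdeal A₀ := (mem_maximalIdeal _).mpr hnu
    rw [hmaxA, Ideal.mem_span_singleton] at this
    exact hy this
  let χR₀ : R →+* A₀ := IsLocalization.lift (M := 𝔫.primeCompl) (g := χ) hunit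
  have hχR₀ : ∀ y : B, χR₀ (algebraMap B R y) = χ y := fun y => IsLocalization.lift_eq hunit y
  let χR : R →ₐ[A₀] A₀ :=
    { χR₀ with
      commutes' := fun a => by
        show χR₀ (algebraMap A₀ R a) = a
        rw [halg, hχR₀, hχ] }
  have hχR : ∀ y : B, χR (algebraMap B R y) = χ y := hχR₀
  -- the maximal ideal
  have hmaxR : maximalIdeal R = Ideal.span {algebraMap A₀ R ϖ, algebraMap B R t₀} := by
    apply le_antisymm
    · intro x hx
      obtain ⟨⟨y, s⟩, rfl⟩ := IsLocalization.mk'_surjective 𝔫.primeCompl x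
      have hy : y ∈ 𝔫 := (IsLocalization.AtPrime.mk'_mem_maximal_iff R 𝔫 y s).mp hx
      obtain ⟨s', c, d, hs', hyeq⟩ := hU y ((hmem y).mp hy)
      have hs'' : s' ∈ 𝔫.primeCompl := fun h => hs' ((hmem s').mp h)
      have hu1 : IsUnit (algebraMap B R s') := IsLocalization.map_units R ⟨s', hs''⟩
      have hu2 : IsUnit (algebraMap B R (s : B)) := IsLocalization.map_units R s
      -- `mk' y s * s = y`, `s' * y = t₀ c + ϖ d`
      have h1 : IsLocalization.mk' R y s * algebraMap B R (s : B) = algebraMap B R y :=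
        IsLocalization.mk'_spec R y s
      have h2 : algebraMap B R s' * algebraMap B R y =
          algebraMap B R t₀ * algebraMap B R c + algebraMap A₀ R ϖ * algebraMap B R d := by
        rw [halg, ← map_mul, ← map_mul, ← map_mul, ← map_add, hyeq]
      have h3 : algebraMap B R s' * algebraMap B R (s : B) * IsLocalization.mk' R y s ∈
          Ideal.span {algebraMap A₀ R ϖ, algebraMap B R t₀} := by
        have : algebraMap B R s' * algebraMap B R (s : B) * IsLocalization.mk' R y s =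
            algebraMap B R d * algebraMap A₀ R ϖ + algebraMap B R c * algebraMap B R t₀ := by
          rw [mul_assoc, mul_comm (algebraMap B R (s : B)), h1, h2]
          ring
        rw [this]
        exact Ideal.mem_span_pair.mpr ⟨_, _, rfl⟩
      exact (Ideal.unit_mul_mem_iff_mem _ (hu1.mul hu2)).mp h3
    · rw [Ideal.span_le]
      rintro x (rfl | rfl)
      · rw [halg]
        refine (IsLocalization.AtPrime.to_map_mem_maximal_iff R 𝔫 _).mpr ?_
        rw [hmem, hχ]
      · refine (IsLocalization.AtPrime.to_map_mem_maximal_iff R 𝔫 _).mpr ?_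
        rw [hmem]
        exact ht₀
  -- the kernel of the section
  have hβ : ∃ c : A₀, χR (algebraMap B R t₀) = ϖ * c := by
    obtain ⟨c, hc⟩ := ht₀
    exact ⟨c, by rw [hχR, hc]⟩
  have hker := grd_section_kernel ϖ hϖ.ne_zero (algebraMap B R t₀) hmaxR χR hβ
  have hbker : algebraMap B R b ∈ RingHom.ker (χR : R →+* A₀) := by
    show χR (algebraMap B R b) = 0
    rw [hχR, hb]
  rw [hker, Ideal.mem_span_singleton'] at hbker
  obtain ⟨r, hr⟩ := hbker
  obtain ⟨⟨c, s⟩, rfl⟩ := IsLocalization.mk'_surjective 𝔫.primeCompl r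
  have hw : algebraMap B R t₀ - algebraMap A₀ R (χR (algebraMap B R t₀)) =
      algebraMap B R (t₀ - ι (χ t₀)) := by
    rw [hχR, halg, map_sub]
  rw [hw] at hr
  -- clear denominators
  have h1 : algebraMap B R (c * (t₀ - ι (χ t₀))) = algebraMap B R ((s : B) * b) := by
    rw [map_mul, map_mul, ← hr, ← IsLocalization.mk'_spec R c s]
    ring
  obtain ⟨u, hu⟩ := (IsLocalization.eq_iff_exists 𝔫.primeCompl R).mp h1
  refine ⟨(u : B) * (s : B), (u : B) * c, ?_, ?_⟩
  · rw [← hmem]
    exact (u * s).2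
  · rw [mul_assoc, ← hu]
    ring

end Fermat.Agent.G
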