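import Mathlib
import Fermat.Agent.S18.T.Defs
import Fermat.Agent.S18.T.LocalGood

/-!
# Program G, package G/Red, row 575 (K-a) : the chart ring `P = s18tInt A t` is noetherian

`P` is the integral closure of the noetherian integrally closed domain `A[t] ≅ A[X]` in the finite
separable (characteristic `0`) extension `F / L(t)`, hence a finite `A[t]`-module
(`IsIntegralClosure.isNoetherianRing`).
-/

set_option autoImplicit false
set_option linter.unusedSectionVars false
set_option linter.unusedVariables false
set_option linter.style.haveILetI false
set_option synthInstance.maxHeartbeats 400000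

noncomputable section

namespace Fermat.Agent.G

open IsLocalRing Polynomial IntermediateField Fermat.Agent.S18

section Abstract

universe u

variable {A : Type*} [CommRing A] [IsDomain A] [IsDiscreteValuationRing A] [CharZero A]
variable {L : Type*} [Field L] [Algebra A L] [IsFractionRing A L]
variable {F : Type u} [Field F] [Algebra A F] [Algebra L F] [IsScalarTower A L F]
variable {ϖ : A}

/-- The integral closure of `A[t]` in `F` (as a subalgebra) is a noetherian ring. -/
theorem grdkn_noeth_subalgebra (t : F) (ht : Transcendental L t) [FiniteDimensional L⟮t⟯ F] :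
    IsNoetherianRing ↥(integralClosure ↥(s18tChart A t) F) := by
  classical
  have htA : Transcendental A t := s18tb_transcendental ht
  have : IsIntegrallyClosed ↥(s18tChart A t) :=
    IsIntegrallyClosed.of_equiv (s18tlgE t htA).toRingEquiv
  have : IsNoetherianRing ↥(s18tChart A t) :=
    isNoetherianRing_of_ringEquiv A[X] (s18tlgE t htA).toRingEquiv
  letI : Algebra ↥(s18tChart A t) ↥L⟮t⟯ := (s18tlgChartToK0 L t).toAlgebra
  have : IsScalarTower ↥(s18tChart A t) ↥L⟮t⟯ F := IsScalarTower.of_algebraMap_eq (fun _ => rfl)
  have : IsFractionRing ↥(s18tChart A t) ↥L⟮t⟯ := s18tlg_isFractionRing ht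
  have : CharZero L := charZero_of_injective_algebraMap (IsFractionRing.injective A L)
  have : CharZero ↥L⟮t⟯ := charZero_of_injective_algebraMap (algebraMap L ↥L⟮t⟯).injective
  exact IsIntegralClosure.isNoetherianRing ↥(s18tChart A t) ↥L⟮t⟯ F
    ↥(integralClosure ↥(s18tChart A t) F)

/-- (K-a) THE CHART RING IS NOETHERIAN : `P = s18tInt A t` is the integral closure of the noetherian
integrally closed domain `A[t] ≅ A[X]` in the finite separable (characteristic `0`) extension
`F / L(t)` (`IsIntegralClosure.isNoetherianRing`, `s18tlg_isFractionRing`, `s18tlgE`). -/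
theorem grdk3_noetherian (t : F) (ht : Transcendental L t) [FiniteDimensional L⟮t⟯ F] :
    IsNoetherianRing ↥(s18tInt A t) := by
  have h := grdkn_noeth_subalgebra (A := A) (L := L) t ht
  let e : ↥(integralClosure ↥(s18tChart A t) F) ≃+* ↥(s18tInt A t) :=
    { toFun := fun x => ⟨x.1, x.2⟩
      invFun := fun x => ⟨x.1, x.2⟩
      left_inv := fun _ => rfl
      right_inv := fun _ => rfl
      map_mul' := fun _ _ => rfl
      map_add' := fun _ _ => rfl }
  exact isNoetherianRing_of_ringEquiv _ e

end Abstract

end Fermat.Agent.G
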