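import Mathlib
import Fermat.Agent.G.Red.Defs
import Fermat.Agent.G.GN

/-!
# Program G, package G/Red, leaf (C4) + (C5) : SATURATION AND FRACTIONS OF THE CHART RING
(row 553, helper27; statements VERBATIM from `G/Red/Spec.lean`, origin/helper12 28daca2)

* `grd_saturated` : `π x` integral over `𝔸[u]`, `x` in the Gauss ring `grdO`, `π ≠ 0` ⟹ `x`
  integral over `𝔸[u]`;
* `grd_frac` : every `x` of the Gauss ring is `b₁ / b₂` with `b₁, b₂` integral over `𝔸[u]`,
  `b̄₂ ≠ 0`.

Both by descent to a number field `E ⊂ ℚ̄` (large): `𝔸 ∩ E` is a DVR with uniformiser `ϖ`, the chart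
hypotheses `GrdChart.lvl` give `S18Coord` for `υ_E`, hence `s18vO = s18tIntLoc`, and then
`s18t_saturated` (iterated) resp. `s18t_intLoc_iff`.

Reusable (prefix `grdst`):
* `grdstUp M E : F_E(M) →+* F_ℚ̄(M)`, `grdst_square` (compatibility with `𝔸 ∩ E → 𝔸`, `υ_E ↦ υ_ℚ̄`);
* `grdst_descend_gauss`, `grdst_descend_int`, `grdst_ascend_int` : descent of Gauss-ring
  membership and descent / ascent of integrality over the chart ring;
* `grdst_mem_int_of_isIntegralElem`, `grdst_isIntegralElem_of_mem_int` : `s18tInt` versus the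
  polynomial form of integrality;
* `grdst_saturated_pow`, `grdst_saturated_const` : iterated saturation.
-/

set_option autoImplicit false
set_option linter.unusedSectionVars false
set_option linter.unusedVariables false
set_option synthInstance.maxHeartbeats 400000

noncomputable section

namespace Fermat.Agent.G

open ModularCurve AlgebraicCurve IsLocalRing Polynomial Fermat.Agent.S18 Fermat.Agent.S24

/-! ### Generic lemmas on integrality -/

section Generic

variable {R S R' S' : Type*} [CommRing R] [CommRing S] [CommRing R'] [CommRing S']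

/-- integrality passes along a commuting square -/
theorem grdst_isIntegralElem_map (f : R →+* S) (g : R' →+* S') (φ : R →+* R') (ψ : S →+* S')
    (h : g.comp φ = ψ.comp f) {x : S} (hx : f.IsIntegralElem x) : g.IsIntegralElem (ψ x) := by
  obtain ⟨p, hp, hpx⟩ := hx
  refine ⟨p.map φ, hp.map φ, ?_⟩
  rw [eval₂_map, h, ← hom_eval₂, hpx, map_zero]

/-- descent of an integrality equation along a commuting square with injective vertical maps -/
theorem grdst_isIntegralElem_descend (f : R →+* S) (g : R' →+* S') (φ : R →+* R') (ψ : S →+* S')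
    (h : g.comp φ = ψ.comp f) (hφ : Function.Injective φ) (hψ : Function.Injective ψ) {x : S}
    (p : R'[X]) (hp : p.Monic) (hpx : eval₂ g (ψ x) p = 0) (hmem : p ∈ (mapRingHom φ).range) :
    f.IsIntegralElem x := by
  obtain ⟨p', rfl⟩ := hmem
  refine ⟨p', monic_of_injective hφ hp, hψ ?_⟩
  rw [hom_eval₂, ← h, map_zero]
  rw [coe_mapRingHom, eval₂_map] at hpx
  exact hpx

end Generic

section Bridge

variable {A₀ : Type*} [CommRing A₀] {F : Type*} [Field F] [Algebra A₀ F]

/-- `x` integral over `A₀[t]` (polynomial form) ⟹ `x ∈ s18tInt A₀ t`. -/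
theorem grdst_mem_int_of_isIntegralElem (t x : F)
    (hx : ((aeval t : A₀[X] →ₐ[A₀] F) : A₀[X] →+* F).IsIntegralElem x) : x ∈ s18tInt A₀ t := by
  let π : A₀[X] →ₐ[A₀] ↥(s18tChart A₀ t) :=
    (aeval t : A₀[X] →ₐ[A₀] F).codRestrict (s18tChart A₀ t) (fun a => by
      unfold s18tChart
      exact aeval_mem_adjoin_singleton A₀ t)
  have hcomp : (algebraMap ↥(s18tChart A₀ t) F).comp (π : A₀[X] →+* ↥(s18tChart A₀ t)) =
      ((aeval t : A₀[X] →ₐ[A₀] F) : A₀[X] →+* F) := RingHom.ext fun a => rfl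
  rw [← hcomp] at hx
  exact RingHom.IsIntegralElem.of_comp hx

/-- `x ∈ s18tInt A₀ t` ⟹ `x` integral over `A₀[t]` (polynomial form). -/
theorem grdst_isIntegralElem_of_mem_int (t x : F) (hx : x ∈ s18tInt A₀ t) :
    ((aeval t : A₀[X] →ₐ[A₀] F) : A₀[X] →+* F).IsIntegralElem x := by
  obtain ⟨p, hp, hpx⟩ := hx
  let π : A₀[X] →ₐ[A₀] ↥(s18tChart A₀ t) :=
    (aeval t : A₀[X] →ₐ[A₀] F).codRestrict (s18tChart A₀ t) (fun a => by
      unfold s18tChart
      exact aeval_mem_adjoin_singleton A₀ t)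
  have hcomp : (algebraMap ↥(s18tChart A₀ t) F).comp (π : A₀[X] →+* ↥(s18tChart A₀ t)) =
      ((aeval t : A₀[X] →ₐ[A₀] F) : A₀[X] →+* F) := RingHom.ext fun a => rfl
  have hsurj : Function.Surjective (π : A₀[X] →+* ↥(s18tChart A₀ t)) := by
    rintro ⟨y, hy⟩
    have hy' : y ∈ (aeval t : A₀[X] →ₐ[A₀] F).range := by
      rw [← Algebra.adjoin_singleton_eq_range_aeval]; exact hy
    obtain ⟨a, rfl⟩ := hy'
    exact ⟨a, Subtype.ext rfl⟩
  have hl : p ∈ lifts (π : A₀[X] →+* ↥(s18tChart A₀ t)) := by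
    rw [mem_lifts]
    exact map_surjective _ hsurj p
  obtain ⟨q, hq, -, hqm⟩ := lifts_and_degree_eq_and_monic hl hp
  refine ⟨q, hqm, ?_⟩
  rw [← hcomp, ← eval₂_map, hq]
  exact hpx

end Bridge

section Up

variable (M : ℕ) [NeZero M] (A : ValuationSubring (AlgebraicClosure ℚ))
variable (E : IntermediateField ℚ (AlgebraicClosure ℚ))

/-- base change `F_E(M) → F_ℚ̄(M)` -/
def grdstUp : ↥(modularFunctionFieldFullC E M) →+* ↥(modularFunctionFieldBar M) where
  toFun x := ⟨s18dUp E (x : LaurentSeries E), s18db_up_mem E M x x.2⟩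
  map_one' := Subtype.ext (map_one _)
  map_mul' x y := Subtype.ext (map_mul _ _ _)
  map_zero' := Subtype.ext (map_zero _)
  map_add' x y := Subtype.ext (map_add _ _ _)

theorem grdstUp_coe (x : ↥(modularFunctionFieldFullC E M)) :
    ((grdstUp M E x : ↥(modularFunctionFieldBar M)) : LaurentSeries (AlgebraicClosure ℚ)) =
      s18dUp E (x : LaurentSeries E) := rfl

theorem grdstUp_injective : Function.Injective (grdstUp M E) := (grdstUp M E).injective

/-- constants -/
theorem grdstUp_algebraMap (a : s18dVal A E) :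
    grdstUp M E (algebraMap (s18dVal A E) ↥(modularFunctionFieldFullC E M) a) =
      grdInclA M A (s18dIncl A E a) := by
  apply Subtype.ext
  rw [grdstUp_coe, s18v_coe_algebraMap, s18dd_coeffMap_algebraMap]
  rfl

/-- the chart coordinate -/
theorem grdstUp_coord {υ : LaurentSeries ℤ} (hυ : GrdSerMem M υ) :
    grdstUp M E ⟨grdSer υ E, hυ E⟩ = grdQ M hυ := by
  apply Subtype.ext
  rw [grdstUp_coe]
  exact grdSer_coeffMap υ (algebraMap E (AlgebraicClosure ℚ))

/-- the commuting square -/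
theorem grdst_square {υ : LaurentSeries ℤ} (hυ : GrdSerMem M υ) :
    (Polynomial.eval₂RingHom (grdInclA M A) (grdQ M hυ)).comp (mapRingHom (s18dIncl A E)) =
      (grdstUp M E).comp ((aeval (⟨grdSer υ E, hυ E⟩ : ↥(modularFunctionFieldFullC E M)) :
        (s18dVal A E)[X] →ₐ[s18dVal A E] ↥(modularFunctionFieldFullC E M)) :
          (s18dVal A E)[X] →+* ↥(modularFunctionFieldFullC E M)) := by
  apply Polynomial.ringHom_ext
  · intro a
    simp only [RingHom.comp_apply, coe_mapRingHom, map_C, coe_eval₂RingHom, eval₂_C,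
      AlgHom.coe_toRingHom, aeval_C]
    exact (grdstUp_algebraMap M A E a).symm
  · simp only [RingHom.comp_apply, coe_mapRingHom, map_X, coe_eval₂RingHom, eval₂_X,
      AlgHom.coe_toRingHom, aeval_X]
    exact (grdstUp_coord M E hυ).symm

theorem grdst_incl_injective : Function.Injective (s18dIncl A E) := by
  intro a b h
  apply Subtype.ext
  have := congrArg (fun x : A => (x : AlgebraicClosure ℚ)) h
  exact (algebraMap E (AlgebraicClosure ℚ)).injective this

theorem grdst_mem_incl_range {a : A} (h : (a : AlgebraicClosure ℚ) ∈ E) :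
    a ∈ (s18dIncl A E).range :=
  ⟨⟨⟨(a : AlgebraicClosure ℚ), h⟩, a.2⟩, Subtype.ext rfl⟩

end Up


section Descent

variable (M : ℕ) [NeZero M] (A : ValuationSubring (AlgebraicClosure ℚ))

theorem grdst_exists_field (T : Finset (AlgebraicClosure ℚ)) :
    ∃ E : IntermediateField ℚ (AlgebraicClosure ℚ), FiniteDimensional ℚ E ∧ ∀ c ∈ T, c ∈ E := by
  have : Algebra.IsAlgebraic ℚ (AlgebraicClosure ℚ) := AlgebraicClosure.isAlgebraic ℚ
  refine ⟨IntermediateField.adjoin ℚ (T : Set (AlgebraicClosure ℚ)), ?_,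
    fun c hc => IntermediateField.subset_adjoin _ _ hc⟩
  exact IntermediateField.finiteDimensional_adjoin (fun x _ => Algebra.IsIntegral.isIntegral x)

/-- a polynomial over `𝔸[X]` is defined over `𝔸 ∩ E` for `E` large -/
theorem grdst_exists_field_poly (p : A[X][X]) :
    ∃ E₁ : IntermediateField ℚ (AlgebraicClosure ℚ), FiniteDimensional ℚ E₁ ∧
      ∀ E : IntermediateField ℚ (AlgebraicClosure ℚ), E₁ ≤ E →
        ∃ p' : (s18dVal A E)[X][X], p'.map (mapRingHom (s18dIncl A E)) = p := by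
  classical
  obtain ⟨E₁, hfd, hE₁⟩ := grdst_exists_field
    (p.support.biUnion fun i => (p.coeff i).support.image
      fun j => (((p.coeff i).coeff j : A) : AlgebraicClosure ℚ))
  refine ⟨E₁, hfd, fun E hE => ?_⟩
  have key : p ∈ lifts (mapRingHom (s18dIncl A E)) := ?_
  · exact (mem_lifts _).mp key
  rw [lifts_iff_coeff_lifts]
  intro i
  have key2 : p.coeff i ∈ lifts (s18dIncl A E) := ?_
  · obtain ⟨q, hq⟩ := (mem_lifts _).mp key2
    exact ⟨q, hq⟩
  rw [lifts_iff_coeff_lifts]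
  intro j
  have key3 : (p.coeff i).coeff j ∈ (s18dIncl A E).range := ?_
  · obtain ⟨q, hq⟩ := key3
    exact ⟨q, hq⟩
  by_cases h0 : (p.coeff i).coeff j = 0
  · rw [h0]; exact zero_mem _
  apply grdst_mem_incl_range
  apply hE
  apply hE₁
  rw [Finset.mem_biUnion]
  refine ⟨i, ?_, Finset.mem_image.mpr ⟨j, mem_support_iff.mpr h0, rfl⟩⟩
  rw [mem_support_iff]
  intro h
  rw [h, coeff_zero] at h0
  exact h0 rfl

/-- every element of `F_ℚ̄(M)` is defined over `E` for `E` large -/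
theorem grdst_exists_field_elem (x : ↥(modularFunctionFieldBar M)) :
    ∃ E₁ : IntermediateField ℚ (AlgebraicClosure ℚ), FiniteDimensional ℚ E₁ ∧
      ∀ E : IntermediateField ℚ (AlgebraicClosure ℚ), E₁ ≤ E →
        ∃ z : ↥(modularFunctionFieldFullC E M), grdstUp M E z = x := by
  obtain ⟨E₁, hfd, z, hz, hzx⟩ := s18dd_exists_model M _ x.2
  refine ⟨E₁, hfd, fun E hE => ?_⟩
  obtain ⟨h1, h2⟩ := s18dd_model_mono M hE z hz
  exact ⟨⟨_, h1⟩, Subtype.ext (h2.trans hzx)⟩

/-- every integral series with generic fibre in `F_ℚ̄(M)` is defined over `𝔸 ∩ E` for `E` large -/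
theorem grdst_exists_field_series (a : LaurentSeries A)
    (ha : coeffMap A.subtype a ∈ modularFunctionFieldBar M) :
    ∃ E₁ : IntermediateField ℚ (AlgebraicClosure ℚ), FiniteDimensional ℚ E₁ ∧
      ∀ E : IntermediateField ℚ (AlgebraicClosure ℚ), E₁ ≤ E →
        ∃ v : LaurentSeries (s18dVal A E), coeffMap (s18dIncl A E) v = a ∧
          s18vIncl (s18dVal A E) E v ∈ modularFunctionFieldFullC E M := by
  obtain ⟨E₁, hfd, h⟩ := grdst_exists_field_elem M ⟨_, ha⟩
  refine ⟨E₁, hfd, fun E hE => ?_⟩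
  obtain ⟨z, hz⟩ := h E hE
  have hz' : s18dUp E (z : LaurentSeries E) = coeffMap A.subtype a := congrArg Subtype.val hz
  obtain ⟨v, hv1, hv2⟩ := s18dd_exists_coeff (A := A) a (z : LaurentSeries E) hz'
  refine ⟨v, hv1, ?_⟩
  have : s18vIncl (s18dVal A E) E v = (z : LaurentSeries E) := hv2
  rw [this]
  exact z.2

end Descent


section Transfer

variable (M : ℕ) [NeZero M] (A : ValuationSubring (AlgebraicClosure ℚ))

/-- an element of the Gauss ring of `F_ℚ̄(M)` is defined over `E`, in the Gauss ring of `F_E(M)`,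
for `E` large -/
theorem grdst_descend_gauss (x : ↥(grdO M A)) :
    ∃ E₁ : IntermediateField ℚ (AlgebraicClosure ℚ), FiniteDimensional ℚ E₁ ∧
      ∀ E : IntermediateField ℚ (AlgebraicClosure ℚ), E₁ ≤ E →
        ∃ z : ↥(modularFunctionFieldFullC E M), grdstUp M E z = (x : ↥(modularFunctionFieldBar M)) ∧
          z ∈ s18vO (s18dVal A E) (modularFunctionFieldFullC E M) := by
  obtain ⟨a, b, ha, hb, hb0, hx⟩ := x.2
  obtain ⟨E₁, hfd₁, h₁⟩ := grdst_exists_field_elem M (x : ↥(modularFunctionFieldBar M))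
  obtain ⟨E₂, hfd₂, h₂⟩ := grdst_exists_field_series M A a ha.1
  obtain ⟨E₃, hfd₃, h₃⟩ := grdst_exists_field_series M A b hb.1
  refine ⟨E₁ ⊔ E₂ ⊔ E₃, inferInstance, fun E hE => ?_⟩
  obtain ⟨z, hz⟩ := h₁ E (le_trans (le_trans le_sup_left le_sup_left) hE)
  obtain ⟨va, hva, hva'⟩ := h₂ E (le_trans (le_trans le_sup_right le_sup_left) hE)
  obtain ⟨vb, hvb, hvb'⟩ := h₃ E (le_trans le_sup_right hE)
  refine ⟨z, hz, va, vb, hva', hvb', ?_, ?_⟩
  · intro h0
    apply hb0
    have := (s18d_res_eq_iff A E vb 0).mp (by rw [h0, map_zero])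
    rw [hvb, map_zero, map_zero] at this
    exact this
  · apply s18dd_coeffMap_injective (algebraMap E (AlgebraicClosure ℚ))
    have hz' : s18dUp E (z : LaurentSeries E) =
        ((x : ↥(modularFunctionFieldBar M)) : LaurentSeries (AlgebraicClosure ℚ)) :=
      congrArg Subtype.val hz
    change s18dUp E ((z : LaurentSeries E) * s18vIncl (s18dVal A E) E vb) =
      s18dUp E (s18vIncl (s18dVal A E) E va)
    rw [map_mul, s18d_up_incl, s18d_up_incl, hva, hvb, hz']
    exact hx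

variable {υ : LaurentSeries ℤ}

/-- ascent of integrality -/
theorem grdst_ascend_int (hυ : GrdSerMem M υ) (E : IntermediateField ℚ (AlgebraicClosure ℚ))
    (z : ↥(modularFunctionFieldFullC E M))
    (hz : z ∈ s18tInt (s18dVal A E) (⟨grdSer υ E, hυ E⟩ : ↥(modularFunctionFieldFullC E M))) :
    GrdIsInt M A (grdQ M hυ) (grdstUp M E z) :=
  grdst_isIntegralElem_map _ _ _ _ (grdst_square M A E hυ)
    (grdst_isIntegralElem_of_mem_int _ z hz)

/-- descent of integrality -/
theorem grdst_descend_int (hυ : GrdSerMem M υ) (y : ↥(modularFunctionFieldBar M))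
    (hy : GrdIsInt M A (grdQ M hυ) y) :
    ∃ E₁ : IntermediateField ℚ (AlgebraicClosure ℚ), FiniteDimensional ℚ E₁ ∧
      ∀ E : IntermediateField ℚ (AlgebraicClosure ℚ), E₁ ≤ E →
        ∀ z : ↥(modularFunctionFieldFullC E M), grdstUp M E z = y →
          z ∈ s18tInt (s18dVal A E) (⟨grdSer υ E, hυ E⟩ : ↥(modularFunctionFieldFullC E M)) := by
  obtain ⟨p, hp, hpy⟩ := hy
  obtain ⟨E₁, hfd, h⟩ := grdst_exists_field_poly A p
  refine ⟨E₁, hfd, fun E hE z hz => ?_⟩
  obtain ⟨p', hp'⟩ := h E hE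
  apply grdst_mem_int_of_isIntegralElem
  refine grdst_isIntegralElem_descend _ _ _ _ (grdst_square M A E hυ)
    (map_injective _ (grdst_incl_injective A E)) (grdstUp_injective M E) p hp ?_ ⟨p', hp'⟩
  rw [hz]
  exact hpy

end Transfer


section SatPow

open IntermediateField

universe u

variable {A₀ : Type*} [CommRing A₀] [IsDomain A₀] [IsDiscreteValuationRing A₀] [CharZero A₀]
variable {L₀ : Type*} [Field L₀] [Algebra A₀ L₀] [IsFractionRing A₀ L₀]
variable {F₀ : Type u} [Field F₀] [Algebra A₀ F₀] [Algebra L₀ F₀] [IsScalarTower A₀ L₀ F₀]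
variable {ϖ : A₀}

theorem grdst_algebraMap_mem_int (t : F₀) (a : A₀) : algebraMap A₀ F₀ a ∈ s18tInt A₀ t :=
  s18tc_algebraMap_mem_int t a

/-- iterated saturation -/
theorem grdst_saturated_pow (hϖ : Irreducible ϖ) (t : F₀) (ht : Transcendental L₀ t)
    [FiniteDimensional L₀⟮t⟯ F₀] (m : ℕ) (y : F₀)
    (hy : y ∈ s18tIntLoc A₀ t (C ϖ) (s18t_prime_C hϖ))
    (hx : algebraMap A₀ F₀ (ϖ ^ m) * y ∈ s18tInt A₀ t) : y ∈ s18tInt A₀ t := by
  induction m with
  | zero => simpa using hx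
  | succ m ih =>
    apply ih
    apply s18t_saturated (L := L₀) hϖ t ht
    · exact Subring.mul_mem _
        (s18tInt_le_intLoc hϖ t (grdst_algebraMap_mem_int t (ϖ ^ m))) hy
    · rw [← mul_assoc, ← map_mul, ← pow_succ']
      exact hx

/-- saturation for an arbitrary nonzero constant -/
theorem grdst_saturated_const (hϖ : Irreducible ϖ) (t : F₀) (ht : Transcendental L₀ t)
    [FiniteDimensional L₀⟮t⟯ F₀] (π : A₀) (hπ : π ≠ 0) (y : F₀)
    (hy : y ∈ s18tIntLoc A₀ t (C ϖ) (s18t_prime_C hϖ))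
    (hx : algebraMap A₀ F₀ π * y ∈ s18tInt A₀ t) : y ∈ s18tInt A₀ t := by
  obtain ⟨m, u, hu⟩ := IsDiscreteValuationRing.associated_pow_irreducible hπ hϖ
  apply grdst_saturated_pow (L₀ := L₀) hϖ t ht m y hy
  rw [← hu, map_mul, mul_assoc, mul_comm (algebraMap A₀ F₀ (u : A₀)), ← mul_assoc]
  exact Subring.mul_mem _ hx (grdst_algebraMap_mem_int t _)

end SatPow


section Series

variable (M : ℕ) [NeZero M] (A : ValuationSubring (AlgebraicClosure ℚ))

/-- `coeffMap f` commutes with evaluation of polynomials in a series -/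
theorem grdst_coeffMap_eval {R R' : Type*} [CommRing R] [CommRing R'] (f : R →+* R')
    (τ : LaurentSeries R) (q : R[X]) :
    coeffMap f (eval₂ HahnSeries.C τ q) = eval₂ HahnSeries.C (coeffMap f τ) (q.map f) := by
  rw [Polynomial.hom_eval₂, Polynomial.eval₂_map]
  congr 1
  ext c : 1
  exact coeffMap_single _ _ _

/-- the underlying series of `q(u)`, `q ∈ 𝔸[X]` -/
theorem grdst_coe_eval {υ : LaurentSeries ℤ} (hυ : GrdSerMem M υ) (q : A[X]) :
    ((eval₂ (grdInclA M A) (grdQ M hυ) q : ↥(modularFunctionFieldBar M)) :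
      LaurentSeries (AlgebraicClosure ℚ)) =
      coeffMap A.subtype (eval₂ HahnSeries.C (grdSer υ A) q) := by
  rw [grdst_coeffMap_eval, grdSer_coeffMap, Polynomial.eval₂_map]
  have h1 := Polynomial.hom_eval₂ q (grdInclA M A)
    (algebraMap ↥(modularFunctionFieldBar M) (LaurentSeries (AlgebraicClosure ℚ))) (grdQ M hυ)
  refine h1.trans ?_
  congr 1
  ext c : 1
  change algebraMap (AlgebraicClosure ℚ) (LaurentSeries (AlgebraicClosure ℚ))
    (c : AlgebraicClosure ℚ) = _
  rw [algebraMap_laurentSeries_eq_single]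
  rfl

/-- the underlying series of `q(ū)`, `q ∈ k[X]` -/
theorem grdst_coe_aevalK {υ : LaurentSeries ℤ} (hυ : GrdSerMem M υ) (q : (ResidueField A)[X]) :
    ((aeval (grdK M A hυ) q : ↥(modularFunctionFieldFullC (ResidueField A) M)) :
      LaurentSeries (ResidueField A)) =
      eval₂ HahnSeries.C (grdSer υ (ResidueField A)) q := by
  rw [aeval_def]
  have h1 := Polynomial.hom_eval₂ q
    (algebraMap (ResidueField A) ↥(modularFunctionFieldFullC (ResidueField A) M))
    (algebraMap ↥(modularFunctionFieldFullC (ResidueField A) M)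
      (LaurentSeries (ResidueField A))) (grdK M A hυ)
  refine h1.trans ?_
  congr 1
  ext c : 1
  change algebraMap (ResidueField A) (LaurentSeries (ResidueField A)) c = _
  rw [algebraMap_laurentSeries_eq_single]
  rfl

end Series

section ChartAlgebra

variable (M : ℕ) [NeZero M] {ℓ : ℕ} [Fact ℓ.Prime]
variable (A : ValuationSubring (AlgebraicClosure ℚ))
variable {υ : LaurentSeries ℤ}

/-- (C4) SATURATION (`s18t_saturated` + descent) : `π x` integral over `𝔸[u]`, `x` in the Gauss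
ring, `π ≠ 0` ⟹ `x` integral over `𝔸[u]`. -/
theorem grd_saturated (hℓM : ¬ ℓ ∣ M) (hA : A.LiesOverPrime ℓ) (hc : GrdChart M A υ)
    (x : ↥(grdO M A)) (π : A) (hπ : π ≠ 0)
    (h : GrdIsInt M A (grdQ M hc.mem)
      (algebraMap (AlgebraicClosure ℚ) (modularFunctionFieldBar M) (π : AlgebraicClosure ℚ) *
        (x : modularFunctionFieldBar M))) :
    GrdIsInt M A (grdQ M hc.mem) (x : modularFunctionFieldBar M) := by
  obtain ⟨E₀, hfd₀, hlvl⟩ := hc.lvl
  obtain ⟨E₁, hfd₁, h₁⟩ := grdst_descend_gauss M A x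
  obtain ⟨E₂, hfd₂, h₂⟩ := grdst_descend_int M A hc.mem _ h
  obtain ⟨E₃, hfd₃, h₃⟩ := grdst_exists_field {(π : AlgebraicClosure ℚ)}
  have hE₀ : E₀ ≤ E₀ ⊔ E₁ ⊔ E₂ ⊔ E₃ := le_trans (le_trans le_sup_left le_sup_left) le_sup_left
  have hE₁ : E₁ ≤ E₀ ⊔ E₁ ⊔ E₂ ⊔ E₃ := le_trans (le_trans le_sup_right le_sup_left) le_sup_left
  have hE₂ : E₂ ≤ E₀ ⊔ E₁ ⊔ E₂ ⊔ E₃ := le_trans le_sup_right le_sup_left
  have hE₃ : E₃ ≤ E₀ ⊔ E₁ ⊔ E₂ ⊔ E₃ := le_sup_right
  have hfd : FiniteDimensional ℚ ↥(E₀ ⊔ E₁ ⊔ E₂ ⊔ E₃) := inferInstance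
  generalize E₀ ⊔ E₁ ⊔ E₂ ⊔ E₃ = E at hE₀ hE₁ hE₂ hE₃ hfd
  have : IsDiscreteValuationRing (s18dVal A E) := s18d_isDVR A E hA
  have : CharZero (s18dVal A E) := ggn_charZero A E
  obtain ⟨ϖ, hϖ⟩ := IsDiscreteValuationRing.exists_irreducible (s18dVal A E)
  obtain ⟨hcoord, S, hchart⟩ := hlvl E hE₀ hfd ϖ hϖ
  obtain ⟨z, hz, hzO⟩ := h₁ E hE₁
  rw [← hz]
  apply grdst_ascend_int
  have := hcoord.fin
  have hπE : (π : AlgebraicClosure ℚ) ∈ E := hE₃ (h₃ _ (Finset.mem_singleton_self _))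
  refine grdst_saturated_const (L₀ := E) hϖ _ hcoord.transc
    (⟨⟨(π : AlgebraicClosure ℚ), hπE⟩, π.2⟩ : s18dVal A E) ?_ z ?_ ?_
  · intro h0
    apply hπ
    apply Subtype.ext
    have := congrArg (fun a : s18dVal A E => algebraMap E (AlgebraicClosure ℚ) (a : E)) h0
    simpa using this
  · rw [hcoord.intLoc_eq]; exact hzO
  · apply h₂ E hE₂
    rw [map_mul, hz, grdstUp_algebraMap]
    rfl

/-- (C5) the Gauss ring consists of fractions `b₁/b₂` of elements integral over `𝔸[u]` with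
`b̄₂ ≠ 0` (`s18t_intLoc_iff` + `S18Coord.intLoc_eq` + descent). -/
theorem grd_frac (hℓM : ¬ ℓ ∣ M) (hA : A.LiesOverPrime ℓ) (hc : GrdChart M A υ)
    (x : ↥(grdO M A)) :
    ∃ b₁ b₂ : ↥(grdO M A), GrdIsInt M A (grdQ M hc.mem) (b₁ : modularFunctionFieldBar M) ∧
      GrdIsInt M A (grdQ M hc.mem) (b₂ : modularFunctionFieldBar M) ∧ grdRed M A b₂ ≠ 0 ∧
      (x : modularFunctionFieldBar M) * b₂ = b₁ := by
  obtain ⟨E₀, hfd₀, hlvl⟩ := hc.lvl
  obtain ⟨E₁, hfd₁, h₁⟩ := grdst_descend_gauss M A x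
  have hE₀ : E₀ ≤ E₀ ⊔ E₁ := le_sup_left
  have hE₁ : E₁ ≤ E₀ ⊔ E₁ := le_sup_right
  have hfd : FiniteDimensional ℚ ↥(E₀ ⊔ E₁) := inferInstance
  generalize E₀ ⊔ E₁ = E at hE₀ hE₁ hfd
  have : IsDiscreteValuationRing (s18dVal A E) := s18d_isDVR A E hA
  have : CharZero (s18dVal A E) := ggn_charZero A E
  obtain ⟨ϖ, hϖ⟩ := IsDiscreteValuationRing.exists_irreducible (s18dVal A E)
  obtain ⟨hcoord, S, hchart⟩ := hlvl E hE₀ hfd ϖ hϖ
  obtain ⟨z, hz, hzO⟩ := h₁ E hE₁
  rw [← hcoord.intLoc_eq] at hzO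
  obtain ⟨b, hb, hbz⟩ := (s18t_intLoc_iff hϖ _ z).mp hzO
  -- the series of `b(u)`
  have hy1 : coeffMap A.subtype (eval₂ HahnSeries.C (grdSer υ A) (b.map (s18dIncl A E))) =
      ((grdstUp M E (aeval (⟨grdSer υ E, hc.mem E⟩ : ↥(modularFunctionFieldFullC E M)) b) :
        ↥(modularFunctionFieldBar M)) : LaurentSeries (AlgebraicClosure ℚ)) := by
    rw [← grdst_coe_eval M A hc.mem]
    have := congrArg (fun f => f b) (grdst_square M A E hc.mem)
    simp only [RingHom.comp_apply, coe_mapRingHom, coe_eval₂RingHom, AlgHom.coe_toRingHom] at this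
    rw [this]
  have hy2 : coeffMap (residue A) (eval₂ HahnSeries.C (grdSer υ A) (b.map (s18dIncl A E))) =
      ((aeval (grdK M A hc.mem) ((b.map (s18dIncl A E)).map (residue A)) :
        ↥(modularFunctionFieldFullC (ResidueField A) M)) : LaurentSeries (ResidueField A)) := by
    rw [grdst_coe_aevalK, grdst_coeffMap_eval, grdSer_coeffMap]
  have hgood : S18Good M A (eval₂ HahnSeries.C (grdSer υ A) (b.map (s18dIncl A E))) :=
    ⟨by rw [hy1]; exact Subtype.property _, by rw [hy2]; exact Subtype.property _⟩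
  have hgen : hgood.gen =
      grdstUp M E (aeval (⟨grdSer υ E, hc.mem E⟩ : ↥(modularFunctionFieldFullC E M)) b) :=
    Subtype.ext hy1
  -- the reduction of `b` is nonzero
  have hbbar : (b.map (s18dIncl A E)).map (residue A) ≠ 0 := by
    intro h0
    apply s18vg_map_ne_zero hϖ b hb
    ext i
    have h1 := congrArg (fun p => Polynomial.coeff p i) h0
    simp only [coeff_map, coeff_zero] at h1 ⊢
    exact (s18db_residue_eq_zero_iff A E (b.coeff i)).mpr h1
  have hspec : hgood.spec ≠ 0 := by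
    intro h0
    have h1 : (aeval (grdK M A hc.mem) ((b.map (s18dIncl A E)).map (residue A)) :
        ↥(modularFunctionFieldFullC (ResidueField A) M)) = 0 := by
      apply Subtype.ext
      rw [← hy2]
      exact congrArg Subtype.val h0
    exact hc.sepK.transcendental ⟨_, hbbar, h1⟩
  have hb₂ : hgood.gen ∈ grdO M A := grd_gen_mem hgood
  refine ⟨x * ⟨hgood.gen, hb₂⟩, ⟨hgood.gen, hb₂⟩, ?_, ?_, ?_, ?_⟩
  · have h2 := grdst_ascend_int M A hc.mem E _ hbz
    rw [map_mul, hz, ← hgen, mul_comm] at h2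
    exact h2
  · have h2 := grdst_ascend_int M A hc.mem E _ (s18tlg_aeval_mem_int
      (⟨grdSer υ E, hc.mem E⟩ : ↥(modularFunctionFieldFullC E M)) b)
    rw [← hgen] at h2
    exact h2
  · rw [grdRed_gen]
    exact hspec
  · exact (Subring.coe_mul (grdO M A) x ⟨hgood.gen, hb₂⟩).symm

end ChartAlgebra

end Fermat.Agent.G
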