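import Mathlib
import Fermat.Agent.G.Red.Defs
import Fermat.Agent.S24.Places
import Fermat.Agent.S24.PlacesCenter

/-!
# Program G, package G/Red, row G1 : values of functions at places (`GrdVal`)

Generic facts on places of a function field `F/K` (S24 API): `GrdVal P x a` means `x(P) = a`.
-/

set_option autoImplicit false
set_option linter.unusedSectionVars false
set_option linter.unusedVariables false

noncomputable section

namespace Fermat.Agent.G

open ModularCurve AlgebraicCurve IsLocalRing Polynomial Fermat.Agent.S18 Fermat.Agent.S24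

section Generic

variable {K F : Type*} [Field K] [Field F] [Algebra K F]

theorem grdv_valuation_algebraMap (P : Place K F) {c : K} (hc : c ≠ 0) :
    P.toValuationSubring.valuation (algebraMap K F c) = 1 := by
  have h1 : P.toValuationSubring.valuation (algebraMap K F c) ≤ 1 :=
    (P.toValuationSubring.valuation_le_one_iff _).2 (P.algebraMap_mem' c)
  have h2 : P.toValuationSubring.valuation (algebraMap K F c⁻¹) ≤ 1 :=
    (P.toValuationSubring.valuation_le_one_iff _).2 (P.algebraMap_mem' c⁻¹)
  have h3 : P.toValuationSubring.valuation (algebraMap K F c) *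
      P.toValuationSubring.valuation (algebraMap K F c⁻¹) = 1 := by
    rw [← map_mul, ← map_mul, mul_inv_cancel₀ hc, map_one, map_one]
  by_contra hne
  have hlt : P.toValuationSubring.valuation (algebraMap K F c) < 1 := lt_of_le_of_ne h1 hne
  have : P.toValuationSubring.valuation (algebraMap K F c) *
      P.toValuationSubring.valuation (algebraMap K F c⁻¹) < 1 := by
    calc _ ≤ P.toValuationSubring.valuation (algebraMap K F c) * 1 := by gcongr
      _ < 1 := by rwa [mul_one]
  rw [h3] at this
  exact lt_irrefl _ this

theorem grdg_val_mem (P : Place K F) {x : F} {a : K} (h : GrdVal P x a) :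
    x ∈ P.toValuationSubring := by
  have h1 : x - algebraMap K F a ∈ P.toValuationSubring :=
    P.toValuationSubring.nonunits_subset h
  have h2 := P.toValuationSubring.add_mem _ _ h1 (P.algebraMap_mem' a)
  rwa [sub_add_cancel] at h2

theorem grdg_val_unique (P : Place K F) {x : F} {a b : K} (ha : GrdVal P x a)
    (hb : GrdVal P x b) : a = b := by
  by_contra hne
  have h1 : (x - algebraMap K F b) - (x - algebraMap K F a) ∈ P.toValuationSubring.nonunits :=
    sub_mem hb ha
  have h2 : (x - algebraMap K F b) - (x - algebraMap K F a) = algebraMap K F (a - b) := by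
    rw [map_sub]; ring
  rw [h2, ValuationSubring.mem_nonunits_iff, grdv_valuation_algebraMap P (sub_ne_zero.2 hne)] at h1
  exact lt_irrefl _ h1

theorem grdg_val_algebraMap (P : Place K F) (a : K) : GrdVal P (algebraMap K F a) a := by
  show algebraMap K F a - algebraMap K F a ∈ _
  rw [sub_self]
  exact zero_mem _

theorem grdg_val_add (P : Place K F) {x y : F} {a b : K} (hx : GrdVal P x a) (hy : GrdVal P y b) :
    GrdVal P (x + y) (a + b) := by
  show x + y - algebraMap K F (a + b) ∈ _
  have h : x + y - algebraMap K F (a + b) = (x - algebraMap K F a) + (y - algebraMap K F b) := by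
    rw [map_add]; ring
  rw [h]
  exact add_mem hx hy

theorem grdg_val_neg (P : Place K F) {x : F} {a : K} (hx : GrdVal P x a) :
    GrdVal P (-x) (-a) := by
  show -x - algebraMap K F (-a) ∈ _
  have h : -x - algebraMap K F (-a) = -(x - algebraMap K F a) := by
    rw [map_neg]; ring
  rw [h]
  exact neg_mem hx

theorem grdg_val_mul (P : Place K F) {x y : F} {a b : K} (hx : GrdVal P x a) (hy : GrdVal P y b) :
    GrdVal P (x * y) (a * b) := by
  show x * y - algebraMap K F (a * b) ∈ _
  have h : x * y - algebraMap K F (a * b) =
      (x - algebraMap K F a) * y + algebraMap K F a * (y - algebraMap K F b) := by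
    rw [map_mul]; ring
  rw [h]
  have hy' : P.toValuationSubring.valuation y ≤ 1 :=
    (P.toValuationSubring.valuation_le_one_iff _).2 (grdg_val_mem P hy)
  have ha' : P.toValuationSubring.valuation (algebraMap K F a) ≤ 1 :=
    (P.toValuationSubring.valuation_le_one_iff _).2 (P.algebraMap_mem' a)
  refine add_mem ?_ ?_
  · rw [ValuationSubring.mem_nonunits_iff, map_mul]
    calc _ ≤ P.toValuationSubring.valuation (x - algebraMap K F a) * 1 := by gcongr
      _ < 1 := by rw [mul_one]; exact (ValuationSubring.mem_nonunits_iff _).1 hx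
  · rw [ValuationSubring.mem_nonunits_iff, map_mul]
    calc _ ≤ 1 * P.toValuationSubring.valuation (y - algebraMap K F b) := by gcongr
      _ < 1 := by rw [one_mul]; exact (ValuationSubring.mem_nonunits_iff _).1 hy

theorem grdg_val_zero_iff (P : Place K F) (x : F) :
    GrdVal P x 0 ↔ x ∈ P.toValuationSubring.nonunits := by
  unfold GrdVal
  rw [map_zero, sub_zero]

theorem grdg_val_zero_iff_ord (P : Place K F) {x : F} (hx : x ≠ 0) :
    GrdVal P x 0 ↔ 0 < P.ord x := by
  rw [grdg_val_zero_iff, PlaceOrd.ord_pos_iff P hx, ValuationSubring.mem_nonunits_iff_or]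
  constructor
  · rintro (h | h)
    · exact absurd h hx
    · exact h
  · intro h
    exact Or.inr h

theorem grdg_mem_iff_ord (P : Place K F) {x : F} (hx : x ≠ 0) :
    x ∈ P.toValuationSubring ↔ 0 ≤ P.ord x :=
  PlaceOrd.mem_iff_ord_nonneg P hx

/-- the residue field of a place is `K` -/
theorem grdg_val_exists [IsAlgClosed K] {t : F} (ht : IsSepGen K t) (P : Place K F) {x : F}
    (hx : x ∈ P.toValuationSubring) : ∃ a : K, GrdVal P x a := by
  obtain ⟨a, ha⟩ := ht.algebraMap_residueField_surjective P
    (IsLocalRing.residue _ (⟨x, hx⟩ : P.toValuationSubring))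
  refine ⟨a, ?_⟩
  have h1 : (⟨x, hx⟩ - algebraMap K P.toValuationSubring a : P.toValuationSubring) ∈
      maximalIdeal P.toValuationSubring := by
    rw [← IsLocalRing.residue_eq_zero_iff, map_sub, sub_eq_zero, ← ha]
    rfl
  show x - algebraMap K F a ∈ _
  rw [ValuationSubring.mem_nonunits_iff_exists_mem_maximalIdeal]
  exact ⟨sub_mem hx (P.algebraMap_mem' a), h1⟩

end Generic

end Fermat.Agent.G
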