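import Mathlib
import Fermat.Agent.G.Red.Defs
import Fermat.Agent.G.Red.Normal
import Fermat.Agent.G.Red.Val
import Fermat.Agent.G.Red.Sat
import Fermat.Agent.G.Open.Main

/-!
# Program G, package G/Red, row 557 sub-leaf (K-d) : rationality of the values at a place

`grdk3_rational` : for `E` large (`P` fixed by `Gal(ℚ̄/E)`, `gop_place_fixing`) the value at `P` of a
function defined over `E` lies in `E`.
-/

set_option autoImplicit false
set_option linter.unusedSectionVars false
set_option linter.unusedVariables false
set_option synthInstance.maxHeartbeats 400000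

noncomputable section

namespace Fermat.Agent.G

open ModularCurve AlgebraicCurve IsLocalRing Polynomial IntermediateField Fermat.Agent.S18
  Fermat.Agent.S24

section Generic

variable {K F : Type*} [Field K] [Field F] [Algebra K F]

/-- a semilinear automorphism maps the non-units of `𝒪_P` to the non-units of `𝒪_{gP}`. -/
theorem grdkr_smul_mem_nonunits (g : SemilinearAut K F) (P : Place K F) {y : F}
    (hy : y ∈ P.toValuationSubring.nonunits) : g • y ∈ (g • P).toValuationSubring.nonunits := by
  rcases eq_or_ne y 0 with rfl | hy0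
  · rw [smul_zero]
    exact zero_mem _
  · have hgy0 : g • y ≠ 0 := fun h => hy0 ((smul_eq_zero_iff_eq g).mp h)
    rw [← grdg_val_zero_iff, grdg_val_zero_iff_ord (g • P) hgy0, SemilinearAut.ord_smul,
      ← grdg_val_zero_iff_ord P hy0, grdg_val_zero_iff]
    exact hy

/-- values are transported by semilinear automorphisms. -/
theorem grdkr_val_smul (g : SemilinearAut K F) (P : Place K F) {x : F} {a : K}
    (h : GrdVal P x a) : GrdVal (g • P) (g • x) (SemilinearAut.baseAut g a) := by
  have h1 := grdkr_smul_mem_nonunits g P h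
  rw [smul_sub, SemilinearAut.smul_algebraMap] at h1
  exact h1

end Generic

section Rational

variable (M : ℕ) [NeZero M]

/-- the base change of a function defined over `E` is fixed by `Gal(ℚ̄/E)`. -/
theorem grdkr_smul_up (E : IntermediateField ℚ (AlgebraicClosure ℚ))
    (σ : AlgebraicClosure ℚ ≃ₐ[ℚ] AlgebraicClosure ℚ) (hσ : σ ∈ E.fixingSubgroup)
    (z : ↥(modularFunctionFieldFullC E M)) :
    arithmeticGalois (modularFunctionFieldFull M) σ • (grdstUp M E z) = grdstUp M E z := by
  apply Subtype.ext
  rw [coe_arithmeticGalois_smul, grdstUp_coe, coeffMap_coeffMap]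
  refine coeffMap_congr (RingHom.ext fun e => ?_) _
  rw [IntermediateField.mem_fixingSubgroup_iff] at hσ
  exact hσ _ e.2

/-- (K-d) RATIONALITY OF THE VALUES : for `E` large (`P` fixed by `Gal(ℚ̄/E)`, `gop_place_fixing`)
the value at `P` of a function defined over `E` lies in `E`.
(`σ ∈ Gal(ℚ̄/E)`, `g = arithmeticGalois _ σ` : `g • P = P`, `g • (up z) = up z`, and
`GrdVal P x a → GrdVal (g • P) (g • x) (σ a)`; `grdg_val_unique`; the fixed field of
`E.fixingSubgroup` is `E` (`InfiniteGalois.fixedField_fixingSubgroup`).) -/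
theorem grdk3_rational (P : Place (AlgebraicClosure ℚ) (modularFunctionFieldBar M)) :
    ∃ E₁ : IntermediateField ℚ (AlgebraicClosure ℚ), FiniteDimensional ℚ E₁ ∧
      ∀ E : IntermediateField ℚ (AlgebraicClosure ℚ), E₁ ≤ E →
        ∀ (z : ↥(modularFunctionFieldFullC E M)) (a : AlgebraicClosure ℚ),
          GrdVal P (grdstUp M E z) a → a ∈ E := by
  obtain ⟨E₁, hfin, hfix⟩ := gop_place_fixing M P
  refine ⟨E₁, hfin, fun E hE z a hval => ?_⟩
  have hcl : IsAlgClosure ℚ (AlgebraicClosure ℚ) := AlgebraicClosure.instIsAlgClosure ℚ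
  have : IsGalois ℚ (AlgebraicClosure ℚ) := IsAlgClosure.isGalois ℚ (AlgebraicClosure ℚ)
  rw [← InfiniteGalois.fixedField_fixingSubgroup E, IntermediateField.mem_fixedField_iff]
  intro σ hσ
  have h1 := grdkr_val_smul (arithmeticGalois (modularFunctionFieldFull M) σ) P hval
  rw [hfix σ (gop_mem_fixing_of_le hE σ hσ), grdkr_smul_up M E σ hσ z] at h1
  exact grdg_val_unique P h1 hval

end Rational

end Fermat.Agent.G
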