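import Mathlib
import Fermat.Agent.G.Red.Fibre

/-!
# Program G, package G/Red, sub-row 576 (K-b UNIF) of row 557 : `grdk3_unif`
(VERBATIM from `G/Red/KernelSpec.lean`, origin/helper8 b1f8f03; helper27)

Corollary of `Fibre.lean` (`grdfb_isDedekindDomain` : the special fibre `P/ϖP` of the chart ring is
a Dedekind domain) + the valuation-subring form `grdku_dvd_of_unif` of the local-generation lemma.
-/

set_option autoImplicit false
set_option linter.unusedSectionVars false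
set_option linter.unusedVariables false
set_option linter.style.haveILetI false
set_option synthInstance.maxHeartbeats 400000

noncomputable section

namespace Fermat.Agent.G

open IsLocalRing Polynomial IntermediateField Fermat.Agent.S18

section AbstractVal

variable {C₀ : Type*} [CommRing C₀] [IsDedekindDomain C₀]
variable {K' : Type*} [Field K']

/-- valuation-subring form of `grdfb_dvd_of_val` : `V ⊂ K'` a valuation subring containing `ρ(C₀)`,
`ρ t₀` a uniformiser of `V`; then every `z` with `v(ρ z) < 1` is, up to a factor of valuation `1`,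
a multiple of `t₀`. -/
theorem grdku_dvd_of_unif (ρ : C₀ →+* K') (hρ : Function.Injective ρ) (V : ValuationSubring K')
    (hV : ∀ c, ρ c ∈ V) (t₀ : C₀) (ht₀ : t₀ ≠ 0) (hunif : S18IsUnif V (ρ t₀))
    (z : C₀) (hz : V.valuation (ρ z) < 1) :
    ∃ s c : C₀, V.valuation (ρ s) = 1 ∧ s * z = t₀ * c := by
  have hle : ∀ c, V.valuation (ρ c) ≤ 1 := fun c => (V.valuation_le_one_iff _).mpr (hV c)
  -- the prime `𝔫`
  let 𝔫 : Ideal C₀ :=
    { carrier := {c | V.valuation (ρ c) < 1}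
      add_mem' := fun {a b} ha hb => by
        show V.valuation (ρ (a + b)) < 1
        rw [map_add]
        exact lt_of_le_of_lt (V.valuation.map_add _ _) (max_lt ha hb)
      zero_mem' := by
        show V.valuation (ρ 0) < 1
        rw [map_zero, map_zero]
        exact zero_lt_one
      smul_mem' := fun r {a} ha => by
        show V.valuation (ρ (r • a)) < 1
        rw [smul_eq_mul, map_mul, map_mul]
        exact mul_lt_one_of_nonneg_of_lt_one_right (hle r) zero_le ha }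
  have hmem : ∀ c, c ∈ 𝔫 ↔ V.valuation (ρ c) < 1 := fun c => Iff.rfl
  haveI h𝔫 : 𝔫.IsPrime := by
    rw [Ideal.isPrime_iff]
    constructor
    · intro htop
      have h1 : (1 : C₀) ∈ 𝔫 := by rw [htop]; trivial
      rw [hmem, map_one, map_one] at h1
      exact lt_irrefl _ h1
    · intro a b hab
      rw [hmem, map_mul, map_mul] at hab
      by_contra hcon
      push Not at hcon
      have ha : V.valuation (ρ a) = 1 := le_antisymm (hle a) (not_lt.mp hcon.1)
      have hb : V.valuation (ρ b) = 1 := le_antisymm (hle b) (not_lt.mp hcon.2)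
      rw [ha, hb, one_mul] at hab
      exact lt_irrefl _ hab
  have hnot : ∀ c, c ∉ 𝔫 → V.valuation (ρ c) = 1 := fun c hc =>
    le_antisymm (hle c) (not_lt.mp hc)
  have ht₀𝔫 : t₀ ∈ 𝔫 := hunif.1
  have h𝔫0 : 𝔫 ≠ ⊥ := fun h => ht₀ (by rw [h] at ht₀𝔫; exact ht₀𝔫)
  haveI : IsDiscreteValuationRing (Localization.AtPrime 𝔫) :=
    IsLocalization.AtPrime.isDiscreteValuationRing_of_dedekind_domain C₀ h𝔫0 _
  have hinj : Function.Injective (algebraMap C₀ (Localization.AtPrime 𝔫)) :=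
    IsLocalization.injective _ (Ideal.primeCompl_le_nonZeroDivisors 𝔫)
  rcases ValuationRing.dvd_total (algebraMap C₀ (Localization.AtPrime 𝔫) t₀)
    (algebraMap C₀ (Localization.AtPrime 𝔫) z) with ⟨m, hm⟩ | ⟨m, hm⟩
  · obtain ⟨c, s, rfl⟩ := IsLocalization.exists_mk'_eq 𝔫.primeCompl m
    refine ⟨s, c, hnot s s.2, ?_⟩
    apply hinj
    rw [map_mul, map_mul, hm, mul_left_comm, IsLocalization.mk'_spec']
  · obtain ⟨a, s, rfl⟩ := IsLocalization.exists_mk'_eq 𝔫.primeCompl m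
    have h1 : (s : C₀) * t₀ = z * a := by
      apply hinj
      rw [map_mul, map_mul, hm, mul_left_comm, IsLocalization.mk'_spec']
    by_cases ha : a ∈ 𝔫
    · exfalso
      have h2 := congrArg (fun x => V.valuation (ρ x)) h1
      simp only [map_mul] at h2
      rw [hnot s s.2, one_mul] at h2
      have hτ0 : V.valuation (ρ t₀) ≠ 0 := by
        rw [Ne, map_eq_zero]
        exact fun h => ht₀ (hρ (by rw [h, map_zero]))
      have h3 : V.valuation (ρ z) * V.valuation (ρ a) < V.valuation (ρ t₀) := by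
        calc V.valuation (ρ z) * V.valuation (ρ a)
            ≤ V.valuation (ρ t₀) * V.valuation (ρ a) :=
              mul_le_mul' (hunif.2 _ hz) le_rfl
          _ < V.valuation (ρ t₀) * 1 :=
              mul_lt_mul_of_pos_left ((hmem a).mp ha) (zero_lt_iff.mpr hτ0)
          _ = V.valuation (ρ t₀) := mul_one _
      rw [← h2] at h3
      exact lt_irrefl _ h3
    · exact ⟨a, s, hnot a ha, by rw [mul_comm, ← h1, mul_comm]⟩

end AbstractVal


section Abstract

universe u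

variable {A : Type*} [CommRing A] [IsDomain A] [IsDiscreteValuationRing A] [CharZero A]
variable {L : Type*} [Field L] [Algebra A L] [IsFractionRing A L]
variable {F : Type u} [Field F] [Algebra A F] [Algebra L F] [IsScalarTower A L F]
variable {ϖ : A}

/-- (K-b) REGULARITY OF THE SPECIAL FIBRE AT A CLOSED POINT. -/
theorem grdk3_unif (hϖ : Irreducible ϖ) (t : F) (ht : Transcendental L t)
    [FiniteDimensional L⟮t⟯ F] (hN : IsNoetherianRing ↥(s18tInt A t))
    (S : Finset A) (h : S18Chart A L ϖ t S)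
    (hG : S18SelfDual A L t (C ϖ) (s18t_prime_C hϖ))
    (hval : ∀ x ∈ s18tIntLoc A t (C ϖ) (s18t_prime_C hϖ),
      S18DvdGauss hϖ t x ∨ x⁻¹ ∈ s18tIntLoc A t (C ϖ) (s18t_prime_C hϖ))
    {K' : Type*} [Field K'] (ρ : ↥(s18tIntLoc A t (C ϖ) (s18t_prime_C hϖ)) →+* K')
    (hρ : ∀ x : ↥(s18tIntLoc A t (C ϖ) (s18t_prime_C hϖ)), ρ x = 0 ↔ S18DvdGauss hϖ t (x : F))
    (V : ValuationSubring K')
    (hV : ∀ (y : F) (hy : y ∈ s18tInt A t), ρ ⟨y, s18tInt_le_intLoc hϖ t hy⟩ ∈ V)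
    (t₀ : F) (ht₀ : t₀ ∈ s18tInt A t) (ht₀0 : ρ ⟨t₀, s18tInt_le_intLoc hϖ t ht₀⟩ ≠ 0)
    (hunif : S18IsUnif V (ρ ⟨t₀, s18tInt_le_intLoc hϖ t ht₀⟩))
    (y : F) (hy : y ∈ s18tInt A t)
    (hyV : V.valuation (ρ ⟨y, s18tInt_le_intLoc hϖ t hy⟩) < 1) :
    ∃ (s : F) (hs : s ∈ s18tInt A t), ∃ c ∈ s18tInt A t, ∃ d ∈ s18tInt A t,
      V.valuation (ρ ⟨s, s18tInt_le_intLoc hϖ t hs⟩) = 1 ∧
        s * y = t₀ * c + algebraMap A F ϖ * d := by
  -- `ϖ ≠ 0` in `F`
  have hϖF : algebraMap A F ϖ ≠ 0 := by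
    rw [IsScalarTower.algebraMap_apply A L F, Ne, map_eq_zero_iff _ (algebraMap L F).injective,
      map_eq_zero_iff _ (IsFractionRing.injective A L)]
    exact hϖ.ne_zero
  -- the hypotheses of `Fibre.lean`
  have H : GrdfbHyp hϖ t := by
    refine ⟨hval, fun hinv => ?_, fun x hx hint => grdn_chart_normal hϖ t ht S h hG x hx hint⟩
    have h1 : ρ (grdfbPiO hϖ t) = 0 :=
      (hρ _).mpr ⟨1, Subring.one_mem _, by rw [mul_one]; rfl⟩
    have h2 : grdfbPiO hϖ t * ⟨(algebraMap A F ϖ)⁻¹, hinv⟩ = 1 :=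
      Subtype.ext (mul_inv_cancel₀ hϖF)
    have h3 := congrArg ρ h2
    rw [map_mul, h1, zero_mul, map_one] at h3
    exact zero_ne_one h3
  haveI := grdfb_isDedekindDomain (L := L) hϖ t ht H
  -- `ρ` on the quotient `P/ϖP`
  let ρ' : ↥(s18tInt A t) ⧸ Ideal.span {grdfbPi ϖ t} →+* K' :=
    Ideal.Quotient.lift _ (ρ.comp (grdfbIncl hϖ t)) (fun a ha => by
      obtain ⟨b, rfl⟩ := (grdfb_mem_span t a).mp ha
      rw [RingHom.comp_apply, hρ]
      exact ⟨b, s18tInt_le_intLoc hϖ t b.2, rfl⟩)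
  have hρ'mk : ∀ (x : F) (hx : x ∈ s18tInt A t),
      ρ' (Ideal.Quotient.mk _ ⟨x, hx⟩) = ρ ⟨x, s18tInt_le_intLoc hϖ t hx⟩ := fun x hx => rfl
  have hρ'inj : Function.Injective ρ' := by
    rw [injective_iff_map_eq_zero]
    intro c hc
    obtain ⟨⟨x, hx⟩, rfl⟩ := Ideal.Quotient.mk_surjective c
    rw [hρ'mk, hρ] at hc
    rw [Ideal.Quotient.eq_zero_iff_mem, ← grdfb_comap_span (L := L) hϖ t ht, Ideal.mem_comap,
      grdfb_mem_spanO]
    exact hc
  have hV' : ∀ c, ρ' c ∈ V := fun c => by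
    obtain ⟨⟨x, hx⟩, rfl⟩ := Ideal.Quotient.mk_surjective c
    rw [hρ'mk]
    exact hV x hx
  obtain ⟨s', c', hs', hsc⟩ := grdku_dvd_of_unif ρ' hρ'inj V hV'
    (Ideal.Quotient.mk _ ⟨t₀, ht₀⟩)
    (fun h0 => ht₀0 (by rw [← hρ'mk t₀ ht₀, h0, map_zero])) hunif
    (Ideal.Quotient.mk _ ⟨y, hy⟩) hyV
  obtain ⟨⟨s, hs⟩, rfl⟩ := Ideal.Quotient.mk_surjective s'
  obtain ⟨⟨c, hc⟩, rfl⟩ := Ideal.Quotient.mk_surjective c'
  have h1 : (⟨s, hs⟩ : ↥(s18tInt A t)) * ⟨y, hy⟩ - ⟨t₀, ht₀⟩ * ⟨c, hc⟩ ∈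
      Ideal.span {grdfbPi ϖ t} := by
    rw [← Ideal.Quotient.eq_zero_iff_mem, map_sub, map_mul, map_mul, hsc, sub_self]
  obtain ⟨⟨d, hd⟩, hd'⟩ := (grdfb_mem_span t _).mp h1
  refine ⟨s, hs, c, hc, d, hd, hs', ?_⟩
  have h2 : s * y - t₀ * c = algebraMap A F ϖ * d := congrArg Subtype.val hd'
  rw [← h2]
  ring

end Abstract

end Fermat.Agent.G
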