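import Mathlib
import Fermat.Agent.G.Red.Defs
import Fermat.Agent.G.Red.Normal
import Fermat.Agent.G.GN
import Fermat.Agent.G.Open.Main
import Fermat.Agent.S24.Places
import Fermat.Agent.S24.PlacesCenter

/-!
# Program G, package G/Red, row B2 (`grdRed_eq_zero_iff`), helper prefix `grdk_`

The kernel of the reduction homomorphism `grdRed : grdO → F_k` of the Gauss ring is `𝔪_𝔸 · grdO`.

Proof.  `x b = a` with `a, b` good, `b̄ ≠ 0`; `x̄ = ā / b̄ = 0` iff `ā = 0`.  If `a ≠ 0`, GAUSS
NORMALISATION (`ggn_normal`) gives `c a u₂ = u₁` with `u₁, u₂` good with NONZERO reductions; if `c`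
were in `𝔸` then reducing gives `ū₁ = c̄ ā ū₂ = 0`; so `c ∉ 𝔸`, `π := c⁻¹ ∈ 𝔪_𝔸`, and
`x' := c x` satisfies `x' (u₂ b) = u₁`, i.e. `x' ∈ grdO`, `x = π x'`.
-/

set_option autoImplicit false
set_option linter.unusedSectionVars false
set_option linter.unusedVariables false
set_option synthInstance.maxHeartbeats 400000

noncomputable section

namespace Fermat.Agent.G

open ModularCurve AlgebraicCurve IsLocalRing Polynomial Fermat.Agent.S18 Fermat.Agent.S24

section Gauss

variable (M : ℕ) [NeZero M] {ℓ : ℕ} [Fact ℓ.Prime]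
variable (A : ValuationSubring (AlgebraicClosure ℚ))

/-- the constant series `a`, over `ℚ̄` -/
theorem grdk_coeffMap_subtype_C (a : A) :
    coeffMap A.subtype (HahnSeries.C a) =
      algebraMap (AlgebraicClosure ℚ) (LaurentSeries (AlgebraicClosure ℚ))
        (a : AlgebraicClosure ℚ) := by
  rw [algebraMap_laurentSeries_eq_single]
  exact coeffMap_single _ _ _

/-- the constant series `a`, over the residue field -/
theorem grdk_coeffMap_residue_C (a : A) :
    coeffMap (residue A) (HahnSeries.C a) =
      algebraMap (ResidueField A) (LaurentSeries (ResidueField A)) (residue A a) := by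
  rw [algebraMap_laurentSeries_eq_single]
  exact coeffMap_single _ _ _

/-- the coercion `F_ℚ̄(M) → ℚ̄((q))` on constants -/
theorem grdk_coe_algebraMap (c : AlgebraicClosure ℚ) :
    ((algebraMap (AlgebraicClosure ℚ) (modularFunctionFieldBar M) c : modularFunctionFieldBar M) :
      LaurentSeries (AlgebraicClosure ℚ)) =
      algebraMap (AlgebraicClosure ℚ) (LaurentSeries (AlgebraicClosure ℚ)) c := rfl

/-- (B3) the kernel of the reduction is `𝔪_𝔸 · grdO`. -/
theorem grdRed_eq_zero_iff (hℓM : ¬ ℓ ∣ M) (hA : A.LiesOverPrime ℓ) (x : ↥(grdO M A)) :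
    grdRed M A x = 0 ↔ ∃ (π : A) (x' : ↥(grdO M A)), π ∈ maximalIdeal A ∧
      (x : modularFunctionFieldBar M) =
        algebraMap (AlgebraicClosure ℚ) (modularFunctionFieldBar M) (π : AlgebraicClosure ℚ) *
          (x' : modularFunctionFieldBar M) := by
  constructor
  · intro h0
    obtain ⟨a, b, ha, hb, hb0, hx⟩ := x.2
    have hred := grdRed_eq M A x a b hb0 hx
    rw [h0] at hred
    have ha0 : coeffMap (residue A) a = 0 := by
      have h1 : coeffMap (residue A) a / coeffMap (residue A) b = 0 := hred.symm
      rcases div_eq_zero_iff.mp h1 with h | h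
      · exact h
      · exact absurd h hb0
    by_cases haz : a = 0
    · -- then `x = 0`
      have hb1 : coeffMap A.subtype b ≠ 0 := by
        intro hb1
        apply hb0
        have : b = 0 := grd_coeffMap_subtype_injective A (by rw [hb1, map_zero])
        rw [this, map_zero]
      have hx0 : ((x : modularFunctionFieldBar M) : LaurentSeries (AlgebraicClosure ℚ)) = 0 := by
        rw [haz, map_zero] at hx
        rcases mul_eq_zero.mp hx with h | h
        · exact h
        · exact absurd h hb1
      refine ⟨0, 0, zero_mem _, ?_⟩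
      apply Subtype.ext
      rw [hx0]
      simp
    · -- Gauss normalisation of `a`
      have hf : ha.gen ≠ 0 := by
        intro hf
        apply haz
        exact grd_coeffMap_subtype_injective A (by rw [map_zero]; exact congrArg Subtype.val hf)
      obtain ⟨c, u₁, u₂, h₁, h₂, hc, hs₁, hs₂, hfu⟩ := ggn_normal M A hℓM hA ha.gen hf
      -- the identity as series over `ℚ̄`
      have hser : algebraMap (AlgebraicClosure ℚ) (LaurentSeries (AlgebraicClosure ℚ)) c *
          coeffMap A.subtype a * coeffMap A.subtype u₂ = coeffMap A.subtype u₁ :=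
        congrArg Subtype.val hfu
      -- `c ∉ 𝔸`
      have hcA : c ∉ A := by
        intro hcA
        have h1 : HahnSeries.C (⟨c, hcA⟩ : A) * a * u₂ = u₁ := by
          apply grd_coeffMap_subtype_injective A
          rw [map_mul, map_mul, grdk_coeffMap_subtype_C]
          exact hser
        apply hs₁
        apply Subtype.ext
        show coeffMap (residue A) u₁ = 0
        rw [← h1, map_mul, map_mul, ha0, mul_zero, zero_mul]
      have hcinv : c⁻¹ ∈ A := (A.mem_or_inv_mem c).resolve_left hcA
      have hπ : (⟨c⁻¹, hcinv⟩ : A) ∈ maximalIdeal A := by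
        rw [mem_maximalIdeal, mem_nonunits_iff]
        rintro ⟨u, hu⟩
        apply hcA
        have h2 : ((u⁻¹ : Aˣ) : A) * (⟨c⁻¹, hcinv⟩ : A) = 1 := by
          rw [← hu]; exact u.inv_mul
        have h3 : (((u⁻¹ : Aˣ) : A) : AlgebraicClosure ℚ) * c⁻¹ = 1 := by
          have := congrArg (fun z : A => (z : AlgebraicClosure ℚ)) h2
          simpa using this
        have h4 : (((u⁻¹ : Aˣ) : A) : AlgebraicClosure ℚ) = c := by
          field_simp at h3
          exact h3
        rw [← h4]
        exact ((u⁻¹ : Aˣ) : A).2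
      -- `x' = c x`
      have hx' : algebraMap (AlgebraicClosure ℚ) (modularFunctionFieldBar M) c *
          (x : modularFunctionFieldBar M) ∈ grdO M A := by
        refine ⟨u₁, u₂ * b, h₁, grd_good_mul h₂ hb, ?_, ?_⟩
        · rw [map_mul]
          exact mul_ne_zero (fun h => hs₂ (Subtype.ext h)) hb0
        · rw [map_mul, ← hser, ← hx]
          push_cast
          ring
      refine ⟨⟨c⁻¹, hcinv⟩, ⟨_, hx'⟩, hπ, ?_⟩
      show (x : modularFunctionFieldBar M) =
        algebraMap (AlgebraicClosure ℚ) (modularFunctionFieldBar M) c⁻¹ *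
          (algebraMap (AlgebraicClosure ℚ) (modularFunctionFieldBar M) c *
            (x : modularFunctionFieldBar M))
      rw [← mul_assoc, ← map_mul, inv_mul_cancel₀ hc, map_one, one_mul]
  · rintro ⟨π, x', hπ, hxe⟩
    obtain ⟨a', b', ha', hb', hb0', hx'⟩ := x'.2
    have hx : ((x : modularFunctionFieldBar M) : LaurentSeries (AlgebraicClosure ℚ)) *
        coeffMap A.subtype b' = coeffMap A.subtype (HahnSeries.C π * a') := by
      rw [hxe, map_mul, grdk_coeffMap_subtype_C, ← hx']
      push_cast
      ring
    apply Subtype.ext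
    rw [grdRed_eq M A x (HahnSeries.C π * a') b' hb0' hx, map_mul, grdk_coeffMap_residue_C]
    have hπ0 : residue A π = 0 := (residue_eq_zero_iff π).mpr hπ
    rw [hπ0, map_zero, zero_mul, zero_div]
    rfl

end Gauss

end Fermat.Agent.G
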