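import Mathlib
import Fermat.Agent.G.Red.Defs
import Fermat.Agent.G.Red.Val
import Fermat.Agent.S24.Places
import Fermat.Agent.S24.PlacesCenter
import Fermat.Agent.S24.PlacesResidue

/-!
# Program G, package G/Red, row G2 : places of a chart = points of the integral closure

Generic facts on places of a function field `F/K` with `t ∈ 𝒪_P`, through the Dedekind domain
`C = intRing K t` (S24 API).
-/

set_option autoImplicit false
set_option linter.unusedSectionVars false
set_option linter.unusedVariables false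

noncomputable section

namespace Fermat.Agent.G

open ModularCurve AlgebraicCurve IsLocalRing Polynomial Fermat.Agent.S18 Fermat.Agent.S24
open IsDedekindDomain

section Generic

variable {K F : Type*} [Field K] [Field F] [Algebra K F]

/-- values at the place attached to a height one prime -/
theorem grdv_val_ofHeightOneSpectrum_iff {R : Type*} [CommRing R] [IsDedekindDomain R]
    [Algebra R F] [IsFractionRing R F] [Algebra K R] [IsScalarTower K R F]
    (w : HeightOneSpectrum R) (f : F) (a : K) :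
    GrdVal (Place.ofHeightOneSpectrum (K := K) w) f a ↔
      w.valuation F (f - algebraMap K F a) < 1 := by
  unfold GrdVal
  rw [ValuationSubring.mem_nonunits_iff_exists_mem_maximalIdeal]
  constructor
  · rintro ⟨ha, hm⟩
    exact (mem_maximalIdeal_ofHeightOneSpectrum_iff (K := K) w ⟨_, ha⟩).1 hm
  · intro h
    have ha : f - algebraMap K F a ∈ (Place.ofHeightOneSpectrum (K := K) w).toValuationSubring :=
      (mem_ofHeightOneSpectrum_iff (K := K) w _).2 h.le
    exact ⟨ha, (mem_maximalIdeal_ofHeightOneSpectrum_iff (K := K) w ⟨_, ha⟩).2 h⟩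

/-- vanishing of an element of `R` at the place attached to a height one prime -/
theorem grdv_val_zero_ofHeightOneSpectrum_iff {R : Type*} [CommRing R] [IsDedekindDomain R]
    [Algebra R F] [IsFractionRing R F] [Algebra K R] [IsScalarTower K R F]
    (w : HeightOneSpectrum R) (r : R) :
    GrdVal (Place.ofHeightOneSpectrum (K := K) w) (algebraMap R F r) 0 ↔ r ∈ w.asIdeal := by
  rw [grdv_val_ofHeightOneSpectrum_iff, map_zero, sub_zero]
  exact w.valuation_lt_one_iff_mem r

/-- constants lie in the integral closure of `K[t]` -/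
theorem grdv_const_mem (t : F) (c : K) : algebraMap K F c ∈ intRing K t := by
  have h : algebraMap K F c =
      algebraMap (intRing K t) F (algebraMap K (intRing K t) c) := by
    rw [← IsScalarTower.algebraMap_apply]
  rw [h]
  exact (algebraMap K (intRing K t) c).2

theorem grdv_t_mem (t : F) : t ∈ intRing K t :=
  (intRing K t).algebraMap_mem ⟨t, Algebra.subset_adjoin rfl⟩

/-- (G3) a `K`-point of the integral closure `C` of `K[t]` is a place. -/
theorem grdg_place_of_hom [IsAlgClosed K] {t : F} (ht : IsSepGen K t)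
    (χ : ↥(intRing K t) →+* K)
    (hχ : ∀ (c : K) (hc : algebraMap K F c ∈ intRing K t), χ ⟨algebraMap K F c, hc⟩ = c) :
    ∃! P : Place K F, t ∈ P.toValuationSubring ∧ ∀ x : ↥(intRing K t), GrdVal P (x : F) (χ x) := by
  haveI := Fact.mk ht
  haveI : IsDedekindDomain (intRing K t) := intRing_isDedekindDomain ht
  haveI : IsFractionRing (intRing K t) F := intRing_isFractionRing ht
  have hconst : ∀ c : K, algebraMap K F c ∈ intRing K t := grdv_const_mem t
  let tC : intRing K t := ⟨t, grdv_t_mem t⟩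
  -- `x - χ x ∈ ker χ`
  have hsub : ∀ x : intRing K t,
      x - ⟨algebraMap K F (χ x), hconst _⟩ ∈ RingHom.ker χ := by
    intro x
    rw [RingHom.mem_ker, map_sub, hχ, sub_self]
  have hker_ne : RingHom.ker χ ≠ ⊥ := by
    intro h
    have h1 := hsub tC
    rw [h, Ideal.mem_bot, sub_eq_zero] at h1
    apply ht.transcendental
    have h2 : t = algebraMap K F (χ tC) := congrArg Subtype.val h1
    rw [h2]
    exact isAlgebraic_algebraMap _
  let w : HeightOneSpectrum (intRing K t) := ⟨RingHom.ker χ, RingHom.ker_isPrime χ, hker_ne⟩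
  refine ⟨Place.ofHeightOneSpectrum (K := K) w, ⟨?_, ?_⟩, ?_⟩
  · exact algebraMap_mem_ofHeightOneSpectrum (K := K) w tC
  · intro x
    rw [grdv_val_ofHeightOneSpectrum_iff]
    exact (w.valuation_lt_one_iff_mem (K := F) _).2 (hsub x)
  · rintro P' ⟨ht', h'⟩
    obtain ⟨w', rfl⟩ := exists_eq_ofHeightOneSpectrum_intRing P' ht'
    congr 1
    apply HeightOneSpectrum.ext
    have hle : w.asIdeal ≤ w'.asIdeal := by
      intro r hr
      have h1 := h' r
      have hr0 : χ r = 0 := hr
      rw [hr0] at h1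
      exact (grdv_val_zero_ofHeightOneSpectrum_iff (K := K) w' r).1 h1
    exact (w.isMaximal.eq_of_le w'.isPrime.ne_top hle).symm

/-- (G4) `C` separates the places of the chart. -/
theorem grdg_separate [IsAlgClosed K] {t : F} (ht : IsSepGen K t) (P P' : Place K F)
    (hP : t ∈ P.toValuationSubring) (hP' : t ∈ P'.toValuationSubring) (hne : P ≠ P') :
    ∃ x : ↥(intRing K t), GrdVal P (x : F) 0 ∧ GrdVal P' (x : F) 1 := by
  haveI := Fact.mk ht
  haveI : IsDedekindDomain (intRing K t) := intRing_isDedekindDomain ht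
  haveI : IsFractionRing (intRing K t) F := intRing_isFractionRing ht
  obtain ⟨w, rfl⟩ := exists_eq_ofHeightOneSpectrum_intRing P hP
  obtain ⟨w', rfl⟩ := exists_eq_ofHeightOneSpectrum_intRing P' hP'
  have hww' : w.asIdeal ≠ w'.asIdeal := by
    intro h
    apply hne
    rw [HeightOneSpectrum.ext h]
  have hsup : w.asIdeal ⊔ w'.asIdeal = ⊤ :=
    Ideal.IsMaximal.coprime_of_ne w.isMaximal w'.isMaximal hww'
  have h1 : (1 : intRing K t) ∈ w.asIdeal ⊔ w'.asIdeal := by rw [hsup]; trivial
  obtain ⟨x, hx, y, hy, hxy⟩ := Submodule.mem_sup.1 h1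
  refine ⟨x, (grdv_val_zero_ofHeightOneSpectrum_iff (K := K) w x).2 hx, ?_⟩
  rw [grdv_val_ofHeightOneSpectrum_iff, map_one]
  have h2 : ((x : intRing K t) : F) - 1 = algebraMap (intRing K t) F (-y) := by
    have : x = 1 - y := by rw [← hxy]; ring
    rw [this]
    simp
  rw [h2]
  exact (w'.valuation_lt_one_iff_mem (K := F) _).2 (neg_mem hy)

/-- (G5) uniformisers in `C`. -/
theorem grdg_exists_unif [IsAlgClosed K] {t : F} (ht : IsSepGen K t) (P : Place K F)
    (hP : t ∈ P.toValuationSubring) : ∃ x : ↥(intRing K t), P.ord (x : F) = 1 := by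
  haveI := Fact.mk ht
  haveI : IsDedekindDomain (intRing K t) := intRing_isDedekindDomain ht
  haveI : IsFractionRing (intRing K t) F := intRing_isFractionRing ht
  obtain ⟨w, rfl⟩ := exists_eq_ofHeightOneSpectrum_intRing P hP
  obtain ⟨π, hπ⟩ := w.valuation_exists_uniformizer' F
  refine ⟨π, ?_⟩
  rw [ord_ofHeightOneSpectrum]
  have : w.valuation F ((π : intRing K t) : F) = WithZero.exp (-1 : ℤ) := hπ
  rw [this, WithZero.log_exp]
  norm_num

/-- (G6) `C` localised at `P` is a DVR : `s x = τ^n c'` with `s(P) ≠ 0`, `c'(P) ≠ 0`,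
`n = ord_P x`. -/
theorem grdg_local_factor [IsAlgClosed K] {t : F} (ht : IsSepGen K t) (P : Place K F)
    (hP : t ∈ P.toValuationSubring) (τ x : ↥(intRing K t)) (hτ : P.ord (τ : F) = 1)
    (hx : x ≠ 0) :
    ∃ s c' : ↥(intRing K t), ¬ GrdVal P (s : F) 0 ∧ ¬ GrdVal P (c' : F) 0 ∧
      s * x = τ ^ (P.ord (x : F)).toNat * c' := by
  haveI := Fact.mk ht
  haveI : IsDedekindDomain (intRing K t) := intRing_isDedekindDomain ht
  haveI : IsFractionRing (intRing K t) F := intRing_isFractionRing ht
  have hxF : (x : F) ≠ 0 := fun h => hx (Subtype.ext h)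
  have hτF : (τ : F) ≠ 0 := by
    intro h
    rw [h, Place.ord_zero] at hτ
    exact zero_ne_one hτ
  have hxmem : (x : F) ∈ P.toValuationSubring := intRing_le_place P hP x
  have hn : 0 ≤ P.ord (x : F) := PlaceOrd.ord_nonneg_of_mem P hxmem
  set n := (P.ord (x : F)).toNat with hn_def
  have hnn : (n : ℤ) = P.ord (x : F) := Int.toNat_of_nonneg hn
  -- `y = x / τ^n` has order zero
  set y : F := (x : F) * ((τ : F) ^ n)⁻¹ with hy
  have hτn : (τ : F) ^ n ≠ 0 := pow_ne_zero _ hτF
  have hy0 : y ≠ 0 := mul_ne_zero hxF (inv_ne_zero hτn)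
  have hordy : P.ord y = 0 := by
    rw [hy, P.ord_mul hxF (inv_ne_zero hτn), P.ord_inv, ← zpow_natCast, P.ord_zpow, hτ, hnn]
    ring
  have hymem : y ∈ P.toValuationSubring := PlaceOrd.mem_of_ord_nonneg P hordy.ge
  obtain ⟨w, rfl⟩ := exists_eq_ofHeightOneSpectrum_intRing P hP
  obtain ⟨c', ⟨s, hs⟩, h⟩ := w.exists_primeCompl_mul_eq_of_integer y
    ((mem_ofHeightOneSpectrum_iff (K := K) w y).1 hymem)
  have hs' : s ∉ w.asIdeal := hs
  have hs0 : s ≠ 0 := fun h0 => hs' (h0 ▸ w.asIdeal.zero_mem)
  have hsF : ((s : intRing K t) : F) ≠ 0 := fun h0 => hs0 (Subtype.ext h0)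
  have heqF : ((s : intRing K t) : F) * (x : F) = (τ : F) ^ n * ((c' : intRing K t) : F) := by
    have h' : y * ((s : intRing K t) : F) = ((c' : intRing K t) : F) := h
    rw [← h', hy]
    field_simp
  have heq : s * x = τ ^ n * c' := by
    apply Subtype.ext
    push_cast
    exact heqF
  have hc'0 : c' ≠ 0 := by
    intro h0
    rw [h0, mul_zero] at heq
    exact mul_ne_zero hs0 hx heq
  have hc'F : ((c' : intRing K t) : F) ≠ 0 := fun h0 => hc'0 (Subtype.ext h0)
  have hsval : ¬ GrdVal (Place.ofHeightOneSpectrum (K := K) w) ((s : intRing K t) : F) 0 := by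
    intro hv
    exact hs' ((grdv_val_zero_ofHeightOneSpectrum_iff (K := K) w s).1 hv)
  refine ⟨s, c', hsval, ?_, heq⟩
  -- `ord s = 0`
  have hords : (Place.ofHeightOneSpectrum (K := K) w).ord ((s : intRing K t) : F) = 0 := by
    have h1 : 0 ≤ (Place.ofHeightOneSpectrum (K := K) w).ord ((s : intRing K t) : F) :=
      PlaceOrd.ord_nonneg_of_mem _ (intRing_le_place _ hP s)
    have h2 : ¬ 0 < (Place.ofHeightOneSpectrum (K := K) w).ord ((s : intRing K t) : F) :=
      fun h => hsval ((grdg_val_zero_iff_ord _ hsF).2 h)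
    omega
  have hordc : (Place.ofHeightOneSpectrum (K := K) w).ord ((c' : intRing K t) : F) = 0 := by
    have h1 := congrArg (Place.ofHeightOneSpectrum (K := K) w).ord heqF
    rw [Place.ord_mul _ hsF hxF, Place.ord_mul _ hτn hc'F, ← zpow_natCast, Place.ord_zpow, hτ,
      hords, hnn] at h1
    omega
  intro hv
  have := (grdg_val_zero_iff_ord _ hc'F).1 hv
  omega

end Generic

end Fermat.Agent.G
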