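import Mathlib
import Fermat.Agent.G.Red.Defs
import Fermat.Agent.G.Red.Normal
import Fermat.Agent.G.GN

/-!
# Program G, package G/Red, row (C3) : LIFTING  (`grd_lift`)

Every element of `F_k(M)` integral over `k[ū]` is the reduction of an element of `F_ℚ̄(M)` integral
over `𝔸[u]`.

ROUTE
* `grdlUp M E : F_E(M) →+* F_ℚ̄(M)` (coefficientwise base change);
* (L1) `grdl_up_mem`, `grdl_red_up` : `grdlUp` maps the Gauss ring `s18vO (𝔸 ∩ E) F_E(M)` into the
  Gauss ring `grdO M 𝔸`, compatibly with the reductions;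
* (S) `grdl_red_surjective` : `grdRed : grdO → F_k(M)` is surjective;
* (D) `grdl_exists_model` : every element of `grdO` comes from `s18vO (𝔸 ∩ E) F_E(M)`, `E` large;
* (P) `grdl_exists_poly` : a monic polynomial of `k[X][Y]` lifts to `(𝔸 ∩ E)[X][Y]`, `E` large;
* `GrdnIntMod` at level `E`, `grdn_chart_normal`, base change back.
-/

set_option autoImplicit false
set_option linter.unusedSectionVars false
set_option linter.unusedVariables false
set_option linter.style.haveILetI false
set_option synthInstance.maxHeartbeats 400000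

noncomputable section

namespace Fermat.Agent.G

open ModularCurve AlgebraicCurve IsLocalRing Polynomial Fermat.Agent.S18 Fermat.Agent.S24

/-! ### Generalities -/

/-- integrality passes to a surjective pre-composition. -/
theorem grdl_isIntegralElem_comp_of_surjective {R S T : Type*} [CommRing R] [CommRing S]
    [CommRing T] (f : R →+* S) (g : S →+* T) (hf : Function.Surjective f) {x : T}
    (hx : g.IsIntegralElem x) : (g.comp f).IsIntegralElem x := by
  obtain ⟨p, hp, hpx⟩ := hx
  obtain ⟨q, hq, -, hqm⟩ := Polynomial.lifts_and_natDegree_eq_and_monic (f := f)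
    ((Polynomial.mem_lifts p).mpr (Polynomial.map_surjective f hf p)) hp
  exact ⟨q, hqm, by rw [← Polynomial.eval₂_map, hq, hpx]⟩

/-- integral over `R[t]` ⟹ root of a monic polynomial of `R[X][Y]`. -/
theorem grdl_isIntegralElem_of_adjoin {R T : Type*} [CommRing R] [CommRing T] [Algebra R T]
    (t x : T) (hx : IsIntegral (Algebra.adjoin R {t}) x) :
    ((aeval t : R[X] →ₐ[R] T) : R[X] →+* T).IsIntegralElem x := by
  have hrange : Algebra.adjoin R {t} = (aeval t : R[X] →ₐ[R] T).range :=
    Algebra.adjoin_singleton_eq_range_aeval R t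
  let f : R[X] →+* ↥(Algebra.adjoin R {t}) :=
    { toFun := fun a => ⟨aeval t a, by rw [hrange]; exact ⟨a, rfl⟩⟩
      map_one' := Subtype.ext (map_one _)
      map_mul' := fun a b => Subtype.ext (map_mul _ a b)
      map_zero' := Subtype.ext (map_zero _)
      map_add' := fun a b => Subtype.ext (map_add _ a b) }
  have hf : Function.Surjective f := by
    rintro ⟨y, hy⟩
    rw [hrange] at hy
    obtain ⟨a, rfl⟩ := hy
    exact ⟨a, rfl⟩
  have h := grdl_isIntegralElem_comp_of_surjective f
    (algebraMap ↥(Algebra.adjoin R {t}) T) hf hx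
  have e : (algebraMap ↥(Algebra.adjoin R {t}) T).comp f =
      ((aeval t : R[X] →ₐ[R] T) : R[X] →+* T) := RingHom.ext fun _ => rfl
  rwa [e] at h

section Up

variable (M : ℕ) [NeZero M] {ℓ : ℕ} [Fact ℓ.Prime]
variable (A : ValuationSubring (AlgebraicClosure ℚ))
variable (E : IntermediateField ℚ (AlgebraicClosure ℚ))

/-- base change `F_E(M) → F_ℚ̄(M)`. -/
def grdlUp : ↥(modularFunctionFieldFullC E M) →+* ↥(modularFunctionFieldBar M) where
  toFun z := ⟨s18dUp E (z : LaurentSeries E), s18d_up_mem E M _ z.2⟩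
  map_one' := Subtype.ext (map_one _)
  map_mul' a b := Subtype.ext (map_mul _ _ _)
  map_zero' := Subtype.ext (map_zero _)
  map_add' a b := Subtype.ext (map_add _ _ _)

theorem grdlUp_coe (z : ↥(modularFunctionFieldFullC E M)) :
    ((grdlUp M E z : modularFunctionFieldBar M) : LaurentSeries (AlgebraicClosure ℚ)) =
      s18dUp E (z : LaurentSeries E) := rfl

theorem grdlUp_injective : Function.Injective (grdlUp M E) := by
  intro a b h
  apply Subtype.ext
  exact s18dd_coeffMap_injective _ (congrArg Subtype.val h)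

attribute [local instance] ggn_isLocalHom

/-- the map of residue fields `(𝔸 ∩ E)/𝔪 → 𝔸/𝔪`. -/
def grdlResMap : ResidueField (s18dVal A E) →+* ResidueField A :=
  ResidueField.map (s18dIncl A E)

theorem grdl_coeffMap_resMap (a : LaurentSeries (s18dVal A E)) :
    coeffMap (grdlResMap A E) (s18vRes (s18dVal A E) a) =
      coeffMap (residue A) (coeffMap (s18dIncl A E) a) := by
  rw [coeffMap_coeffMap, coeffMap_coeffMap]
  rfl

variable {M A E}

/-- (L1) the base change of the Gauss ring of `F_E(M)` lies in the Gauss ring of `F_ℚ̄(M)`. -/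
theorem grdl_up_mem (hℓM : ¬ ℓ ∣ M) (hA : A.LiesOverPrime ℓ) [FiniteDimensional ℚ E]
    (z : ↥(modularFunctionFieldFullC E M))
    (hz : z ∈ s18vO (s18dVal A E) (modularFunctionFieldFullC E M)) :
    grdlUp M E z ∈ grdO M A := by
  obtain ⟨a, b, ha, hb, hb0, hx⟩ := hz
  refine ⟨coeffMap (s18dIncl A E) a, coeffMap (s18dIncl A E) b,
    ggn_good_of_model M A hℓM hA E a ha, ggn_good_of_model M A hℓM hA E b hb,
    ggn_spec_ne_zero A E b hb0, ?_⟩
  rw [grdlUp_coe, ← s18d_up_incl, ← s18d_up_incl, ← map_mul, hx]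

/-- (L1) ... compatibly with the reductions. -/
theorem grdl_red_up (hℓM : ¬ ℓ ∣ M) (hA : A.LiesOverPrime ℓ) [FiniteDimensional ℚ E]
    [IsDiscreteValuationRing (s18dVal A E)]
    (z : ↥(modularFunctionFieldFullC E M))
    (hz : z ∈ s18vO (s18dVal A E) (modularFunctionFieldFullC E M)) :
    ((grdRed M A ⟨grdlUp M E z, grdl_up_mem hℓM hA z hz⟩ :
      modularFunctionFieldFullC (ResidueField A) M) : LaurentSeries (ResidueField A)) =
      (coeffMap (grdlResMap A E) (s18vcRed (modularFunctionFieldFullC E M) ⟨z, hz⟩) :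
        LaurentSeries (ResidueField A)) := by
  have hz' := hz
  obtain ⟨a, b, ha, hb, hb0, hx⟩ := hz'
  have h1 := grdRed_eq M A ⟨grdlUp M E z, grdl_up_mem hℓM hA z hz⟩ (coeffMap (s18dIncl A E) a) (coeffMap (s18dIncl A E) b)
    (ggn_spec_ne_zero A E b hb0)
    (by rw [grdlUp_coe, ← s18d_up_incl, ← s18d_up_incl, ← map_mul, hx])
  have h2 := s18vcRed_eq (modularFunctionFieldFullC E M) ⟨z, hz⟩ a b hb0 hx
  rw [h1, h2, map_div₀, grdl_coeffMap_resMap, grdl_coeffMap_resMap]

end Up

section Surj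

variable (M : ℕ) [NeZero M]
variable (A : ValuationSubring (AlgebraicClosure ℚ))

/-- elements of the Gauss ring with nonzero reduction are units. -/
theorem grdl_inv_mem (x : ↥(grdO M A)) (hx : grdRed M A x ≠ 0) :
    (x : modularFunctionFieldBar M)⁻¹ ∈ grdO M A := by
  obtain ⟨a, b, ha, hb, hb0, hxab⟩ := x.2
  have hred := grdRed_eq M A x a b hb0 hxab
  have ha0 : coeffMap (residue A) a ≠ 0 := by
    intro h0
    apply hx
    apply Subtype.ext
    rw [hred, h0, zero_div]
    rfl
  have hx0 : ((x : modularFunctionFieldBar M) : LaurentSeries (AlgebraicClosure ℚ)) ≠ 0 := by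
    intro h0
    rw [h0, zero_mul] at hxab
    apply ha0
    have : a = 0 := grd_coeffMap_subtype_injective A (by rw [← hxab, map_zero])
    rw [this, map_zero]
  refine ⟨b, a, hb, ha, ha0, ?_⟩
  rw [← hxab]
  push_cast
  rw [← mul_assoc, inv_mul_cancel₀ hx0, one_mul]

/-- (S) the reduction `grdO → F_k(M)` is surjective. -/
theorem grdl_red_surjective (c : modularFunctionFieldFullC (ResidueField A) M) :
    ∃ x : ↥(grdO M A), grdRed M A x = c := by
  suffices h : ∀ y : LaurentSeries (ResidueField A),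
      y ∈ Subfield.closure (Set.range (algebraMap (ResidueField A)
        (LaurentSeries (ResidueField A))) ∪ divisorExpansionsC (ResidueField A) M) →
      ∃ x : ↥(grdO M A), ((grdRed M A x : modularFunctionFieldFullC (ResidueField A) M) :
        LaurentSeries (ResidueField A)) = y by
    obtain ⟨x, hx⟩ := h c c.2
    exact ⟨x, Subtype.ext hx⟩
  intro y hy
  induction hy using Subfield.closure_induction with
  | mem y hy =>
      rcases hy with ⟨κ, rfl⟩ | ⟨d, hd, hdM, rfl⟩
      · obtain ⟨a, rfl⟩ := residue_surjective κ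
        refine ⟨⟨_, grd_gen_mem (ggn_good_C (N := M) a)⟩, ?_⟩
        rw [grdRed_gen, ggn_spec_C]
        rfl
      · have hgood : S18Good M A (qExpand A d (jqModC A)) := by
          refine ⟨?_, ?_⟩
          · rw [coeffMap_qExpand, coeffMap_jqModC]
            exact s18db_full_le_bar M (jqModCd_mem_full _ M hdM)
          · rw [coeffMap_qExpand, coeffMap_jqModC]
            exact jqModCd_mem_full _ M hdM
        refine ⟨⟨_, grd_gen_mem hgood⟩, ?_⟩
        rw [grdRed_gen]
        show coeffMap (residue A) (qExpand A d (jqModC A)) = _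
        rw [coeffMap_qExpand, coeffMap_jqModC]
  | one => exact ⟨1, by rw [map_one]; rfl⟩
  | add x y _ _ hx hy =>
      obtain ⟨x', rfl⟩ := hx
      obtain ⟨y', rfl⟩ := hy
      exact ⟨x' + y', by rw [map_add]; rfl⟩
  | neg x _ hx =>
      obtain ⟨x', rfl⟩ := hx
      exact ⟨-x', by rw [map_neg]; rfl⟩
  | inv x _ hx =>
      obtain ⟨x', rfl⟩ := hx
      by_cases h0 : grdRed M A x' = 0
      · exact ⟨0, by rw [h0, map_zero]; simp⟩
      · refine ⟨⟨_, grdl_inv_mem M A x' h0⟩, ?_⟩
        have h1 : x' * ⟨_, grdl_inv_mem M A x' h0⟩ = 1 := by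
          apply Subtype.ext
          have hx0 : (x' : modularFunctionFieldBar M) ≠ 0 := by
            intro h
            apply h0
            have : x' = 0 := Subtype.ext h
            rw [this, map_zero]
          exact mul_inv_cancel₀ hx0
        have h2 := congrArg (grdRed M A) h1
        rw [map_mul, map_one] at h2
        rw [eq_inv_of_mul_eq_one_right h2]
        rfl
  | mul x y _ _ hx hy =>
      obtain ⟨x', rfl⟩ := hx
      obtain ⟨y', rfl⟩ := hy
      exact ⟨x' * y', by rw [map_mul]; rfl⟩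

end Surj

section Descent

variable {M : ℕ} [NeZero M] {ℓ : ℕ} [Fact ℓ.Prime]
variable {A : ValuationSubring (AlgebraicClosure ℚ)}

/-- (D) every element of the Gauss ring of `F_ℚ̄(M)` comes from the Gauss ring of `F_E(M)` for a
number field `E`, which can be taken arbitrarily large. -/
theorem grdl_exists_model (x : ↥(grdO M A))
    (E₁ : IntermediateField ℚ (AlgebraicClosure ℚ)) [FiniteDimensional ℚ E₁] :
    ∃ (E : IntermediateField ℚ (AlgebraicClosure ℚ)) (_ : FiniteDimensional ℚ E)
      (z : ↥(modularFunctionFieldFullC E M)), E₁ ≤ E ∧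
      z ∈ s18vO (s18dVal A E) (modularFunctionFieldFullC E M) ∧
      grdlUp M E z = (x : modularFunctionFieldBar M) := by
  obtain ⟨a, b, ha, hb, hb0, hxab⟩ := x.2
  obtain ⟨Ex, hfx, zx, hzx, hzx'⟩ := s18dd_exists_model M _ (x : modularFunctionFieldBar M).2
  obtain ⟨Ea, hfa, za, hza, hza'⟩ := s18dd_exists_model M _ ha.1
  obtain ⟨Eb, hfb, zb, hzb, hzb'⟩ := s18dd_exists_model M _ hb.1
  haveI := hfx
  haveI := hfa
  haveI := hfb
  let E : IntermediateField ℚ (AlgebraicClosure ℚ) := E₁ ⊔ Ex ⊔ Ea ⊔ Eb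
  have h1 : E₁ ≤ E := le_sup_left.trans (le_sup_left.trans le_sup_left)
  have hx : Ex ≤ E := le_sup_right.trans (le_sup_left.trans le_sup_left)
  have ha' : Ea ≤ E := le_sup_right.trans le_sup_left
  have hb' : Eb ≤ E := le_sup_right
  obtain ⟨hx1, hx2⟩ := s18dd_model_mono M hx zx hzx
  obtain ⟨ha1, ha2⟩ := s18dd_model_mono M ha' za hza
  obtain ⟨hb1, hb2⟩ := s18dd_model_mono M hb' zb hzb
  obtain ⟨va, hva1, hva2⟩ := s18dd_exists_coeff (A := A) a _ (ha2.trans hza')
  obtain ⟨vb, hvb1, hvb2⟩ := s18dd_exists_coeff (A := A) b _ (hb2.trans hzb')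
  refine ⟨E, inferInstance, ⟨_, hx1⟩, h1, ⟨va, vb, ?_, ?_, ?_, ?_⟩, ?_⟩
  · show s18vIncl (s18dVal A E) E va ∈ _
    have : s18vIncl (s18dVal A E) E va = _ := hva2
    rw [this]
    exact ha1
  · show s18vIncl (s18dVal A E) E vb ∈ _
    have : s18vIncl (s18dVal A E) E vb = _ := hvb2
    rw [this]
    exact hb1
  · intro h0
    apply hb0
    have h2 := (s18d_res_eq_iff A E vb 0).mp (by rw [h0, map_zero])
    have e : coeffMap (s18dIncl A E) vb = b := hvb1
    rw [e, map_zero, map_zero] at h2
    exact h2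
  · apply s18dd_coeffMap_injective (algebraMap E (AlgebraicClosure ℚ))
    have e1 : s18vIncl (s18dVal A E) E va = _ := hva2
    have e2 : s18vIncl (s18dVal A E) E vb = _ := hvb2
    rw [e1, e2, map_mul, hx2, ha2, hb2, hzx', hza', hzb']
    exact hxab
  · apply Subtype.ext
    exact hx2.trans hzx'

/-- (P) a monic polynomial of `k[X][Y]` lifts to a monic polynomial of `(𝔸 ∩ E)[X][Y]` for every
sufficiently large number field `E`. -/
theorem grdl_exists_poly (A : ValuationSubring (AlgebraicClosure ℚ))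
    (m : (ResidueField A)[X][X]) (hm : m.Monic) :
    ∃ (E₂ : IntermediateField ℚ (AlgebraicClosure ℚ)) (_ : FiniteDimensional ℚ E₂),
      ∀ E : IntermediateField ℚ (AlgebraicClosure ℚ), E₂ ≤ E →
        ∃ mE : (↥(s18dVal A E))[X][X], mE.Monic ∧
          mE.map (mapRingHom ((residue A).comp (s18dIncl A E))) = m := by
  classical
  let sec : ResidueField A → A := Function.surjInv (residue_surjective (R := A))
  have hsec : ∀ κ, residue A (sec κ) = κ := Function.surjInv_eq residue_surjective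
  let T : Finset (AlgebraicClosure ℚ) := m.support.biUnion fun i =>
    (m.coeff i).support.image fun j => ((sec ((m.coeff i).coeff j) : A) : AlgebraicClosure ℚ)
  haveI : Algebra.IsAlgebraic ℚ (AlgebraicClosure ℚ) := AlgebraicClosure.isAlgebraic ℚ
  refine ⟨IntermediateField.adjoin ℚ (T : Set (AlgebraicClosure ℚ)),
    IntermediateField.finiteDimensional_adjoin fun x _ => Algebra.IsIntegral.isIntegral x,
    fun E hE => ?_⟩
  have hrange : ∀ i j, (m.coeff i).coeff j ∈
      Set.range ((residue A).comp (s18dIncl A E)) := by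
    intro i j
    by_cases h0 : (m.coeff i).coeff j = 0
    · exact ⟨0, by rw [map_zero, h0]⟩
    · have hi : i ∈ m.support := by
        rw [mem_support_iff]
        intro h
        rw [h, coeff_zero] at h0
        exact h0 rfl
      have hmem : ((sec ((m.coeff i).coeff j) : A) : AlgebraicClosure ℚ) ∈ T :=
        Finset.mem_biUnion.mpr ⟨i, hi, Finset.mem_image.mpr ⟨j, mem_support_iff.mpr h0, rfl⟩⟩
      have hE' : ((sec ((m.coeff i).coeff j) : A) : AlgebraicClosure ℚ) ∈ E :=
        hE (IntermediateField.subset_adjoin ℚ _ hmem)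
      refine ⟨⟨⟨_, hE'⟩, (sec ((m.coeff i).coeff j)).2⟩, ?_⟩
      rw [RingHom.comp_apply]
      exact hsec _
  have hlift : m ∈ lifts (mapRingHom ((residue A).comp (s18dIncl A E))) := by
    rw [lifts_iff_coeff_lifts]
    intro i
    have h1 : m.coeff i ∈ lifts ((residue A).comp (s18dIncl A E)) := by
      rw [lifts_iff_coeff_lifts]
      exact hrange i
    obtain ⟨q, hq⟩ := (mem_lifts _).mp h1
    exact ⟨q, hq⟩
  obtain ⟨mE, hmE, -, hmon⟩ := lifts_and_natDegree_eq_and_monic hlift hm
  exact ⟨mE, hmon, hmE⟩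

end Descent

section Level

variable {M : ℕ} [NeZero M] {ℓ : ℕ} [Fact ℓ.Prime]
variable {A : ValuationSubring (AlgebraicClosure ℚ)}
variable {E : IntermediateField ℚ (AlgebraicClosure ℚ)}
variable {υ : LaurentSeries ℤ}

attribute [local instance] ggn_isLocalHom

/-- the chart coordinate of `F_E(M)` lies in the Gauss ring. -/
theorem grdl_coord_mem (hυ : GrdSerMem M υ) :
    (⟨grdSer υ E, hυ E⟩ : modularFunctionFieldFullC E M) ∈
      s18vO (s18dVal A E) (modularFunctionFieldFullC E M) := by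
  have e : s18vIncl (s18dVal A E) E (grdSer υ (s18dVal A E)) = grdSer υ E := grdSer_coeffMap υ _
  refine ⟨grdSer υ (s18dVal A E), 1, ?_, ?_, ?_, ?_⟩
  · rw [e]; exact hυ E
  · rw [map_one]; exact one_mem _
  · rw [map_one]; exact one_ne_zero
  · rw [map_one, mul_one, e]

/-- constants of `𝔸 ∩ E` in the Gauss ring of `F_E(M)`. -/
def grdlConst (M : ℕ) [NeZero M] (A : ValuationSubring (AlgebraicClosure ℚ))
    (E : IntermediateField ℚ (AlgebraicClosure ℚ)) [IsDiscreteValuationRing (s18dVal A E)] :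
    ↥(s18dVal A E) →+* ↥(s18vO (s18dVal A E) (modularFunctionFieldFullC E M)) :=
  (algebraMap ↥(s18dVal A E) ↥(modularFunctionFieldFullC E M)).codRestrict
    (s18vO (s18dVal A E) (modularFunctionFieldFullC E M))
    (s18vg_algebraMap_mem (modularFunctionFieldFullC E M))

variable [IsDiscreteValuationRing (s18dVal A E)]

theorem grdl_red_const (a : ↥(s18dVal A E)) :
    s18vcRed (modularFunctionFieldFullC E M) (grdlConst M A E a) =
      HahnSeries.C (residue _ a) := by
  rw [s18vcRed_incl _ _ (HahnSeries.C a) (s18vg_coe_unif (modularFunctionFieldFullC E M) a),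
    s18vg_res_C]

theorem grdl_red_coord (hυ : GrdSerMem M υ) :
    s18vcRed (modularFunctionFieldFullC E M) ⟨⟨grdSer υ E, hυ E⟩, grdl_coord_mem hυ⟩ =
      grdSer υ (ResidueField (s18dVal A E)) := by
  rw [s18vcRed_incl _ _ (grdSer υ (s18dVal A E)) (grdSer_coeffMap υ _).symm]
  exact grdSer_coeffMap υ _

/-- reduction to zero means divisibility by the uniformiser. -/
theorem grdl_dvd_of_red_eq_zero {ϖ : ↥(s18dVal A E)} (hϖ : Irreducible ϖ)
    (w : ↥(s18vO (s18dVal A E) (modularFunctionFieldFullC E M)))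
    (hw : s18vcRed (modularFunctionFieldFullC E M) w = 0) :
    ∃ y ∈ s18vO (s18dVal A E) (modularFunctionFieldFullC E M),
      (w : modularFunctionFieldFullC E M) = algebraMap ↥(s18dVal A E) _ ϖ * y := by
  obtain ⟨a, b, ha, hb, hb0, hx⟩ := w.2
  rw [s18vcRed_eq _ w a b hb0 hx, div_eq_zero_iff] at hw
  exact (s18v_dvd_iff' (modularFunctionFieldFullC E M) hϖ (w : modularFunctionFieldFullC E M)
    a b ha hb hb0 hx).mpr (hw.resolve_right hb0)

/-- the chart coordinate, as an element of the Gauss ring of `F_E(M)`. -/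
def grdlCoordO (A : ValuationSubring (AlgebraicClosure ℚ))
    (E : IntermediateField ℚ (AlgebraicClosure ℚ)) [IsDiscreteValuationRing (s18dVal A E)]
    (hυ : GrdSerMem M υ) : ↥(s18vO (s18dVal A E) (modularFunctionFieldFullC E M)) :=
  ⟨⟨grdSer υ E, hυ E⟩, grdl_coord_mem hυ⟩

theorem grdl_red_coordO (hυ : GrdSerMem M υ) :
    s18vcRed (modularFunctionFieldFullC E M) (grdlCoordO A E hυ) =
      grdSer υ (ResidueField (s18dVal A E)) :=
  grdl_red_coord hυ

/-- the evaluation hom `(𝔸 ∩ E)[X] → s18vO`, `X ↦ t`. -/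
def grdlEvalO (A : ValuationSubring (AlgebraicClosure ℚ))
    (E : IntermediateField ℚ (AlgebraicClosure ℚ)) [IsDiscreteValuationRing (s18dVal A E)]
    (hυ : GrdSerMem M υ) :
    (↥(s18dVal A E))[X] →+* ↥(s18vO (s18dVal A E) (modularFunctionFieldFullC E M)) :=
  eval₂RingHom (grdlConst M A E) (grdlCoordO A E hυ)

theorem grdlEvalO_C (hυ : GrdSerMem M υ) (a : ↥(s18dVal A E)) :
    grdlEvalO A E hυ (C a) = grdlConst M A E a := by
  unfold grdlEvalO
  rw [coe_eval₂RingHom, eval₂_C]

theorem grdlEvalO_X (hυ : GrdSerMem M υ) :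
    grdlEvalO A E hυ X = grdlCoordO A E hυ := by
  unfold grdlEvalO
  rw [coe_eval₂RingHom, eval₂_X]

/-- `a ↦ a(t)` as a ring hom `(𝔸 ∩ E)[X] → F_E(M)`. -/
def grdlAeval (A : ValuationSubring (AlgebraicClosure ℚ))
    (E : IntermediateField ℚ (AlgebraicClosure ℚ)) (hυ : GrdSerMem M υ) :
    (↥(s18dVal A E))[X] →+* ↥(modularFunctionFieldFullC E M) :=
  ((aeval (⟨grdSer υ E, hυ E⟩ : modularFunctionFieldFullC E M) :
    (↥(s18dVal A E))[X] →ₐ[↥(s18dVal A E)] _) : (↥(s18dVal A E))[X] →+* _)

theorem grdl_subtype_comp_evalO (hυ : GrdSerMem M υ) :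
    (s18vO (s18dVal A E) (modularFunctionFieldFullC E M)).subtype.comp (grdlEvalO A E hυ) =
      grdlAeval A E hυ := by
  refine Polynomial.ringHom_ext (fun a => ?_) ?_
  · rw [RingHom.comp_apply, grdlEvalO_C]
    unfold grdlAeval
    rw [AlgHom.coe_toRingHom, aeval_C]
    rfl
  · rw [RingHom.comp_apply, grdlEvalO_X]
    unfold grdlAeval
    rw [AlgHom.coe_toRingHom, aeval_X]
    rfl

/-- `a ↦ ā(ū)` as a ring hom `k[X] → k((q))`. -/
def grdlAevalK (A : ValuationSubring (AlgebraicClosure ℚ)) (υ : LaurentSeries ℤ) :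
    (ResidueField A)[X] →+* LaurentSeries (ResidueField A) :=
  ((aeval (grdSer υ (ResidueField A)) :
    (ResidueField A)[X] →ₐ[ResidueField A] LaurentSeries (ResidueField A)) :
      (ResidueField A)[X] →+* _)

/-- the reduction `s18vO → k((q))`. -/
def grdlRedK (M : ℕ) [NeZero M] (A : ValuationSubring (AlgebraicClosure ℚ))
    (E : IntermediateField ℚ (AlgebraicClosure ℚ)) [IsDiscreteValuationRing (s18dVal A E)] :
    ↥(s18vO (s18dVal A E) (modularFunctionFieldFullC E M)) →+* LaurentSeries (ResidueField A) :=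
  (coeffMap (grdlResMap A E)).comp (s18vcRed (modularFunctionFieldFullC E M))

theorem grdlRedK_apply (w : ↥(s18vO (s18dVal A E) (modularFunctionFieldFullC E M))) :
    grdlRedK M A E w = coeffMap (grdlResMap A E) (s18vcRed (modularFunctionFieldFullC E M) w) :=
  rfl

theorem grdl_red_comp_evalO (hυ : GrdSerMem M υ) :
    (grdlRedK M A E).comp (grdlEvalO A E hυ) =
      (grdlAevalK A υ).comp (mapRingHom ((residue A).comp (s18dIncl A E))) := by
  refine Polynomial.ringHom_ext (fun a => ?_) ?_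
  · rw [RingHom.comp_apply, grdlEvalO_C, grdlRedK_apply, grdl_red_const, RingHom.comp_apply,
      coe_mapRingHom, map_C]
    unfold grdlAevalK
    rw [AlgHom.coe_toRingHom, aeval_C, algebraMap_laurentSeries_eq_single]
    exact coeffMap_single _ _ _
  · rw [RingHom.comp_apply, grdlEvalO_X, grdlRedK_apply, grdl_red_coordO, RingHom.comp_apply,
      coe_mapRingHom, map_X]
    unfold grdlAevalK
    rw [AlgHom.coe_toRingHom, aeval_X]
    exact grdSer_coeffMap υ _

/-- the integrality equation modulo `ϖ` at level `E`. -/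
theorem grdl_intMod {ϖ : ↥(s18dVal A E)} (hϖ : Irreducible ϖ) (hυ : GrdSerMem M υ)
    (z : ↥(modularFunctionFieldFullC E M))
    (hz : z ∈ s18vO (s18dVal A E) (modularFunctionFieldFullC E M))
    (mE : (↥(s18dVal A E))[X][X]) (cs : LaurentSeries (ResidueField A))
    (hzc : grdlRedK M A E ⟨z, hz⟩ = cs)
    (hroot : eval₂ (grdlAevalK A υ) cs
        (mE.map (mapRingHom ((residue A).comp (s18dIncl A E)))) = 0) :
    ∃ y ∈ s18vO (s18dVal A E) (modularFunctionFieldFullC E M),
      eval₂ (grdlAeval A E hυ) z mE = algebraMap ↥(s18dVal A E) _ ϖ * y := by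
  have hwcoe := Polynomial.hom_eval₂ mE (grdlEvalO A E hυ)
      (s18vO (s18dVal A E) (modularFunctionFieldFullC E M)).subtype ⟨z, hz⟩
  rw [grdl_subtype_comp_evalO] at hwcoe
  have h := Polynomial.hom_eval₂ mE (grdlEvalO A E hυ) (grdlRedK M A E) ⟨z, hz⟩
  rw [grdl_red_comp_evalO, hzc, ← eval₂_map, hroot] at h
  have hred : s18vcRed (modularFunctionFieldFullC E M)
      (eval₂ (grdlEvalO A E hυ) ⟨z, hz⟩ mE) = 0 := by
    apply s18dd_coeffMap_injective (grdlResMap A E)
    rw [map_zero]
    exact h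
  obtain ⟨y, hy, hwy⟩ := grdl_dvd_of_red_eq_zero hϖ _ hred
  exact ⟨y, hy, hwcoe ▸ hwy⟩

/-- base change of the evaluation hom. -/
theorem grdl_up_comp_aeval (hυ : GrdSerMem M υ) :
    (grdlUp M E).comp (grdlAeval A E hυ) =
      (eval₂RingHom (grdInclA M A) (grdQ M hυ)).comp (mapRingHom (s18dIncl A E)) := by
  refine Polynomial.ringHom_ext (fun a => ?_) ?_
  · rw [RingHom.comp_apply, RingHom.comp_apply, coe_mapRingHom, map_C, coe_eval₂RingHom, eval₂_C]
    unfold grdlAeval
    rw [AlgHom.coe_toRingHom, aeval_C]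
    apply Subtype.ext
    rw [grdlUp_coe, s18v_coe_algebraMap, s18dd_coeffMap_algebraMap]
    rfl
  · rw [RingHom.comp_apply, RingHom.comp_apply, coe_mapRingHom, map_X, coe_eval₂RingHom, eval₂_X]
    unfold grdlAeval
    rw [AlgHom.coe_toRingHom, aeval_X]
    apply Subtype.ext
    rw [grdlUp_coe]
    exact grdSer_coeffMap υ _

/-- base change of an element integral over `(𝔸 ∩ E)[t]` is integral over `𝔸[u]`. -/
theorem grdl_isInt_up (hυ : GrdSerMem M υ) (p : ↥(modularFunctionFieldFullC E M))
    (hp : p ∈ s18tInt ↥(s18dVal A E) (⟨grdSer υ E, hυ E⟩ : modularFunctionFieldFullC E M)) :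
    GrdIsInt M A (grdQ M hυ) (grdlUp M E p) := by
  obtain ⟨P, hP, hPp⟩ := grdl_isIntegralElem_of_adjoin
    (⟨grdSer υ E, hυ E⟩ : modularFunctionFieldFullC E M) p hp
  refine ⟨P.map (mapRingHom (s18dIncl A E)), hP.map _, ?_⟩
  rw [eval₂_map, ← grdl_up_comp_aeval]
  have h := Polynomial.hom_eval₂ P (grdlAeval A E hυ) (grdlUp M E) p
  rw [← h]
  unfold grdlAeval
  rw [hPp, map_zero]

end Level

section Main

variable (M : ℕ) [NeZero M] {ℓ : ℕ} [Fact ℓ.Prime]
variable (A : ValuationSubring (AlgebraicClosure ℚ))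
variable {υ : LaurentSeries ℤ}

attribute [local instance] ggn_isLocalHom

set_option maxHeartbeats 1600000 in
/-- (C3) LIFTING (= normality of the special fibre of the chart, `grdn_chart_normal` + descent to a
number field) : every element of `F_k` integral over `k[ū]` is the reduction of an element of `F`
integral over `𝔸[u]`. -/
theorem grd_lift (hℓM : ¬ ℓ ∣ M) (hA : A.LiesOverPrime ℓ) (hc : GrdChart M A υ)
    (c : ↥(intRing (ResidueField A) (grdK M A hc.mem))) :
    ∃ x : ↥(grdO M A), GrdIsInt M A (grdQ M hc.mem) (x : modularFunctionFieldBar M) ∧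
      grdRed M A x = (c : modularFunctionFieldFullC (ResidueField A) M) := by
  -- the integrality equation of `c`
  obtain ⟨m, hm, hmc⟩ := grdl_isIntegralElem_of_adjoin (grdK M A hc.mem)
    (c : modularFunctionFieldFullC (ResidueField A) M) c.2
  have hroot : eval₂ (grdlAevalK A υ)
      ((c : modularFunctionFieldFullC (ResidueField A) M) : LaurentSeries (ResidueField A)) m =
      0 := by
    have h := Polynomial.hom_eval₂ m
      ((aeval (grdK M A hc.mem) : (ResidueField A)[X] →ₐ[ResidueField A] _) :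
        (ResidueField A)[X] →+* _)
      (modularFunctionFieldFullC (ResidueField A) M).val.toRingHom
      (c : modularFunctionFieldFullC (ResidueField A) M)
    rw [hmc, map_zero] at h
    have e : (modularFunctionFieldFullC (ResidueField A) M).val.toRingHom.comp
        ((aeval (grdK M A hc.mem) : (ResidueField A)[X] →ₐ[ResidueField A] _) :
          (ResidueField A)[X] →+* _) = grdlAevalK A υ := by
      refine Polynomial.ringHom_ext (fun a => ?_) ?_
      · unfold grdlAevalK
        rw [RingHom.comp_apply, AlgHom.coe_toRingHom, AlgHom.coe_toRingHom, aeval_C, aeval_C]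
        rfl
      · unfold grdlAevalK
        rw [RingHom.comp_apply, AlgHom.coe_toRingHom, AlgHom.coe_toRingHom, aeval_X, aeval_X]
        rfl
    rw [e] at h
    exact h.symm
  -- the number field
  obtain ⟨E₂, hfd₂, hE₂⟩ := grdl_exists_poly A m hm
  obtain ⟨x₀, hx₀⟩ := grdl_red_surjective M A (c : modularFunctionFieldFullC (ResidueField A) M)
  obtain ⟨E₀, hfd₀, hlvl⟩ := hc.lvl
  haveI := hfd₀
  haveI := hfd₂
  obtain ⟨E, hfd, z, hE, hzO, hzx⟩ := grdl_exists_model (M := M) (A := A) x₀ (E₀ ⊔ E₂)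
  haveI := hfd
  haveI : IsDiscreteValuationRing (s18dVal A E) := s18d_isDVR A E hA
  haveI : CharZero (s18dVal A E) := ggn_charZero A E
  obtain ⟨ϖ, hϖ⟩ := IsDiscreteValuationRing.exists_irreducible (s18dVal A E)
  obtain ⟨hco, S, hchart⟩ := hlvl E (le_sup_left.trans hE) hfd ϖ hϖ
  obtain ⟨mE, hmE, hmap⟩ := hE₂ E (le_sup_right.trans hE)
  -- the reduction of `z` is `c`
  have hzc : grdlRedK M A E ⟨z, hzO⟩ =
      ((c : modularFunctionFieldFullC (ResidueField A) M) : LaurentSeries (ResidueField A)) := by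
    rw [grdlRedK_apply, ← grdl_red_up hℓM hA z hzO, ← hx₀]
    congr 2
    exact Subtype.ext hzx
  -- integrality modulo `ϖ`
  have hroot' : eval₂ (grdlAevalK A υ)
      ((c : modularFunctionFieldFullC (ResidueField A) M) : LaurentSeries (ResidueField A))
      (mE.map (mapRingHom ((residue A).comp (s18dIncl A E)))) = 0 :=
    (congrArg (eval₂ (grdlAevalK A υ)
      ((c : modularFunctionFieldFullC (ResidueField A) M) : LaurentSeries (ResidueField A)))
        hmap).trans hroot
  obtain ⟨y, hy, hzy⟩ := grdl_intMod (M := M) (A := A) (E := E) hϖ hc.mem z hzO mE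
    ((c : modularFunctionFieldFullC (ResidueField A) M) : LaurentSeries (ResidueField A)) hzc
    hroot'
  have hyL : y ∈ s18tIntLoc ↥(s18dVal A E)
      (⟨grdSer υ E, hc.mem E⟩ : modularFunctionFieldFullC E M) (C ϖ) (s18t_prime_C hϖ) := by
    rw [hco.intLoc_eq]; exact hy
  have hint : GrdnIntMod (s18t_prime_C hϖ)
      (⟨grdSer υ E, hc.mem E⟩ : modularFunctionFieldFullC E M) z :=
    ⟨mE, hmE, y, hyL, hzy⟩
  -- normality of the special fibre
  haveI := hco.fin
  obtain ⟨p, hp, y', hy', hzp⟩ := grdn_chart_normal hϖ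
    (⟨grdSer υ E, hc.mem E⟩ : modularFunctionFieldFullC E M) hco.transc S hchart hco.selfDual z
    (hco.intLoc_eq ▸ hzO) hint
  have hy'O : y' ∈ s18vO (s18dVal A E) (modularFunctionFieldFullC E M) := hco.intLoc_eq ▸ hy'
  have hpO : p ∈ s18vO (s18dVal A E) (modularFunctionFieldFullC E M) := by
    have h1 : p = z - algebraMap ↥(s18dVal A E) _ ϖ * y' := by rw [← hzp]; ring
    rw [h1]
    exact sub_mem hzO (mul_mem (s18vg_algebraMap_mem _ ϖ) hy'O)
  refine ⟨⟨grdlUp M E p, grdl_up_mem hℓM hA p hpO⟩, grdl_isInt_up hc.mem p hp, ?_⟩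
  apply Subtype.ext
  rw [grdl_red_up hℓM hA p hpO, ← hzc, grdlRedK_apply]
  congr 1
  -- `p ≡ z` modulo `ϖ`
  have h2 : (⟨z, hzO⟩ : ↥(s18vO (s18dVal A E) (modularFunctionFieldFullC E M))) =
      ⟨p, hpO⟩ + grdlConst M A E ϖ * ⟨y', hy'O⟩ := by
    apply Subtype.ext
    show z = p + algebraMap ↥(s18dVal A E) _ ϖ * y'
    rw [← hzp]; ring
  rw [h2, map_add, map_mul, grdl_red_const]
  have h3 : residue ↥(s18dVal A E) ϖ = 0 := by
    rw [residue_eq_zero_iff, hϖ.maximalIdeal_eq]
    exact Ideal.mem_span_singleton_self ϖ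
  rw [h3, map_zero, zero_mul, add_zero]

end Main

end Fermat.Agent.G
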