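/-
Program G / package G/Red, row G-RED-R1 (helper9): `grd_val_exists`, `grd_rel_inChartK`,
`grd_rel_exists`, VERBATIM from helper12's `G/Red/Spec.lean` (28daca2).

* `grd_val_exists` : `𝒪_P ⊇ 𝔸[u]`, valuation rings are integrally closed, so `x ∈ 𝒪_P`; its value
  `b ∈ ℚ̄` is a root of the monic polynomial obtained by evaluating the integrality equation at `P`,
  hence integral over `𝔸`, hence in `𝔸`.
* `grd_rel_exists` : `χ_P : C → k`, `x̄ ↦ residue (x(P))` is a well defined `k`-point of the integral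
  closure `C` of `k[ū]` (`grd_lift`, `grdRed_eq_zero_iff`, `grd_saturated`, `grd_val_exists`), hence
  a place (`grdg_place_of_hom`), which is the unique `Q` with `GrdRel u P Q`.
Private helpers are prefixed `grdr_`.
-/
import Mathlib
import Fermat.Agent.G.Red.Defs
import Fermat.Agent.G.Red.Val
import Fermat.Agent.G.Red.GenPlace
import Fermat.Agent.G.Red.Gauss
import Fermat.Agent.G.Red.GaussKer
import Fermat.Agent.G.Red.Sat
import Fermat.Agent.G.Red.Lift
import Fermat.Agent.S24.Places
import Fermat.Agent.S24.PlacesCenter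

set_option autoImplicit false
set_option linter.unusedSectionVars false
set_option linter.unusedVariables false
set_option synthInstance.maxHeartbeats 400000

noncomputable section

namespace Fermat.Agent.G

open ModularCurve AlgebraicCurve IsLocalRing Polynomial Fermat.Agent.S18 Fermat.Agent.S24

/-! ### values of polynomial expressions -/

section Generic

variable {K F : Type*} [Field K] [Field F] [Algebra K F]

theorem grdr_val_zero (P : Place K F) : GrdVal P (0 : F) 0 := by
  have h := grdg_val_algebraMap P (0 : K)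
  rwa [map_zero] at h

theorem grdr_val_one (P : Place K F) : GrdVal P (1 : F) 1 := by
  have h := grdg_val_algebraMap P (1 : K)
  rwa [map_one] at h

theorem grdr_val_pow (P : Place K F) {x : F} {a : K} (hx : GrdVal P x a) (n : ℕ) :
    GrdVal P (x ^ n) (a ^ n) := by
  induction n with
  | zero => rw [pow_zero, pow_zero]; exact grdr_val_one P
  | succ n ih => rw [pow_succ, pow_succ]; exact grdg_val_mul P ih hx

theorem grdr_val_sub (P : Place K F) {x y : F} {a b : K} (hx : GrdVal P x a) (hy : GrdVal P y b) :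
    GrdVal P (x - y) (a - b) := by
  rw [sub_eq_add_neg, sub_eq_add_neg]
  exact grdg_val_add P hx (grdg_val_neg P hy)

/-- evaluation of a polynomial identity at a place. -/
theorem grdr_val_eval₂ (P : Place K F) {R : Type*} [CommRing R] (φ : R →+* F) (ψ : R →+* K)
    (h : ∀ r, GrdVal P (φ r) (ψ r)) {x : F} {b : K} (hx : GrdVal P x b) (p : R[X]) :
    GrdVal P (p.eval₂ φ x) (p.eval₂ ψ b) := by
  induction p using Polynomial.induction_on' with
  | add p q hp hq =>
    rw [eval₂_add, eval₂_add]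
    exact grdg_val_add P hp hq
  | monomial n r =>
    rw [eval₂_monomial, eval₂_monomial]
    exact grdg_val_mul P (h r) (grdr_val_pow P hx n)

end Generic

variable (M : ℕ) [NeZero M] {ℓ : ℕ} [Fact ℓ.Prime]
variable (A : ValuationSubring (AlgebraicClosure ℚ))
variable {υ : LaurentSeries ℤ}

/-- (V1) VALUES : at a place of the chart (`u(P) ∈ 𝔸`) every element integral over `𝔸[u]` takes
a value in `𝔸` (valuation rings are integrally closed; the residue field of `P` is `ℚ̄`). -/
theorem grd_val_exists (hc : GrdChart M A υ)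
    (P : Place (AlgebraicClosure ℚ) (modularFunctionFieldBar M))
    (hP : GrdInChart M A (grdQ M hc.mem) P) {x : modularFunctionFieldBar M}
    (hx : GrdIsInt M A (grdQ M hc.mem) x) : ∃ a : A, GrdVal P x (a : AlgebraicClosure ℚ) := by
  obtain ⟨a₀, ha₀⟩ := hP
  -- values of the elements of `A[u]`
  have h1 : ∀ f : A[X], GrdVal P (Polynomial.eval₂RingHom (grdInclA M A) (grdQ M hc.mem) f)
      (Polynomial.eval₂RingHom A.subtype (a₀ : AlgebraicClosure ℚ) f) := fun f =>
    grdr_val_eval₂ P (grdInclA M A) A.subtype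
      (fun r => grdg_val_algebraMap P (r : AlgebraicClosure ℚ)) ha₀ f
  -- `x ∈ 𝒪_P`
  have hxO : x ∈ P.toValuationSubring := by
    let _ : Algebra A[X] (modularFunctionFieldBar M) :=
      (Polynomial.eval₂RingHom (grdInclA M A) (grdQ M hc.mem)).toAlgebra
    exact mem_of_isIntegral_of_forall_mem P (A := A[X]) (fun f => grdg_val_mem P (h1 f)) hx
  obtain ⟨b, hb⟩ := grdg_val_exists hc.sepQ P hxO
  -- `b` is integral over `A`
  obtain ⟨q, hqm, hq0⟩ := hx
  have h2 := grdr_val_eval₂ P _ _ h1 hb q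
  rw [hq0] at h2
  have h3 : q.eval₂ (Polynomial.eval₂RingHom A.subtype (a₀ : AlgebraicClosure ℚ)) b = 0 :=
    grdg_val_unique P h2 (grdr_val_zero P)
  have hψ : (Polynomial.eval₂RingHom A.subtype (a₀ : AlgebraicClosure ℚ)) =
      (algebraMap A (AlgebraicClosure ℚ)).comp (Polynomial.evalRingHom a₀) := by
    ext f
    · simp
    · simp
  have hint : IsIntegral A b := by
    refine ⟨q.map (Polynomial.evalRingHom a₀), hqm.map _, ?_⟩
    rw [Polynomial.eval₂_map, ← hψ]
    exact h3
  obtain ⟨y, hy⟩ := IsIntegrallyClosed.isIntegral_iff.mp hint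
  refine ⟨y, ?_⟩
  have : ((y : A) : AlgebraicClosure ℚ) = b := hy
  rw [this]
  exact hb

/-- the chart coordinate is integral over `𝔸[u]`. -/
theorem grdr_isInt_self (u : modularFunctionFieldBar M) : GrdIsInt M A u u := by
  have h := RingHom.isIntegralElem_map (Polynomial.eval₂RingHom (grdInclA M A) u)
    (x := (Polynomial.X : A[X]))
  have h2 : Polynomial.eval₂RingHom (grdInclA M A) u Polynomial.X = u := by
    simp
  rwa [h2] at h

/-- constants of `𝔸` are integral over `𝔸[u]`. -/
theorem grdr_isInt_algebraMap (u : modularFunctionFieldBar M) (a : A) :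
    GrdIsInt M A u (algebraMap (AlgebraicClosure ℚ) (modularFunctionFieldBar M)
      (a : AlgebraicClosure ℚ)) := by
  have h := RingHom.isIntegralElem_map (Polynomial.eval₂RingHom (grdInclA M A) u)
    (x := (Polynomial.C a : A[X]))
  have h2 : Polynomial.eval₂RingHom (grdInclA M A) u (Polynomial.C a) =
      algebraMap (AlgebraicClosure ℚ) (modularFunctionFieldBar M) (a : AlgebraicClosure ℚ) := by
    simp [grdInclA]
  rwa [h2] at h

/-- a place related to `P` lies in the chart of `F_k`. -/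
theorem grd_rel_inChartK (hυ : GrdSerMem M υ)
    (P : Place (AlgebraicClosure ℚ) (modularFunctionFieldBar M))
    (hP : GrdInChart M A (grdQ M hυ) P)
    (Q : Place (ResidueField A) (modularFunctionFieldFullC (ResidueField A) M))
    (h : GrdRel M A (grdQ M hυ) P Q) : grdK M A hυ ∈ Q.toValuationSubring := by
  obtain ⟨a, ha⟩ := hP
  have h1 := h (grdQ M hυ) (grdQ_mem_grdO M A hυ) (grdr_isInt_self M A _) a ha
  rw [grdRed_grdQ M A hυ] at h1
  exact grdg_val_mem Q h1

/-- the value at `P` of an element integral over `𝔸[u]` with zero reduction lies in `𝔪`. -/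
theorem grdr_val_mem_maximalIdeal (hℓM : ¬ ℓ ∣ M) (hA : A.LiesOverPrime ℓ) (hc : GrdChart M A υ)
    (P : Place (AlgebraicClosure ℚ) (modularFunctionFieldBar M))
    (hP : GrdInChart M A (grdQ M hc.mem) P) (x : ↥(grdO M A))
    (hx : GrdIsInt M A (grdQ M hc.mem) (x : modularFunctionFieldBar M))
    (h0 : grdRed M A x = 0) (a : A)
    (ha : GrdVal P (x : modularFunctionFieldBar M) (a : AlgebraicClosure ℚ)) :
    a ∈ maximalIdeal A := by
  obtain ⟨π, x', hπ, hxx'⟩ := (grdRed_eq_zero_iff M A hℓM hA x).1 h0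
  by_cases hπ0 : π = 0
  · have hx0 : (x : modularFunctionFieldBar M) = 0 := by
      rw [hxx', hπ0]
      simp
    rw [hx0] at ha
    have h1 : (a : AlgebraicClosure ℚ) = 0 := grdg_val_unique P ha (grdr_val_zero P)
    have h2 : a = 0 := Subtype.ext h1
    rw [h2]
    exact zero_mem _
  · have hx' : GrdIsInt M A (grdQ M hc.mem) (x' : modularFunctionFieldBar M) :=
      grd_saturated M A hℓM hA hc x' π hπ0 (by rw [← hxx']; exact hx)
    obtain ⟨a', ha'⟩ := grd_val_exists M A hc P hP hx'
    have h2 : GrdVal P (x : modularFunctionFieldBar M)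
        ((π : AlgebraicClosure ℚ) * (a' : AlgebraicClosure ℚ)) := by
      rw [hxx']
      exact grdg_val_mul P (grdg_val_algebraMap P (π : AlgebraicClosure ℚ)) ha'
    have h3 : (a : AlgebraicClosure ℚ) = (π : AlgebraicClosure ℚ) * (a' : AlgebraicClosure ℚ) :=
      grdg_val_unique P ha h2
    have h4 : a = π * a' := Subtype.ext h3
    rw [h4]
    exact Ideal.mul_mem_right _ _ hπ

/-- two integral lifts of the same element of `F_k` have values at `P` with the same residue. -/
theorem grdr_residue_eq (hℓM : ¬ ℓ ∣ M) (hA : A.LiesOverPrime ℓ) (hc : GrdChart M A υ)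
    (P : Place (AlgebraicClosure ℚ) (modularFunctionFieldBar M))
    (hP : GrdInChart M A (grdQ M hc.mem) P) (x x' : ↥(grdO M A))
    (hx : GrdIsInt M A (grdQ M hc.mem) (x : modularFunctionFieldBar M))
    (hx' : GrdIsInt M A (grdQ M hc.mem) (x' : modularFunctionFieldBar M))
    (hred : grdRed M A x = grdRed M A x') (a a' : A)
    (ha : GrdVal P (x : modularFunctionFieldBar M) (a : AlgebraicClosure ℚ))
    (ha' : GrdVal P (x' : modularFunctionFieldBar M) (a' : AlgebraicClosure ℚ)) :
    residue A a = residue A a' := by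
  have h1 : a - a' ∈ maximalIdeal A := by
    refine grdr_val_mem_maximalIdeal M A hℓM hA hc P hP (x - x') ?_ ?_ (a - a') ?_
    · exact (grdB M A (grdQ M hc.mem)).sub_mem hx hx'
    · rw [map_sub, hred, sub_self]
    · exact grdr_val_sub P ha ha'
  rw [← sub_eq_zero, ← map_sub]
  exact (residue_eq_zero_iff _).2 h1

/-- every element of `C` has an integral lift with a value at `P`. -/
theorem grdr_exists_lift_val (hℓM : ¬ ℓ ∣ M) (hA : A.LiesOverPrime ℓ) (hc : GrdChart M A υ)
    (P : Place (AlgebraicClosure ℚ) (modularFunctionFieldBar M))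
    (hP : GrdInChart M A (grdQ M hc.mem) P)
    (c : ↥(intRing (ResidueField A) (grdK M A hc.mem))) :
    ∃ (x : ↥(grdO M A)) (a : A),
      GrdIsInt M A (grdQ M hc.mem) (x : modularFunctionFieldBar M) ∧
      grdRed M A x = (c : modularFunctionFieldFullC (ResidueField A) M) ∧
      GrdVal P (x : modularFunctionFieldBar M) (a : AlgebraicClosure ℚ) := by
  obtain ⟨x, hx, hred⟩ := grd_lift M A hℓM hA hc c
  obtain ⟨a, ha⟩ := grd_val_exists M A hc P hP hx
  exact ⟨x, a, hx, hred, ha⟩

/-- the value `χ_P (c) = residue (x(P))`, `x̄ = c`. -/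
def grdrChiFun (hℓM : ¬ ℓ ∣ M) (hA : A.LiesOverPrime ℓ) (hc : GrdChart M A υ)
    (P : Place (AlgebraicClosure ℚ) (modularFunctionFieldBar M))
    (hP : GrdInChart M A (grdQ M hc.mem) P)
    (c : ↥(intRing (ResidueField A) (grdK M A hc.mem))) : ResidueField A :=
  residue A (Classical.choose (Classical.choose_spec
    (grdr_exists_lift_val M A hℓM hA hc P hP c)))

theorem grdrChiFun_eq (hℓM : ¬ ℓ ∣ M) (hA : A.LiesOverPrime ℓ) (hc : GrdChart M A υ)
    (P : Place (AlgebraicClosure ℚ) (modularFunctionFieldBar M))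
    (hP : GrdInChart M A (grdQ M hc.mem) P)
    (c : ↥(intRing (ResidueField A) (grdK M A hc.mem)))
    (x : ↥(grdO M A)) (a : A)
    (hx : GrdIsInt M A (grdQ M hc.mem) (x : modularFunctionFieldBar M))
    (hred : grdRed M A x = (c : modularFunctionFieldFullC (ResidueField A) M))
    (ha : GrdVal P (x : modularFunctionFieldBar M) (a : AlgebraicClosure ℚ)) :
    grdrChiFun M A hℓM hA hc P hP c = residue A a := by
  obtain ⟨hx₀, hred₀, ha₀⟩ := Classical.choose_spec (Classical.choose_spec
    (grdr_exists_lift_val M A hℓM hA hc P hP c))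
  exact grdr_residue_eq M A hℓM hA hc P hP _ x hx₀ hx (hred₀.trans hred.symm) _ a ha₀ ha

/-- `χ_P : C → k` as a ring homomorphism. -/
def grdrChi (hℓM : ¬ ℓ ∣ M) (hA : A.LiesOverPrime ℓ) (hc : GrdChart M A υ)
    (P : Place (AlgebraicClosure ℚ) (modularFunctionFieldBar M))
    (hP : GrdInChart M A (grdQ M hc.mem) P) :
    ↥(intRing (ResidueField A) (grdK M A hc.mem)) →+* ResidueField A where
  toFun := grdrChiFun M A hℓM hA hc P hP
  map_one' := by
    rw [grdrChiFun_eq M A hℓM hA hc P hP 1 1 1 (grdB M A (grdQ M hc.mem)).one_mem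
      (by rw [map_one]; rfl) (by simpa using grdr_val_one P), map_one]
  map_mul' := by
    intro c₁ c₂
    obtain ⟨x₁, a₁, hx₁, hr₁, ha₁⟩ := grdr_exists_lift_val M A hℓM hA hc P hP c₁
    obtain ⟨x₂, a₂, hx₂, hr₂, ha₂⟩ := grdr_exists_lift_val M A hℓM hA hc P hP c₂
    rw [grdrChiFun_eq M A hℓM hA hc P hP c₁ x₁ a₁ hx₁ hr₁ ha₁,
      grdrChiFun_eq M A hℓM hA hc P hP c₂ x₂ a₂ hx₂ hr₂ ha₂,
      grdrChiFun_eq M A hℓM hA hc P hP (c₁ * c₂) (x₁ * x₂) (a₁ * a₂)
        ((grdB M A (grdQ M hc.mem)).mul_mem hx₁ hx₂) (by rw [map_mul, hr₁, hr₂]; rfl)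
        (grdg_val_mul P ha₁ ha₂), map_mul]
  map_zero' := by
    rw [grdrChiFun_eq M A hℓM hA hc P hP 0 0 0 (grdB M A (grdQ M hc.mem)).zero_mem
      (by rw [map_zero]; rfl) (by simpa using grdr_val_zero P), map_zero]
  map_add' := by
    intro c₁ c₂
    obtain ⟨x₁, a₁, hx₁, hr₁, ha₁⟩ := grdr_exists_lift_val M A hℓM hA hc P hP c₁
    obtain ⟨x₂, a₂, hx₂, hr₂, ha₂⟩ := grdr_exists_lift_val M A hℓM hA hc P hP c₂
    rw [grdrChiFun_eq M A hℓM hA hc P hP c₁ x₁ a₁ hx₁ hr₁ ha₁,
      grdrChiFun_eq M A hℓM hA hc P hP c₂ x₂ a₂ hx₂ hr₂ ha₂,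
      grdrChiFun_eq M A hℓM hA hc P hP (c₁ + c₂) (x₁ + x₂) (a₁ + a₂)
        ((grdB M A (grdQ M hc.mem)).add_mem hx₁ hx₂) (by rw [map_add, hr₁, hr₂]; rfl)
        (grdg_val_add P ha₁ ha₂), map_add]

/-- (R1) EXISTENCE AND UNIQUENESS of the reduction of a place of the chart :
`χ_P : C → k`, `x̄ ↦ residue (x(P))` is a well-defined (`grdRed_eq_zero_iff`, `grd_saturated`,
`grd_val_exists`) `k`-point of `C` (`grd_lift`), i.e. a place (`grdg_place_of_hom`); uniqueness by
`grdg_separate` + `grd_lift`. -/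
theorem grd_rel_exists (hℓM : ¬ ℓ ∣ M) (hA : A.LiesOverPrime ℓ) (hc : GrdChart M A υ)
    (P : Place (AlgebraicClosure ℚ) (modularFunctionFieldBar M))
    (hP : GrdInChart M A (grdQ M hc.mem) P) :
    ∃! Q : Place (ResidueField A) (modularFunctionFieldFullC (ResidueField A) M),
      GrdRel M A (grdQ M hc.mem) P Q := by
  have : IsAlgClosed (ResidueField A) := grd_isAlgClosed_residue A
  have hχ : ∀ (c : ResidueField A)
      (hcc : algebraMap (ResidueField A) (modularFunctionFieldFullC (ResidueField A) M) c ∈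
        intRing (ResidueField A) (grdK M A hc.mem)),
      grdrChi M A hℓM hA hc P hP ⟨_, hcc⟩ = c := by
    intro c hcc
    obtain ⟨a, rfl⟩ := residue_surjective c
    exact grdrChiFun_eq M A hℓM hA hc P hP _ ⟨_, grdO_algebraMap_mem M A a⟩ a
      (grdr_isInt_algebraMap M A _ a) (grdRed_algebraMap M A a)
      (grdg_val_algebraMap P (a : AlgebraicClosure ℚ))
  obtain ⟨Q, ⟨hQu, hQv⟩, hQuniq⟩ := grdg_place_of_hom hc.sepK (grdrChi M A hℓM hA hc P hP) hχ
  refine ⟨Q, ?_, ?_⟩
  · intro x hx hxint a ha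
    have hmem := grdRed_isIntegral M A hc.mem ⟨x, hx⟩ hxint
    have h1 := hQv ⟨_, hmem⟩
    have h2 : grdrChi M A hℓM hA hc P hP ⟨_, hmem⟩ = residue A a :=
      grdrChiFun_eq M A hℓM hA hc P hP _ ⟨x, hx⟩ a hxint rfl ha
    rw [h2] at h1
    exact h1
  · intro Q' hQ'
    apply hQuniq
    refine ⟨grd_rel_inChartK M A hc.mem P hP Q' hQ', fun c => ?_⟩
    obtain ⟨x, a, hx, hr, ha⟩ := grdr_exists_lift_val M A hℓM hA hc P hP c
    have h1 := hQ' (x : modularFunctionFieldBar M) x.2 hx a ha
    have h2 : grdrChi M A hℓM hA hc P hP c = residue A a :=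
      grdrChiFun_eq M A hℓM hA hc P hP c x a hx hr ha
    rw [h2]
    have h3 : grdRed M A ⟨(x : modularFunctionFieldBar M), x.2⟩ =
        (c : modularFunctionFieldFullC (ResidueField A) M) := hr
    rw [h3] at h1
    exact h1

end Fermat.Agent.G
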