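import Mathlib
import Fermat.Agent.G.Red.Defs
import Fermat.Agent.G.Red.Gauss
import Fermat.Agent.G.Red.Val
import Fermat.Agent.G.Red.Sat
import Fermat.Agent.G.Red.RelExists
import Fermat.Agent.G.Red.KNoeth
import Fermat.Agent.G.Red.KUnif
import Fermat.Agent.G.Red.KNak
import Fermat.Agent.G.Red.KRat
import Fermat.Agent.G.GN

/-!
# Program G, package G/Red, leaf (R3) : THE KERNEL OF A POINT IS LOCALLY PRINCIPAL
(row 557, helper8; statement VERBATIM from `G/Red/Spec.lean`)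

`grd_kernel_principal` : `t₀ ∈ B` with `t̄₀` a uniformiser at `Q`, `P ↦ Q`, `β = t₀(P)`; every
`b ∈ B` vanishing at `P` is `(t₀ - β) c / s` with `s, c ∈ B`, `s̄(Q) ≠ 0`.

Assembly of the four sub-leaves `grdk3_noetherian` (K-a), `grdk3_unif` (K-b), `grdk3_nak` (K-c),
`grdk3_rational` (K-d) at a number field `E` large enough :
* `χ : B_E → 𝔸 ∩ E`, the value at `P` (`grd_val_exists` + (K-d));
* `ρ : s18vO_E → F_k`, `z ↦ grdRed (up z)`, with kernel `ϖ s18vO_E` (`s18v_dvd_iff`);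
* `V = 𝒪_Q` : `v(ρ y) < 1 ↔ ϖ ∣ χ y` by `GrdRel`, and `ρ t₀` is a uniformiser of `V`.
-/

set_option autoImplicit false
set_option linter.unusedSectionVars false
set_option linter.unusedVariables false
set_option synthInstance.maxHeartbeats 400000

noncomputable section

namespace Fermat.Agent.G

open ModularCurve AlgebraicCurve IsLocalRing Polynomial IntermediateField Fermat.Agent.S18
  Fermat.Agent.S24

section Up

variable (M : ℕ) [NeZero M] {ℓ : ℕ} [Fact ℓ.Prime]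
variable (A : ValuationSubring (AlgebraicClosure ℚ))
variable (E : IntermediateField ℚ (AlgebraicClosure ℚ))

/-- base change maps the Gauss ring of `F_E(M)` into the Gauss ring of `F_ℚ̄(M)`. -/
theorem grdk3_up_mem (hℓM : ¬ ℓ ∣ M) (hA : A.LiesOverPrime ℓ) [FiniteDimensional ℚ E]
    (z : ↥(modularFunctionFieldFullC E M))
    (hz : z ∈ s18vO (s18dVal A E) (modularFunctionFieldFullC E M)) :
    grdstUp M E z ∈ grdO M A := by
  obtain ⟨a, b, ha, hb, hb0, hx⟩ := hz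
  refine ⟨coeffMap (s18dIncl A E) a, coeffMap (s18dIncl A E) b,
    ggn_good_of_model M A hℓM hA E a ha, ggn_good_of_model M A hℓM hA E b hb,
    ggn_spec_ne_zero A E b hb0, ?_⟩
  rw [grdstUp_coe, ← s18d_up_incl, ← s18d_up_incl, ← map_mul, hx]

/-- the reduction of `up z`. -/
theorem grdk3_red_up (hℓM : ¬ ℓ ∣ M) (hA : A.LiesOverPrime ℓ) [FiniteDimensional ℚ E]
    (z : ↥(modularFunctionFieldFullC E M)) (hz : grdstUp M E z ∈ grdO M A)
    (a b : LaurentSeries (s18dVal A E)) (hb0 : s18vRes (s18dVal A E) b ≠ 0)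
    (hx : (z : LaurentSeries E) * s18vIncl (s18dVal A E) E b = s18vIncl (s18dVal A E) E a) :
    ((grdRed M A ⟨grdstUp M E z, hz⟩ : modularFunctionFieldFullC (ResidueField A) M) :
      LaurentSeries (ResidueField A)) =
      coeffMap (residue A) (coeffMap (s18dIncl A E) a) /
        coeffMap (residue A) (coeffMap (s18dIncl A E) b) := by
  apply grdRed_eq M A ⟨grdstUp M E z, hz⟩ _ _ (ggn_spec_ne_zero A E b hb0)
  show (s18dUp E (z : LaurentSeries E)) * _ = _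
  rw [← s18d_up_incl, ← s18d_up_incl, ← map_mul, hx]

/-- THE REDUCTION `ρ : s18vO_E → F_k`, `z ↦ grdRed (up z)`. -/
def grdk3Rho (hℓM : ¬ ℓ ∣ M) (hA : A.LiesOverPrime ℓ) [FiniteDimensional ℚ E] :
    ↥(s18vO (s18dVal A E) (modularFunctionFieldFullC E M)) →+*
      ↥(modularFunctionFieldFullC (ResidueField A) M) :=
  (grdRed M A).comp
    (((grdstUp M E).comp (Subring.subtype _)).codRestrict (grdO M A)
      (fun z => grdk3_up_mem M A E hℓM hA z.1 z.2))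

theorem grdk3Rho_apply (hℓM : ¬ ℓ ∣ M) (hA : A.LiesOverPrime ℓ) [FiniteDimensional ℚ E]
    (z : ↥(s18vO (s18dVal A E) (modularFunctionFieldFullC E M))) :
    grdk3Rho M A E hℓM hA z =
      grdRed M A ⟨grdstUp M E z.1, grdk3_up_mem M A E hℓM hA z.1 z.2⟩ := rfl

/-- the kernel of `ρ` is `ϖ s18vO_E`. -/
theorem grdk3Rho_eq_zero_iff (hℓM : ¬ ℓ ∣ M) (hA : A.LiesOverPrime ℓ) [FiniteDimensional ℚ E]
    [IsDiscreteValuationRing (s18dVal A E)] [CharZero (s18dVal A E)]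
    {ϖ : s18dVal A E} (hϖ : Irreducible ϖ)
    (z : ↥(s18vO (s18dVal A E) (modularFunctionFieldFullC E M))) :
    grdk3Rho M A E hℓM hA z = 0 ↔
      ∃ y ∈ s18vO (s18dVal A E) (modularFunctionFieldFullC E M),
        (z : ↥(modularFunctionFieldFullC E M)) =
          algebraMap (s18dVal A E) ↥(modularFunctionFieldFullC E M) ϖ * y := by
  obtain ⟨a, b, ha, hb, hb0, hx⟩ := z.2
  rw [s18v_dvd_iff hϖ (modularFunctionFieldFullC E M) z.1 a b ha hb hb0 hx, grdk3Rho_apply]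
  have h1 := grdk3_red_up M A E hℓM hA z.1 (grdk3_up_mem M A E hℓM hA z.1 z.2) a b hb0 hx
  have hb0' := ggn_spec_ne_zero A E b hb0
  have h2 : s18vRes (s18dVal A E) a = 0 ↔
      coeffMap (residue A) (coeffMap (s18dIncl A E) a) = 0 := by
    have := s18d_res_eq_iff A E a 0
    rwa [map_zero, map_zero, map_zero] at this
  rw [h2]
  constructor
  · intro h0
    have h3 : ((grdRed M A ⟨grdstUp M E z.1, grdk3_up_mem M A E hℓM hA z.1 z.2⟩ :
        modularFunctionFieldFullC (ResidueField A) M) : LaurentSeries (ResidueField A)) = 0 := by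
      rw [h0]; rfl
    rw [h1, div_eq_zero_iff] at h3
    exact h3.resolve_right hb0'
  · intro h0
    apply Subtype.ext
    rw [h1, h0, zero_div]
    rfl

end Up

section Chi

variable (M : ℕ) [NeZero M] {ℓ : ℕ} [Fact ℓ.Prime]
variable (A : ValuationSubring (AlgebraicClosure ℚ))
variable {υ : LaurentSeries ℤ}
variable (E : IntermediateField ℚ (AlgebraicClosure ℚ))

/-- the chart ring `B_E` at level `E` -/
abbrev grdk3B (hυ : GrdSerMem M υ) : Subring ↥(modularFunctionFieldFullC E M) :=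
  s18tInt (s18dVal A E) (⟨grdSer υ E, hυ E⟩ : ↥(modularFunctionFieldFullC E M))

/-- a functional relation compatible with the ring operations is the graph of a ring hom -/
theorem grdk3_ringHom_of_rel {R S : Type*} [NonAssocSemiring R] [NonAssocSemiring S]
    (r : R → S → Prop) (hex : ∀ x, ∃ a, r x a) (huniq : ∀ x a b, r x a → r x b → a = b)
    (h1 : r 1 1) (h0 : r 0 0) (hmul : ∀ x y a b, r x a → r y b → r (x * y) (a * b))
    (hadd : ∀ x y a b, r x a → r y b → r (x + y) (a + b)) :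
    ∃ f : R →+* S, ∀ x, r x (f x) := by
  choose f hf using hex
  exact ⟨⟨⟨⟨f, huniq _ _ _ (hf 1) h1⟩,
    fun x y => huniq _ _ _ (hf _) (hmul _ _ _ _ (hf x) (hf y))⟩, huniq _ _ _ (hf 0) h0,
    fun x y => huniq _ _ _ (hf _) (hadd _ _ _ _ (hf x) (hf y))⟩, hf⟩

/-- THE VALUE AT `P` as a ring hom `χ : B_E → 𝔸 ∩ E`. -/
theorem grdk3_exists_chi (hc : GrdChart M A υ)
    (P : Place (AlgebraicClosure ℚ) (modularFunctionFieldBar M))
    (hP : GrdInChart M A (grdQ M hc.mem) P)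
    (hrat : ∀ (z : ↥(modularFunctionFieldFullC E M)) (a : AlgebraicClosure ℚ),
      GrdVal P (grdstUp M E z) a → a ∈ E) :
    ∃ χ : ↥(grdk3B M A E hc.mem) →+* s18dVal A E,
      ∀ z : ↥(grdk3B M A E hc.mem), GrdVal P (grdstUp M E (z : ↥(modularFunctionFieldFullC E M)))
        ((s18dIncl A E (χ z) : A) : AlgebraicClosure ℚ) := by
  have h1 : GrdVal P (1 : ↥(modularFunctionFieldBar M)) (1 : AlgebraicClosure ℚ) := by
    have := grdg_val_algebraMap (F := ↥(modularFunctionFieldBar M)) P (1 : AlgebraicClosure ℚ)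
    rwa [map_one] at this
  have h0 : GrdVal P (0 : ↥(modularFunctionFieldBar M)) (0 : AlgebraicClosure ℚ) := by
    have := grdg_val_algebraMap (F := ↥(modularFunctionFieldBar M)) P (0 : AlgebraicClosure ℚ)
    rwa [map_zero] at this
  refine grdk3_ringHom_of_rel
    (fun (z : ↥(grdk3B M A E hc.mem)) (a : s18dVal A E) =>
      GrdVal P (grdstUp M E (z : ↥(modularFunctionFieldFullC E M)))
        ((s18dIncl A E a : A) : AlgebraicClosure ℚ)) ?_ ?_ ?_ ?_ ?_ ?_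
  · intro z
    have hint := grdst_ascend_int M A hc.mem E z.1 z.2
    obtain ⟨a', ha'⟩ := grd_val_exists M A hc P hP hint
    obtain ⟨a, rfl⟩ := grdst_mem_incl_range A E (hrat z.1 _ ha')
    exact ⟨a, ha'⟩
  · intro z a b ha hb
    exact grdst_incl_injective A E (Subtype.ext (grdg_val_unique P ha hb))
  · show GrdVal P (grdstUp M E ((1 : ↥(grdk3B M A E hc.mem)) : ↥(modularFunctionFieldFullC E M)))
      ((s18dIncl A E 1 : A) : AlgebraicClosure ℚ)
    rw [Subring.coe_one, map_one, map_one]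
    exact h1
  · show GrdVal P (grdstUp M E ((0 : ↥(grdk3B M A E hc.mem)) : ↥(modularFunctionFieldFullC E M)))
      ((s18dIncl A E 0 : A) : AlgebraicClosure ℚ)
    rw [Subring.coe_zero, map_zero, map_zero]
    exact h0
  · intro x y a b hx hy
    show GrdVal P (grdstUp M E ((x * y : ↥(grdk3B M A E hc.mem)) :
      ↥(modularFunctionFieldFullC E M))) ((s18dIncl A E (a * b) : A) : AlgebraicClosure ℚ)
    rw [Subring.coe_mul, map_mul, map_mul]
    exact grdg_val_mul P hx hy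
  · intro x y a b hx hy
    show GrdVal P (grdstUp M E ((x + y : ↥(grdk3B M A E hc.mem)) :
      ↥(modularFunctionFieldFullC E M))) ((s18dIncl A E (a + b) : A) : AlgebraicClosure ℚ)
    rw [Subring.coe_add, map_add, map_add]
    exact grdg_val_add P hx hy

end Chi

section Link

variable {K F : Type*} [Field K] [Field F] [Algebra K F]

/-- `ord_Q τ = 1` ⟹ `τ` is a uniformiser of `𝒪_Q` in the sense of S18. -/
theorem grdk3_isUnif (Q : Place K F) (τ : F) (h : Q.ord τ = 1) :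
    S18IsUnif Q.toValuationSubring τ := by
  have hτ0 : τ ≠ 0 := by
    rintro rfl
    simp at h
  have hτ : Q.toValuationSubring.valuation τ < 1 := by
    rw [← ValuationSubring.mem_nonunits_iff, ← grdg_val_zero_iff, grdg_val_zero_iff_ord Q hτ0, h]
    exact one_pos
  refine ⟨hτ, fun x hx => ?_⟩
  rcases eq_or_ne x 0 with rfl | hx0
  · rw [map_zero]; exact zero_le
  have hxord : 0 < Q.ord x := by
    rw [← grdg_val_zero_iff_ord Q hx0, grdg_val_zero_iff, ValuationSubring.mem_nonunits_iff]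
    exact hx
  have hmem : x * τ⁻¹ ∈ Q.toValuationSubring := by
    rw [grdg_mem_iff_ord Q (mul_ne_zero hx0 (inv_ne_zero hτ0)),
      Q.ord_mul hx0 (inv_ne_zero hτ0), Q.ord_inv, h]
    omega
  have hle := (Q.toValuationSubring.valuation_le_one_iff _).2 hmem
  rw [map_mul, map_inv₀] at hle
  have hpos : 0 < Q.toValuationSubring.valuation τ := by
    rw [Valuation.pos_iff]; exact hτ0
  rwa [← div_eq_mul_inv, div_le_one₀ hpos] at hle

end Link

section Main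

variable (M : ℕ) [NeZero M] {ℓ : ℕ} [Fact ℓ.Prime]
variable (A : ValuationSubring (AlgebraicClosure ℚ))
variable {υ : LaurentSeries ℤ}
variable (E : IntermediateField ℚ (AlgebraicClosure ℚ))

/-- `x̄(Q) = ā` : `v_Q(x̄) < 1 ↔ ϖ ∣ a`. -/
theorem grdk3_val_lt_one_iff [IsDiscreteValuationRing (s18dVal A E)]
    {ϖ : s18dVal A E} (hϖ : Irreducible ϖ)
    (Q : Place (ResidueField A) (modularFunctionFieldFullC (ResidueField A) M))
    (x : ↥(modularFunctionFieldFullC (ResidueField A) M)) (a : s18dVal A E)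
    (h : GrdVal Q x (residue A (s18dIncl A E a))) :
    Q.toValuationSubring.valuation x < 1 ↔ ϖ ∣ a := by
  rw [← ValuationSubring.mem_nonunits_iff, ← grdg_val_zero_iff]
  have hiff : residue A (s18dIncl A E a) = 0 ↔ ϖ ∣ a := by
    have h1 : residue (s18dVal A E) a = 0 ↔ residue A (s18dIncl A E a) = 0 :=
      s18db_residue_eq_zero_iff A E a
    rw [← h1, residue_eq_zero_iff, hϖ.maximalIdeal_eq, Ideal.mem_span_singleton]
  constructor
  · intro h0
    exact hiff.1 (grdg_val_unique Q h h0)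
  · intro hd
    rw [hiff.2 hd] at h
    exact h

set_option maxHeartbeats 1600000 in
/-- THE CORE at a fixed number field `E`. -/
theorem grdk3_core (hℓM : ¬ ℓ ∣ M) (hA : A.LiesOverPrime ℓ) (hc : GrdChart M A υ)
    (P : Place (AlgebraicClosure ℚ) (modularFunctionFieldBar M))
    (hP : GrdInChart M A (grdQ M hc.mem) P)
    (Q : Place (ResidueField A) (modularFunctionFieldFullC (ResidueField A) M))
    (hPQ : GrdRel M A (grdQ M hc.mem) P Q)
    [FiniteDimensional ℚ E] [IsDiscreteValuationRing (s18dVal A E)] [CharZero (s18dVal A E)]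
    {ϖ : s18dVal A E} (hϖ : Irreducible ϖ)
    (hcoord : S18Coord hϖ (modularFunctionFieldFullC E M) ⟨grdSer υ E, hc.mem E⟩)
    (S : Finset (s18dVal A E))
    (hchart : S18Chart (s18dVal A E) E ϖ
      (⟨grdSer υ E, hc.mem E⟩ : ↥(modularFunctionFieldFullC E M)) S)
    (hrat : ∀ (z : ↥(modularFunctionFieldFullC E M)) (a : AlgebraicClosure ℚ),
      GrdVal P (grdstUp M E z) a → a ∈ E)
    (z₀ : ↥(modularFunctionFieldFullC E M)) (hz₀ : z₀ ∈ grdk3B M A E hc.mem)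
    (hz₀O : grdstUp M E z₀ ∈ grdO M A)
    (hord : Q.ord (grdRed M A ⟨grdstUp M E z₀, hz₀O⟩) = 1)
    (zb : ↥(modularFunctionFieldFullC E M)) (hzb : zb ∈ grdk3B M A E hc.mem)
    (hbP : GrdVal P (grdstUp M E zb) 0) :
    ∃ (s c : ↥(modularFunctionFieldFullC E M)) (β : s18dVal A E)
      (hs : grdstUp M E s ∈ grdO M A),
      s ∈ grdk3B M A E hc.mem ∧ c ∈ grdk3B M A E hc.mem ∧
      GrdVal P (grdstUp M E z₀) ((s18dIncl A E β : A) : AlgebraicClosure ℚ) ∧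
      ¬ GrdVal Q (grdRed M A ⟨grdstUp M E s, hs⟩) 0 ∧
      s * zb = (z₀ - algebraMap (s18dVal A E) ↥(modularFunctionFieldFullC E M) β) * c := by
  classical
  have := hcoord.fin
  obtain ⟨χ, hχ⟩ := grdk3_exists_chi M A E hc P hP hrat
  -- the structure map `ι : 𝔸 ∩ E → B_E`
  let ι : s18dVal A E →+* ↥(grdk3B M A E hc.mem) :=
    (algebraMap (s18dVal A E) ↥(modularFunctionFieldFullC E M)).codRestrict
      (grdk3B M A E hc.mem) (fun a => s18tc_algebraMap_mem_int _ a)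
  have hιcoe : ∀ a, ((ι a : ↥(grdk3B M A E hc.mem)) : ↥(modularFunctionFieldFullC E M)) =
      algebraMap (s18dVal A E) ↥(modularFunctionFieldFullC E M) a := fun a => rfl
  have hχι : ∀ a, χ (ι a) = a := by
    intro a
    apply grdst_incl_injective A E
    apply Subtype.ext
    refine grdg_val_unique P (hχ (ι a)) ?_
    rw [hιcoe, grdstUp_algebraMap]
    exact grdg_val_algebraMap P _
  have hN : IsNoetherianRing ↥(grdk3B M A E hc.mem) :=
    grdk3_noetherian (L := E) _ hcoord.transc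
  -- `B_E ⊂ s18vO_E`, `up B_E ⊂ grdO`
  have hBO : ∀ z ∈ grdk3B M A E hc.mem,
      z ∈ s18vO (s18dVal A E) (modularFunctionFieldFullC E M) := by
    intro z hz
    rw [← hcoord.intLoc_eq]
    exact s18tInt_le_intLoc hϖ _ hz
  have hBup : ∀ z ∈ grdk3B M A E hc.mem, grdstUp M E z ∈ grdO M A := fun z hz =>
    grdk3_up_mem M A E hℓM hA z (hBO z hz)
  -- the reduction relation at level `E`
  have hrel : ∀ (z : ↥(grdk3B M A E hc.mem)) (hz : grdstUp M E z.1 ∈ grdO M A),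
      GrdVal Q (grdRed M A ⟨grdstUp M E z.1, hz⟩) (residue A (s18dIncl A E (χ z))) := fun z hz =>
    hPQ _ hz (grdst_ascend_int M A hc.mem E z.1 z.2) _ (hχ z)
  have hlink : ∀ (z : ↥(grdk3B M A E hc.mem)) (hz : grdstUp M E z.1 ∈ grdO M A),
      Q.toValuationSubring.valuation (grdRed M A ⟨grdstUp M E z.1, hz⟩ :
        ↥(modularFunctionFieldFullC (ResidueField A) M)) < 1 ↔ ϖ ∣ χ z := fun z hz =>
    grdk3_val_lt_one_iff M A E hϖ Q _ _ (hrel z hz)
  -- `ρ`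
  let ρ' : ↥(s18tIntLoc (s18dVal A E)
      (⟨grdSer υ E, hc.mem E⟩ : ↥(modularFunctionFieldFullC E M)) (C ϖ) (s18t_prime_C hϖ)) →+*
      ↥(modularFunctionFieldFullC (ResidueField A) M) :=
    (grdk3Rho M A E hℓM hA).comp (Subring.inclusion (le_of_eq hcoord.intLoc_eq))
  have hρ'apply : ∀ (z : ↥(modularFunctionFieldFullC E M))
      (hz : z ∈ s18tIntLoc (s18dVal A E)
        (⟨grdSer υ E, hc.mem E⟩ : ↥(modularFunctionFieldFullC E M)) (C ϖ) (s18t_prime_C hϖ))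
      (hzO : grdstUp M E z ∈ grdO M A), ρ' ⟨z, hz⟩ = grdRed M A ⟨grdstUp M E z, hzO⟩ :=
    fun z hz hzO => rfl
  have hdvd : ∀ w : ↥(modularFunctionFieldFullC E M),
      S18DvdGauss hϖ (⟨grdSer υ E, hc.mem E⟩ : ↥(modularFunctionFieldFullC E M)) w ↔
        ∃ y ∈ s18vO (s18dVal A E) (modularFunctionFieldFullC E M),
          w = algebraMap (s18dVal A E) ↥(modularFunctionFieldFullC E M) ϖ * y := by
    intro w
    unfold S18DvdGauss
    rw [hcoord.intLoc_eq]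
  have hρ : ∀ x : ↥(s18tIntLoc (s18dVal A E)
      (⟨grdSer υ E, hc.mem E⟩ : ↥(modularFunctionFieldFullC E M)) (C ϖ) (s18t_prime_C hϖ)),
      ρ' x = 0 ↔ S18DvdGauss hϖ
        (⟨grdSer υ E, hc.mem E⟩ : ↥(modularFunctionFieldFullC E M))
        (x : ↥(modularFunctionFieldFullC E M)) := by
    intro x
    have h1 := grdk3Rho_eq_zero_iff M A E hℓM hA hϖ
      (Subring.inclusion (le_of_eq hcoord.intLoc_eq) x)
    rw [hdvd]
    exact h1
  have hval : ∀ x ∈ s18tIntLoc (s18dVal A E)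
      (⟨grdSer υ E, hc.mem E⟩ : ↥(modularFunctionFieldFullC E M)) (C ϖ) (s18t_prime_C hϖ),
      S18DvdGauss hϖ (⟨grdSer υ E, hc.mem E⟩ : ↥(modularFunctionFieldFullC E M)) x ∨
        x⁻¹ ∈ s18tIntLoc (s18dVal A E)
          (⟨grdSer υ E, hc.mem E⟩ : ↥(modularFunctionFieldFullC E M)) (C ϖ)
          (s18t_prime_C hϖ) := by
    intro x hx
    rw [hdvd]
    rw [hcoord.intLoc_eq] at hx ⊢
    exact s18v_dvd_or_inv_mem hϖ (modularFunctionFieldFullC E M) x hx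
  have hV : ∀ (y : ↥(modularFunctionFieldFullC E M)) (hy : y ∈ grdk3B M A E hc.mem),
      ρ' ⟨y, s18tInt_le_intLoc hϖ _ hy⟩ ∈ Q.toValuationSubring := by
    intro y hy
    rw [hρ'apply y _ (hBup y hy)]
    exact grdg_val_mem Q (hrel ⟨y, hy⟩ (hBup y hy))
  have ht₀0 : ρ' ⟨z₀, s18tInt_le_intLoc hϖ _ hz₀⟩ ≠ 0 := by
    rw [hρ'apply z₀ _ hz₀O]
    intro h0
    rw [h0] at hord
    simp at hord
  have hunif : S18IsUnif Q.toValuationSubring (ρ' ⟨z₀, s18tInt_le_intLoc hϖ _ hz₀⟩) := by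
    rw [hρ'apply z₀ _ hz₀O]
    exact grdk3_isUnif Q _ hord
  -- (K-b) : the maximal ideal is `(ϖ, t₀)` locally
  have hU : ∀ y : ↥(grdk3B M A E hc.mem), ϖ ∣ χ y →
      ∃ s c d : ↥(grdk3B M A E hc.mem), ¬ ϖ ∣ χ s ∧
        s * y = (⟨z₀, hz₀⟩ : ↥(grdk3B M A E hc.mem)) * c + ι ϖ * d := by
    intro y hy
    have hyV : Q.toValuationSubring.valuation (ρ' ⟨y.1, s18tInt_le_intLoc hϖ _ y.2⟩) < 1 := by
      rw [hρ'apply y.1 _ (hBup y.1 y.2)]
      exact (hlink y (hBup y.1 y.2)).2 hy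
    obtain ⟨s, hs, c, hc', d, hd, hsv, heq⟩ := grdk3_unif (L := E) hϖ _ hcoord.transc hN S hchart
      hcoord.selfDual hval ρ' hρ Q.toValuationSubring hV z₀ hz₀ ht₀0 hunif y.1 y.2 hyV
    refine ⟨⟨s, hs⟩, ⟨c, hc'⟩, ⟨d, hd⟩, ?_, Subtype.ext heq⟩
    intro hdvd'
    have h2 := (hlink ⟨s, hs⟩ (hBup s hs)).2 hdvd'
    rw [← hρ'apply s (s18tInt_le_intLoc hϖ _ hs) (hBup s hs), hsv] at h2
    exact lt_irrefl _ h2
  have ht₀χ : ϖ ∣ χ ⟨z₀, hz₀⟩ := by
    refine (hlink ⟨z₀, hz₀⟩ hz₀O).1 ?_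
    rw [← hρ'apply z₀ _ hz₀O]
    exact hunif.1
  have hbχ : χ ⟨zb, hzb⟩ = 0 := by
    apply grdst_incl_injective A E
    apply Subtype.ext
    rw [map_zero]
    exact grdg_val_unique P (hχ ⟨zb, hzb⟩) hbP
  -- (K-c) : Nakayama
  obtain ⟨s, c, hs, heq⟩ := grdk3_nak hϖ ι χ hχι ⟨z₀, hz₀⟩ ht₀χ hU ⟨zb, hzb⟩ hbχ
  refine ⟨s.1, c.1, χ ⟨z₀, hz₀⟩, hBup s.1 s.2, s.2, c.2, hχ ⟨z₀, hz₀⟩, ?_, ?_⟩
  · intro h0
    apply hs
    rw [grdg_val_zero_iff, ValuationSubring.mem_nonunits_iff] at h0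
    exact (hlink s (hBup s.1 s.2)).1 h0
  · exact congrArg Subtype.val heq

/-- (R3) THE KERNEL OF A POINT IS LOCALLY PRINCIPAL : `t₀ ∈ B` with `t̄₀` a uniformiser at
`Q = r(P)`, `β = t₀(P)`; every `b ∈ B` vanishing at `P` is `(t₀ - β) c / s` with `s̄(Q) ≠ 0`.
(Number-field level `E` large, `P` fixed by `Gal(ℚ̄/E)` (`gop_place_fixing`) : the local ring
`R` of `B_E` at `Q` is noetherian with maximal ideal `(ϖ, t₀)`, `χ_P : R → 𝔸 ∩ E` is a section,
`ker χ_P ⊂ (t₀ - β) R + ϖ ker χ_P`, Nakayama.) -/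
theorem grd_kernel_principal (hℓM : ¬ ℓ ∣ M) (hA : A.LiesOverPrime ℓ) (hc : GrdChart M A υ)
    (P : Place (AlgebraicClosure ℚ) (modularFunctionFieldBar M))
    (hP : GrdInChart M A (grdQ M hc.mem) P)
    (Q : Place (ResidueField A) (modularFunctionFieldFullC (ResidueField A) M))
    (hPQ : GrdRel M A (grdQ M hc.mem) P Q)
    (t₀ : ↥(grdO M A)) (ht₀ : GrdIsInt M A (grdQ M hc.mem) (t₀ : modularFunctionFieldBar M))
    (hord : Q.ord (grdRed M A t₀) = 1) (β : A)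
    (hβ : GrdVal P (t₀ : modularFunctionFieldBar M) (β : AlgebraicClosure ℚ))
    (b : ↥(grdO M A)) (hb : GrdIsInt M A (grdQ M hc.mem) (b : modularFunctionFieldBar M))
    (hbP : GrdVal P (b : modularFunctionFieldBar M) 0) :
    ∃ s c : ↥(grdO M A), GrdIsInt M A (grdQ M hc.mem) (s : modularFunctionFieldBar M) ∧
      GrdIsInt M A (grdQ M hc.mem) (c : modularFunctionFieldBar M) ∧
      ¬ GrdVal Q (grdRed M A s) 0 ∧
      (s : modularFunctionFieldBar M) * b =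
        ((t₀ : modularFunctionFieldBar M) -
          algebraMap (AlgebraicClosure ℚ) (modularFunctionFieldBar M) (β : AlgebraicClosure ℚ)) *
          c := by
  obtain ⟨E₀, hfd₀, hlvl⟩ := hc.lvl
  obtain ⟨E₁, hfd₁, hrat⟩ := grdk3_rational M P
  obtain ⟨E₂, hfd₂, h₂⟩ := grdst_exists_field_elem M (t₀ : ↥(modularFunctionFieldBar M))
  obtain ⟨E₃, hfd₃, h₃⟩ := grdst_descend_int M A hc.mem _ ht₀
  obtain ⟨E₄, hfd₄, h₄⟩ := grdst_exists_field_elem M (b : ↥(modularFunctionFieldBar M))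
  obtain ⟨E₅, hfd₅, h₅⟩ := grdst_descend_int M A hc.mem _ hb
  have hE₀ : E₀ ≤ E₀ ⊔ E₁ ⊔ E₂ ⊔ E₃ ⊔ E₄ ⊔ E₅ :=
    le_trans (le_trans (le_trans (le_trans le_sup_left le_sup_left) le_sup_left) le_sup_left)
      le_sup_left
  have hE₁ : E₁ ≤ E₀ ⊔ E₁ ⊔ E₂ ⊔ E₃ ⊔ E₄ ⊔ E₅ :=
    le_trans (le_trans (le_trans (le_trans le_sup_right le_sup_left) le_sup_left) le_sup_left)
      le_sup_left
  have hE₂ : E₂ ≤ E₀ ⊔ E₁ ⊔ E₂ ⊔ E₃ ⊔ E₄ ⊔ E₅ :=
    le_trans (le_trans (le_trans le_sup_right le_sup_left) le_sup_left) le_sup_left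
  have hE₃ : E₃ ≤ E₀ ⊔ E₁ ⊔ E₂ ⊔ E₃ ⊔ E₄ ⊔ E₅ :=
    le_trans (le_trans le_sup_right le_sup_left) le_sup_left
  have hE₄ : E₄ ≤ E₀ ⊔ E₁ ⊔ E₂ ⊔ E₃ ⊔ E₄ ⊔ E₅ := le_trans le_sup_right le_sup_left
  have hE₅ : E₅ ≤ E₀ ⊔ E₁ ⊔ E₂ ⊔ E₃ ⊔ E₄ ⊔ E₅ := le_sup_right
  have hfd : FiniteDimensional ℚ ↥(E₀ ⊔ E₁ ⊔ E₂ ⊔ E₃ ⊔ E₄ ⊔ E₅) := inferInstance
  generalize E₀ ⊔ E₁ ⊔ E₂ ⊔ E₃ ⊔ E₄ ⊔ E₅ = E at hE₀ hE₁ hE₂ hE₃ hE₄ hE₅ hfd
  have : IsDiscreteValuationRing (s18dVal A E) := s18d_isDVR A E hA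
  have : CharZero (s18dVal A E) := ggn_charZero A E
  obtain ⟨ϖ, hϖ⟩ := IsDiscreteValuationRing.exists_irreducible (s18dVal A E)
  obtain ⟨hcoord, S, hchart⟩ := hlvl E hE₀ hfd ϖ hϖ
  obtain ⟨z₀, hz₀⟩ := h₂ E hE₂
  have hz₀int := h₃ E hE₃ z₀ hz₀
  obtain ⟨zb, hzb⟩ := h₄ E hE₄
  have hzbint := h₅ E hE₅ zb hzb
  have hz₀O : grdstUp M E z₀ ∈ grdO M A := by rw [hz₀]; exact t₀.2
  have ht₀eq : (⟨grdstUp M E z₀, hz₀O⟩ : ↥(grdO M A)) = t₀ := Subtype.ext hz₀
  have hord' : Q.ord (grdRed M A ⟨grdstUp M E z₀, hz₀O⟩) = 1 := by rw [ht₀eq]; exact hord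
  have hbP' : GrdVal P (grdstUp M E zb) 0 := by rw [hzb]; exact hbP
  obtain ⟨s, c, β', hs, hsint, hcint, hβ', hsQ, heq⟩ := grdk3_core M A E hℓM hA hc P hP Q hPQ hϖ
    hcoord S hchart (hrat E hE₁) z₀ hz₀int hz₀O hord' zb hzbint hbP'
  have hββ' : ((s18dIncl A E β' : A) : AlgebraicClosure ℚ) = (β : AlgebraicClosure ℚ) := by
    rw [hz₀] at hβ'
    exact grdg_val_unique P hβ' hβ
  have hcI := grdst_ascend_int M A hc.mem E c hcint
  have hcO : grdstUp M E c ∈ grdO M A :=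
    grdB_le_grdO M A hℓM hA (grdQ_mem_grdO M A hc.mem) hcI
  refine ⟨⟨grdstUp M E s, hs⟩, ⟨grdstUp M E c, hcO⟩, grdst_ascend_int M A hc.mem E s hsint,
    hcI, hsQ, ?_⟩
  show grdstUp M E s * (b : ↥(modularFunctionFieldBar M)) =
    ((t₀ : ↥(modularFunctionFieldBar M)) -
      algebraMap (AlgebraicClosure ℚ) (modularFunctionFieldBar M) (β : AlgebraicClosure ℚ)) *
      grdstUp M E c
  rw [← hzb, ← hz₀, ← map_mul, heq, map_mul, map_sub, grdstUp_algebraMap, ← hββ']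
  rfl

end Main

end Fermat.Agent.G
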