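/-
Program G, package G/Red, row G-RED-R4 (helper16): `grd_simple_zero`.

`t₀ ∈ B` (chart ring) with `t̄₀` a uniformiser at `Q`, `P ↦ Q`, `β = t₀(P)`: then `t₀ - β` has a simple
zero at `P` and no other zero `P'` of the chart reducing to `Q`.

Proof: (R3) `grd_kernel_principal` : every `b ∈ B` vanishing at `P` is `(t₀ - β) c / s` with
`s, c ∈ B`, `s̄(Q) ≠ 0`; then `s(P) ≠ 0` (`GrdRel`), so `ord_P b ≥ e := ord_P (t₀ - β)`.  A uniformiser
of `P` in the integral closure of `ℚ̄[u]` can be scaled into `B` by a nonzero constant of `𝔸`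
(`grds_exists_scale`), so `e = 1`.  If `P' ≠ P` then a separating element scaled into `B` vanishes at
`P` but not at `P'`; evaluating `s b = (t₀ - β) c` at `P'` gives `s(P') = 0`, i.e. `s̄(Q) = 0`.

STATUS : `grds_simple_zero_aux` (the two not yet integrated black boxes `grd_val_exists` (R1, row 554)
and `grd_kernel_principal` (R3, row 557) as HYPOTHESES) is axiom-clean on top of the real
`Val.lean`, `GenPlace.lean`, `Gauss.lean` (origin/helper12 425ceae).  `grd_simple_zero` (VERBATIM) is
the aux theorem applied to the two black boxes `grd_val_exists` (RelExists.lean) and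
`grd_kernel_principal` (Kernel.lean).
INTEGRATION : replace `import Fermat.Agent.G.Red.SimpleStub` by `RelExists` + `Kernel`.
-/
import Mathlib
import Fermat.Agent.G.Red.Defs
import Fermat.Agent.G.Red.Val
import Fermat.Agent.G.Red.GenPlace
import Fermat.Agent.G.Red.Gauss
import Fermat.Agent.G.Red.RelExists
import Fermat.Agent.G.Red.Kernel

set_option autoImplicit false
set_option linter.unusedSectionVars false
set_option linter.unusedVariables false
set_option synthInstance.maxHeartbeats 400000

noncomputable section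

namespace Fermat.Agent.G

open ModularCurve AlgebraicCurve IsLocalRing Polynomial Fermat.Agent.S18 Fermat.Agent.S24

section Scale

variable (M : ℕ) [NeZero M] (A : ValuationSubring (AlgebraicClosure ℚ))

/-- integrality over `K[t] = Algebra.adjoin K {t}` gives a monic polynomial over `K[X]`. -/
theorem grds_isIntegralElem_aeval {K F : Type*} [Field K] [Field F] [Algebra K F] (t x : F)
    (hx : IsIntegral (Algebra.adjoin K {t}) x) :
    ((Polynomial.aeval t : K[X] →ₐ[K] F) : K[X] →+* F).IsIntegralElem x := by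
  obtain ⟨p, hp, hpx⟩ := hx
  -- the surjection `K[X] → K[t]`
  let φ : K[X] →+* Algebra.adjoin K {t} :=
    ((Polynomial.aeval t : K[X] →ₐ[K] F) : K[X] →+* F).codRestrict
      (Algebra.adjoin K {t}).toSubring (fun g => by
        show Polynomial.aeval t g ∈ Algebra.adjoin K {t}
        rw [Algebra.adjoin_singleton_eq_range_aeval]
        exact ⟨g, rfl⟩)
  have hφ : Function.Surjective φ := by
    rintro ⟨y, hy⟩
    rw [Algebra.adjoin_singleton_eq_range_aeval] at hy
    obtain ⟨g, rfl⟩ := hy
    exact ⟨g, rfl⟩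
  have hlift : p ∈ Polynomial.lifts φ := by
    rw [Polynomial.lifts_iff_coeff_lifts]
    intro n
    exact hφ _
  obtain ⟨q, hq, -, hqm⟩ := Polynomial.lifts_and_natDegree_eq_and_monic hlift hp
  refine ⟨q, hqm, ?_⟩
  have hcomp : ((Polynomial.aeval t : K[X] →ₐ[K] F) : K[X] →+* F) =
      (algebraMap (Algebra.adjoin K {t}) F).comp φ := by
    ext g <;> rfl
  rw [hcomp, ← Polynomial.eval₂_map, hq]
  exact hpx

/-- SCALING INTO THE CHART RING : an element of `F` integral over `ℚ̄[u]` becomes integral over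
`𝔸[u]` after multiplication by a nonzero constant of `𝔸`. -/
theorem grds_exists_scale (u x : modularFunctionFieldBar M)
    (hx : IsIntegral (Algebra.adjoin (AlgebraicClosure ℚ) {u}) x) :
    ∃ π : A, π ≠ 0 ∧ GrdIsInt M A u
      (algebraMap (AlgebraicClosure ℚ) (modularFunctionFieldBar M) (π : AlgebraicClosure ℚ) * x) := by
  have hx' := grds_isIntegralElem_aeval (K := AlgebraicClosure ℚ) u x hx
  letI alg1 : Algebra (Polynomial A) (modularFunctionFieldBar M) :=
    (Polynomial.eval₂RingHom (grdInclA M A) u).toAlgebra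
  letI alg2 : Algebra (Polynomial (AlgebraicClosure ℚ)) (modularFunctionFieldBar M) :=
    ((Polynomial.aeval u : (AlgebraicClosure ℚ)[X] →ₐ[AlgebraicClosure ℚ]
      modularFunctionFieldBar M) : (AlgebraicClosure ℚ)[X] →+* modularFunctionFieldBar M).toAlgebra
  letI alg3 : Algebra (Polynomial A) (Polynomial (AlgebraicClosure ℚ)) :=
    Polynomial.algebra A (AlgebraicClosure ℚ)
  haveI : IsScalarTower (Polynomial A) (Polynomial (AlgebraicClosure ℚ))
      (modularFunctionFieldBar M) := by
    refine IsScalarTower.of_algebraMap_eq (fun g => ?_)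
    show Polynomial.eval₂ (grdInclA M A) u g =
      Polynomial.aeval u (Polynomial.map (algebraMap A (AlgebraicClosure ℚ)) g)
    rw [Polynomial.aeval_def, Polynomial.eval₂_map]
    rfl
  haveI : IsLocalization ((nonZeroDivisors A).map (Polynomial.C : A →+* Polynomial A))
      (Polynomial (AlgebraicClosure ℚ)) :=
    Polynomial.isLocalization (nonZeroDivisors A) (AlgebraicClosure ℚ)
  have hx'' : IsIntegral (Polynomial (AlgebraicClosure ℚ)) x := hx'
  obtain ⟨⟨m, hm⟩, hmx⟩ := IsIntegral.exists_multiple_integral_of_isLocalization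
    ((nonZeroDivisors A).map (Polynomial.C : A →+* Polynomial A)) x hx''
  obtain ⟨π, hπ, rfl⟩ := hm
  refine ⟨π, nonZeroDivisors.ne_zero hπ, ?_⟩
  have h1 : (⟨Polynomial.C π, ⟨π, hπ, rfl⟩⟩ :
      ((nonZeroDivisors A).map (Polynomial.C : A →+* Polynomial A))) • x =
      algebraMap (AlgebraicClosure ℚ) (modularFunctionFieldBar M) (π : AlgebraicClosure ℚ) * x := by
    rw [Submonoid.smul_def, Algebra.smul_def]
    congr 1
    show Polynomial.eval₂ (grdInclA M A) u (Polynomial.C π) = _
    rw [Polynomial.eval₂_C]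
    rfl
  rw [h1] at hmx
  exact hmx

end Scale

section Main

variable (M : ℕ) [NeZero M] {ℓ : ℕ} [Fact ℓ.Prime]
variable (A : ValuationSubring (AlgebraicClosure ℚ))
variable {υ : LaurentSeries ℤ}

/-- an element of the chart ring whose reduction does not vanish at `Q` does not vanish at any
place of the chart related to `Q`. -/
theorem grds_not_val_zero_of_rel (u : modularFunctionFieldBar M)
    (P' : Place (AlgebraicClosure ℚ) (modularFunctionFieldBar M))
    (Q : Place (ResidueField A) (modularFunctionFieldFullC (ResidueField A) M))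
    (hP'Q : GrdRel M A u P' Q) (s : ↥(grdO M A))
    (hs : GrdIsInt M A u (s : modularFunctionFieldBar M))
    (hsQ : ¬ GrdVal Q (grdRed M A s) 0) : ¬ GrdVal P' (s : modularFunctionFieldBar M) 0 := by
  intro h
  apply hsQ
  have h0 : (((0 : A) : A) : AlgebraicClosure ℚ) = 0 := rfl
  have := hP'Q (s : modularFunctionFieldBar M) s.2 hs (0 : A) (by rw [h0]; exact h)
  rw [map_zero] at this
  exact this

/-- `x(P) = a` and `x(P) = 0` in terms of `x - a`. -/
theorem grds_val_sub_iff {K F : Type*} [Field K] [Field F] [Algebra K F] (P : Place K F) (x : F)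
    (a : K) : GrdVal P (x - algebraMap K F a) 0 ↔ GrdVal P x a := by
  unfold GrdVal
  rw [map_zero, sub_zero]

/-- the order at `P` of an element of the valuation ring which does not vanish at `P` is `0`. -/
theorem grds_ord_eq_zero {K F : Type*} [Field K] [Field F] [Algebra K F] (P : Place K F) {x : F}
    (hmem : x ∈ P.toValuationSubring) (h0 : ¬ GrdVal P x 0) : P.ord x = 0 := by
  have hx : x ≠ 0 := by
    rintro rfl
    apply h0
    unfold GrdVal
    rw [map_zero, sub_zero]
    exact ValuationSubring.mem_nonunits_iff_exists_mem_maximalIdeal.mpr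
      ⟨P.toValuationSubring.zero_mem, Ideal.zero_mem _⟩
  have h1 : 0 ≤ P.ord x := (grdg_mem_iff_ord P hx).mp hmem
  have h2 : ¬ 0 < P.ord x := fun h => h0 ((grdg_val_zero_iff_ord P hx).mpr h)
  omega

/-- `0(P) = 0`. -/
theorem grds_val_zero_zero {K F : Type*} [Field K] [Field F] [Algebra K F] (P : Place K F) :
    GrdVal P (0 : F) 0 := by
  unfold GrdVal
  rw [map_zero, sub_zero]
  exact ValuationSubring.mem_nonunits_iff_exists_mem_maximalIdeal.mpr
    ⟨P.toValuationSubring.zero_mem, Ideal.zero_mem _⟩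

/-- (R4) with the black boxes (R1) `grd_val_exists` and (R3) `grd_kernel_principal` as hypotheses. -/
theorem grds_simple_zero_aux (hℓM : ¬ ℓ ∣ M) (hA : A.LiesOverPrime ℓ) (hc : GrdChart M A υ)
    (hVE : ∀ P : Place (AlgebraicClosure ℚ) (modularFunctionFieldBar M),
      GrdInChart M A (grdQ M hc.mem) P → ∀ x : modularFunctionFieldBar M,
        GrdIsInt M A (grdQ M hc.mem) x → ∃ a : A, GrdVal P x (a : AlgebraicClosure ℚ))
    (P : Place (AlgebraicClosure ℚ) (modularFunctionFieldBar M))
    (hP : GrdInChart M A (grdQ M hc.mem) P)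
    (Q : Place (ResidueField A) (modularFunctionFieldFullC (ResidueField A) M))
    (hPQ : GrdRel M A (grdQ M hc.mem) P Q)
    (t₀ : ↥(grdO M A)) (ht₀ : GrdIsInt M A (grdQ M hc.mem) (t₀ : modularFunctionFieldBar M))
    (hord : Q.ord (grdRed M A t₀) = 1) (β : A)
    (hβ : GrdVal P (t₀ : modularFunctionFieldBar M) (β : AlgebraicClosure ℚ))
    (hKP : ∀ b : ↥(grdO M A), GrdIsInt M A (grdQ M hc.mem) (b : modularFunctionFieldBar M) →
      GrdVal P (b : modularFunctionFieldBar M) 0 →
      ∃ s c : ↥(grdO M A), GrdIsInt M A (grdQ M hc.mem) (s : modularFunctionFieldBar M) ∧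
        GrdIsInt M A (grdQ M hc.mem) (c : modularFunctionFieldBar M) ∧
        ¬ GrdVal Q (grdRed M A s) 0 ∧
        (s : modularFunctionFieldBar M) * b =
          ((t₀ : modularFunctionFieldBar M) -
            algebraMap (AlgebraicClosure ℚ) (modularFunctionFieldBar M)
              (β : AlgebraicClosure ℚ)) * c) :
    P.ord ((t₀ : modularFunctionFieldBar M) -
        algebraMap (AlgebraicClosure ℚ) (modularFunctionFieldBar M) (β : AlgebraicClosure ℚ)) = 1 ∧
      ∀ P' : Place (AlgebraicClosure ℚ) (modularFunctionFieldBar M),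
        GrdInChart M A (grdQ M hc.mem) P' → GrdRel M A (grdQ M hc.mem) P' Q →
        GrdVal P' (t₀ : modularFunctionFieldBar M) (β : AlgebraicClosure ℚ) → P' = P := by
  set u : modularFunctionFieldBar M := grdQ M hc.mem with hu_def
  set d : modularFunctionFieldBar M := (t₀ : modularFunctionFieldBar M) -
    algebraMap (AlgebraicClosure ℚ) (modularFunctionFieldBar M) (β : AlgebraicClosure ℚ) with hd_def
  have hu_mem : u ∈ grdO M A := grdQ_mem_grdO M A hc.mem
  have hBO : grdB M A u ≤ grdO M A := grdB_le_grdO M A hℓM hA hu_mem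
  have hu_P : u ∈ P.toValuationSubring := by
    obtain ⟨a, ha⟩ := hP
    exact grdg_val_mem P ha
  -- A) `d ≠ 0`
  have hd0 : d ≠ 0 := by
    intro h
    have h1 : (t₀ : modularFunctionFieldBar M) =
        algebraMap (AlgebraicClosure ℚ) (modularFunctionFieldBar M) (β : AlgebraicClosure ℚ) :=
      sub_eq_zero.mp h
    have h2 : t₀ = ⟨algebraMap (AlgebraicClosure ℚ) (modularFunctionFieldBar M)
        (β : AlgebraicClosure ℚ), grdO_algebraMap_mem M A β⟩ := Subtype.ext h1
    rw [h2, grdRed_algebraMap, PlaceOrd.ord_algebraMap] at hord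
    exact zero_ne_one hord
  -- B) `e = ord_P d > 0`
  have hdP : GrdVal P d 0 := (grds_val_sub_iff P _ _).mpr hβ
  have he : 0 < P.ord d := (grdg_val_zero_iff_ord P hd0).mp hdP
  -- C) every element of the chart ring vanishing at `P` has order `≥ e`
  have hkey : ∀ b : modularFunctionFieldBar M, GrdIsInt M A u b → GrdVal P b 0 → b ≠ 0 →
      P.ord d ≤ P.ord b := by
    intro b hb hbP hb0
    obtain ⟨s, c, hs, hcI, hsQ, heq⟩ := hKP ⟨b, hBO hb⟩ hb hbP
    have hsP : ¬ GrdVal P (s : modularFunctionFieldBar M) 0 :=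
      grds_not_val_zero_of_rel M A u P Q hPQ s hs hsQ
    have hs_mem : (s : modularFunctionFieldBar M) ∈ P.toValuationSubring := by
      obtain ⟨a, ha⟩ := hVE P hP _ hs
      exact grdg_val_mem P ha
    have hs_ord : P.ord (s : modularFunctionFieldBar M) = 0 := grds_ord_eq_zero P hs_mem hsP
    have hs0 : (s : modularFunctionFieldBar M) ≠ 0 := by
      intro h
      apply hsP
      rw [h]
      exact grds_val_zero_zero P
    have hc0 : (c : modularFunctionFieldBar M) ≠ 0 := by
      intro h
      rw [h, mul_zero] at heq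
      rcases mul_eq_zero.mp heq with h' | h'
      · exact hs0 h'
      · exact hb0 h'
    have hc_mem : (c : modularFunctionFieldBar M) ∈ P.toValuationSubring := by
      obtain ⟨a, ha⟩ := hVE P hP _ hcI
      exact grdg_val_mem P ha
    have hc_ord : 0 ≤ P.ord (c : modularFunctionFieldBar M) := (grdg_mem_iff_ord P hc0).mp hc_mem
    have h1 := congrArg P.ord heq
    rw [P.ord_mul hs0 hb0, P.ord_mul hd0 hc0, hs_ord, zero_add] at h1
    omega
  refine ⟨?_, ?_⟩
  · -- D) a uniformiser scaled into the chart ring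
    obtain ⟨x, hx⟩ := grdg_exists_unif hc.sepQ P hu_P
    have hx0 : (x : modularFunctionFieldBar M) ≠ 0 := by
      intro h
      rw [h, Place.ord_zero] at hx
      exact zero_ne_one hx
    obtain ⟨π, hπ, hπx⟩ := grds_exists_scale M A u (x : modularFunctionFieldBar M) x.2
    have hπ' : algebraMap (AlgebraicClosure ℚ) (modularFunctionFieldBar M)
        (π : AlgebraicClosure ℚ) ≠ 0 := by
      intro h
      apply hπ
      apply Subtype.ext
      exact (map_eq_zero _).mp h
    have hb0 : algebraMap (AlgebraicClosure ℚ) (modularFunctionFieldBar M)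
        (π : AlgebraicClosure ℚ) * (x : modularFunctionFieldBar M) ≠ 0 := mul_ne_zero hπ' hx0
    have hb_ord : P.ord (algebraMap (AlgebraicClosure ℚ) (modularFunctionFieldBar M)
        (π : AlgebraicClosure ℚ) * (x : modularFunctionFieldBar M)) = 1 := by
      rw [P.ord_mul hπ' hx0, PlaceOrd.ord_algebraMap, zero_add, hx]
    have hbP : GrdVal P (algebraMap (AlgebraicClosure ℚ) (modularFunctionFieldBar M)
        (π : AlgebraicClosure ℚ) * (x : modularFunctionFieldBar M)) 0 := by
      rw [grdg_val_zero_iff_ord P hb0, hb_ord]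
      exact one_pos
    have := hkey _ hπx hbP hb0
    rw [hb_ord] at this
    omega
  · -- E) uniqueness
    intro P' hP' hP'Q hβ'
    by_contra hne
    have hu_P' : u ∈ P'.toValuationSubring := by
      obtain ⟨a, ha⟩ := hP'
      exact grdg_val_mem P' ha
    obtain ⟨x, hxP, hxP'⟩ := grdg_separate hc.sepQ P P' hu_P hu_P' (fun h => hne h.symm)
    obtain ⟨π, hπ, hπx⟩ := grds_exists_scale M A u (x : modularFunctionFieldBar M) x.2
    have hbP : GrdVal P (algebraMap (AlgebraicClosure ℚ) (modularFunctionFieldBar M)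
        (π : AlgebraicClosure ℚ) * (x : modularFunctionFieldBar M)) 0 := by
      have := grdg_val_mul P (grdg_val_algebraMap P (π : AlgebraicClosure ℚ)) hxP
      rwa [mul_zero] at this
    have hbP' : GrdVal P' (algebraMap (AlgebraicClosure ℚ) (modularFunctionFieldBar M)
        (π : AlgebraicClosure ℚ) * (x : modularFunctionFieldBar M)) (π : AlgebraicClosure ℚ) := by
      have := grdg_val_mul P' (grdg_val_algebraMap P' (π : AlgebraicClosure ℚ)) hxP'
      rwa [mul_one] at this
    obtain ⟨s, c, hs, hcI, hsQ, heq⟩ := hKP ⟨_, hBO hπx⟩ hπx hbP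
    have hsP' : ¬ GrdVal P' (s : modularFunctionFieldBar M) 0 :=
      grds_not_val_zero_of_rel M A u P' Q hP'Q s hs hsQ
    obtain ⟨σ, hσ⟩ := hVE P' hP' _ hs
    obtain ⟨γ, hγ⟩ := hVE P' hP' _ hcI
    have hdP' : GrdVal P' d 0 := (grds_val_sub_iff P' _ _).mpr hβ'
    have h1 := grdg_val_mul P' hσ hbP'
    have h2 := grdg_val_mul P' hdP' hγ
    rw [show ((⟨_, hBO hπx⟩ : ↥(grdO M A)) : modularFunctionFieldBar M) =
      algebraMap (AlgebraicClosure ℚ) (modularFunctionFieldBar M)
        (π : AlgebraicClosure ℚ) * (x : modularFunctionFieldBar M) from rfl] at heq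
    rw [heq] at h1
    have h3 := grdg_val_unique P' h1 h2
    rw [zero_mul] at h3
    rcases mul_eq_zero.mp h3 with h4 | h4
    · apply hsP'
      rw [h4] at hσ
      exact hσ
    · apply hπ
      exact Subtype.ext h4

/-- (R4) SIMPLE ZEROS : `t₀ - β` has a simple zero at `P` and no other zero reducing to `Q`. -/
theorem grd_simple_zero (hℓM : ¬ ℓ ∣ M) (hA : A.LiesOverPrime ℓ) (hc : GrdChart M A υ)
    (P : Place (AlgebraicClosure ℚ) (modularFunctionFieldBar M))
    (hP : GrdInChart M A (grdQ M hc.mem) P)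
    (Q : Place (ResidueField A) (modularFunctionFieldFullC (ResidueField A) M))
    (hPQ : GrdRel M A (grdQ M hc.mem) P Q)
    (t₀ : ↥(grdO M A)) (ht₀ : GrdIsInt M A (grdQ M hc.mem) (t₀ : modularFunctionFieldBar M))
    (hord : Q.ord (grdRed M A t₀) = 1) (β : A)
    (hβ : GrdVal P (t₀ : modularFunctionFieldBar M) (β : AlgebraicClosure ℚ)) :
    P.ord ((t₀ : modularFunctionFieldBar M) -
        algebraMap (AlgebraicClosure ℚ) (modularFunctionFieldBar M) (β : AlgebraicClosure ℚ)) = 1 ∧
      ∀ P' : Place (AlgebraicClosure ℚ) (modularFunctionFieldBar M),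
        GrdInChart M A (grdQ M hc.mem) P' → GrdRel M A (grdQ M hc.mem) P' Q →
        GrdVal P' (t₀ : modularFunctionFieldBar M) (β : AlgebraicClosure ℚ) → P' = P :=
  grds_simple_zero_aux M A hℓM hA hc (fun P' hP' x hx => grd_val_exists M A hc P' hP' hx)
    P hP Q hPQ t₀ ht₀ hord β hβ
    (fun b hb hbP => grd_kernel_principal M A hℓM hA hc P hP Q hPQ t₀ ht₀ hord β hβ b hb hbP)

end Main

end Fermat.Agent.G
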