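import Mathlib
import Fermat.Agent.G.Red.Defs
import Fermat.Agent.G.Red.Gauss
import Fermat.Agent.G.Red.Val
import Fermat.Agent.G.Red.GenPlace
import Fermat.Agent.G.Red.Sat
import Fermat.Agent.S24.Places
import Fermat.Agent.S24.PlacesCenter
import Fermat.Agent.S24.PlacesInt

/-!
# Program G, package G/Red, leaf R2 (row 555) : EXISTENCE OF ZEROS and SURJECTIVITY of the reduction

`grd_exists_zero`, `grd_rel_surj` (statements VERBATIM from `G/Red/Spec.lean`).

Mathematics.  `B = grdB u` the chart ring (elements of `F = F_ℚ̄(M)` integral over `𝔸[u]`),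
`ρ : B → 𝒪_Q`, `x ↦ x̄` the reduction, `𝔫 = ρ⁻¹(𝔪_Q)` a prime of `B` containing `𝔪_𝔸`, `b ∈ 𝔫`, `b̄ ≠ 0`.

* `B/(b)` is `𝔸`-torsion free (`b` is a unit of the Gauss ring by `grdO_inv_mem`; saturation
  `grd_saturated`), so the multiplicative set `(𝔸 ∖ 0)·(B ∖ 𝔫)` does not meet `(b)` and there is a
  prime `𝔭 ⊇ (b)` of `B` with `𝔭 ⊆ 𝔫`, `𝔭 ∩ 𝔸 = 0`  (flat going-down, by hand);
* `D = B/𝔭` is a domain containing `𝔸`, algebraic over `𝔸` (`𝔭 ∩ 𝔸[u] ≠ 0` as `b` is integral over
  `𝔸[u]`; `B` integral over `𝔸[u]`); `ℚ̄` algebraically closed and `𝔪_𝔸 D ≠ D` force `D = 𝔸`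
  (`grdz_mem_range_of_algebraic`); this gives a retraction `χ : B → 𝔸`, `χ b = 0`, `ker χ ⊆ 𝔫`
  (`grdz_exists_section`, pure Mathlib);
* `χ` extends to a `ℚ̄`-point of the integral closure of `ℚ̄[u]` (`grdz_scale`, `grdz_extend`), i.e.
  a place `P` (`grdg_place_of_hom`) with `x(P) = χ x` for `x ∈ B`.
-/

set_option autoImplicit false
set_option linter.unusedSectionVars false
set_option linter.unusedVariables false
set_option synthInstance.maxHeartbeats 400000

noncomputable section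

namespace Fermat.Agent.G

open ModularCurve AlgebraicCurve IsLocalRing Polynomial Fermat.Agent.S18 Fermat.Agent.S24

section Abstract

/-- an element of a domain `D ⊇ A`, algebraic over the valuation ring `A` of an algebraically
closed field, such that no element of `𝔪_A` becomes a unit in `D`, lies in `A`. -/
theorem grdz_mem_range_of_algebraic {K : Type*} [Field K] [IsAlgClosed K] (A : ValuationSubring K)
    {D : Type*} [CommRing D] [IsDomain D] [Algebra A D]
    (hinj : Function.Injective (algebraMap A D))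
    (hm : ∀ m : A, m ∈ maximalIdeal A → ¬ IsUnit (algebraMap A D m))
    (d : D) (hd : IsAlgebraic A d) : d ∈ Set.range (algebraMap A D) := by
  let L := FractionRing D
  have hinjL : Function.Injective (algebraMap A L) := by
    rw [IsScalarTower.algebraMap_eq A D L]
    exact (IsFractionRing.injective D L).comp hinj
  let φ : K →+* L := IsFractionRing.lift hinjL
  let _ : Algebra K L := φ.toAlgebra
  have hφ : ∀ a : A, φ (a : K) = algebraMap D L (algebraMap A D a) := fun a => by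
    rw [← IsScalarTower.algebraMap_apply A D L]
    exact IsFractionRing.lift_algebraMap hinjL a
  have htower : IsScalarTower A K L := IsScalarTower.of_algebraMap_eq fun a => by
    show algebraMap A L a = φ (algebraMap A K a)
    exact (IsFractionRing.lift_algebraMap hinjL a).symm
  have h1 : IsAlgebraic A (algebraMap D L d) := hd.algebraMap
  have hAK : Function.Injective (algebraMap A K) := Subtype.val_injective
  have h2 : IsAlgebraic K (algebraMap D L d) := h1.extendScalars hAK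
  have h3 : IsIntegral K (algebraMap D L d) := h2.isIntegral
  have h4 : (minpoly K (algebraMap D L d)).degree = 1 :=
    IsAlgClosed.degree_eq_one_of_irreducible K (minpoly.irreducible h3)
  obtain ⟨r, hr⟩ := minpoly.mem_range_of_degree_eq_one K (algebraMap D L d) h4
  have hr' : φ r = algebraMap D L d := hr
  by_cases h : r ∈ A
  · refine ⟨⟨r, h⟩, ?_⟩
    apply IsFractionRing.injective D L
    rw [← hφ ⟨r, h⟩, ← hr']
  · exfalso
    have hr0 : r ≠ 0 := fun h0 => h (h0 ▸ A.zero_mem)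
    have h' : r⁻¹ ∈ A := (A.mem_or_inv_mem r).resolve_left h
    have hmem : (⟨r⁻¹, h'⟩ : A) ∈ maximalIdeal A := by
      rw [mem_maximalIdeal, mem_nonunits_iff]
      rintro ⟨⟨m, m', hmm', hm'm⟩, hmeq⟩
      apply h
      have e1 : (m : K) = r⁻¹ := congrArg Subtype.val hmeq
      have e2 : (m : K) * (m' : K) = 1 := congrArg Subtype.val hmm'
      have e3 : (m' : K) = r := by
        rw [e1] at e2
        have := eq_inv_of_mul_eq_one_right e2
        rw [this, inv_inv]
      rw [← e3]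
      exact m'.2
    apply hm _ hmem
    refine IsUnit.of_mul_eq_one d ?_
    apply IsFractionRing.injective D L
    rw [map_mul, map_one, ← hφ, ← hr', ← map_mul]
    show φ (r⁻¹ * r) = 1
    rw [inv_mul_cancel₀ hr0, map_one]

/-- THE SECTION THROUGH A ZERO (flat going-down over a valuation ring, by hand) : `A` a valuation
ring of an algebraically closed field, `B` a domain, `ι : A → B` injective, every element of `B`
integral over `A[u]`, `𝔫` a prime of `B` containing `𝔪_A`, `0 ≠ b ∈ 𝔫` with `B/(b)` torsion free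
over `A`.  Then there is a retraction `χ : B → A` with `χ b = 0` and `ker χ ⊆ 𝔫`. -/
theorem grdz_exists_section {K : Type*} [Field K] [IsAlgClosed K] (A : ValuationSubring K)
    {B : Type*} [CommRing B] [IsDomain B] (ι : A →+* B) (hι : Function.Injective ι) (u : B)
    (hint : ∀ x : B, (Polynomial.eval₂RingHom ι u).IsIntegralElem x)
    (𝔫 : Ideal B) [h𝔫p : 𝔫.IsPrime] (h𝔫 : ∀ m : A, m ∈ maximalIdeal A → ι m ∈ 𝔫)
    (b : B) (hb𝔫 : b ∈ 𝔫) (hb0 : b ≠ 0)
    (hsat : ∀ (π : A) (y z : B), π ≠ 0 → ι π * y = b * z → ∃ z', z = ι π * z') :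
    ∃ χ : B →+* A, (∀ a, χ (ι a) = a) ∧ χ b = 0 ∧ ∀ x, χ x = 0 → x ∈ 𝔫 := by
  classical
  -- the multiplicative set
  let S : Submonoid B := (Submonoid.map (ι : A →* B) (nonZeroDivisors A)) ⊔ 𝔫.primeCompl
  have hS : ∀ s, s ∈ S ↔ ∃ π : A, π ≠ 0 ∧ ∃ t : B, t ∉ 𝔫 ∧ ι π * t = s := by
    intro s
    constructor
    · intro hs
      obtain ⟨y, hy, t, ht, rfl⟩ := Submonoid.mem_sup.1 hs
      obtain ⟨π, hπ, rfl⟩ := hy
      exact ⟨π, nonZeroDivisors.ne_zero hπ, t, ht, rfl⟩
    · rintro ⟨π, hπ, t, ht, rfl⟩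
      exact Submonoid.mem_sup.2 ⟨ι π, ⟨π, mem_nonZeroDivisors_of_ne_zero hπ, rfl⟩, t, ht, rfl⟩
  have hdisj : Disjoint ((Ideal.span {b} : Ideal B) : Set B) (S : Set B) := by
    rw [Set.disjoint_left]
    intro x hx hxS
    obtain ⟨z, rfl⟩ := Ideal.mem_span_singleton'.1 hx
    obtain ⟨π, hπ, t, ht, h⟩ := (hS _).1 hxS
    obtain ⟨z', rfl⟩ := hsat π t z hπ (by rw [h, mul_comm])
    apply ht
    have hιπ : ι π ≠ 0 := fun h0 => hπ (hι (by rw [h0, map_zero]))
    have : t = b * z' := by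
      apply mul_left_cancel₀ hιπ
      rw [h]; ring
    rw [this]
    exact 𝔫.mul_mem_right _ hb𝔫
  obtain ⟨𝔭, h𝔭, hle, hd⟩ := Ideal.exists_le_prime_disjoint _ S hdisj
  have hb𝔭 : b ∈ 𝔭 := hle (Ideal.subset_span rfl)
  have h𝔭𝔫 : 𝔭 ≤ 𝔫 := by
    intro x hx
    by_contra hxn
    exact Set.disjoint_left.1 hd hx ((hS x).2 ⟨1, one_ne_zero, x, hxn, by rw [map_one, one_mul]⟩)
  have h𝔭A : ∀ π : A, ι π ∈ 𝔭 → π = 0 := by
    intro π hπ
    by_contra hπ0
    exact Set.disjoint_left.1 hd hπ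
      ((hS _).2 ⟨π, hπ0, 1, h𝔫p.one_notMem, by rw [mul_one]⟩)
  -- the quotient domain
  let mk : B →+* B ⧸ 𝔭 := Ideal.Quotient.mk 𝔭
  let _ : Algebra A (B ⧸ 𝔭) := (mk.comp ι).toAlgebra
  have halg : ∀ a : A, algebraMap A (B ⧸ 𝔭) a = mk (ι a) := fun _ => rfl
  have hinj : Function.Injective (algebraMap A (B ⧸ 𝔭)) := by
    rw [injective_iff_map_eq_zero]
    intro a ha
    rw [halg, Ideal.Quotient.eq_zero_iff_mem] at ha
    exact h𝔭A a ha
  have hm : ∀ m : A, m ∈ maximalIdeal A → ¬ IsUnit (algebraMap A (B ⧸ 𝔭) m) := by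
    intro m hm hu
    obtain ⟨y, hy⟩ := hu.exists_right_inv
    obtain ⟨y, rfl⟩ := Ideal.Quotient.mk_surjective y
    rw [halg, ← map_mul, ← map_one mk, Ideal.Quotient.eq] at hy
    have h1 : ι m * y - 1 ∈ 𝔫 := h𝔭𝔫 hy
    have h2 : ι m * y ∈ 𝔫 := 𝔫.mul_mem_right _ (h𝔫 m hm)
    apply h𝔫p.one_notMem
    have := 𝔫.sub_mem h2 h1
    simpa using this
  -- `ū` is algebraic over `A`
  have hcomp : ∀ (f : A[X] →+* B) (x : B) (p : A[X][X]),
      eval₂ (mk.comp f) (mk x) p = mk (eval₂ f x p) := fun f x p =>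
    (Polynomial.hom_eval₂ p f mk x).symm
  have hu_alg : IsAlgebraic A (mk u) := by
    obtain ⟨p, hpm, hp⟩ := hint b
    obtain ⟨i, hi0, hi⟩ := Ideal.exists_coeff_ne_zero_mem_comap_of_root_mem hb0 hb𝔭
      hpm.ne_zero hp
    refine ⟨p.coeff i, hi0, ?_⟩
    rw [Ideal.mem_comap] at hi
    rw [aeval_def, show algebraMap A (B ⧸ 𝔭) = mk.comp ι from rfl,
      ← Polynomial.hom_eval₂]
    exact Ideal.Quotient.eq_zero_iff_mem.2 hi
  obtain ⟨a₀, ha₀⟩ := grdz_mem_range_of_algebraic A hinj hm (mk u) hu_alg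
  -- every element is integral over `A`
  have hsurj : Function.Surjective (algebraMap A (B ⧸ 𝔭)) := by
    intro d
    obtain ⟨x, rfl⟩ := Ideal.Quotient.mk_surjective d
    apply grdz_mem_range_of_algebraic A hinj hm
    apply IsIntegral.isAlgebraic
    obtain ⟨p, hpm, hp⟩ := hint x
    let g : A[X] →+* A := Polynomial.eval₂RingHom (RingHom.id A) a₀
    have hfg : mk.comp (Polynomial.eval₂RingHom ι u) = (algebraMap A (B ⧸ 𝔭)).comp g := by
      apply Polynomial.ringHom_ext
      · intro a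
        simp [g, halg]
      · simp [g, ha₀]
    refine ⟨p.map g, hpm.map g, ?_⟩
    rw [Polynomial.eval₂_map, ← hfg, hcomp, hp, map_zero]
  let e : A ≃+* (B ⧸ 𝔭) := RingEquiv.ofBijective (algebraMap A (B ⧸ 𝔭)) ⟨hinj, hsurj⟩
  refine ⟨(e.symm : (B ⧸ 𝔭) →+* A).comp mk, ?_, ?_, ?_⟩
  · intro a
    show e.symm (mk (ι a)) = a
    rw [← halg]
    exact e.symm_apply_apply a
  · show e.symm (mk b) = 0
    rw [Ideal.Quotient.eq_zero_iff_mem.2 hb𝔭, map_zero]
  · intro x hx
    have hx' : e.symm (mk x) = 0 := hx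
    rw [map_eq_zero_iff _ e.symm.injective, Ideal.Quotient.eq_zero_iff_mem] at hx'
    exact h𝔭𝔫 hx'

end Abstract

section ChartGeneric

variable (M : ℕ) [NeZero M] (A : ValuationSubring (AlgebraicClosure ℚ))
variable (u : modularFunctionFieldBar M)

theorem grdz_incl_mem (a : A) : grdInclA M A a ∈ grdB M A u := by
  show (Polynomial.eval₂RingHom (grdInclA M A) u).IsIntegralElem _
  have h := (Polynomial.eval₂RingHom (grdInclA M A) u).isIntegralElem_map (x := Polynomial.C a)
  simpa using h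

theorem grdz_u_mem : u ∈ grdB M A u := by
  show (Polynomial.eval₂RingHom (grdInclA M A) u).IsIntegralElem _
  have h := (Polynomial.eval₂RingHom (grdInclA M A) u).isIntegralElem_map (x := Polynomial.X)
  simpa using h

/-- `A → B` -/
def grdzι : A →+* ↥(grdB M A u) :=
  (grdInclA M A).codRestrict (grdB M A u) (grdz_incl_mem M A u)

theorem grdzι_coe (a : A) : ((grdzι M A u a : ↥(grdB M A u)) : modularFunctionFieldBar M) =
    algebraMap (AlgebraicClosure ℚ) (modularFunctionFieldBar M) (a : AlgebraicClosure ℚ) := rfl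

theorem grdzι_injective : Function.Injective (grdzι M A u) := by
  intro a b hab
  have h := congrArg Subtype.val hab
  rw [grdzι_coe, grdzι_coe] at h
  exact Subtype.ext ((algebraMap (AlgebraicClosure ℚ) (modularFunctionFieldBar M)).injective h)

theorem grdz_subtype_comp :
    (grdB M A u).subtype.comp (Polynomial.eval₂RingHom (grdzι M A u) ⟨u, grdz_u_mem M A u⟩) =
      Polynomial.eval₂RingHom (grdInclA M A) u := by
  apply Polynomial.ringHom_ext
  · intro a
    simp
    rfl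
  · simp

theorem grdz_hint (x : ↥(grdB M A u)) :
    (Polynomial.eval₂RingHom (grdzι M A u) ⟨u, grdz_u_mem M A u⟩).IsIntegralElem x := by
  obtain ⟨p, hpm, hp⟩ := x.2
  refine ⟨p, hpm, ?_⟩
  apply (grdB M A u).subtype_injective
  rw [Polynomial.hom_eval₂, grdz_subtype_comp, map_zero]
  exact hp

/-- the chart ring lies in the integral closure of `ℚ̄[u]` -/
theorem grdz_mem_intRing {x : modularFunctionFieldBar M} (hx : GrdIsInt M A u x) :
    x ∈ intRing (AlgebraicClosure ℚ) u := by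
  let fA : A[X] →+* modularFunctionFieldBar M := Polynomial.eval₂RingHom (grdInclA M A) u
  let _ : Algebra A[X] (modularFunctionFieldBar M) := fA.toAlgebra
  have hx' : IsIntegral A[X] x := hx
  have hmem : ∀ p : A[X], fA p ∈ Algebra.adjoin (AlgebraicClosure ℚ) {u} := by
    intro p
    have : fA p = Polynomial.aeval u (p.map A.subtype) := by
      rw [Polynomial.aeval_def, Polynomial.eval₂_map]
      rfl
    rw [this]
    exact Polynomial.aeval_mem_adjoin_singleton _ _
  let φ : A[X] →+* ↥(Algebra.adjoin (AlgebraicClosure ℚ) {u}) :=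
    fA.codRestrict (Algebra.adjoin (AlgebraicClosure ℚ) {u}) hmem
  have := IsIntegral.map_of_comp_eq φ (RingHom.id (modularFunctionFieldBar M))
    (by ext <;> rfl) hx'
  exact this

/-- SCALING INTO THE CHART RING : every element of the integral closure of `ℚ̄[u]` has a nonzero
`A`-multiple in the chart ring. -/
theorem grdz_scale {x : modularFunctionFieldBar M} (hx : x ∈ intRing (AlgebraicClosure ℚ) u) :
    ∃ π : A, π ≠ 0 ∧
      algebraMap (AlgebraicClosure ℚ) (modularFunctionFieldBar M) (π : AlgebraicClosure ℚ) * x ∈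
        grdB M A u := by
  let F := modularFunctionFieldBar M
  let fA : A[X] →+* F := Polynomial.eval₂RingHom (grdInclA M A) u
  let fQ : (AlgebraicClosure ℚ)[X] →+* F :=
    Polynomial.eval₂RingHom (algebraMap (AlgebraicClosure ℚ) F) u
  -- step 1 : `x` is integral with respect to `fQ`
  have h1 : fQ.IsIntegralElem x := by
    obtain ⟨p, hpm, hp⟩ := hx
    have hmem : ∀ q : (AlgebraicClosure ℚ)[X], fQ q ∈ Algebra.adjoin (AlgebraicClosure ℚ) {u} :=
      fun q => Polynomial.aeval_mem_adjoin_singleton _ _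
    let g : (AlgebraicClosure ℚ)[X] →+* ↥(Algebra.adjoin (AlgebraicClosure ℚ) {u}) :=
      fQ.codRestrict (Algebra.adjoin (AlgebraicClosure ℚ) {u}) hmem
    have hg : Function.Surjective g := by
      rintro ⟨y, hy⟩
      rw [Algebra.adjoin_singleton_eq_range_aeval] at hy
      obtain ⟨q, hq⟩ := hy
      exact ⟨q, Subtype.ext hq⟩
    obtain ⟨q, hq1, -, hqm⟩ := Polynomial.lifts_and_degree_eq_and_monic
      ((Polynomial.mem_lifts p).2 (Polynomial.map_surjective g hg p)) hpm
    refine ⟨q, hqm, ?_⟩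
    have hcomp : fQ = (algebraMap ↥(Algebra.adjoin (AlgebraicClosure ℚ) {u}) F).comp g := by
      ext <;> rfl
    rw [hcomp, ← Polynomial.eval₂_map, hq1]
    exact hp
  -- step 2 : `ℚ̄[X]` is the localisation of `A[X]` at the nonzero constants
  let _ : Algebra A[X] (AlgebraicClosure ℚ)[X] := Polynomial.algebra A (AlgebraicClosure ℚ)
  have hloc : IsLocalization ((nonZeroDivisors A).map (Polynomial.C : A →+* A[X]))
      (AlgebraicClosure ℚ)[X] := Polynomial.isLocalization (nonZeroDivisors A) (AlgebraicClosure ℚ)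
  let _ : Algebra A[X] F := fA.toAlgebra
  let _ : Algebra (AlgebraicClosure ℚ)[X] F := fQ.toAlgebra
  have htower : IsScalarTower A[X] (AlgebraicClosure ℚ)[X] F :=
    IsScalarTower.of_algebraMap_eq fun p => by
      show fA p = fQ (p.map (algebraMap A (AlgebraicClosure ℚ)))
      show Polynomial.eval₂ (grdInclA M A) u p = Polynomial.eval₂ _ u (p.map _)
      rw [Polynomial.eval₂_map]
      rfl
  have h1' : IsIntegral (AlgebraicClosure ℚ)[X] x := h1
  obtain ⟨⟨m, hm⟩, hmx⟩ := IsIntegral.exists_multiple_integral_of_isLocalization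
    ((nonZeroDivisors A).map (Polynomial.C : A →+* A[X])) x h1'
  obtain ⟨π, hπ, rfl⟩ := hm
  refine ⟨π, nonZeroDivisors.ne_zero hπ, ?_⟩
  have hmx' : fA.IsIntegralElem (fA (Polynomial.C π) * x) := hmx
  have hC : fA (Polynomial.C π) =
      algebraMap (AlgebraicClosure ℚ) F (π : AlgebraicClosure ℚ) := by
    show Polynomial.eval₂ (grdInclA M A) u (Polynomial.C π) = _
    rw [Polynomial.eval₂_C]
    rfl
  rw [hC] at hmx'
  exact hmx'

/-- EXTENSION OF A SECTION of the chart ring to a `ℚ̄`-point of the integral closure of `ℚ̄[u]`. -/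
theorem grdz_extend (χ : ↥(grdB M A u) →+* A) (hχ : ∀ a, χ (grdzι M A u a) = a) :
    ∃ χ' : ↥(intRing (AlgebraicClosure ℚ) u) →+* AlgebraicClosure ℚ,
      (∀ (x : ↥(grdB M A u))
        (hx : (x : modularFunctionFieldBar M) ∈ intRing (AlgebraicClosure ℚ) u),
        χ' ⟨x, hx⟩ = ((χ x : A) : AlgebraicClosure ℚ)) ∧
      ∀ (c : AlgebraicClosure ℚ)
        (hc : algebraMap (AlgebraicClosure ℚ) (modularFunctionFieldBar M) c ∈
          intRing (AlgebraicClosure ℚ) u),
        χ' ⟨algebraMap (AlgebraicClosure ℚ) (modularFunctionFieldBar M) c, hc⟩ = c := by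
  classical
  let F := modularFunctionFieldBar M
  let aM : AlgebraicClosure ℚ →+* F := algebraMap _ _
  have key : ∀ (x : F) (π π' : A) (hπ : π ≠ 0) (hπ' : π' ≠ 0) (y y' : ↥(grdB M A u))
      (hy : (y : F) = aM π * x) (hy' : (y' : F) = aM π' * x),
      ((χ y : A) : AlgebraicClosure ℚ) / π = ((χ y' : A) : AlgebraicClosure ℚ) / π' := by
    intro x π π' hπ hπ' y y' hy hy'
    have e : grdzι M A u π' * y = grdzι M A u π * y' := by
      apply Subtype.ext
      show aM π' * (y : F) = aM π * (y' : F)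
      rw [hy, hy']
      ring
    have e2 := congrArg χ e
    rw [map_mul, map_mul, hχ, hχ] at e2
    have e3 : (π' : AlgebraicClosure ℚ) * (χ y : A) = (π : AlgebraicClosure ℚ) * (χ y' : A) :=
      congrArg Subtype.val e2
    have hπK : (π : AlgebraicClosure ℚ) ≠ 0 := fun h0 => hπ (Subtype.ext h0)
    have hπK' : (π' : AlgebraicClosure ℚ) ≠ 0 := fun h0 => hπ' (Subtype.ext h0)
    rw [div_eq_div_iff hπK hπK']
    linear_combination e3
  let val : ↥(intRing (AlgebraicClosure ℚ) u) → AlgebraicClosure ℚ := fun x =>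
    ((χ ⟨_, (grdz_scale M A u x.2).choose_spec.2⟩ : A) : AlgebraicClosure ℚ) /
      ((grdz_scale M A u x.2).choose : A)
  have hval : ∀ (x : ↥(intRing (AlgebraicClosure ℚ) u)) (π : A) (hπ : π ≠ 0)
      (y : ↥(grdB M A u)) (hy : (y : F) = aM π * (x : F)),
      val x = ((χ y : A) : AlgebraicClosure ℚ) / π := fun x π hπ y hy =>
    key _ _ _ (grdz_scale M A u x.2).choose_spec.1 hπ _ y rfl hy
  have hcoe : ∀ π : A, (π : AlgebraicClosure ℚ) ≠ 0 ↔ π ≠ 0 := fun π =>
    ⟨fun h h0 => h (by rw [h0]; rfl), fun h h0 => h (Subtype.ext h0)⟩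
  have h_one : val 1 = 1 := by
    rw [hval 1 1 one_ne_zero 1 (by simp [aM])]
    simp
  have h_zero : val 0 = 0 := by
    rw [hval 0 1 one_ne_zero 0 (by simp [aM])]
    simp
  have h_mul : ∀ x y, val (x * y) = val x * val y := by
    intro x y
    obtain ⟨π, hπ, h⟩ := grdz_scale M A u x.2
    obtain ⟨π', hπ', h'⟩ := grdz_scale M A u y.2
    rw [hval x π hπ ⟨_, h⟩ rfl, hval y π' hπ' ⟨_, h'⟩ rfl,
      hval (x * y) (π * π') (mul_ne_zero hπ hπ') (⟨_, h⟩ * ⟨_, h'⟩)
        (by
          show aM π * (x : F) * (aM π' * (y : F)) = aM ((π * π' : A) : AlgebraicClosure ℚ) * _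
          push_cast
          rw [map_mul]
          ring)]
    rw [map_mul]
    have hπK := (hcoe π).2 hπ
    have hπK' := (hcoe π').2 hπ'
    push_cast
    field_simp
  have h_add : ∀ x y, val (x + y) = val x + val y := by
    intro x y
    obtain ⟨π, hπ, h⟩ := grdz_scale M A u x.2
    obtain ⟨π', hπ', h'⟩ := grdz_scale M A u y.2
    rw [hval x π hπ ⟨_, h⟩ rfl, hval y π' hπ' ⟨_, h'⟩ rfl,
      hval (x + y) (π * π') (mul_ne_zero hπ hπ')
        (grdzι M A u π' * ⟨_, h⟩ + grdzι M A u π * ⟨_, h'⟩)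
        (by
          show aM π' * (aM π * (x : F)) + aM π * (aM π' * (y : F)) =
            aM ((π * π' : A) : AlgebraicClosure ℚ) * ((x : F) + (y : F))
          push_cast
          rw [map_mul]
          ring)]
    rw [map_add, map_mul, map_mul, hχ, hχ]
    have hπK := (hcoe π).2 hπ
    have hπK' := (hcoe π').2 hπ'
    push_cast
    field_simp
  refine ⟨{ toFun := val, map_one' := h_one, map_mul' := h_mul, map_zero' := h_zero,
            map_add' := h_add }, ?_, ?_⟩
  · intro x hx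
    show val ⟨x, hx⟩ = _
    rw [hval ⟨x, hx⟩ 1 one_ne_zero x (by simp [aM])]
    simp
  · intro c hc
    show val ⟨_, hc⟩ = c
    by_cases h : c ∈ A
    · rw [hval ⟨_, hc⟩ 1 one_ne_zero (grdzι M A u ⟨c, h⟩) (by simp [aM, grdzι_coe]), hχ]
      simp
    · have hc0 : c ≠ 0 := fun h0 => h (h0 ▸ A.zero_mem)
      have h' : c⁻¹ ∈ A := (A.mem_or_inv_mem c).resolve_left h
      have hne : (⟨c⁻¹, h'⟩ : A) ≠ 0 := fun h0 => inv_ne_zero hc0 (congrArg Subtype.val h0)
      rw [hval ⟨_, hc⟩ ⟨c⁻¹, h'⟩ hne 1 (by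
        show (1 : F) = aM c⁻¹ * aM c
        rw [← map_mul, inv_mul_cancel₀ hc0, map_one])]
      simp

end ChartGeneric

section ChartRel

variable (M : ℕ) [NeZero M] {ℓ : ℕ} [Fact ℓ.Prime]
variable (A : ValuationSubring (AlgebraicClosure ℚ))
variable {υ : LaurentSeries ℤ}

/-- (R2) EXISTENCE OF ZEROS (going-down for the flat `𝔸`-algebra `B/(b)`) : if `b̄ ≠ 0` vanishes
at `Q` then `b` vanishes at some `P` of the chart reducing to `Q`. -/
theorem grd_exists_zero (hℓM : ¬ ℓ ∣ M) (hA : A.LiesOverPrime ℓ) (hc : GrdChart M A υ)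
    (Q : Place (ResidueField A) (modularFunctionFieldFullC (ResidueField A) M))
    (hQ : grdK M A hc.mem ∈ Q.toValuationSubring)
    (b : ↥(grdO M A)) (hb : GrdIsInt M A (grdQ M hc.mem) (b : modularFunctionFieldBar M))
    (hb0 : grdRed M A b ≠ 0) (hbQ : GrdVal Q (grdRed M A b) 0) :
    ∃ P : Place (AlgebraicClosure ℚ) (modularFunctionFieldBar M),
      GrdInChart M A (grdQ M hc.mem) P ∧ GrdRel M A (grdQ M hc.mem) P Q ∧
        GrdVal P (b : modularFunctionFieldBar M) 0 := by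
  classical
  set u := grdQ M hc.mem with hu
  have huO : u ∈ grdO M A := grdQ_mem_grdO M A hc.mem
  have hBO : grdB M A u ≤ grdO M A := grdB_le_grdO M A hℓM hA huO
  let F := modularFunctionFieldBar M
  let k := ResidueField A
  let Fk := modularFunctionFieldFullC k M
  let aM : AlgebraicClosure ℚ →+* F := algebraMap _ _
  -- the reduction homomorphism on the chart ring, with values in the valuation ring of `Q`
  let ρ0 : ↥(grdB M A u) →+* Fk := (grdRed M A).comp (Subring.inclusion hBO)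
  have hρ0 : ∀ x : ↥(grdB M A u), ρ0 x = grdRed M A ⟨x, hBO x.2⟩ := fun x => rfl
  have hρmem : ∀ x : ↥(grdB M A u), ρ0 x ∈ Q.toValuationSubring := by
    intro x
    have h1 := grdRed_isIntegral M A hc.mem ⟨x, hBO x.2⟩ x.2
    exact intRing_le_place Q hQ ⟨_, h1⟩
  let ρ : ↥(grdB M A u) →+* ↥Q.toValuationSubring := ρ0.codRestrict _ hρmem
  let 𝔫 : Ideal ↥(grdB M A u) := Ideal.comap ρ (maximalIdeal ↥Q.toValuationSubring)
  have h𝔫p : 𝔫.IsPrime := Ideal.comap_isPrime ρ _
  have hmem𝔫 : ∀ x : ↥(grdB M A u), x ∈ 𝔫 ↔ (ρ0 x : Fk) ∈ Q.toValuationSubring.nonunits := by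
    intro x
    rw [Ideal.mem_comap]
    exact (ValuationSubring.coe_mem_nonunits_iff (a := ρ x)).symm
  have hρι : ∀ a : A, ρ0 (grdzι M A u a) = algebraMap k Fk (residue A a) := by
    intro a
    rw [hρ0]
    exact grdRed_algebraMap M A a
  have h𝔫 : ∀ m : A, m ∈ maximalIdeal A → grdzι M A u m ∈ 𝔫 := by
    intro m hm
    rw [hmem𝔫, hρι, (residue_eq_zero_iff m).2 hm, map_zero]
    have h0 : ((0 : ↥Q.toValuationSubring) : Fk) ∈ Q.toValuationSubring.nonunits :=
      ValuationSubring.coe_mem_nonunits_iff.2 (zero_mem _)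
    exact h0
  let bB : ↥(grdB M A u) := ⟨b, hb⟩
  have hb𝔫 : bB ∈ 𝔫 := (hmem𝔫 _).2 ((grdg_val_zero_iff Q _).1 hbQ)
  have hbB0 : bB ≠ 0 := by
    intro h
    apply hb0
    have h' : ((bB : ↥(grdB M A u)) : F) = 0 := congrArg Subtype.val h
    have : b = 0 := Subtype.ext h'
    rw [this, map_zero]
  have hbF : (b : F) ≠ 0 := fun h => hbB0 (Subtype.ext h)
  have hsat : ∀ (π : A) (y z : ↥(grdB M A u)), π ≠ 0 → grdzι M A u π * y = bB * z →
      ∃ z', z = grdzι M A u π * z' := by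
    intro π y z hπ hyz
    have hbinv := grdO_inv_mem M A hℓM hA b hb0
    let w : ↥(grdO M A) := ⟨(b : F)⁻¹, hbinv⟩ * ⟨y, hBO y.2⟩
    have hw : (w : F) = (b : F)⁻¹ * y := rfl
    have hyz' : aM π * (y : F) = (b : F) * (z : F) := congrArg Subtype.val hyz
    have e : aM π * (w : F) = z := by
      rw [hw]
      calc aM π * ((b : F)⁻¹ * y) = (b : F)⁻¹ * (aM π * y) := by ring
        _ = (b : F)⁻¹ * ((b : F) * z) := by rw [hyz']
        _ = z := by rw [← mul_assoc, inv_mul_cancel₀ hbF, one_mul]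
    have hint_w : GrdIsInt M A u (w : F) :=
      grd_saturated M A hℓM hA hc w π hπ (by rw [e]; exact z.2)
    exact ⟨⟨w, hint_w⟩, Subtype.ext e.symm⟩
  obtain ⟨χ, hχι, hχb, hχ𝔫⟩ := grdz_exists_section A (grdzι M A u) (grdzι_injective M A u)
    ⟨u, grdz_u_mem M A u⟩ (grdz_hint M A u) 𝔫 h𝔫 bB hb𝔫 hbB0 hsat
  obtain ⟨χ', hχ'B, hχ'c⟩ := grdz_extend M A u χ hχι
  obtain ⟨P, ⟨hPu, hPval⟩, -⟩ := grdg_place_of_hom hc.sepQ χ' hχ'c
  have hval : ∀ x : ↥(grdB M A u), GrdVal P (x : F) ((χ x : A) : AlgebraicClosure ℚ) := by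
    intro x
    have hx := grdz_mem_intRing M A u x.2
    have := hPval ⟨x, hx⟩
    rwa [hχ'B x hx] at this
  refine ⟨P, ⟨χ ⟨u, grdz_u_mem M A u⟩, hval ⟨u, grdz_u_mem M A u⟩⟩, ?_, ?_⟩
  · intro x hx hxint a hPa
    have h1 := hval ⟨x, hxint⟩
    have h2 : (a : AlgebraicClosure ℚ) = (χ ⟨x, hxint⟩ : A) := grdg_val_unique P hPa h1
    have h3 : χ (⟨x, hxint⟩ - grdzι M A u a) = 0 := by
      rw [map_sub, hχι]
      exact sub_eq_zero.2 (Subtype.ext h2.symm)
    have h4 := (hmem𝔫 _).1 (hχ𝔫 _ h3)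
    have h5 : ρ0 (⟨x, hxint⟩ - grdzι M A u a) =
        grdRed M A ⟨x, hx⟩ - algebraMap k Fk (residue A a) := by
      rw [map_sub, hρι, hρ0]
    rw [h5] at h4
    exact h4
  · have := hval bB
    rw [hχb] at this
    exact this

/-- (R2') SURJECTIVITY of the reduction in a chart. -/
theorem grd_rel_surj (hℓM : ¬ ℓ ∣ M) (hA : A.LiesOverPrime ℓ) (hc : GrdChart M A υ)
    (Q : Place (ResidueField A) (modularFunctionFieldFullC (ResidueField A) M))
    (hQ : grdK M A hc.mem ∈ Q.toValuationSubring) :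
    ∃ P : Place (AlgebraicClosure ℚ) (modularFunctionFieldBar M),
      GrdInChart M A (grdQ M hc.mem) P ∧ GrdRel M A (grdQ M hc.mem) P Q := by
  have hk : IsAlgClosed (ResidueField A) := grd_isAlgClosed_residue A
  let F := modularFunctionFieldBar M
  let k := ResidueField A
  let Fk := modularFunctionFieldFullC k M
  obtain ⟨a', ha'⟩ := grdg_val_exists hc.sepK Q hQ
  obtain ⟨a, rfl⟩ := residue_surjective a'
  let b : ↥(grdO M A) := ⟨grdQ M hc.mem, grdQ_mem_grdO M A hc.mem⟩ -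
    ⟨algebraMap (AlgebraicClosure ℚ) F (a : AlgebraicClosure ℚ), grdO_algebraMap_mem M A a⟩
  have hb : GrdIsInt M A (grdQ M hc.mem) (b : F) :=
    (grdB M A (grdQ M hc.mem)).sub_mem (grdz_u_mem M A _) (grdz_incl_mem M A _ a)
  have hred : grdRed M A b = grdK M A hc.mem - algebraMap k Fk (residue A a) := by
    rw [map_sub, grdRed_grdQ, grdRed_algebraMap]
  have hb0 : grdRed M A b ≠ 0 := by
    rw [hred]
    intro h
    have h1 : grdK M A hc.mem = algebraMap k Fk (residue A a) := sub_eq_zero.1 h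
    apply hc.sepK.transcendental
    rw [h1]
    exact isAlgebraic_algebraMap _
  have hbQ : GrdVal Q (grdRed M A b) 0 := by
    rw [grdg_val_zero_iff, hred]
    exact ha'
  obtain ⟨P, h1, h2, -⟩ := grd_exists_zero M A hℓM hA hc Q hQ b hb hb0 hbQ
  exact ⟨P, h1, h2⟩

end ChartRel

end Fermat.Agent.G
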