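/-
Program G, package G/Red, row G-RED-R5 (helper7): THE DIVISOR FORMULA IN A CHART.

`grd_div_chart` VERBATIM from helper12's `G/Red/Spec.lean` 28daca2.  Black boxes: `grd_exists_zero`
(R2), `grd_kernel_principal` (R3), `grd_simple_zero` (R4), `grd_lift` (C3), `grd_val_exists` (V1),
`grdRed_isIntegral` (C2), `grdRed_algebraMap`, `grdO_algebraMap_mem`, `grd_isAlgClosed_residue` come
from the private stub file `DivChartStub.lean` (verbatim copies of the Spec statements); the generic
`grdg_*` lemmas from helper15's REAL `Val.lean` / `GenPlace.lean`.  INTEGRATION: replace the import of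
`DivChartStub` by the real leaf files.

Induction on `n = ord_Q(b̄)`: if `n = 0` no place over `Q` is a zero of `b`; if `n > 0` pick a zero
`P₀ ↦ Q` of `b` (R2), a lift `t₀` of a uniformiser at `Q` (G5 + C3), `β = t₀(P₀)`, write
`s b = (t₀ - β) c` with `s̄(Q) ≠ 0` (R3); `t₀ - β` has a simple zero at `P₀` and no other zero over `Q`
(R4), `(t₀ - β)‾ = t̄₀`, so `ord_Q(c̄) = n - 1` and `∑ ord_P(b) = 1 + ∑ ord_P(c)`.
-/
import Mathlib
import Fermat.Agent.G.Red.Defs
import Fermat.Agent.G.Red.Val
import Fermat.Agent.G.Red.GenPlace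
import Fermat.Agent.G.Red.Gauss
import Fermat.Agent.G.Red.Lift
import Fermat.Agent.G.Red.Kernel
import Fermat.Agent.G.Red.RelExists
import Fermat.Agent.G.Red.Zero
import Fermat.Agent.G.Red.Simple
import Fermat.Agent.S24.Places
import Fermat.Agent.S24.PlacesCenter

set_option autoImplicit false
set_option linter.unusedSectionVars false
set_option linter.unusedVariables false
set_option synthInstance.maxHeartbeats 400000

noncomputable section

namespace Fermat.Agent.G

open ModularCurve AlgebraicCurve IsLocalRing Polynomial Fermat.Agent.S18 Fermat.Agent.S24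

section DivChart

variable (M : ℕ) [NeZero M] {ℓ : ℕ} [Fact ℓ.Prime]
variable (A : ValuationSubring (AlgebraicClosure ℚ))
variable {υ : LaurentSeries ℤ}

/-- constants of `𝔸` are integral over `𝔸[u]`. -/
theorem grdr5_isInt_const (u : modularFunctionFieldBar M) (a : A) :
    GrdIsInt M A u
      (algebraMap (AlgebraicClosure ℚ) (modularFunctionFieldBar M) (a : AlgebraicClosure ℚ)) := by
  have h := RingHom.isIntegralElem_map (Polynomial.eval₂RingHom (grdInclA M A) u)
    (x := Polynomial.C a)
  have e : (Polynomial.eval₂RingHom (grdInclA M A) u) (Polynomial.C a) =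
      algebraMap (AlgebraicClosure ℚ) (modularFunctionFieldBar M) (a : AlgebraicClosure ℚ) := by
    rw [Polynomial.coe_eval₂RingHom, Polynomial.eval₂_C]
    rfl
  rw [e] at h
  exact h

/-- an element integral over `𝔸[u]` is regular at every place of the chart. -/
theorem grdr5_mem_place (hc : GrdChart M A υ)
    (P : Place (AlgebraicClosure ℚ) (modularFunctionFieldBar M))
    (hP : GrdInChart M A (grdQ M hc.mem) P) {x : modularFunctionFieldBar M}
    (hx : GrdIsInt M A (grdQ M hc.mem) x) : x ∈ P.toValuationSubring := by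
  obtain ⟨a, ha⟩ := grd_val_exists M A hc P hP hx
  exact grdg_val_mem P ha

/-- the reduction of an element integral over `𝔸[u]` is regular at every place of the chart of
`F_k`. -/
theorem grdr5_red_mem_place (hυ : GrdSerMem M υ)
    (Q : Place (ResidueField A) (modularFunctionFieldFullC (ResidueField A) M))
    (hQ : grdK M A hυ ∈ Q.toValuationSubring) (x : ↥(grdO M A))
    (hx : GrdIsInt M A (grdQ M hυ) (x : modularFunctionFieldBar M)) :
    (grdRed M A x : modularFunctionFieldFullC (ResidueField A) M) ∈ Q.toValuationSubring := by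
  have h := grdRed_isIntegral M A hυ x hx
  exact intRing_le_place Q hQ ⟨_, h⟩

theorem grdr5_ne_zero_of_red {x : ↥(grdO M A)} (hx : grdRed M A x ≠ 0) :
    (x : modularFunctionFieldBar M) ≠ 0 := by
  intro h
  apply hx
  have : x = 0 := Subtype.ext h
  rw [this, map_zero]

/-- `x̄(Q) ≠ 0` ⟹ `x(P) ≠ 0` for every `P ↦ Q` of the chart. -/
theorem grdr5_ord_eq_zero (hc : GrdChart M A υ)
    (Q : Place (ResidueField A) (modularFunctionFieldFullC (ResidueField A) M))
    (P : Place (AlgebraicClosure ℚ) (modularFunctionFieldBar M))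
    (hP : GrdInChart M A (grdQ M hc.mem) P) (hPQ : GrdRel M A (grdQ M hc.mem) P Q)
    (x : ↥(grdO M A)) (hx : GrdIsInt M A (grdQ M hc.mem) (x : modularFunctionFieldBar M))
    (hx0 : grdRed M A x ≠ 0) (hord : Q.ord (grdRed M A x) = 0) :
    P.ord (x : modularFunctionFieldBar M) = 0 := by
  have hxne : (x : modularFunctionFieldBar M) ≠ 0 := grdr5_ne_zero_of_red M A hx0
  have h1 : 0 ≤ P.ord (x : modularFunctionFieldBar M) :=
    (grdg_mem_iff_ord P hxne).mp (grdr5_mem_place M A hc P hP hx)
  by_contra hne
  have hpos : 0 < P.ord (x : modularFunctionFieldBar M) := lt_of_le_of_ne h1 (Ne.symm hne)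
  have hv : GrdVal P (x : modularFunctionFieldBar M) (((0 : A)) : AlgebraicClosure ℚ) := by
    rw [ZeroMemClass.coe_zero]
    exact (grdg_val_zero_iff_ord P hxne).mpr hpos
  have hvQ := hPQ (x : modularFunctionFieldBar M) x.2 hx 0 hv
  rw [map_zero] at hvQ
  have hx0' : ((grdRed M A ⟨(x : modularFunctionFieldBar M), x.2⟩ :
      modularFunctionFieldFullC (ResidueField A) M)) ≠ 0 := hx0
  have := (grdg_val_zero_iff_ord Q hx0').mp hvQ
  have hord' : Q.ord ((grdRed M A ⟨(x : modularFunctionFieldBar M), x.2⟩ :
      modularFunctionFieldFullC (ResidueField A) M)) = 0 := hord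
  omega

/-- the induction. -/
theorem grdr5_div_chart_aux (hℓM : ¬ ℓ ∣ M) (hA : A.LiesOverPrime ℓ) (hc : GrdChart M A υ)
    (Q : Place (ResidueField A) (modularFunctionFieldFullC (ResidueField A) M))
    (hQ : grdK M A hc.mem ∈ Q.toValuationSubring) :
    ∀ (n : ℕ) (b : ↥(grdO M A))
      (hb : GrdIsInt M A (grdQ M hc.mem) (b : modularFunctionFieldBar M))
      (hb0 : grdRed M A b ≠ 0), Q.ord (grdRed M A b) = (n : ℤ) →
      {P : Place (AlgebraicClosure ℚ) (modularFunctionFieldBar M) |
        (GrdInChart M A (grdQ M hc.mem) P ∧ GrdRel M A (grdQ M hc.mem) P Q) ∧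
          P.ord (b : modularFunctionFieldBar M) ≠ 0}.Finite ∧
      ∑ᶠ P ∈ {P : Place (AlgebraicClosure ℚ) (modularFunctionFieldBar M) |
        GrdInChart M A (grdQ M hc.mem) P ∧ GrdRel M A (grdQ M hc.mem) P Q},
          P.ord (b : modularFunctionFieldBar M) = (n : ℤ) := by
  classical
  intro n
  induction n with
  | zero =>
    intro b hb hb0 hn
    have hzero : ∀ P : Place (AlgebraicClosure ℚ) (modularFunctionFieldBar M),
        P ∈ {P : Place (AlgebraicClosure ℚ) (modularFunctionFieldBar M) |
          GrdInChart M A (grdQ M hc.mem) P ∧ GrdRel M A (grdQ M hc.mem) P Q} →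
        P.ord (b : modularFunctionFieldBar M) = 0 := by
      intro P hP
      exact grdr5_ord_eq_zero M A hc Q P hP.1 hP.2 b hb hb0 (by simpa using hn)
    constructor
    · have : {P : Place (AlgebraicClosure ℚ) (modularFunctionFieldBar M) |
          (GrdInChart M A (grdQ M hc.mem) P ∧ GrdRel M A (grdQ M hc.mem) P Q) ∧
            P.ord (b : modularFunctionFieldBar M) ≠ 0} = ∅ := by
        ext P
        constructor
        · rintro ⟨hP, hPb⟩
          exact (hPb (hzero P hP)).elim
        · intro h
          exact h.elim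
      rw [this]
      exact Set.finite_empty
    · rw [finsum_mem_eq_zero_of_forall_eq_zero hzero]
      rfl
  | succ n ih =>
    intro b hb hb0 hn
    have : IsAlgClosed (ResidueField A) := grd_isAlgClosed_residue A
    set S : Set (Place (AlgebraicClosure ℚ) (modularFunctionFieldBar M)) :=
      {P | GrdInChart M A (grdQ M hc.mem) P ∧ GrdRel M A (grdQ M hc.mem) P Q} with hS
    -- a zero of `b` over `Q`
    have hbQ : GrdVal Q (grdRed M A b) 0 :=
      (grdg_val_zero_iff_ord Q hb0).mpr (by rw [hn]; positivity)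
    obtain ⟨P₀, hP₀, hP₀Q, hbP₀⟩ := grd_exists_zero M A hℓM hA hc Q hQ b hb hb0 hbQ
    -- a lift of a uniformiser
    obtain ⟨x, hx⟩ := grdg_exists_unif hc.sepK Q hQ
    obtain ⟨t₀, ht₀, ht₀x⟩ := grd_lift M A hℓM hA hc x
    have hord : Q.ord (grdRed M A t₀) = 1 := by rw [ht₀x]; exact hx
    obtain ⟨β, hβ⟩ := grd_val_exists M A hc P₀ hP₀ ht₀
    obtain ⟨s, c, hs, hcint, hsQ, hsb⟩ :=
      grd_kernel_principal M A hℓM hA hc P₀ hP₀ Q hP₀Q t₀ ht₀ hord β hβ b hb hbP₀
    obtain ⟨hw1, hwuniq⟩ := grd_simple_zero M A hℓM hA hc P₀ hP₀ Q hP₀Q t₀ ht₀ hord β hβ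
    -- the element `w = t₀ - β`
    set βO : ↥(grdO M A) := ⟨algebraMap (AlgebraicClosure ℚ) (modularFunctionFieldBar M)
      (β : AlgebraicClosure ℚ), grdO_algebraMap_mem M A β⟩ with hβO
    set w : ↥(grdO M A) := t₀ - βO with hw
    have hwcoe : (w : modularFunctionFieldBar M) = (t₀ : modularFunctionFieldBar M) -
        algebraMap (AlgebraicClosure ℚ) (modularFunctionFieldBar M) (β : AlgebraicClosure ℚ) := rfl
    have hwint : GrdIsInt M A (grdQ M hc.mem) (w : modularFunctionFieldBar M) := by
      rw [hwcoe]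
      exact (grdB M A (grdQ M hc.mem)).sub_mem ht₀ (grdr5_isInt_const M A _ β)
    -- `β̄ = 0`
    have ht₀ne : grdRed M A t₀ ≠ 0 := by
      intro h0
      rw [h0, Place.ord_zero] at hord
      exact zero_ne_one hord
    have hβ0 : residue A β = 0 := by
      have h1 : GrdVal Q (grdRed M A t₀) (residue A β) :=
        hP₀Q (t₀ : modularFunctionFieldBar M) t₀.2 ht₀ β hβ
      have h2 : GrdVal Q (grdRed M A t₀) 0 :=
        (grdg_val_zero_iff_ord Q ht₀ne).mpr (by rw [hord]; exact one_pos)
      exact grdg_val_unique Q h1 h2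
    have hwred : grdRed M A w = grdRed M A t₀ := by
      rw [hw, map_sub, hβO, grdRed_algebraMap, hβ0, map_zero, sub_zero]
    -- the relation in the Gauss ring and its reduction
    have hrel : s * b = w * c := Subtype.ext (by
      rw [Subring.coe_mul, Subring.coe_mul, hwcoe]
      exact hsb)
    have hrelred : grdRed M A s * grdRed M A b = grdRed M A t₀ * grdRed M A c := by
      rw [← map_mul, hrel, map_mul, hwred]
    have hs0 : grdRed M A s ≠ 0 := by
      intro h0
      apply hsQ
      rw [h0]
      exact (grdg_val_zero_iff Q 0).mpr (by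
        rw [ValuationSubring.mem_nonunits_iff, map_zero]
        exact zero_lt_one)
    have hc0 : grdRed M A c ≠ 0 := by
      intro h0
      rw [h0, mul_zero] at hrelred
      exact mul_ne_zero hs0 hb0 hrelred
    have hsord : Q.ord (grdRed M A s) = 0 := by
      have h1 : 0 ≤ Q.ord (grdRed M A s : modularFunctionFieldFullC (ResidueField A) M) :=
        (grdg_mem_iff_ord Q hs0).mp (grdr5_red_mem_place M A hc.mem Q hQ s hs)
      have h2 : ¬ 0 < Q.ord (grdRed M A s : modularFunctionFieldFullC (ResidueField A) M) :=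
        fun h => hsQ ((grdg_val_zero_iff_ord Q hs0).mpr h)
      omega
    have hcord : Q.ord (grdRed M A c) = (n : ℤ) := by
      have h1 := congrArg Q.ord hrelred
      rw [Place.ord_mul Q hs0 hb0, Place.ord_mul Q ht₀ne hc0, hsord, hn, hord] at h1
      push_cast at h1
      omega
    obtain ⟨hfin, hsum⟩ := ih c hcint hc0 hcord
    -- nonvanishing upstairs
    have hsne : (s : modularFunctionFieldBar M) ≠ 0 := grdr5_ne_zero_of_red M A hs0
    have hbne : (b : modularFunctionFieldBar M) ≠ 0 := grdr5_ne_zero_of_red M A hb0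
    have hcne : (c : modularFunctionFieldBar M) ≠ 0 := grdr5_ne_zero_of_red M A hc0
    have hwne : (w : modularFunctionFieldBar M) ≠ 0 := by
      intro h0
      rw [← hwcoe, h0, Place.ord_zero] at hw1
      exact zero_ne_one hw1
    -- the orders of `w` over `Q`
    have hword : ∀ P ∈ S, P.ord (w : modularFunctionFieldBar M) = if P = P₀ then 1 else 0 := by
      intro P hP
      split_ifs with hPP
      · rw [hPP, hwcoe]
        exact hw1
      · have h1 : 0 ≤ P.ord (w : modularFunctionFieldBar M) :=
          (grdg_mem_iff_ord P hwne).mp (grdr5_mem_place M A hc P hP.1 hwint)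
        by_contra hne
        have hpos : 0 < P.ord (w : modularFunctionFieldBar M) := lt_of_le_of_ne h1 (Ne.symm hne)
        have hv : w.1 ∈ P.toValuationSubring.nonunits :=
          (grdg_val_zero_iff P _).mp ((grdg_val_zero_iff_ord P hwne).mpr hpos)
        have hv' : GrdVal P (t₀ : modularFunctionFieldBar M) (β : AlgebraicClosure ℚ) := hv
        exact hPP (hwuniq P hP.1 hP.2 hv')
    -- the orders of `b` over `Q`
    have hbord : ∀ P ∈ S, P.ord (b : modularFunctionFieldBar M) =
        (if P = P₀ then 1 else 0) + P.ord (c : modularFunctionFieldBar M) := by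
      intro P hP
      have h1 : P.ord (s : modularFunctionFieldBar M) = 0 :=
        grdr5_ord_eq_zero M A hc Q P hP.1 hP.2 s hs hs0 hsord
      have h2 := congrArg P.ord (congrArg Subtype.val hrel)
      rw [Subring.coe_mul, Subring.coe_mul, Place.ord_mul P hsne hbne, Place.ord_mul P hwne hcne,
        h1, hword P hP] at h2
      omega
    constructor
    · -- finiteness
      refine (hfin.union (Set.finite_singleton P₀)).subset ?_
      rintro P ⟨hP, hPb⟩
      by_cases hPP : P = P₀
      · exact Or.inr hPP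
      · refine Or.inl ⟨hP, ?_⟩
        intro h0
        apply hPb
        rw [hbord P hP, if_neg hPP, h0, add_zero]
    · -- the sum
      have hfin1 : (S ∩ Function.support
          (fun P : Place (AlgebraicClosure ℚ) (modularFunctionFieldBar M) =>
            (if P = P₀ then (1 : ℤ) else 0))).Finite := by
        refine (Set.finite_singleton P₀).subset ?_
        rintro P ⟨-, hP⟩
        by_contra hPP
        exact hP (if_neg hPP)
      have hfin2 : (S ∩ Function.support
          (fun P : Place (AlgebraicClosure ℚ) (modularFunctionFieldBar M) =>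
            P.ord (c : modularFunctionFieldBar M))).Finite := by
        refine hfin.subset ?_
        rintro P ⟨hP, hPc⟩
        exact ⟨hP, hPc⟩
      rw [finsum_mem_congr rfl hbord, finsum_mem_add_distrib' hfin1 hfin2, hsum]
      have hone : ∑ᶠ P ∈ S, (if P = P₀ then (1 : ℤ) else 0) = 1 := by
        rw [finsum_mem_def, finsum_eq_single _ P₀]
        · rw [Set.indicator_of_mem (show P₀ ∈ S from ⟨hP₀, hP₀Q⟩), if_pos rfl]
        · intro P hPP
          by_cases hPS : P ∈ S
          · rw [Set.indicator_of_mem hPS, if_neg hPP]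
          · rw [Set.indicator_of_notMem hPS]
      rw [hone]
      push_cast
      ring

/-- (R5) THE DIVISOR FORMULA IN A CHART : for `b ∈ B` with `b̄ ≠ 0` and `Q` in the chart of `F_k` :
`∑_{P ↦ Q} ord_P(b) = ord_Q(b̄)` (induction on `ord_Q(b̄)` : `grd_exists_zero`,
`grd_kernel_principal`, `grd_simple_zero`, `grdg_local_factor`). -/
theorem grd_div_chart (hℓM : ¬ ℓ ∣ M) (hA : A.LiesOverPrime ℓ) (hc : GrdChart M A υ)
    (Q : Place (ResidueField A) (modularFunctionFieldFullC (ResidueField A) M))
    (hQ : grdK M A hc.mem ∈ Q.toValuationSubring)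
    (b : ↥(grdO M A)) (hb : GrdIsInt M A (grdQ M hc.mem) (b : modularFunctionFieldBar M))
    (hb0 : grdRed M A b ≠ 0) :
    {P : Place (AlgebraicClosure ℚ) (modularFunctionFieldBar M) |
        (GrdInChart M A (grdQ M hc.mem) P ∧ GrdRel M A (grdQ M hc.mem) P Q) ∧
          P.ord (b : modularFunctionFieldBar M) ≠ 0}.Finite ∧
      ∑ᶠ P ∈ {P : Place (AlgebraicClosure ℚ) (modularFunctionFieldBar M) |
        GrdInChart M A (grdQ M hc.mem) P ∧ GrdRel M A (grdQ M hc.mem) P Q},
          P.ord (b : modularFunctionFieldBar M) = Q.ord (grdRed M A b) := by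
  have h0 : 0 ≤ Q.ord (grdRed M A b : modularFunctionFieldFullC (ResidueField A) M) :=
    (grdg_mem_iff_ord Q hb0).mp (grdr5_red_mem_place M A hc.mem Q hQ b hb)
  obtain ⟨n, hn⟩ := Int.eq_ofNat_of_zero_le h0
  have := grdr5_div_chart_aux M A hℓM hA hc Q hQ n b hb hb0 hn
  rw [hn]
  exact this

end DivChart

end Fermat.Agent.G
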