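import Mathlib
import Fermat.Agent.G.Red.Defs
import Fermat.Agent.G.Red.Val
import Fermat.Agent.G.Red.Gauss
import Fermat.Agent.G.Red.RelExists

/-!
# Program G, package G/Red, row G-RED-T1 : two charts `τ`, `τ' = τ⁻¹` (file tag `grda_`)

* `grd_chart_cover`, `grd_chart_coverK` : the two charts cover;
* `grd_rel_compat` : on the overlap the two charts define the same reduction relation
  (`x` integral over `𝔸[1/u]` ⟹ `u^n x` integral over `𝔸[u]`; values multiply);
* `grd_exists_isRed`, `grd_isRed_unique`, `grd_isRed_rel` : the place reduction map.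

Black boxes (statements of `Spec.lean`) : `grdg_val_*` (row 548), `grdQ_mem_grdO` (row 550),
`grd_rel_exists` (row 554); here imported from `AtlasStub.lean`.
-/

set_option autoImplicit false
set_option linter.unusedSectionVars false
set_option linter.unusedVariables false
set_option synthInstance.maxHeartbeats 400000

noncomputable section

namespace Fermat.Agent.G

open ModularCurve AlgebraicCurve IsLocalRing Polynomial Fermat.Agent.S18 Fermat.Agent.S24

/-! ### integrality over `R[u]` versus `R[1/u]` (generic) -/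

section Integral

/-- `u^n * c(u')` is a polynomial in `u` for `n ≥ deg c`, if `u u' = 1`. -/
theorem grda_pow_mul_eval₂_mem {R S : Type*} [CommRing R] [CommRing S] (ι : R →+* S) (u u' : S)
    (huu' : u * u' = 1) (c : R[X]) (n : ℕ) (hn : c.natDegree ≤ n) :
    u ^ n * eval₂ ι u' c ∈ (eval₂RingHom ι u).range := by
  rw [eval₂_eq_sum_range, Finset.mul_sum]
  refine Subring.sum_mem _ fun i hi => ?_
  have hi' : i ≤ n := le_trans (Nat.lt_succ_iff.1 (Finset.mem_range.1 hi)) hn
  refine ⟨C (c.coeff i) * X ^ (n - i), ?_⟩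
  have h1 : u ^ n * u' ^ i = u ^ (n - i) := by
    conv_lhs => rw [← Nat.sub_add_cancel hi', pow_add, mul_assoc, ← mul_pow, huu', one_pow, mul_one]
  rw [coe_eval₂RingHom, eval₂_mul, eval₂_C, eval₂_X_pow, mul_left_comm, h1]

/-- if `u u' = 1` and `x` is integral over `R[u']` then `u^n x` is integral over `R[u]` for some
`n`. -/
theorem grda_isIntegralElem_pow_mul {R S : Type*} [CommRing R] [CommRing S] (ι : R →+* S)
    (u u' : S) (huu' : u * u' = 1) (x : S) (hx : (eval₂RingHom ι u').IsIntegralElem x) :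
    ∃ n : ℕ, (eval₂RingHom ι u).IsIntegralElem (u ^ n * x) := by
  classical
  obtain ⟨p₀, hp₀, hp₀x⟩ := hx
  set f := eval₂RingHom ι u with hf
  set f' := eval₂RingHom ι u' with hf'
  set P : S[X] := p₀.map f' with hP
  have hPmonic : P.Monic := hp₀.map f'
  have hPx : eval₂ (RingHom.id S) x P = 0 := by
    rw [hP, eval₂_map, RingHom.id_comp]
    exact hp₀x
  -- a uniform bound for the degrees of the coefficients
  set m : ℕ := (Finset.range (p₀.natDegree + 1)).sup fun i => (p₀.coeff i).natDegree with hm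
  have hcoeff : ∀ i, u ^ m * P.coeff i ∈ f.range := by
    intro i
    rw [hP, coeff_map]
    by_cases hi : i ∈ Finset.range (p₀.natDegree + 1)
    · exact grda_pow_mul_eval₂_mem ι u u' huu' (p₀.coeff i) m
        (Finset.le_sup (f := fun i => (p₀.coeff i).natDegree) hi)
    · have : p₀.coeff i = 0 := by
        apply coeff_eq_zero_of_natDegree_lt
        rw [Finset.mem_range, not_lt] at hi
        omega
      rw [this, map_zero, mul_zero]
      exact Subring.zero_mem _
  have hu : u ∈ f.range := ⟨X, by rw [hf, coe_eval₂RingHom, eval₂_X]⟩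
  -- scale the roots
  set Q : S[X] := scaleRoots P (u ^ m) with hQ
  have hQmonic : Q.Monic := (monic_scaleRoots_iff _).2 hPmonic
  have hQcoeff : ∀ i, Q.coeff i ∈ f.range := by
    intro i
    rw [hQ, coeff_scaleRoots]
    rcases lt_trichotomy i P.natDegree with hlt | heq | hgt
    · obtain ⟨k, hk⟩ : ∃ k, P.natDegree - i = k + 1 := ⟨P.natDegree - i - 1, by omega⟩
      have h1 : P.coeff i * (u ^ m) ^ (k + 1) = (u ^ m * P.coeff i) * (u ^ m) ^ k := by
        rw [pow_succ]; ring
      rw [hk, h1]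
      exact Subring.mul_mem _ (hcoeff i) (Subring.pow_mem _ (Subring.pow_mem _ hu m) k)
    · rw [heq, Nat.sub_self, pow_zero, mul_one, hPmonic.coeff_natDegree]
      exact Subring.one_mem _
    · rw [coeff_eq_zero_of_natDegree_lt hgt, zero_mul]
      exact Subring.zero_mem _
  have hQlifts : Q ∈ lifts f := by
    rw [lifts_iff_coeff_lifts]
    intro i
    exact RingHom.mem_range.1 (hQcoeff i)
  obtain ⟨q, hq, -, hqmonic⟩ := lifts_and_natDegree_eq_and_monic hQlifts hQmonic
  refine ⟨m, q, hqmonic, ?_⟩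
  have h0 : eval₂ (RingHom.id S) (u ^ m * x) Q = 0 :=
    scaleRoots_eval₂_eq_zero (RingHom.id S) hPx
  rw [← hq, eval₂_map, RingHom.id_comp] at h0
  exact h0

end Integral

/-! ### values at places (generic) -/

section Generic

variable {K F : Type*} [Field K] [Field F] [Algebra K F]

theorem grda_val_one (P : Place K F) : GrdVal P (1 : F) (1 : K) := by
  have h := grdg_val_algebraMap P (1 : K)
  rwa [map_one] at h

theorem grda_val_pow (P : Place K F) {x : F} {a : K} (hx : GrdVal P x a) (n : ℕ) :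
    GrdVal P (x ^ n) (a ^ n) := by
  induction n with
  | zero => rw [pow_zero, pow_zero]; exact grda_val_one P
  | succ n ih => rw [pow_succ, pow_succ]; exact grdg_val_mul P ih hx

/-- nonzero constants are units at every place. -/
theorem grda_valuation_algebraMap (P : Place K F) {b : K} (hb : b ≠ 0) :
    P.toValuationSubring.valuation (algebraMap K F b) = 1 := by
  have h1 : P.toValuationSubring.valuation (algebraMap K F b) ≤ 1 :=
    (ValuationSubring.valuation_le_one_iff _ _).2 (P.algebraMap_mem' b)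
  have h2 : P.toValuationSubring.valuation (algebraMap K F b⁻¹) ≤ 1 :=
    (ValuationSubring.valuation_le_one_iff _ _).2 (P.algebraMap_mem' b⁻¹)
  have h3 : P.toValuationSubring.valuation (algebraMap K F b) *
      P.toValuationSubring.valuation (algebraMap K F b⁻¹) = 1 := by
    rw [← map_mul, ← map_mul, mul_inv_cancel₀ hb, map_one, map_one]
  refine le_antisymm h1 ?_
  by_contra hlt
  push Not at hlt
  have : P.toValuationSubring.valuation (algebraMap K F b) *
      P.toValuationSubring.valuation (algebraMap K F b⁻¹) < 1 :=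
    mul_lt_one_of_lt_of_le hlt h2
  exact (ne_of_lt this) h3

/-- an element with a nonzero value is a unit at the place. -/
theorem grda_valuation_eq_one (P : Place K F) {x : F} {a : K} (hx : GrdVal P x a) (ha : a ≠ 0) :
    P.toValuationSubring.valuation x = 1 := by
  have h1 : P.toValuationSubring.valuation (x - algebraMap K F a) < 1 :=
    (ValuationSubring.mem_nonunits_iff _).1 hx
  have h2 := grda_valuation_algebraMap P ha
  have h3 : x = algebraMap K F a + (x - algebraMap K F a) := by ring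
  rw [h3, Valuation.map_add_eq_of_lt_left _ (by rw [h2]; exact h1), h2]

theorem grda_val_inv (P : Place K F) {x : F} {a : K} (hx : GrdVal P x a) (ha : a ≠ 0) :
    GrdVal P x⁻¹ a⁻¹ := by
  have hv := grda_valuation_eq_one P hx ha
  have hx0 : x ≠ 0 := by
    rintro rfl
    rw [map_zero] at hv
    exact zero_ne_one hv
  have haF : algebraMap K F a ≠ 0 := by simpa using ha
  have h1 : P.toValuationSubring.valuation (x - algebraMap K F a) < 1 :=
    (ValuationSubring.mem_nonunits_iff _).1 hx
  show x⁻¹ - algebraMap K F a⁻¹ ∈ P.toValuationSubring.nonunits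
  rw [ValuationSubring.mem_nonunits_iff]
  have h2 : x⁻¹ - algebraMap K F a⁻¹ =
      -((x - algebraMap K F a) * (x⁻¹ * (algebraMap K F a)⁻¹)) := by
    rw [map_inv₀]
    field_simp
    ring
  rw [h2, Valuation.map_neg, map_mul, map_mul, map_inv₀, map_inv₀, hv,
    grda_valuation_algebraMap P ha, inv_one, mul_one, mul_one]
  exact h1

/-- division of values. -/
theorem grda_val_of_mul (P : Place K F) {w z : F} {b c : K} (hw : GrdVal P w b) (hb : b ≠ 0)
    (hwz : GrdVal P (w * z) (b * c)) : GrdVal P z c := by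
  have hv := grda_valuation_eq_one P hw hb
  have hw0 : w ≠ 0 := by
    rintro rfl
    rw [map_zero] at hv
    exact zero_ne_one hv
  have h1 := grdg_val_mul P (grda_val_inv P hw hb) hwz
  rwa [inv_mul_cancel_left₀ hw0, inv_mul_cancel_left₀ hb] at h1

end Generic

/-! ### the atlas -/

section Atlas

variable (M : ℕ) [NeZero M] {ℓ : ℕ} [Fact ℓ.Prime]
variable (A : ValuationSubring (AlgebraicClosure ℚ))
variable {τ τ' : LaurentSeries ℤ}

theorem grda_grdSer_mul (h : τ * τ' = 1) (R : Type*) [CommRing R] :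
    grdSer τ R * grdSer τ' R = 1 := by
  unfold grdSer
  rw [← map_mul, h, map_one]

theorem grda_grdQ_mul (hat : GrdAtlas M A τ τ') :
    grdQ M hat.c.mem * grdQ M hat.c'.mem = 1 :=
  Subtype.ext (grda_grdSer_mul hat.inv (AlgebraicClosure ℚ))

theorem grda_grdK_mul (hat : GrdAtlas M A τ τ') :
    grdK M A hat.c.mem * grdK M A hat.c'.mem = 1 :=
  Subtype.ext (grda_grdSer_mul hat.inv (ResidueField A))

/-- an element of `𝔸` is integral over `𝔸[u]`... in fact `u` itself is. -/
theorem grda_isInt_self (u : modularFunctionFieldBar M) : GrdIsInt M A u u := by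
  have h := (Polynomial.eval₂RingHom (grdInclA M A) u).isIntegralElem_map (x := X)
  rwa [coe_eval₂RingHom, eval₂_X] at h

/-- an element of `ℚ̄ ∖ 𝔸` has its inverse in `𝔪_𝔸`. -/
theorem grda_inv_mem_maximalIdeal {b : AlgebraicClosure ℚ} (hb : b ∉ A) :
    ∃ h : b⁻¹ ∈ A, (⟨b⁻¹, h⟩ : A) ∈ maximalIdeal A := by
  have h : b⁻¹ ∈ A := (A.mem_or_inv_mem b).resolve_left hb
  refine ⟨h, ?_⟩
  rw [mem_maximalIdeal, mem_nonunits_iff]
  intro hu
  apply hb
  obtain ⟨c, hc⟩ := hu.exists_right_inv
  have h1 : b⁻¹ * (c : AlgebraicClosure ℚ) = 1 := by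
    have := congrArg (Subtype.val) hc
    simpa using this
  have hb0 : b ≠ 0 := by
    rintro rfl
    exact hb A.zero_mem
  have h2 : (c : AlgebraicClosure ℚ) = b := by
    have := congrArg (fun z => b * z) h1
    simpa [mul_inv_cancel_left₀ hb0] using this
  rw [← h2]
  exact c.2

/-- (T1) the two charts cover : `τ(P) ∈ 𝔸` or `τ'(P) ∈ 𝔪`. -/
theorem grd_chart_cover (hat : GrdAtlas M A τ τ')
    (P : Place (AlgebraicClosure ℚ) (modularFunctionFieldBar M)) :
    GrdInChart M A (grdQ M hat.c.mem) P ∨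
      ∃ a : A, a ∈ maximalIdeal A ∧ GrdVal P (grdQ M hat.c'.mem) (a : AlgebraicClosure ℚ) := by
  have huu' := grda_grdQ_mul M A hat
  have hu' : grdQ M hat.c'.mem = (grdQ M hat.c.mem)⁻¹ := eq_inv_of_mul_eq_one_right huu'
  by_cases hmem : grdQ M hat.c.mem ∈ P.toValuationSubring
  · obtain ⟨b, hb⟩ := grdg_val_exists hat.c.sepQ P hmem
    by_cases hbA : b ∈ A
    · exact Or.inl ⟨⟨b, hbA⟩, hb⟩
    · have hb0 : b ≠ 0 := by
        rintro rfl
        exact hbA A.zero_mem
      obtain ⟨h1, h2⟩ := grda_inv_mem_maximalIdeal A hbA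
      refine Or.inr ⟨⟨b⁻¹, h1⟩, h2, ?_⟩
      rw [hu']
      exact grda_val_inv P hb hb0
  · refine Or.inr ⟨0, Ideal.zero_mem _, ?_⟩
    rw [ZeroMemClass.coe_zero, grdg_val_zero_iff, hu', ValuationSubring.inv_mem_nonunits_iff]
    exact Or.inr hmem

/-- (T1') the same for `F_k`. -/
theorem grd_chart_coverK (hat : GrdAtlas M A τ τ')
    (Q : Place (ResidueField A) (modularFunctionFieldFullC (ResidueField A) M)) :
    grdK M A hat.c.mem ∈ Q.toValuationSubring ∨ GrdVal Q (grdK M A hat.c'.mem) 0 := by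
  have huu' := grda_grdK_mul M A hat
  have hu' : grdK M A hat.c'.mem = (grdK M A hat.c.mem)⁻¹ := eq_inv_of_mul_eq_one_right huu'
  by_cases hmem : grdK M A hat.c.mem ∈ Q.toValuationSubring
  · exact Or.inl hmem
  · refine Or.inr ?_
    rw [grdg_val_zero_iff, hu', ValuationSubring.inv_mem_nonunits_iff]
    exact Or.inr hmem

/-- transfer of the reduction relation from the chart `u` to the chart `u' = u⁻¹` at a place where
`u` takes a unit value. -/
theorem grda_rel_transfer (u u' : modularFunctionFieldBar M) (huu' : u * u' = 1)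
    (hu : u ∈ grdO M A)
    (P : Place (AlgebraicClosure ℚ) (modularFunctionFieldBar M)) (a : A) (ha : IsUnit a)
    (hP : GrdVal P u (a : AlgebraicClosure ℚ))
    (Q : Place (ResidueField A) (modularFunctionFieldFullC (ResidueField A) M))
    (h : GrdRel M A u P Q) : GrdRel M A u' P Q := by
  intro x hx hxint α hα
  obtain ⟨n, hn⟩ := grda_isIntegralElem_pow_mul (grdInclA M A) u u' huu' x hxint
  have hy : u ^ n * x ∈ grdO M A := (grdO M A).mul_mem ((grdO M A).pow_mem hu n) hx
  -- the value of `u^n x` at `P`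
  have hvalP : GrdVal P (u ^ n * x) ((a ^ n * α : A) : AlgebraicClosure ℚ) := by
    have := grdg_val_mul P (grda_val_pow P hP n) hα
    simpa using this
  have h1 := h (u ^ n * x) hy hn (a ^ n * α) hvalP
  -- the value of `ū` at `Q`
  have h2 := h u hu (grda_isInt_self M A u) a hP
  have ha0 : residue A a ≠ 0 := (residue_ne_zero_iff_isUnit a).2 ha
  have hred : grdRed M A ⟨u ^ n * x, hy⟩ =
      (grdRed M A ⟨u, hu⟩) ^ n * grdRed M A ⟨x, hx⟩ := by
    rw [← map_pow, ← map_mul]
    rfl
  rw [hred, map_mul, map_pow] at h1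
  exact grda_val_of_mul Q (grda_val_pow Q h2 n) (pow_ne_zero n ha0) h1

/-- (T2) on the overlap (`τ(P) ∈ 𝔸ˣ`) the two charts define the same relation
(`x ∈ B_τ' ⟹ τ^n x ∈ B_τ`). -/
theorem grd_rel_compat (hℓM : ¬ ℓ ∣ M) (hA : A.LiesOverPrime ℓ) (hat : GrdAtlas M A τ τ')
    (P : Place (AlgebraicClosure ℚ) (modularFunctionFieldBar M)) (a : A) (ha : IsUnit a)
    (hP : GrdVal P (grdQ M hat.c.mem) (a : AlgebraicClosure ℚ))
    (Q : Place (ResidueField A) (modularFunctionFieldFullC (ResidueField A) M)) :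
    GrdRel M A (grdQ M hat.c.mem) P Q ↔ GrdRel M A (grdQ M hat.c'.mem) P Q := by
  have huu' := grda_grdQ_mul M A hat
  have hu' : grdQ M hat.c'.mem = (grdQ M hat.c.mem)⁻¹ := eq_inv_of_mul_eq_one_right huu'
  constructor
  · exact grda_rel_transfer M A _ _ huu' (grdQ_mem_grdO M A hat.c.mem) P a ha hP Q
  · -- the value of `u'` at `P` is the unit `a⁻¹`
    set b : A := ((ha.unit⁻¹ : Aˣ) : A) with hb
    have hab : a * b = 1 := by
      rw [hb]
      exact ha.mul_val_inv
    have habQ : (a : AlgebraicClosure ℚ) * (b : AlgebraicClosure ℚ) = 1 := by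
      have := congrArg (Subtype.val) hab
      simpa using this
    have ha0 : (a : AlgebraicClosure ℚ) ≠ 0 := left_ne_zero_of_mul_eq_one habQ
    have hbQ : (b : AlgebraicClosure ℚ) = (a : AlgebraicClosure ℚ)⁻¹ :=
      eq_inv_of_mul_eq_one_right habQ
    have hP' : GrdVal P (grdQ M hat.c'.mem) (b : AlgebraicClosure ℚ) := by
      rw [hbQ, hu']
      exact grda_val_inv P hP ha0
    have hbu : IsUnit b := (ha.unit⁻¹).isUnit
    exact grda_rel_transfer M A _ _ (by rw [mul_comm]; exact huu')
      (grdQ_mem_grdO M A hat.c'.mem) P b hbu hP' Q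

/-- a place outside the chart `τ` lies in the chart `τ'`. -/
theorem grda_inChart' (hat : GrdAtlas M A τ τ')
    (P : Place (AlgebraicClosure ℚ) (modularFunctionFieldBar M))
    (h : ¬ GrdInChart M A (grdQ M hat.c.mem) P) : GrdInChart M A (grdQ M hat.c'.mem) P := by
  rcases grd_chart_cover M A hat P with h1 | ⟨a, -, ha⟩
  · exact absurd h1 h
  · exact ⟨a, ha⟩

/-- (T3) THE PLACE REDUCTION MAP exists ... -/
theorem grd_exists_isRed (hℓM : ¬ ℓ ∣ M) (hA : A.LiesOverPrime ℓ) (hat : GrdAtlas M A τ τ') :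
    ∃ r : Place (AlgebraicClosure ℚ) (modularFunctionFieldBar M) →
      Place (ResidueField A) (modularFunctionFieldFullC (ResidueField A) M),
      GrdIsRed M A hat.c.mem hat.c'.mem r := by
  classical
  have h1 : ∀ P : Place (AlgebraicClosure ℚ) (modularFunctionFieldBar M),
      ∃ Q : Place (ResidueField A) (modularFunctionFieldFullC (ResidueField A) M),
        (GrdInChart M A (grdQ M hat.c.mem) P → GrdRel M A (grdQ M hat.c.mem) P Q) ∧
          (¬ GrdInChart M A (grdQ M hat.c.mem) P → GrdRel M A (grdQ M hat.c'.mem) P Q) := by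
    intro P
    by_cases hP : GrdInChart M A (grdQ M hat.c.mem) P
    · obtain ⟨Q, hQ, -⟩ := grd_rel_exists M A hℓM hA hat.c P hP
      exact ⟨Q, fun _ => hQ, fun h => absurd hP h⟩
    · obtain ⟨Q, hQ, -⟩ := grd_rel_exists M A hℓM hA hat.c' P (grda_inChart' M A hat P hP)
      exact ⟨Q, fun h => absurd h hP, fun _ => hQ⟩
  choose r hr using h1
  exact ⟨r, hr⟩

/-- ... is unique ... -/
theorem grd_isRed_unique (hℓM : ¬ ℓ ∣ M) (hA : A.LiesOverPrime ℓ) (hat : GrdAtlas M A τ τ')
    (r₁ r₂ : Place (AlgebraicClosure ℚ) (modularFunctionFieldBar M) →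
      Place (ResidueField A) (modularFunctionFieldFullC (ResidueField A) M))
    (h₁ : GrdIsRed M A hat.c.mem hat.c'.mem r₁) (h₂ : GrdIsRed M A hat.c.mem hat.c'.mem r₂) :
    r₁ = r₂ := by
  funext P
  by_cases hP : GrdInChart M A (grdQ M hat.c.mem) P
  · obtain ⟨Q, -, hQ⟩ := grd_rel_exists M A hℓM hA hat.c P hP
    rw [hQ _ ((h₁ P).1 hP), hQ _ ((h₂ P).1 hP)]
  · obtain ⟨Q, -, hQ⟩ := grd_rel_exists M A hℓM hA hat.c' P (grda_inChart' M A hat P hP)
    rw [hQ _ ((h₁ P).2 hP), hQ _ ((h₂ P).2 hP)]

/-- ... and is compatible with BOTH charts wherever they apply. -/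
theorem grd_isRed_rel (hℓM : ¬ ℓ ∣ M) (hA : A.LiesOverPrime ℓ) (hat : GrdAtlas M A τ τ')
    (r : Place (AlgebraicClosure ℚ) (modularFunctionFieldBar M) →
      Place (ResidueField A) (modularFunctionFieldFullC (ResidueField A) M))
    (hr : GrdIsRed M A hat.c.mem hat.c'.mem r)
    (P : Place (AlgebraicClosure ℚ) (modularFunctionFieldBar M)) :
    (GrdInChart M A (grdQ M hat.c.mem) P → GrdRel M A (grdQ M hat.c.mem) P (r P)) ∧
      (GrdInChart M A (grdQ M hat.c'.mem) P → GrdRel M A (grdQ M hat.c'.mem) P (r P)) := by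
  refine ⟨(hr P).1, fun hP' => ?_⟩
  by_cases hP : GrdInChart M A (grdQ M hat.c.mem) P
  · -- both charts : the value of `u` is a unit
    obtain ⟨a, ha⟩ := hP
    obtain ⟨a', ha'⟩ := hP'
    have huu' := grda_grdQ_mul M A hat
    have h1 := grdg_val_mul P ha ha'
    rw [huu'] at h1
    have h2 : (a : AlgebraicClosure ℚ) * (a' : AlgebraicClosure ℚ) = 1 :=
      grdg_val_unique P h1 (grda_val_one P)
    have hunit : IsUnit a := by
      refine IsUnit.of_mul_eq_one a' (Subtype.ext ?_)
      simpa using h2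
    exact (grd_rel_compat M A hℓM hA hat P a hunit ha (r P)).1 ((hr P).1 ⟨a, ha⟩)
  · exact (hr P).2 hP

end Atlas

end Fermat.Agent.G
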