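import Mathlib
import Fermat.Agent.G.Red.Defs
import Fermat.Agent.G.Red.Gauss
import Fermat.Agent.G.Red.Sat
import Fermat.Agent.G.Red.RelExists
import Fermat.Agent.G.Red.DivChart
import Fermat.Agent.G.Red.Atlas
import Fermat.Agent.S24.Places
import Fermat.Agent.S24.PlacesCenter

/-!
# Program G, package G/Red, row 561 (G-RED-T4) : the divisor formula and `IsPlaceReductionAlong`

`grd_div_formula` (T4) and `grd_isPlaceReductionAlong` (T5) of `G/Red/Spec.lean`, VERBATIM.

Black boxes (leaves of other rows, see `DivFormulaStub.lean`): `grd_isAlgClosed_residue`,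
`grdQ_mem_grdO`, `grdRed_grdQ`, `grd_frac`, `grd_rel_exists`, `grd_div_chart`, `grd_chart_cover`,
`grd_chart_coverK`, `grd_isRed_rel`.

Proof.  `Q` lies in one of the two charts of `F_k` (`grd_chart_coverK`); call its coordinate `υ`.
The fibre `{P | r P = Q}` is exactly `{P in the chart υ | GrdRel υ P Q}` (`grdf_fibre`,
`grdf_fibre'` : a place outside the chart reduces to a place where `ῡ` has a pole).  Write
`y = b₁ / b₂` with `b₁, b₂` integral over `𝔸[υ]`, `b̄₂ ≠ 0` (`grd_frac`) and apply the chart formula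
`grd_div_chart` to `b₁` and `b₂`.
-/

set_option autoImplicit false
set_option linter.unusedSectionVars false
set_option linter.unusedVariables false
set_option synthInstance.maxHeartbeats 400000

noncomputable section

namespace Fermat.Agent.G

open ModularCurve AlgebraicCurve IsLocalRing Polynomial Fermat.Agent.S18 Fermat.Agent.S24

/-! ### Generic facts on values at places -/

section Generic

variable {K F : Type*} [Field K] [Field F] [Algebra K F]

theorem grdf_val_zero_iff (P : Place K F) (x : F) :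
    GrdVal P x 0 ↔ x ∈ P.toValuationSubring.nonunits := by
  unfold GrdVal
  rw [map_zero, sub_zero]

theorem grdf_mem_of_val_zero (P : Place K F) {x : F} (h : GrdVal P x 0) :
    x ∈ P.toValuationSubring :=
  P.toValuationSubring.nonunits_subset ((grdf_val_zero_iff P x).1 h)

/-- `x y = 1`, `x` regular at `P` : `y` does not vanish at `P`. -/
theorem grdf_not_val_zero_of_mul_eq_one (P : Place K F) {x y : F} (hxy : x * y = 1)
    (hx : x ∈ P.toValuationSubring) : ¬ GrdVal P y 0 := by
  intro hy
  rw [grdf_val_zero_iff, ValuationSubring.mem_nonunits_iff] at hy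
  have hx' := (P.toValuationSubring.valuation_le_one_iff x).2 hx
  have h1 : P.toValuationSubring.valuation (x * y) < 1 := by
    rw [map_mul]
    calc P.toValuationSubring.valuation x * P.toValuationSubring.valuation y
        ≤ 1 * P.toValuationSubring.valuation y := mul_le_mul_left hx' _
      _ = P.toValuationSubring.valuation y := one_mul _
      _ < 1 := hy
  rw [hxy, map_one] at h1
  exact lt_irrefl _ h1

/-- the valuation of a nonzero constant is `1` -/
theorem grdf_valuation_const (P : Place K F) {a : K} (ha : a ≠ 0) :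
    P.toValuationSubring.valuation (algebraMap K F a) = 1 := by
  have h1 := (P.toValuationSubring.valuation_le_one_iff _).2 (P.algebraMap_mem' a)
  have h2 := (P.toValuationSubring.valuation_le_one_iff _).2 (P.algebraMap_mem' a⁻¹)
  rw [map_inv₀, map_inv₀] at h2
  have h0 : P.toValuationSubring.valuation (algebraMap K F a) ≠ 0 := by
    rw [Valuation.ne_zero_iff]
    exact (_root_.map_ne_zero _).2 ha
  exact le_antisymm h1 ((inv_le_one₀ (zero_lt_iff.2 h0)).1 h2)

/-- `x(P) = a ≠ 0 ⟹ x⁻¹(P) = a⁻¹`. -/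
theorem grdf_val_inv (P : Place K F) {x : F} {a : K} (ha : a ≠ 0) (h : GrdVal P x a) :
    GrdVal P x⁻¹ a⁻¹ := by
  unfold GrdVal at h ⊢
  rw [ValuationSubring.mem_nonunits_iff] at h ⊢
  set v := P.toValuationSubring.valuation with hv
  have hva : v (algebraMap K F a) = 1 := grdf_valuation_const P ha
  have hvx : v x = 1 := by
    have h2 : v ((x - algebraMap K F a) + algebraMap K F a) = v (algebraMap K F a) :=
      Valuation.map_add_eq_of_lt_right v (by rw [hva]; exact h)
    rw [sub_add_cancel, hva] at h2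
    exact h2
  have hx0 : x ≠ 0 := by
    intro h0
    rw [h0, map_zero] at hvx
    exact zero_ne_one hvx
  have ha0 : algebraMap K F a ≠ 0 := (_root_.map_ne_zero _).2 ha
  have : x⁻¹ - algebraMap K F a⁻¹ = (algebraMap K F a - x) * (x * algebraMap K F a)⁻¹ := by
    rw [map_inv₀]
    field_simp
  rw [this, map_mul, map_inv₀, map_mul, hvx, hva, mul_one, inv_one, mul_one,
    Valuation.map_sub_swap]
  exact h

/-- the value of `Finsupp.mapDomain` as a `finsum` over the fibre -/
theorem grdf_mapDomain_apply {α β : Type*} (r : α → β) (D : α →₀ ℤ) (Q : β) :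
    Finsupp.mapDomain r D Q = ∑ᶠ P ∈ {P : α | r P = Q}, D P := by
  classical
  rw [Finsupp.mapDomain, Finsupp.sum_apply]
  simp only [Finsupp.single_apply]
  rw [Finsupp.sum, ← Finset.sum_filter]
  symm
  apply finsum_mem_eq_sum_of_inter_support_eq
  ext P
  simp only [Set.mem_inter_iff, Set.mem_ofPred_eq, Function.mem_support, ne_eq, Finset.coe_filter,
    Finsupp.mem_support_iff]
  tauto

end Generic

/-! ### The two coordinates of an atlas -/

section Atlas

variable (M : ℕ) [NeZero M] {ℓ : ℕ} [Fact ℓ.Prime]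
variable (A : ValuationSubring (AlgebraicClosure ℚ))
variable {τ τ' : LaurentSeries ℤ}

theorem grdf_grdSer_mul (h : τ * τ' = 1) (R : Type*) [CommRing R] :
    grdSer τ R * grdSer τ' R = 1 := by
  unfold grdSer
  rw [← map_mul, h, map_one]

theorem grdf_grdQ_mul (hτ : GrdSerMem M τ) (hτ' : GrdSerMem M τ') (h : τ * τ' = 1) :
    grdQ M hτ * grdQ M hτ' = 1 :=
  Subtype.ext (grdf_grdSer_mul h (AlgebraicClosure ℚ))

theorem grdf_grdK_mul (hτ : GrdSerMem M τ) (hτ' : GrdSerMem M τ') (h : τ * τ' = 1) :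
    grdK M A hτ * grdK M A hτ' = 1 :=
  Subtype.ext (grdf_grdSer_mul h (ResidueField A))

/-- the coordinate is integral over `𝔸[u]` -/
theorem grdf_isInt_self (u : modularFunctionFieldBar M) : GrdIsInt M A u u := by
  unfold GrdIsInt
  have h := RingHom.isIntegralElem_map (f := Polynomial.eval₂RingHom (grdInclA M A) u)
    (x := Polynomial.X)
  simpa using h

/-- the reduction relation applied to the coordinate itself -/
theorem grdf_rel_coord {υ : LaurentSeries ℤ} (hυ : GrdSerMem M υ)
    (P : Place (AlgebraicClosure ℚ) (modularFunctionFieldBar M))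
    (Q : Place (ResidueField A) (modularFunctionFieldFullC (ResidueField A) M))
    (h : GrdRel M A (grdQ M hυ) P Q) (a : A)
    (ha : GrdVal P (grdQ M hυ) (a : AlgebraicClosure ℚ)) :
    GrdVal Q (grdK M A hυ) (residue A a) := by
  have h1 := h (grdQ M hυ) (grdQ_mem_grdO M A hυ) (grdf_isInt_self M A _) a ha
  rwa [grdRed_grdQ] at h1

/-- a place related to `P` in the chart `υ`, at which `υ` takes a value in `𝔪`, is a zero of `ῡ` -/
theorem grdf_rel_coord_zero {υ : LaurentSeries ℤ} (hυ : GrdSerMem M υ)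
    (P : Place (AlgebraicClosure ℚ) (modularFunctionFieldBar M))
    (Q : Place (ResidueField A) (modularFunctionFieldFullC (ResidueField A) M))
    (h : GrdRel M A (grdQ M hυ) P Q) (a : A) (ham : a ∈ maximalIdeal A)
    (ha : GrdVal P (grdQ M hυ) (a : AlgebraicClosure ℚ)) :
    GrdVal Q (grdK M A hυ) 0 := by
  have h1 := grdf_rel_coord M A hυ P Q h a ha
  rwa [(residue_eq_zero_iff a).2 ham] at h1

/-- THE FIBRE over a place `Q` of the first chart. -/
theorem grdf_fibre (hℓM : ¬ ℓ ∣ M) (hA : A.LiesOverPrime ℓ) (hat : GrdAtlas M A τ τ')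
    (r : Place (AlgebraicClosure ℚ) (modularFunctionFieldBar M) →
      Place (ResidueField A) (modularFunctionFieldFullC (ResidueField A) M))
    (hr : GrdIsRed M A hat.c.mem hat.c'.mem r)
    (Q : Place (ResidueField A) (modularFunctionFieldFullC (ResidueField A) M))
    (hQ : grdK M A hat.c.mem ∈ Q.toValuationSubring)
    (P : Place (AlgebraicClosure ℚ) (modularFunctionFieldBar M)) :
    r P = Q ↔ GrdInChart M A (grdQ M hat.c.mem) P ∧ GrdRel M A (grdQ M hat.c.mem) P Q := by
  constructor
  · intro hPQ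
    by_cases hP : GrdInChart M A (grdQ M hat.c.mem) P
    · exact ⟨hP, hPQ ▸ (hr P).1 hP⟩
    · exfalso
      have hrel : GrdRel M A (grdQ M hat.c'.mem) P Q := hPQ ▸ (hr P).2 hP
      rcases grd_chart_cover M A hat P with h | ⟨a, ham, ha⟩
      · exact hP h
      · exact grdf_not_val_zero_of_mul_eq_one Q
          (grdf_grdK_mul M A hat.c.mem hat.c'.mem hat.inv) hQ
          (grdf_rel_coord_zero M A hat.c'.mem P Q hrel a ham ha)
  · rintro ⟨hP, hrel⟩
    exact (grd_rel_exists M A hℓM hA hat.c P hP).unique ((hr P).1 hP) hrel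

/-- THE FIBRE over a place `Q` of the second chart at which `τ̄'` vanishes. -/
theorem grdf_fibre' (hℓM : ¬ ℓ ∣ M) (hA : A.LiesOverPrime ℓ) (hat : GrdAtlas M A τ τ')
    (r : Place (AlgebraicClosure ℚ) (modularFunctionFieldBar M) →
      Place (ResidueField A) (modularFunctionFieldFullC (ResidueField A) M))
    (hr : GrdIsRed M A hat.c.mem hat.c'.mem r)
    (Q : Place (ResidueField A) (modularFunctionFieldFullC (ResidueField A) M))
    (hQ : GrdVal Q (grdK M A hat.c'.mem) 0)
    (P : Place (AlgebraicClosure ℚ) (modularFunctionFieldBar M)) :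
    r P = Q ↔ GrdInChart M A (grdQ M hat.c'.mem) P ∧ GrdRel M A (grdQ M hat.c'.mem) P Q := by
  constructor
  · intro hPQ
    by_cases hP' : GrdInChart M A (grdQ M hat.c'.mem) P
    · exact ⟨hP', hPQ ▸ (grd_isRed_rel M A hℓM hA hat r hr P).2 hP'⟩
    · exfalso
      rcases grd_chart_cover M A hat P with ⟨a, ha⟩ | ⟨a, ham, ha⟩
      · have hrel : GrdRel M A (grdQ M hat.c.mem) P Q := hPQ ▸ (hr P).1 ⟨a, ha⟩
        by_cases hau : IsUnit a
        · -- then `τ'(P) = a⁻¹ ∈ 𝔸`
          obtain ⟨u, rfl⟩ := hau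
          apply hP'
          refine ⟨((u⁻¹ : (↥A)ˣ) : ↥A), ?_⟩
          have hu0 : ((u : ↥A) : AlgebraicClosure ℚ) ≠ 0 := by
            intro h0
            have : (u : ↥A) = 0 := Subtype.ext h0
            exact u.ne_zero this
          have hinv : (((u⁻¹ : (↥A)ˣ) : ↥A) : AlgebraicClosure ℚ) =
              ((u : ↥A) : AlgebraicClosure ℚ)⁻¹ := by
            apply eq_inv_of_mul_eq_one_right
            have h1 : ((u : ↥A) * ((u⁻¹ : (↥A)ˣ) : ↥A) : ↥A) = 1 := u.mul_inv
            have h2 := congrArg (fun z : ↥A => (z : AlgebraicClosure ℚ)) h1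
            simpa only [MulMemClass.coe_mul, OneMemClass.coe_one] using h2
          have hτ' : grdQ M hat.c'.mem = (grdQ M hat.c.mem)⁻¹ :=
            eq_inv_of_mul_eq_one_right (grdf_grdQ_mul M hat.c.mem hat.c'.mem hat.inv)
          rw [hinv, hτ']
          exact grdf_val_inv P hu0 ha
        · -- then `τ̄(Q) = 0 = τ̄'(Q)`
          have ham : a ∈ maximalIdeal A := (mem_maximalIdeal a).2 hau
          have h0 := grdf_rel_coord_zero M A hat.c.mem P Q hrel a ham ha
          exact grdf_not_val_zero_of_mul_eq_one Q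
            (grdf_grdK_mul M A hat.c.mem hat.c'.mem hat.inv) (grdf_mem_of_val_zero Q h0) hQ
      · exact hP' ⟨a, ha⟩
  · rintro ⟨hP, hrel⟩
    exact (grd_rel_exists M A hℓM hA hat.c' P hP).unique
      ((grd_isRed_rel M A hℓM hA hat r hr P).2 hP) hrel

/-- THE DIVISOR FORMULA, given that the fibre of `r` over `Q` is the fibre of the chart `υ`. -/
theorem grdf_div_of_fibre (hℓM : ¬ ℓ ∣ M) (hA : A.LiesOverPrime ℓ) {υ : LaurentSeries ℤ}
    (hc : GrdChart M A υ)
    (r : Place (AlgebraicClosure ℚ) (modularFunctionFieldBar M) →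
      Place (ResidueField A) (modularFunctionFieldFullC (ResidueField A) M))
    (Q : Place (ResidueField A) (modularFunctionFieldFullC (ResidueField A) M))
    (hQ : grdK M A hc.mem ∈ Q.toValuationSubring)
    (hfib : ∀ P, r P = Q ↔
      GrdInChart M A (grdQ M hc.mem) P ∧ GrdRel M A (grdQ M hc.mem) P Q)
    (y : LaurentSeries A) (hy : S18Good M A y) (hy0 : hy.spec ≠ 0) :
    {P : Place (AlgebraicClosure ℚ) (modularFunctionFieldBar M) |
        r P = Q ∧ P.ord hy.gen ≠ 0}.Finite ∧
      ∑ᶠ P ∈ {P : Place (AlgebraicClosure ℚ) (modularFunctionFieldBar M) | r P = Q},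
        P.ord hy.gen = Q.ord hy.spec := by
  obtain ⟨b₁, b₂, hb₁, hb₂, hb₂0, hmul⟩ := grd_frac M A hℓM hA hc ⟨hy.gen, grd_gen_mem hy⟩
  have hred : hy.spec * grdRed M A b₂ = grdRed M A b₁ := by
    rw [← grdRed_gen hy, ← map_mul]
    congr 1
    exact Subtype.ext hmul
  have hb₁0 : grdRed M A b₁ ≠ 0 := by
    rw [← hred]
    exact mul_ne_zero hy0 hb₂0
  obtain ⟨hfin1, hsum1⟩ := grd_div_chart M A hℓM hA hc Q hQ b₁ hb₁ hb₁0
  obtain ⟨hfin2, hsum2⟩ := grd_div_chart M A hℓM hA hc Q hQ b₂ hb₂ hb₂0
  have hb₁F : (b₁ : modularFunctionFieldBar M) ≠ 0 := by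
    intro h0
    apply hb₁0
    have : b₁ = 0 := Subtype.ext h0
    rw [this, map_zero]
  have hb₂F : (b₂ : modularFunctionFieldBar M) ≠ 0 := by
    intro h0
    apply hb₂0
    have : b₂ = 0 := Subtype.ext h0
    rw [this, map_zero]
  have hgenF : hy.gen ≠ 0 := by
    intro h0
    apply hb₁F
    rw [← hmul]
    show hy.gen * _ = 0
    rw [h0, zero_mul]
  have hord : ∀ P : Place (AlgebraicClosure ℚ) (modularFunctionFieldBar M),
      P.ord hy.gen = P.ord (b₁ : modularFunctionFieldBar M) +
        -P.ord (b₂ : modularFunctionFieldBar M) := by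
    intro P
    have h1 : P.ord (b₁ : modularFunctionFieldBar M) =
        P.ord hy.gen + P.ord (b₂ : modularFunctionFieldBar M) := by
      rw [← hmul]
      exact P.ord_mul hgenF hb₂F
    rw [h1]
    ring
  have hS : {P : Place (AlgebraicClosure ℚ) (modularFunctionFieldBar M) | r P = Q} =
      {P : Place (AlgebraicClosure ℚ) (modularFunctionFieldBar M) |
        GrdInChart M A (grdQ M hc.mem) P ∧ GrdRel M A (grdQ M hc.mem) P Q} :=
    Set.ext fun P => hfib P
  have hfinG : {P : Place (AlgebraicClosure ℚ) (modularFunctionFieldBar M) |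
      r P = Q ∧ P.ord hy.gen ≠ 0}.Finite := by
    refine (hfin1.union hfin2).subset ?_
    rintro P ⟨hP, hne⟩
    have hP' := (hfib P).1 hP
    by_cases h1 : P.ord (b₁ : modularFunctionFieldBar M) = 0
    · right
      refine ⟨hP', fun h2 => hne ?_⟩
      rw [hord P, h1, h2]
      ring
    · left
      exact ⟨hP', h1⟩
  refine ⟨hfinG, ?_⟩
  rw [hS]
  have hfG : ({P : Place (AlgebraicClosure ℚ) (modularFunctionFieldBar M) |
        GrdInChart M A (grdQ M hc.mem) P ∧ GrdRel M A (grdQ M hc.mem) P Q} ∩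
      Function.support fun P : Place (AlgebraicClosure ℚ) (modularFunctionFieldBar M) =>
        P.ord hy.gen).Finite := by
    refine hfinG.subset ?_
    rintro P ⟨hP, hne⟩
    exact ⟨(hfib P).2 hP, hne⟩
  have hf2 : ({P : Place (AlgebraicClosure ℚ) (modularFunctionFieldBar M) |
        GrdInChart M A (grdQ M hc.mem) P ∧ GrdRel M A (grdQ M hc.mem) P Q} ∩
      Function.support fun P : Place (AlgebraicClosure ℚ) (modularFunctionFieldBar M) =>
        P.ord (b₂ : modularFunctionFieldBar M)).Finite := by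
    refine hfin2.subset ?_
    rintro P ⟨hP, hne⟩
    exact ⟨hP, hne⟩
  have e1 : ∑ᶠ P ∈ {P : Place (AlgebraicClosure ℚ) (modularFunctionFieldBar M) |
        GrdInChart M A (grdQ M hc.mem) P ∧ GrdRel M A (grdQ M hc.mem) P Q},
        P.ord (b₁ : modularFunctionFieldBar M) =
      ∑ᶠ P ∈ {P : Place (AlgebraicClosure ℚ) (modularFunctionFieldBar M) |
        GrdInChart M A (grdQ M hc.mem) P ∧ GrdRel M A (grdQ M hc.mem) P Q},
        (P.ord hy.gen + P.ord (b₂ : modularFunctionFieldBar M)) :=
    finsum_mem_congr rfl fun P _ => by rw [hord P]; ring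
  rw [finsum_mem_add_distrib' hfG hf2, hsum2] at e1
  rw [hsum1, ← hred, Q.ord_mul hy0 hb₂0] at e1
  linarith

/-- (T4) THE DIVISOR FORMULA : `∑_{r P = Q} ord_P(y) = ord_Q(ȳ)` for every good integral series
`y` with `ȳ ≠ 0` (`grd_frac`, `grd_div_chart` in the chart containing `Q`). -/
theorem grd_div_formula (hℓM : ¬ ℓ ∣ M) (hA : A.LiesOverPrime ℓ) (hat : GrdAtlas M A τ τ')
    (r : Place (AlgebraicClosure ℚ) (modularFunctionFieldBar M) →
      Place (ResidueField A) (modularFunctionFieldFullC (ResidueField A) M))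
    (hr : GrdIsRed M A hat.c.mem hat.c'.mem r)
    (y : LaurentSeries A) (hy : S18Good M A y) (hy0 : hy.spec ≠ 0)
    (Q : Place (ResidueField A) (modularFunctionFieldFullC (ResidueField A) M)) :
    {P : Place (AlgebraicClosure ℚ) (modularFunctionFieldBar M) |
        r P = Q ∧ P.ord hy.gen ≠ 0}.Finite ∧
      ∑ᶠ P ∈ {P : Place (AlgebraicClosure ℚ) (modularFunctionFieldBar M) | r P = Q},
        P.ord hy.gen = Q.ord hy.spec := by
  rcases grd_chart_coverK M A hat Q with hQ | hQ
  · exact grdf_div_of_fibre M A hℓM hA hat.c r Q hQ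
      (grdf_fibre M A hℓM hA hat r hr Q hQ) y hy hy0
  · exact grdf_div_of_fibre M A hℓM hA hat.c' r Q (grdf_mem_of_val_zero Q hQ)
      (grdf_fibre' M A hℓM hA hat r hr Q hQ) y hy hy0

/-- (T5) the Prelude predicate. -/
theorem grd_isPlaceReductionAlong (hℓM : ¬ ℓ ∣ M) (hA : A.LiesOverPrime ℓ)
    (hat : GrdAtlas M A τ τ')
    (r : Place (AlgebraicClosure ℚ) (modularFunctionFieldBar M) →
      Place (ResidueField A) (modularFunctionFieldFullC (ResidueField A) M))
    (hr : GrdIsRed M A hat.c.mem hat.c'.mem r) :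
    IsPlaceReductionAlong A (residue A) M r := by
  have : IsAlgClosed (ResidueField A) := grd_isAlgClosed_residue A
  refine ⟨fun P => ?_, ?_⟩
  · rw [hat.c.sepK.deg_eq_one (r P), hat.c.sepQ.deg_eq_one P]
  · intro y hy hyk hne D hD Q
    have hgood : S18Good M A y := ⟨hy, hyk⟩
    have hne' : hgood.spec ≠ 0 := by
      intro h0
      exact hne (congrArg Subtype.val h0)
    obtain ⟨-, hsum⟩ := grd_div_formula M A hℓM hA hat r hr y hgood hne' Q
    rw [grdf_mapDomain_apply]
    have e1 : ∑ᶠ P ∈ {P : Place (AlgebraicClosure ℚ) (modularFunctionFieldBar M) | r P = Q},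
        D P = ∑ᶠ P ∈ {P : Place (AlgebraicClosure ℚ) (modularFunctionFieldBar M) | r P = Q},
        P.ord hgood.gen := finsum_mem_congr rfl fun P _ => hD P
    rw [e1]
    exact hsum

end Atlas

end Fermat.Agent.G
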