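import Mathlib
import Fermat.Agent.G.Red.Defs
import Fermat.Agent.G.Red.Normal
import Fermat.Agent.G.GN
import Fermat.Agent.G.Open.Main
import Fermat.Agent.S24.Places
import Fermat.Agent.S24.PlacesCenter
import Fermat.Agent.S24.PlacesGen
import Fermat.Agent.S24.Degree
import Fermat.Agent.S18.Core.Spec
import Fermat.Agent.S18.RH.Main
import Fermat.Agent.S18.V.DegreeDown
import Fermat.Agent.S18.A.Const

/-!
# Program G, package G/Red, row I (`grd_exists_jinv`, `grd_chart_j`, `grd_chart_jinv`),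
helper prefix `grdi_` : the atlas `j`, `j⁻¹` for `ℓ ≥ 5`.
-/

set_option autoImplicit false
set_option linter.unusedSectionVars false
set_option linter.unusedVariables false
set_option synthInstance.maxHeartbeats 400000
set_option linter.style.haveILetI false

noncomputable section

namespace Fermat.Agent.G

open ModularCurve AlgebraicCurve IsLocalRing Polynomial Fermat.Agent.S18 Fermat.Agent.S24

/-! ### `j` is invertible in `ℤ((q))` -/

/-- (I1) `j` is invertible in `ℤ((q))`. -/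
theorem grd_exists_jinv : ∃ τ' : LaurentSeries ℤ, jqModC ℤ * τ' = 1 := by
  set u : PowerSeries ℤ := jNum.map (Int.castRingHom ℤ) with hu
  have hu1 : PowerSeries.constantCoeff u = ((1 : ℤˣ) : ℤ) := by
    rw [hu, ← PowerSeries.coeff_zero_eq_constantCoeff, PowerSeries.coeff_map,
      PowerSeries.coeff_zero_eq_constantCoeff, constantCoeff_jNum]
    simp
  have hmul : u * PowerSeries.invOfUnit u 1 = 1 := PowerSeries.mul_invOfUnit u 1 hu1
  refine ⟨HahnSeries.single (1 : ℤ) 1 *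
    HahnSeries.ofPowerSeries ℤ ℤ (PowerSeries.invOfUnit u 1), ?_⟩
  have h1 : HahnSeries.ofPowerSeries ℤ ℤ u *
      HahnSeries.ofPowerSeries ℤ ℤ (PowerSeries.invOfUnit u 1) = 1 := by
    rw [← map_mul, hmul, map_one]
  have h2 : (HahnSeries.single (-1 : ℤ) (1 : ℤ) : LaurentSeries ℤ) * HahnSeries.single (1 : ℤ) 1
      = 1 := by
    rw [HahnSeries.single_mul_single]
    simp
  show HahnSeries.single (-1 : ℤ) 1 * HahnSeries.ofPowerSeries ℤ ℤ u *
    (HahnSeries.single (1 : ℤ) 1 * HahnSeries.ofPowerSeries ℤ ℤ (PowerSeries.invOfUnit u 1)) = 1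
  rw [mul_mul_mul_comm, h1, h2, mul_one]

/-! ### the series `j`, `j⁻¹` over any coefficient ring -/

theorem grdi_grdSer_j (R : Type*) [CommRing R] : grdSer (jqModC ℤ) R = jqModC R :=
  coeffMap_jqModC _

theorem grdi_grdSer_inv {τ' : LaurentSeries ℤ} (hτ' : jqModC ℤ * τ' = 1) (K : Type*) [Field K] :
    grdSer τ' K = (jqModC K)⁻¹ := by
  have h := congrArg (coeffMap (Int.castRingHom K)) hτ'
  rw [map_mul, map_one, coeffMap_jqModC] at h
  exact eq_inv_of_mul_eq_one_right h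

section Mem

variable (M : ℕ) [NeZero M]

theorem grdi_mem_j : GrdSerMem M (jqModC ℤ) := fun K _ => by
  rw [grdi_grdSer_j]
  exact jqModC_mem_full K M

theorem grdi_mem_jinv {τ' : LaurentSeries ℤ} (hτ' : jqModC ℤ * τ' = 1) : GrdSerMem M τ' :=
  fun K _ => by
    rw [grdi_grdSer_inv hτ']
    exact inv_mem (jqModC_mem_full K M)

theorem grdi_grdQ_j (h : GrdSerMem M (jqModC ℤ)) : grdQ M h = jBar M := by
  apply Subtype.ext
  show grdSer (jqModC ℤ) (AlgebraicClosure ℚ) = coeffEmb (AlgebraicClosure ℚ) jq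
  rw [grdi_grdSer_j, coeffEmb, ← jqModC_rat, coeffMap_jqModC]

theorem grdi_grdQ_jinv {τ' : LaurentSeries ℤ} (hτ' : jqModC ℤ * τ' = 1) (h : GrdSerMem M τ') :
    grdQ M h = (jBar M)⁻¹ := by
  apply Subtype.ext
  show grdSer τ' (AlgebraicClosure ℚ) = (((jBar M)⁻¹ : modularFunctionFieldBar M) :
    LaurentSeries (AlgebraicClosure ℚ))
  rw [grdi_grdSer_inv hτ', IntermediateField.coe_inv, coe_jBar, coeffEmb, ← jqModC_rat,
    coeffMap_jqModC]

variable (A : ValuationSubring (AlgebraicClosure ℚ))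

theorem grdi_grdK_j (h : GrdSerMem M (jqModC ℤ)) :
    grdK M A h = ⟨jqModC (ResidueField A), jqModC_mem_full (ResidueField A) M⟩ :=
  Subtype.ext (grdi_grdSer_j (ResidueField A))

theorem grdi_grdK_jinv {τ' : LaurentSeries ℤ} (hτ' : jqModC ℤ * τ' = 1) (h : GrdSerMem M τ') :
    grdK M A h = (⟨jqModC (ResidueField A), jqModC_mem_full (ResidueField A) M⟩ :
      modularFunctionFieldFullC (ResidueField A) M)⁻¹ := by
  apply Subtype.ext
  show grdSer τ' (ResidueField A) = _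
  rw [grdi_grdSer_inv hτ', IntermediateField.coe_inv]

end Mem

section Sep

variable (M : ℕ) [NeZero M] {ℓ : ℕ} [Fact ℓ.Prime]
variable (A : ValuationSubring (AlgebraicClosure ℚ))

theorem grdi_sepQ_j (h : GrdSerMem M (jqModC ℤ)) :
    IsSepGen (AlgebraicClosure ℚ) (grdQ M h) := by
  rw [grdi_grdQ_j]
  exact isSepGen_jBar M

theorem grdi_sepQ_jinv {τ' : LaurentSeries ℤ} (hτ' : jqModC ℤ * τ' = 1) (h : GrdSerMem M τ') :
    IsSepGen (AlgebraicClosure ℚ) (grdQ M h) := by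
  rw [grdi_grdQ_jinv M hτ']
  exact (isSepGen_jBar M).inv

theorem grdi_sepK_j (hℓM : ¬ ℓ ∣ M) (hA : A.LiesOverPrime ℓ) (h : GrdSerMem M (jqModC ℤ)) :
    IsSepGen (ResidueField A) (grdK M A h) := by
  haveI : CharP (ResidueField A) ℓ := s18ac_charP A hA
  rw [grdi_grdK_j]
  exact s18v_isSepGen_res (ℓ := ℓ) (ResidueField A) M hℓM

theorem grdi_sepK_jinv (hℓM : ¬ ℓ ∣ M) (hA : A.LiesOverPrime ℓ) {τ' : LaurentSeries ℤ}
    (hτ' : jqModC ℤ * τ' = 1) (h : GrdSerMem M τ') :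
    IsSepGen (ResidueField A) (grdK M A h) := by
  haveI : CharP (ResidueField A) ℓ := s18ac_charP A hA
  rw [grdi_grdK_jinv M A hτ']
  exact (s18v_isSepGen_res (ℓ := ℓ) (ResidueField A) M hℓM).inv

end Sep

/-! ### change of chart `t ↦ t⁻¹` for good coordinates (abstract DVR) -/

section CoordInv

open IntermediateField

variable {A₀ : Type*} [CommRing A₀] [IsDomain A₀] [IsDiscreteValuationRing A₀] [CharZero A₀]
variable {L₀ : Type*} [Field L₀] [Algebra A₀ L₀] [IsFractionRing A₀ L₀]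
variable {ϖ : A₀}

theorem grdi_coord_inv (hϖ : Irreducible ϖ) (F : IntermediateField L₀ (LaurentSeries L₀))
    (t : F) (hc : S18Coord hϖ F t) : S18Coord hϖ F t⁻¹ := by
  have ht' : Transcendental L₀ t⁻¹ := by
    intro h
    exact hc.transc (by simpa using h.inv)
  have hEq : L₀⟮t⁻¹⟯ = L₀⟮t⟯ := Fermat.Agent.S24.adjoin_inv_eq t
  haveI := hc.fin
  have hfd : FiniteDimensional L₀⟮t⁻¹⟯ F := by
    rw [hEq]; infer_instance
  have hloc := s18t_loc_inv (L := L₀) hϖ (t : F) hc.transc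
  refine ⟨ht', hfd, ?_, s18t_selfDual_inv hϖ (t : F) hc.transc hc.selfDual⟩
  rw [← hc.intLoc_eq]
  unfold s18tIntLoc
  rw [hloc]

end CoordInv

/-! ### transport of the chart hypotheses along an equality of intermediate fields -/

section Transport

variable {A₀ : Type*} [CommRing A₀] {L₀ : Type*} [Field L₀] [Algebra A₀ L₀]

theorem grdi_chart_congr {K₁ K₂ : IntermediateField L₀ (LaurentSeries L₀)} (h : K₁ = K₂)
    (ϖ : A₀) (t : LaurentSeries L₀) (h₁ : t ∈ K₁) (h₂ : t ∈ K₂) (S : Finset A₀)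
    (hch : S18Chart A₀ L₀ ϖ (⟨t, h₁⟩ : K₁) S) : S18Chart A₀ L₀ ϖ (⟨t, h₂⟩ : K₂) S := by
  subst h
  exact hch

theorem grdi_ext_one (F : IntermediateField L₀ (LaurentSeries L₀)) : s18cExt F 1 = F := by
  unfold s18cExt
  rw [sup_eq_left, IntermediateField.adjoin_simple_le_iff]
  exact one_mem F

end Transport

/-! ### the number-field level : `S18Chart` for `j` and `j⁻¹` (`s18_RH_zero/_infty` with `y = 1`) -/

section Level

variable (M : ℕ) [NeZero M] {ℓ : ℕ} [Fact ℓ.Prime]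
variable (A : ValuationSubring (AlgebraicClosure ℚ))
variable (E : IntermediateField ℚ (AlgebraicClosure ℚ))

theorem grdi_chart_zero (hℓM : ¬ ℓ ∣ M) (hA : A.LiesOverPrime ℓ) (h5 : 5 ≤ ℓ)
    [FiniteDimensional ℚ E] [IsDiscreteValuationRing (s18dVal A E)] (ϖ : s18dVal A E)
    (hϖ : Irreducible ϖ) (ζ : E) (hζ : IsPrimitiveRoot ζ (6 * M)) :
    S18Chart (s18dVal A E) E ϖ
      (⟨jqModC E, jqModC_mem_full E M⟩ : modularFunctionFieldFullC E M)
      ({0, 1728} : Finset (s18dVal A E)) := by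
  have h2ℓ : (2 : ℕ) ≠ ℓ := by omega
  have hone : s18vIncl (s18dVal A E) E (1 : LaurentSeries (s18dVal A E)) ∈
      modularFunctionFieldFullC E M := by
    rw [map_one]; exact one_mem _
  have h := s18_RH_zero A E M hℓM hA h5 ϖ hϖ ζ hζ 2 Nat.prime_two h2ℓ 1 1 hone hone one_ne_zero 1
    (by rw [one_pow, one_mul]) (fun h₁ h₂ P => by rw [sub_self]; exact dvd_zero _)
  exact grdi_chart_congr (grdi_ext_one (modularFunctionFieldFullC E M)) ϖ (jqModC E) _ _ _ h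

theorem grdi_chart_infty (hℓM : ¬ ℓ ∣ M) (hA : A.LiesOverPrime ℓ) (h5 : 5 ≤ ℓ)
    [FiniteDimensional ℚ E] [IsDiscreteValuationRing (s18dVal A E)] (ϖ : s18dVal A E)
    (hϖ : Irreducible ϖ) (ζ : E) (hζ : IsPrimitiveRoot ζ (6 * M)) :
    ∃ S' : Finset (s18dVal A E), S18Chart (s18dVal A E) E ϖ
      (⟨jqModC E, jqModC_mem_full E M⟩ : modularFunctionFieldFullC E M)⁻¹ S' := by
  have h2ℓ : (2 : ℕ) ≠ ℓ := by omega
  have hone : s18vIncl (s18dVal A E) E (1 : LaurentSeries (s18dVal A E)) ∈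
      modularFunctionFieldFullC E M := by
    rw [map_one]; exact one_mem _
  obtain ⟨S', h⟩ := s18_RH_infty A E M hℓM hA h5 ϖ hϖ ζ hζ 2 Nat.prime_two h2ℓ 1 1 hone hone
    one_ne_zero 1 (by rw [one_pow, one_mul])
    (fun h₁ h₂ P => by rw [sub_self]; exact dvd_zero _)
  exact ⟨S', grdi_chart_congr (grdi_ext_one (modularFunctionFieldFullC E M)) ϖ (jqModC E)⁻¹ _
    (inv_mem (jqModC_mem_full E M)) _ h⟩

end Level

/-! ### the two charts -/

section Instantiate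

variable (M : ℕ) [NeZero M] {ℓ : ℕ} [Fact ℓ.Prime]
variable (A : ValuationSubring (AlgebraicClosure ℚ))

/-- the number field `ℚ(ζ_{6M})` and the primitive root in every bigger `E`. -/
theorem grdi_exists_level :
    ∃ E₀ : IntermediateField ℚ (AlgebraicClosure ℚ), FiniteDimensional ℚ E₀ ∧
      ∀ E : IntermediateField ℚ (AlgebraicClosure ℚ), E₀ ≤ E →
        ∃ ζ : E, IsPrimitiveRoot ζ (6 * M) := by
  obtain ⟨ζ₀, hζ₀⟩ := s18dd_exists_primitiveRoot (6 * M)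
    (Nat.mul_pos (by norm_num) (NeZero.pos M))
  refine ⟨IntermediateField.adjoin ℚ {ζ₀}, s18dd_finiteDimensional_adjoin ζ₀, ?_⟩
  intro E hE
  have hζE : ζ₀ ∈ E := hE (IntermediateField.mem_adjoin_simple_self ℚ ζ₀)
  exact ⟨⟨ζ₀, hζE⟩, IsPrimitiveRoot.of_map_of_injective
    (f := algebraMap E (AlgebraicClosure ℚ)) hζ₀ (algebraMap E (AlgebraicClosure ℚ)).injective⟩

/-- (I2) the chart `j` for `ℓ ≥ 5` (`s18v_coord_j`, `s18_RH_zero` with `y = 1`,
`isSepGen_jBar`, `s18v_isSepGen_res`). -/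
theorem grd_chart_j (hℓM : ¬ ℓ ∣ M) (hA : A.LiesOverPrime ℓ) (h5 : 5 ≤ ℓ) :
    GrdChart M A (jqModC ℤ) := by
  have hmem := grdi_mem_j M
  refine ⟨hmem, grdi_sepQ_j M hmem, grdi_sepK_j M A hℓM hA hmem, ?_⟩
  obtain ⟨E₀, hfd₀, hE₀⟩ := grdi_exists_level M
  refine ⟨E₀, hfd₀, ?_⟩
  intro E hE hfd _ _ ϖ hϖ
  haveI := hfd
  obtain ⟨ζ, hζ⟩ := hE₀ E hE
  have heq : (⟨grdSer (jqModC ℤ) E, hmem E⟩ : modularFunctionFieldFullC E M) =
      ⟨jqModC E, jqModC_mem_full E M⟩ := Subtype.ext (grdi_grdSer_j E)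
  rw [heq]
  exact ⟨s18v_coord_j hϖ (s18d_natCast_mem (ℓ := ℓ) A E hA) M hℓM, _,
    grdi_chart_zero M A E hℓM hA h5 ϖ hϖ ζ hζ⟩

/-- (I3) the chart `j⁻¹` for `ℓ ≥ 5` (`s18_RH_infty` with `y = 1`; `S18Coord` for `t⁻¹` from
`S18Coord` for `t` : `s18t_loc_inv`, `s18t_selfDual_inv`). -/
theorem grd_chart_jinv (hℓM : ¬ ℓ ∣ M) (hA : A.LiesOverPrime ℓ) (h5 : 5 ≤ ℓ)
    (τ' : LaurentSeries ℤ) (hτ' : jqModC ℤ * τ' = 1) : GrdChart M A τ' := by
  have hmem := grdi_mem_jinv M hτ'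
  refine ⟨hmem, grdi_sepQ_jinv M hτ' hmem, grdi_sepK_jinv M A hℓM hA hτ' hmem, ?_⟩
  obtain ⟨E₀, hfd₀, hE₀⟩ := grdi_exists_level M
  refine ⟨E₀, hfd₀, ?_⟩
  intro E hE hfd _ _ ϖ hϖ
  haveI := hfd
  obtain ⟨ζ, hζ⟩ := hE₀ E hE
  have heq : (⟨grdSer τ' E, hmem E⟩ : modularFunctionFieldFullC E M) =
      (⟨jqModC E, jqModC_mem_full E M⟩ : modularFunctionFieldFullC E M)⁻¹ := by
    apply Subtype.ext
    show grdSer τ' E = _
    rw [grdi_grdSer_inv hτ', IntermediateField.coe_inv]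
  rw [heq]
  exact ⟨grdi_coord_inv hϖ _ _ (s18v_coord_j hϖ (s18d_natCast_mem (ℓ := ℓ) A E hA) M hℓM),
    grdi_chart_infty M A E hℓM hA h5 ϖ hϖ ζ hζ⟩

end Instantiate

end Fermat.Agent.G
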