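import Mathlib
import Fermat.Agent.G.Red.Defs
import Fermat.Agent.S18.H.Main
import Fermat.Agent.S18.H.Coord

/-!
# Program G, package G/Red, small primes (`ℓ ∈ {2, 3}`), part 1 (helper prefix `grdis_`):
the Hauptmodul `h_a` (`a ∈ {2, 3}`) lies in `F_K(M)` for EVERY field `K` (`a ∣ M`), and is
invertible in `ℤ((q))`.

`S18/H/Mem.lean` proves the membership for `CharZero K` by the explicit elimination
`D · h + D' = 0`, `D' ≠ 0` because `D' · q^n` has constant coefficient `-2^24` (`a = 2`) resp.
`-2^2 · 3^20` (`a = 3`).  The same proof works whenever `2 ≠ 0` resp. `6 ≠ 0` in `K`; in the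
remaining characteristics the Hauptmodul identities collapse:
* `a = 2`, `char K = 2` : `j h² = h³`, so `h = j`;
* `a = 3`, `char K = 3` : `j h³ = h⁴`, so `h = j`;
* `a = 3`, `char K = 2` : `j h³ = h⁴ + 1 = j₃ h`, so `h² = j₃ / j` and `h = ((j₃/j)² + 1) / j₃`.
-/

set_option autoImplicit false
set_option linter.unusedSectionVars false
set_option linter.unusedVariables false
set_option maxHeartbeats 1000000

noncomputable section

namespace Fermat.Agent.G

open ModularCurve HahnSeries Fermat.Agent.S18

section NeZero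

variable (K : Type*) [Field K]

/-- `j = s⁻¹ U`, `j_a = s⁻ᵃ U_a` with `U, U_a` power series with constant coefficient `1`
(`s18hm_factor` without `CharZero`). -/
theorem grdis_factor (a : ℕ) [NeZero a] :
    ∃ u w : PowerSeries K, PowerSeries.constantCoeff u = 1 ∧ PowerSeries.constantCoeff w = 1 ∧
      jqModC K * single (1 : ℤ) (1 : K) = ofPowerSeries ℤ K u ∧
      jqNModC K a * (single (1 : ℤ) (1 : K)) ^ a = ofPowerSeries ℤ K w := by
  set u : PowerSeries K := jNum.map (Int.castRingHom K) with hu
  have hu1 : PowerSeries.constantCoeff u = 1 := by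
    rw [hu, ← PowerSeries.coeff_zero_eq_constantCoeff_apply, PowerSeries.coeff_map,
      PowerSeries.coeff_zero_eq_constantCoeff_apply, constantCoeff_jNum, map_one]
  obtain ⟨w, hw, hw1⟩ := s18hm_qExpand_ofPowerSeries a u
  have h00 : (single (0 : ℤ) (1 : K)) = 1 := rfl
  refine ⟨u, w, hu1, hw1.trans hu1, ?_, ?_⟩
  · rw [jqModC, mul_comm, ← mul_assoc, single_mul_single,
      show (1 : ℤ) + -1 = 0 by norm_num, mul_one, h00, one_mul]
  · rw [jqNModC, jqModC, map_mul, qExpand_single, hw, single_pow, mul_comm, ← mul_assoc,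
      single_mul_single]
    have : a • (1 : ℤ) + (a : ℤ) * (-1) = 0 := by simp
    rw [this, one_pow, one_mul, h00, one_mul]

theorem grdis_jq_ne_zero : jqModC K ≠ 0 := by
  obtain ⟨u, w, hu, hw, hU, hUa⟩ := grdis_factor K 1
  intro h0
  rw [h0, zero_mul] at hU
  have h1 : u = 0 := ofPowerSeries_injective (hU.symm.trans (map_zero _).symm)
  rw [h1, map_zero] at hu
  exact zero_ne_one hu

theorem grdis_jqN_ne_zero (a : ℕ) [NeZero a] : jqNModC K a ≠ 0 := by
  obtain ⟨u, w, hu, hw, hU, hUa⟩ := grdis_factor K a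
  intro h0
  rw [h0, zero_mul] at hUa
  have h1 : w = 0 := ofPowerSeries_injective (hUa.symm.trans (map_zero _).symm)
  rw [h1, map_zero] at hw
  exact zero_ne_one hw

theorem grdis_Dp_two_ne_zero (h2 : (2 : K) ≠ 0) (j ja : LaurentSeries K) (hj : j = jqModC K)
    (hja : ja = jqNModC K 2) :
    ((-4096) * j^2 + (-799211520) * j + (-16773120) * ja + (-2707292160000)) ≠ 0 := by
  obtain ⟨u, w, hu, hw, hU, hUa⟩ := grdis_factor K 2
  rw [← hj] at hU
  rw [← hja] at hUa
  intro h0
  set s : LaurentSeries K := single (1 : ℤ) (1 : K) with hs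
  set T : PowerSeries K := PowerSeries.X with hT
  have hsT : ofPowerSeries ℤ K T = s := ofPowerSeries_X
  have key : ((-4096) * j^2 + (-799211520) * j + (-16773120) * ja + (-2707292160000)) * s ^ 2 =
      ofPowerSeries ℤ K ((-2707292160000) * T^2 + (-799211520) * T * u + (-4096) * u^2 + (-16773120) * w) := by
    simp only [map_add, map_mul, map_pow, map_neg, map_ofNat, hsT, ← hU, ← hUa]
    ring
  rw [h0, zero_mul] at key
  have h1 := ofPowerSeries_injective (key.symm.trans (map_zero _).symm)
  have h3 := congrArg PowerSeries.constantCoeff h1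
  simp only [map_add, map_mul, map_pow, map_neg, map_ofNat, hu, hw, hT,
    PowerSeries.constantCoeff_X, map_zero] at h3
  have h4 : (2 : K) ^ 24 = 0 := by linear_combination (-1 : K) * h3
  exact pow_ne_zero 24 h2 h4

theorem grdis_Dp_three_ne_zero (h2 : (2 : K) ≠ 0) (h3 : (3 : K) ≠ 0)
    (j ja : LaurentSeries K) (hj : j = jqModC K) (hja : ja = jqNModC K 3) :
    ((-26244) * j^5 * ja + (19840464) * j^5 + (-502143878016) * j^4 * ja + (-607487911274880) * j^4 + (-4026018508511040) * j^3 * ja + (370332704293413177600) * j^3 + (-13947111360) * j^2 * ja^2 + (-5087448200151129600) * j^2 * ja + (-1067207142120561418752000) * j^2 + (-56067387667200) * j * ja^2 + (11962063159950099456000) * j * ja + (-11594911637186122088448000000) * j + (47598701649408000) * ja^2 + (-4337698471252328448000000) * ja + (8763513871624726118400000000000)) ≠ 0 := by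
  obtain ⟨u, w, hu, hw, hU, hUa⟩ := grdis_factor K 3
  rw [← hj] at hU
  rw [← hja] at hUa
  intro h0
  set s : LaurentSeries K := single (1 : ℤ) (1 : K) with hs
  set T : PowerSeries K := PowerSeries.X with hT
  have hsT : ofPowerSeries ℤ K T = s := ofPowerSeries_X
  have key : ((-26244) * j^5 * ja + (19840464) * j^5 + (-502143878016) * j^4 * ja + (-607487911274880) * j^4 + (-4026018508511040) * j^3 * ja + (370332704293413177600) * j^3 + (-13947111360) * j^2 * ja^2 + (-5087448200151129600) * j^2 * ja + (-1067207142120561418752000) * j^2 + (-56067387667200) * j * ja^2 + (11962063159950099456000) * j * ja + (-11594911637186122088448000000) * j + (47598701649408000) * ja^2 + (-4337698471252328448000000) * ja + (8763513871624726118400000000000)) * s ^ 8 =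
      ofPowerSeries ℤ K ((8763513871624726118400000000000) * T^8 + (-11594911637186122088448000000) * T^7 * u + (-1067207142120561418752000) * T^6 * u^2 + (370332704293413177600) * T^5 * u^3 + (-4337698471252328448000000) * T^5 * w + (-607487911274880) * T^4 * u^4 + (11962063159950099456000) * T^4 * u * w + (19840464) * T^3 * u^5 + (-5087448200151129600) * T^3 * u^2 * w + (-4026018508511040) * T^2 * u^3 * w + (47598701649408000) * T^2 * w^2 + (-502143878016) * T * u^4 * w + (-56067387667200) * T * u * w^2 + (-26244) * u^5 * w + (-13947111360) * u^2 * w^2) := by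
    simp only [map_add, map_mul, map_pow, map_neg, map_ofNat, hsT, ← hU, ← hUa]
    ring
  rw [h0, zero_mul] at key
  have h1 := ofPowerSeries_injective (key.symm.trans (map_zero _).symm)
  have h5 := congrArg PowerSeries.constantCoeff h1
  simp only [map_add, map_mul, map_pow, map_neg, map_ofNat, hu, hw, hT,
    PowerSeries.constantCoeff_X, map_zero] at h5
  have h4 : (2 : K) ^ 2 * (3 : K) ^ 20 = 0 := by linear_combination (-1 : K) * h5
  exact mul_ne_zero (pow_ne_zero 2 h2) (pow_ne_zero 20 h3) h4

end NeZero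

section Main

variable (K : Type*) [Field K]

theorem grdis_id_two [NeZero 2] :
    jqModC K * s18hq 2 24 K ^ 2 = (s18hq 2 24 K + 256) ^ 3 := by
  have := congrArg (coeffMap (Int.castRingHom K)) s18h_identity_two
  rw [map_mul, map_pow, map_pow, map_add, coeffMap_jqModC, s18hm_coeffMap_hq, map_ofNat] at this
  exact this

theorem grdis_id_two' [NeZero 2] :
    jqNModC K 2 * s18hq 2 24 K = (s18hq 2 24 K + 16) ^ 3 := by
  have := congrArg (coeffMap (Int.castRingHom K)) s18h_identity_two'
  rw [map_mul, map_pow, map_add, coeffMap_jqNModC, s18hm_coeffMap_hq, map_ofNat] at this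
  exact this

theorem grdis_id_three [NeZero 3] :
    jqModC K * s18hq 3 12 K ^ 3 = (s18hq 3 12 K + 27) * (s18hq 3 12 K + 243) ^ 3 := by
  have := congrArg (coeffMap (Int.castRingHom K)) s18h_identity_three
  rw [map_mul, map_mul, map_pow, map_pow, map_add, map_add, coeffMap_jqModC, s18hm_coeffMap_hq,
    map_ofNat, map_ofNat] at this
  exact this

theorem grdis_id_three' [NeZero 3] :
    jqNModC K 3 * s18hq 3 12 K = (s18hq 3 12 K + 27) * (s18hq 3 12 K + 3) ^ 3 := by
  have := congrArg (coeffMap (Int.castRingHom K)) s18h_identity_three'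
  rw [map_mul, map_mul, map_pow, map_add, map_add, coeffMap_jqNModC, s18hm_coeffMap_hq,
    map_ofNat, map_ofNat] at this
  exact this

/-- `h₂ ∈ F_K(M)` for EVERY field `K`, `2 ∣ M`. -/
theorem grdis_mem_two [NeZero 2] (M : ℕ) [NeZero M] (haM : 2 ∣ M) :
    s18hq 2 24 K ∈ modularFunctionFieldFullC K M := by
  set h := s18hq 2 24 K with hh
  have hne : h ≠ 0 := s18hk_hq_ne_zero 2 24
  have e1 : jqModC K * h ^ 2 = (h + 256) ^ 3 := grdis_id_two K
  have e2 : jqNModC K 2 * h = (h + 16) ^ 3 := grdis_id_two' K
  by_cases h2 : (2 : K) = 0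
  · -- characteristic `2` : `h = j`
    have h2' : (2 : LaurentSeries K) = 0 := by
      have := congrArg (algebraMap K (LaurentSeries K)) h2
      rwa [map_ofNat, map_zero] at this
    have h256 : (256 : LaurentSeries K) = 0 := by
      have : (256 : LaurentSeries K) = 2 ^ 8 := by norm_num
      rw [this, h2', zero_pow (by norm_num)]
    rw [h256, add_zero] at e1
    have : h = jqModC K := by
      have h3 : h ^ 2 * (jqModC K - h) = 0 := by linear_combination e1
      rcases mul_eq_zero.mp h3 with h4 | h4
      · exact absurd h4 (pow_ne_zero 2 hne)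
      · exact (sub_eq_zero.mp h4).symm
    rw [this]
    exact jqModC_mem_full K M
  · have hlin := s18hm_elim_two h (jqModC K) (jqNModC K 2) e1 e2
    have hD' := grdis_Dp_two_ne_zero K h2 (jqModC K) (jqNModC K 2) rfl rfl
    have hD : ((1) * (jqModC K)^2 * (jqNModC K 2) + (-768) * (jqModC K)^2 + (-1488) * (jqModC K) * (jqNModC K 2) + (-25067520) * (jqModC K) + (-1) * (jqNModC K 2)^2 + (161280) * (jqNModC K 2) + (-19906560000)) ≠ 0 := by
      intro h0
      rw [h0, zero_mul, zero_add] at hlin
      exact hD' hlin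
    let jF : modularFunctionFieldFullC K M := ⟨jqModC K, jqModC_mem_full K M⟩
    let jaF : modularFunctionFieldFullC K M := ⟨jqNModC K 2, jqModCd_mem_full K M haM⟩
    have hjF : (jF : LaurentSeries K) = jqModC K := rfl
    have hjaF : (jaF : LaurentSeries K) = jqNModC K 2 := rfl
    have hmem : h = ((-((-4096) * jF^2 + (-799211520) * jF + (-16773120) * jaF + (-2707292160000)) / ((1) * jF^2 * jaF + (-768) * jF^2 + (-1488) * jF * jaF + (-25067520) * jF + (-1) * jaF^2 + (161280) * jaF + (-19906560000)) : modularFunctionFieldFullC K M) :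
        LaurentSeries K) := by
      show h = -((-4096) * (jqModC K)^2 + (-799211520) * (jqModC K) + (-16773120) * (jqNModC K 2) + (-2707292160000)) / ((1) * (jqModC K)^2 * (jqNModC K 2) + (-768) * (jqModC K)^2 + (-1488) * (jqModC K) * (jqNModC K 2) + (-25067520) * (jqModC K) + (-1) * (jqNModC K 2)^2 + (161280) * (jqNModC K 2) + (-19906560000))
      rw [eq_div_iff hD]
      linear_combination hlin
    rw [hmem]
    exact SetLike.coe_mem _

/-- `h₃ ∈ F_K(M)` for EVERY field `K`, `3 ∣ M`. -/
theorem grdis_mem_three [NeZero 3] (M : ℕ) [NeZero M] (haM : 3 ∣ M) :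
    s18hq 3 12 K ∈ modularFunctionFieldFullC K M := by
  set h := s18hq 3 12 K with hh
  have hne : h ≠ 0 := s18hk_hq_ne_zero 3 12
  have e1 : jqModC K * h ^ 3 = (h + 27) * (h + 243) ^ 3 := grdis_id_three K
  have e2 : jqNModC K 3 * h = (h + 27) * (h + 3) ^ 3 := grdis_id_three' K
  by_cases h3 : (3 : K) = 0
  · -- characteristic `3` : `h = j`
    have h3' : (3 : LaurentSeries K) = 0 := by
      have := congrArg (algebraMap K (LaurentSeries K)) h3
      rwa [map_ofNat, map_zero] at this
    have h27 : (27 : LaurentSeries K) = 0 := by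
      have : (27 : LaurentSeries K) = 3 ^ 3 := by norm_num
      rw [this, h3', zero_pow (by norm_num)]
    have h243 : (243 : LaurentSeries K) = 0 := by
      have : (243 : LaurentSeries K) = 3 ^ 5 := by norm_num
      rw [this, h3', zero_pow (by norm_num)]
    rw [h27, h243, add_zero] at e1
    have : h = jqModC K := by
      have h4 : h ^ 3 * (jqModC K - h) = 0 := by linear_combination e1
      rcases mul_eq_zero.mp h4 with h5 | h5
      · exact absurd h5 (pow_ne_zero 3 hne)
      · exact (sub_eq_zero.mp h5).symm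
    rw [this]
    exact jqModC_mem_full K M
  · by_cases h2 : (2 : K) = 0
    · -- characteristic `2` : `h² = j₃ / j`, `h j₃ = h⁴ + 1`
      have h2' : (2 : LaurentSeries K) = 0 := by
        have := congrArg (algebraMap K (LaurentSeries K)) h2
        rwa [map_ofNat, map_zero] at this
      have hj0 : jqModC K ≠ 0 := grdis_jq_ne_zero K
      have hja0 : jqNModC K 3 ≠ 0 := grdis_jqN_ne_zero K 3
      -- `(h + 27)(h + 243)³ = h⁴ + 1` and `(h + 27)(h + 3)³ = h⁴ + 1` modulo `2`
      have e1' : jqModC K * h ^ 3 = h ^ 4 + 1 := by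
        linear_combination e1 + (378 * h ^ 3 + 98415 * h ^ 2 + 9565938 * h + 193710244) * h2'
      have e2' : jqNModC K 3 * h = h ^ 4 + 1 := by
        linear_combination e2 + (18 * h ^ 3 + 135 * h ^ 2 + 378 * h + 364) * h2'
      have e3 : jqModC K * h ^ 2 = jqNModC K 3 := by
        have h4 : h * (jqModC K * h ^ 2 - jqNModC K 3) = 0 := by linear_combination e1' - e2'
        rcases mul_eq_zero.mp h4 with h5 | h5
        · exact absurd h5 hne
        · exact sub_eq_zero.mp h5
      let jF : modularFunctionFieldFullC K M := ⟨jqModC K, jqModC_mem_full K M⟩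
      let jaF : modularFunctionFieldFullC K M := ⟨jqNModC K 3, jqModCd_mem_full K M haM⟩
      have hmem : h = ((((jaF / jF) ^ 2 + 1) / jaF : modularFunctionFieldFullC K M) :
          LaurentSeries K) := by
        show h = ((jqNModC K 3 / jqModC K) ^ 2 + 1) / jqNModC K 3
        have hc : jqNModC K 3 / jqModC K = h ^ 2 := by
          rw [div_eq_iff hj0, ← e3]; ring
        rw [hc, eq_div_iff hja0]
        linear_combination e2'
      rw [hmem]
      exact SetLike.coe_mem _
    · have hlin := s18hm_elim_three h (jqModC K) (jqNModC K 3) e1 e2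
      have hD' := grdis_Dp_three_ne_zero K h2 h3 (jqModC K) (jqNModC K 3) rfl rfl
      have hD : ((36) * (jqModC K)^5 * (jqNModC K 3)^2 + (-54432) * (jqModC K)^5 * (jqNModC K 3) + (13489416) * (jqModC K)^5 + (64368) * (jqModC K)^4 * (jqNModC K 3)^2 + (-79494583572) * (jqModC K)^4 * (jqNModC K 3) + (-126415484676000) * (jqModC K)^4 + (-407357424) * (jqModC K)^3 * (jqNModC K 3)^2 + (-658966989563280) * (jqModC K)^3 * (jqNModC K 3) + (20118851231559148800) * (jqModC K)^3 + (-36) * (jqModC K)^2 * (jqNModC K 3)^3 + (427742208000) * (jqModC K)^2 * (jqNModC K 3)^2 + (-1109929531166035200) * (jqModC K)^2 * (jqNModC K 3) + (-11751687460316911104000) * (jqModC K)^2 + (-144720) * (jqModC K) * (jqNModC K 3)^3 + (-136790712403200) * (jqModC K) * (jqNModC K 3)^2 + (1114436220326710272000) * (jqModC K) * (jqNModC K 3) + (-452719255469137330176000000) * (jqModC K) + (122860800) * (jqNModC K 3)^3 + (4529228990976000) * (jqNModC K 3)^2 + (40325293302349824000000) * (jqNModC K 3) + (324574587837952819200000000000)) ≠ 0 := by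
        intro h0
        rw [h0, zero_mul, zero_add] at hlin
        exact hD' hlin
      let jF : modularFunctionFieldFullC K M := ⟨jqModC K, jqModC_mem_full K M⟩
      let jaF : modularFunctionFieldFullC K M := ⟨jqNModC K 3, jqModCd_mem_full K M haM⟩
      have hjF : (jF : LaurentSeries K) = jqModC K := rfl
      have hjaF : (jaF : LaurentSeries K) = jqNModC K 3 := rfl
      have hmem : h = ((-((-26244) * jF^5 * jaF + (19840464) * jF^5 + (-502143878016) * jF^4 * jaF + (-607487911274880) * jF^4 + (-4026018508511040) * jF^3 * jaF + (370332704293413177600) * jF^3 + (-13947111360) * jF^2 * jaF^2 + (-5087448200151129600) * jF^2 * jaF + (-1067207142120561418752000) * jF^2 + (-56067387667200) * jF * jaF^2 + (11962063159950099456000) * jF * jaF + (-11594911637186122088448000000) * jF + (47598701649408000) * jaF^2 + (-4337698471252328448000000) * jaF + (8763513871624726118400000000000)) / ((36) * jF^5 * jaF^2 + (-54432) * jF^5 * jaF + (13489416) * jF^5 + (64368) * jF^4 * jaF^2 + (-79494583572) * jF^4 * jaF + (-126415484676000)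 * jF^4 + (-407357424) * jF^3 * jaF^2 + (-658966989563280) * jF^3 * jaF + (20118851231559148800) * jF^3 + (-36) * jF^2 * jaF^3 + (427742208000) * jF^2 * jaF^2 + (-1109929531166035200) * jF^2 * jaF + (-11751687460316911104000) * jF^2 + (-144720) * jF * jaF^3 + (-136790712403200) * jF * jaF^2 + (1114436220326710272000) * jF * jaF + (-452719255469137330176000000) * jF + (122860800) * jaF^3 + (4529228990976000) * jaF^2 + (40325293302349824000000) * jaF + (324574587837952819200000000000)) : modularFunctionFieldFullC K M) :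
          LaurentSeries K) := by
        show h = -((-26244) * (jqModC K)^5 * (jqNModC K 3) + (19840464) * (jqModC K)^5 + (-502143878016) * (jqModC K)^4 * (jqNModC K 3) + (-607487911274880) * (jqModC K)^4 + (-4026018508511040) * (jqModC K)^3 * (jqNModC K 3) + (370332704293413177600) * (jqModC K)^3 + (-13947111360) * (jqModC K)^2 * (jqNModC K 3)^2 + (-5087448200151129600) * (jqModC K)^2 * (jqNModC K 3) + (-1067207142120561418752000) * (jqModC K)^2 + (-56067387667200) * (jqModC K) * (jqNModC K 3)^2 + (11962063159950099456000) * (jqModC K) * (jqNModC K 3) + (-11594911637186122088448000000) * (jqModC K) + (47598701649408000) * (jqNModC K 3)^2 + (-4337698471252328448000000) * (jqNModC K 3) + (8763513871624726118400000000000)) / ((36) * (jqModC K)^5 * (jqNModC K 3)^2 + (-54432) * (jqModC K)^5 * (jqNModC K 3) + (13489416) * (jqModC K)^5 + (64368) * (jqModC K)^4 * (jqNModC K 3)^2 + (-79494583572) * (jqModC K)^4 * (jqNModC K 3) + (-126415484676000) * (jqModC K)^4 + (-407357424) * (jqModC K)^3 * (jqNModC K 3)^2 + (-658966989563280)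 * (jqModC K)^3 * (jqNModC K 3) + (20118851231559148800) * (jqModC K)^3 + (-36) * (jqModC K)^2 * (jqNModC K 3)^3 + (427742208000) * (jqModC K)^2 * (jqNModC K 3)^2 + (-1109929531166035200) * (jqModC K)^2 * (jqNModC K 3) + (-11751687460316911104000) * (jqModC K)^2 + (-144720) * (jqModC K) * (jqNModC K 3)^3 + (-136790712403200) * (jqModC K) * (jqNModC K 3)^2 + (1114436220326710272000) * (jqModC K) * (jqNModC K 3) + (-452719255469137330176000000) * (jqModC K) + (122860800) * (jqNModC K 3)^3 + (4529228990976000) * (jqNModC K 3)^2 + (40325293302349824000000) * (jqNModC K 3) + (324574587837952819200000000000))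
        rw [eq_div_iff hD]
        linear_combination hlin
      rw [hmem]
      exact SetLike.coe_mem _

end Main

/-! ### the series `h_a`, `h_a⁻¹` over `ℤ` -/

section Series

/-- the inverse of the Hauptmodul `h_a` in `ℤ((q))` -/
def grdisHinv (a : ℕ) [NeZero a] (e : ℕ) : LaurentSeries ℤ :=
  HahnSeries.single (1 : ℤ) 1 *
    HahnSeries.ofPowerSeries ℤ ℤ ((s18hUnitInv e).map (Int.castRingHom ℤ)) *
    qExpand ℤ a (HahnSeries.ofPowerSeries ℤ ℤ ((s18hUnit e).map (Int.castRingHom ℤ)))

theorem grdis_mul_hinv (a : ℕ) [NeZero a] (e : ℕ) : s18hq a e ℤ * grdisHinv a e = 1 := by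
  have h1 : HahnSeries.ofPowerSeries ℤ ℤ ((s18hUnit e).map (Int.castRingHom ℤ)) *
      HahnSeries.ofPowerSeries ℤ ℤ ((s18hUnitInv e).map (Int.castRingHom ℤ)) = 1 := by
    rw [← map_mul, ← map_mul, s18hi_unit_mul_inv, map_one, map_one]
  have h2 : (HahnSeries.single (-1 : ℤ) (1 : ℤ) : LaurentSeries ℤ) * HahnSeries.single (1 : ℤ) 1
      = 1 := by
    rw [HahnSeries.single_mul_single]
    simp
  have h3 : qExpand ℤ a (HahnSeries.ofPowerSeries ℤ ℤ ((s18hUnitInv e).map (Int.castRingHom ℤ))) *
      qExpand ℤ a (HahnSeries.ofPowerSeries ℤ ℤ ((s18hUnit e).map (Int.castRingHom ℤ))) = 1 := by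
    rw [← map_mul, mul_comm, h1, map_one]
  unfold s18hq grdisHinv
  calc _ = (HahnSeries.single (-1 : ℤ) (1 : ℤ) * HahnSeries.single (1 : ℤ) 1) *
        (HahnSeries.ofPowerSeries ℤ ℤ ((s18hUnit e).map (Int.castRingHom ℤ)) *
          HahnSeries.ofPowerSeries ℤ ℤ ((s18hUnitInv e).map (Int.castRingHom ℤ))) *
        (qExpand ℤ a (HahnSeries.ofPowerSeries ℤ ℤ ((s18hUnitInv e).map (Int.castRingHom ℤ))) *
          qExpand ℤ a (HahnSeries.ofPowerSeries ℤ ℤ ((s18hUnit e).map (Int.castRingHom ℤ)))) := by
        ring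
    _ = 1 := by rw [h1, h2, h3, mul_one, mul_one]

theorem grdis_grdSer_hq (a : ℕ) [NeZero a] (e : ℕ) (R : Type*) [CommRing R] :
    grdSer (s18hq a e ℤ) R = s18hq a e R :=
  s18hm_coeffMap_hq a e (Int.castRingHom R)

theorem grdis_grdSer_inv {τ τ' : LaurentSeries ℤ} (hτ' : τ * τ' = 1) (K : Type*) [Field K] :
    grdSer τ' K = (grdSer τ K)⁻¹ := by
  have h := congrArg (coeffMap (Int.castRingHom K)) hτ'
  rw [map_mul, map_one] at h
  exact eq_inv_of_mul_eq_one_right h

/-- THE MEMBERSHIP for the Hauptmodul, ALL fields. -/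
theorem grdis_mem_h (a : ℕ) [NeZero a] (ha : a = 2 ∨ a = 3) (M : ℕ) [NeZero M] (haM : a ∣ M) :
    GrdSerMem M (s18hq a (s18hExp a) ℤ) := fun K _ => by
  rw [grdis_grdSer_hq]
  rcases ha with rfl | rfl
  · exact grdis_mem_two K M haM
  · exact grdis_mem_three K M haM

theorem grdis_mem_inv (M : ℕ) [NeZero M] {τ τ' : LaurentSeries ℤ} (hτ' : τ * τ' = 1)
    (hτ : GrdSerMem M τ) : GrdSerMem M τ' := fun K _ => by
  rw [grdis_grdSer_inv hτ']
  exact inv_mem (hτ K)

end Series

end Fermat.Agent.G
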