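import Mathlib
import Fermat.Agent.G.Red.Defs
import Fermat.Agent.G.Red.Inst
import Fermat.Agent.G.Red.InstSmallMem
import Fermat.Agent.S18.Core.Small

/-!
# Program G, package G/Red, small primes `ℓ ∈ {2, 3}` (row 564, instance part; helper prefix
`grdis_`) : THE ATLAS `h_a`, `h_a⁻¹` AT A LEVEL `M` DIVISIBLE BY `a = 5 - ℓ`.

`h_a` is the Hauptmodul of `Γ₀(a)` (S18 package H).  For `ℓ ∤ M`, `a ∣ M` :
`grd_chart_h : GrdChart M 𝔸 h_a`, `grd_chart_hinv : GrdChart M 𝔸 h_a⁻¹`, hence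
`grd_atlas_small : GrdAtlas M 𝔸 h_a h_a⁻¹`, to be fed to §T of `G/Red/Spec.lean` exactly as the
atlas `j`, `j⁻¹` for `ℓ ≥ 5`.
-/

set_option autoImplicit false
set_option linter.unusedSectionVars false
set_option linter.unusedVariables false
set_option synthInstance.maxHeartbeats 400000
set_option linter.style.haveILetI false

noncomputable section

namespace Fermat.Agent.G

open ModularCurve AlgebraicCurve IsLocalRing Polynomial Fermat.Agent.S18 Fermat.Agent.S24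
open IntermediateField

/-! ### separating generators : from `j` to a coordinate `h` with `j ∈ K(h)` -/

section SepGen

variable {K F : Type*} [Field K] [Field F] [Algebra K F]

theorem grdis_isSepGen_of_mem {j h : F} (hj : IsSepGen K j) (hmem : j ∈ K⟮h⟯) :
    IsSepGen K h := by
  have hle : K⟮j⟯ ≤ K⟮h⟯ := adjoin_simple_le_iff.mpr hmem
  letI : Algebra K⟮j⟯ K⟮h⟯ := (IntermediateField.inclusion hle).toRingHom.toAlgebra
  haveI : IsScalarTower K⟮j⟯ K⟮h⟯ F := IsScalarTower.of_algebraMap_eq (fun _ => rfl)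
  haveI := hj.finite
  haveI := hj.separable
  refine ⟨?_, ?_, ?_⟩
  · intro halg
    apply hj.transcendental
    have h1 : Algebra.IsAlgebraic K K⟮h⟯ :=
      IntermediateField.isAlgebraic_adjoin_simple halg.isIntegral
    have h2 : IsAlgebraic K (⟨j, hmem⟩ : K⟮h⟯) := Algebra.IsAlgebraic.isAlgebraic _
    exact (isAlgebraic_algebraMap_iff (algebraMap K⟮h⟯ F).injective).mpr h2
  · exact Module.Finite.of_restrictScalars_finite K⟮j⟯ K⟮h⟯ F
  · exact Algebra.isSeparable_tower_top_of_isSeparable K⟮j⟯ K⟮h⟯ F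

end SepGen

/-! ### `h_a` and `h_a⁻¹` are separating generators of `F_K(M)` as soon as `j` is -/

section SepH

variable {K : Type*} [Field K] (F : IntermediateField K (LaurentSeries K))

theorem grdis_sep_h (a : ℕ) [NeZero a] (ha : a = 2 ∨ a = 3) (hj : jqModC K ∈ F)
    (hmem : s18hq a (s18hExp a) K ∈ F) (hsep : IsSepGen K (⟨jqModC K, hj⟩ : F)) :
    IsSepGen K (⟨s18hq a (s18hExp a) K, hmem⟩ : F) := by
  refine grdis_isSepGen_of_mem hsep ?_
  rcases ha with rfl | rfl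
  · exact s18hk_j_mem_two F s18h_identity_two hj hmem
  · exact s18hk_j_mem_three F s18h_identity_three hj hmem

end SepH

section Sep

variable (M : ℕ) [NeZero M] {ℓ : ℕ} [Fact ℓ.Prime]
variable (A : ValuationSubring (AlgebraicClosure ℚ))
variable (a : ℕ) [NeZero a]

theorem grdis_grdQ_h (h : GrdSerMem M (s18hq a (s18hExp a) ℤ)) :
    grdQ M h = ⟨s18hq a (s18hExp a) (AlgebraicClosure ℚ),
      s18db_full_le_bar M (by rw [← grdis_grdSer_hq]; exact h (AlgebraicClosure ℚ))⟩ :=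
  Subtype.ext (grdis_grdSer_hq a _ _)

theorem grdis_grdK_h (h : GrdSerMem M (s18hq a (s18hExp a) ℤ)) :
    grdK M A h = ⟨s18hq a (s18hExp a) (ResidueField A),
      by rw [← grdis_grdSer_hq]; exact h (ResidueField A)⟩ :=
  Subtype.ext (grdis_grdSer_hq a _ _)

theorem grdis_grdQ_inv {τ τ' : LaurentSeries ℤ} (hτ' : τ * τ' = 1) (hτ : GrdSerMem M τ)
    (h : GrdSerMem M τ') : grdQ M h = (grdQ M hτ)⁻¹ := by
  apply Subtype.ext
  show grdSer τ' (AlgebraicClosure ℚ) = (((grdQ M hτ)⁻¹ : modularFunctionFieldBar M) :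
    LaurentSeries (AlgebraicClosure ℚ))
  rw [grdis_grdSer_inv hτ', IntermediateField.coe_inv]
  rfl

theorem grdis_grdK_inv {τ τ' : LaurentSeries ℤ} (hτ' : τ * τ' = 1) (hτ : GrdSerMem M τ)
    (h : GrdSerMem M τ') : grdK M A h = (grdK M A hτ)⁻¹ := by
  apply Subtype.ext
  show grdSer τ' (ResidueField A) = _
  rw [grdis_grdSer_inv hτ', IntermediateField.coe_inv]
  rfl

theorem grdis_sepQ_h (ha : a = 2 ∨ a = 3) (h : GrdSerMem M (s18hq a (s18hExp a) ℤ)) :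
    IsSepGen (AlgebraicClosure ℚ) (grdQ M h) := by
  rw [grdis_grdQ_h]
  have hj : jqModC (AlgebraicClosure ℚ) ∈ modularFunctionFieldBar M := by
    rw [← s18rs_coe_jBar_eq M]; exact (jBar M).2
  have hjE : (⟨jqModC (AlgebraicClosure ℚ), hj⟩ : modularFunctionFieldBar M) = jBar M :=
    Subtype.ext (s18rs_coe_jBar_eq M).symm
  exact grdis_sep_h (modularFunctionFieldBar M) a ha hj _ (by rw [hjE]; exact isSepGen_jBar M)

theorem grdis_sepK_h (ha : a = 2 ∨ a = 3) (hℓM : ¬ ℓ ∣ M) (hA : A.LiesOverPrime ℓ)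
    (h : GrdSerMem M (s18hq a (s18hExp a) ℤ)) :
    IsSepGen (ResidueField A) (grdK M A h) := by
  haveI : CharP (ResidueField A) ℓ := s18ac_charP A hA
  rw [grdis_grdK_h]
  exact grdis_sep_h (modularFunctionFieldFullC (ResidueField A) M) a ha
    (jqModC_mem_full (ResidueField A) M) _ (s18v_isSepGen_res (ℓ := ℓ) (ResidueField A) M hℓM)

end Sep

/-! ### the number-field level : `S18Chart` for `h_a` and `h_a⁻¹` (`s18_RH_small` with `y = 1`) -/

section Level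

variable {ℓ : ℕ} [Fact ℓ.Prime]
variable (A : ValuationSubring (AlgebraicClosure ℚ))
variable (E : IntermediateField ℚ (AlgebraicClosure ℚ))

theorem grdis_chart_pair (N : ℕ) [NeZero N] (hℓN : ¬ ℓ ∣ N) (hA : A.LiesOverPrime ℓ)
    (a : ℕ) [NeZero a] (ha : (ℓ = 2 ∧ a = 3) ∨ (ℓ = 3 ∧ a = 2)) (ha23 : a = 2 ∨ a = 3)
    [FiniteDimensional ℚ E] [IsDiscreteValuationRing (s18dVal A E)] (ϖ : s18dVal A E)
    (hϖ : Irreducible ϖ) (ζ : E) (hζ : IsPrimitiveRoot ζ (6 * (a * N)))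
    (hmem : s18hq a (s18hExp a) E ∈ modularFunctionFieldFullC E (a * N)) :
    ∃ S S' : Finset (s18dVal A E),
      S18Chart (s18dVal A E) E ϖ
        (⟨s18hq a (s18hExp a) E, hmem⟩ : modularFunctionFieldFullC E (a * N)) S ∧
      S18Chart (s18dVal A E) E ϖ
        (⟨s18hq a (s18hExp a) E, hmem⟩ : modularFunctionFieldFullC E (a * N))⁻¹ S' := by
  have hap : a.Prime := by
    rcases ha23 with rfl | rfl
    · exact Nat.prime_two
    · exact Nat.prime_three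
  have haℓ : a ≠ ℓ := by
    rcases ha with ⟨h1, h2⟩ | ⟨h1, h2⟩ <;> omega
  have hone : s18vIncl (s18dVal A E) E (1 : LaurentSeries (s18dVal A E)) ∈
      modularFunctionFieldFullC E N := by
    rw [map_one]; exact one_mem _
  obtain ⟨S, S', h0, hinf⟩ := s18rs_RH_small A E s18h_identity_two s18h_identity_three N hℓN hA a
    ha ha23 ϖ hϖ ζ hζ a hap haℓ 1 1 hone hone one_ne_zero 1 (by rw [one_pow, one_mul])
    (fun h₁ h₂ P => by rw [sub_self]; exact dvd_zero _) hmem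
  exact ⟨S, S',
    grdi_chart_congr (grdi_ext_one (modularFunctionFieldFullC E (a * N))) ϖ
      (s18hq a (s18hExp a) E) _ hmem _ h0,
    grdi_chart_congr (grdi_ext_one (modularFunctionFieldFullC E (a * N))) ϖ
      (s18hq a (s18hExp a) E)⁻¹ _ (inv_mem hmem) _ hinf⟩

end Level

/-! ### the two charts -/

section Instantiate

variable (M : ℕ) [NeZero M] {ℓ : ℕ} [Fact ℓ.Prime]
variable (A : ValuationSubring (AlgebraicClosure ℚ))
variable (a : ℕ) [NeZero a]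

/-- the number-field level data for `h_a` at level `M`, `a ∣ M`. -/
theorem grdis_level (hℓM : ¬ ℓ ∣ M) (hA : A.LiesOverPrime ℓ)
    (ha : (ℓ = 2 ∧ a = 3) ∨ (ℓ = 3 ∧ a = 2)) (haM : a ∣ M)
    (E : IntermediateField ℚ (AlgebraicClosure ℚ)) [FiniteDimensional ℚ E]
    [IsDiscreteValuationRing (s18dVal A E)] [CharZero (s18dVal A E)]
    (ϖ : s18dVal A E) (hϖ : Irreducible ϖ) (ζ : E) (hζ : IsPrimitiveRoot ζ (6 * M))
    (hmem : s18hq a (s18hExp a) E ∈ modularFunctionFieldFullC E M) :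
    S18Coord hϖ (modularFunctionFieldFullC E M) ⟨s18hq a (s18hExp a) E, hmem⟩ ∧
    ∃ S S' : Finset (s18dVal A E),
      S18Chart (s18dVal A E) E ϖ
        (⟨s18hq a (s18hExp a) E, hmem⟩ : modularFunctionFieldFullC E M) S ∧
      S18Chart (s18dVal A E) E ϖ
        (⟨s18hq a (s18hExp a) E, hmem⟩ : modularFunctionFieldFullC E M)⁻¹ S' := by
  have ha23 : a = 2 ∨ a = 3 := by
    rcases ha with ⟨-, h⟩ | ⟨-, h⟩
    · exact Or.inr h
    · exact Or.inl h
  refine ⟨s18hk_coord hϖ a ha23 M s18h_identity_two s18h_identity_three hmem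
    (s18v_coord_j hϖ (s18d_natCast_mem (ℓ := ℓ) A E hA) M hℓM), ?_⟩
  obtain ⟨N, rfl⟩ := haM
  have hN0 : N ≠ 0 := fun h => NeZero.ne (a * N) (by rw [h, mul_zero])
  haveI : NeZero N := ⟨hN0⟩
  have hℓN : ¬ ℓ ∣ N := fun h => hℓM (h.mul_left a)
  exact grdis_chart_pair A E N hℓN hA a ha ha23 ϖ hϖ ζ hζ hmem

/-- (S2) the chart `h_a` at a level `M` divisible by `a = 5 - ℓ`, `ℓ ∈ {2, 3}`. -/
theorem grd_chart_h (hℓM : ¬ ℓ ∣ M) (hA : A.LiesOverPrime ℓ)
    (ha : (ℓ = 2 ∧ a = 3) ∨ (ℓ = 3 ∧ a = 2)) (haM : a ∣ M) :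
    GrdChart M A (s18hq a (s18hExp a) ℤ) := by
  have ha23 : a = 2 ∨ a = 3 := by
    rcases ha with ⟨-, h⟩ | ⟨-, h⟩
    · exact Or.inr h
    · exact Or.inl h
  have hmem := grdis_mem_h a ha23 M haM
  refine ⟨hmem, grdis_sepQ_h M a ha23 hmem, grdis_sepK_h M A a ha23 hℓM hA hmem, ?_⟩
  obtain ⟨E₀, hfd₀, hE₀⟩ := grdi_exists_level M
  refine ⟨E₀, hfd₀, ?_⟩
  intro E hE hfd _ _ ϖ hϖ
  haveI := hfd
  obtain ⟨ζ, hζ⟩ := hE₀ E hE
  have hmemE : s18hq a (s18hExp a) E ∈ modularFunctionFieldFullC E M := by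
    rw [← grdis_grdSer_hq]; exact hmem E
  have heq : (⟨grdSer (s18hq a (s18hExp a) ℤ) E, hmem E⟩ : modularFunctionFieldFullC E M) =
      ⟨s18hq a (s18hExp a) E, hmemE⟩ := Subtype.ext (grdis_grdSer_hq a _ E)
  rw [heq]
  obtain ⟨hc, S, S', h0, -⟩ := grdis_level M A a hℓM hA ha haM E ϖ hϖ ζ hζ hmemE
  exact ⟨hc, S, h0⟩

/-- (S3) the chart `h_a⁻¹`. -/
theorem grd_chart_hinv (hℓM : ¬ ℓ ∣ M) (hA : A.LiesOverPrime ℓ)
    (ha : (ℓ = 2 ∧ a = 3) ∨ (ℓ = 3 ∧ a = 2)) (haM : a ∣ M)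
    (τ' : LaurentSeries ℤ) (hτ' : s18hq a (s18hExp a) ℤ * τ' = 1) : GrdChart M A τ' := by
  have ha23 : a = 2 ∨ a = 3 := by
    rcases ha with ⟨-, h⟩ | ⟨-, h⟩
    · exact Or.inr h
    · exact Or.inl h
  have hmemh := grdis_mem_h a ha23 M haM
  have hmem := grdis_mem_inv M hτ' hmemh
  refine ⟨hmem, ?_, ?_, ?_⟩
  · rw [grdis_grdQ_inv M hτ' hmemh]
    exact (grdis_sepQ_h M a ha23 hmemh).inv
  · rw [grdis_grdK_inv M A hτ' hmemh]
    exact (grdis_sepK_h M A a ha23 hℓM hA hmemh).inv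
  obtain ⟨E₀, hfd₀, hE₀⟩ := grdi_exists_level M
  refine ⟨E₀, hfd₀, ?_⟩
  intro E hE hfd _ _ ϖ hϖ
  haveI := hfd
  obtain ⟨ζ, hζ⟩ := hE₀ E hE
  have hmemE : s18hq a (s18hExp a) E ∈ modularFunctionFieldFullC E M := by
    rw [← grdis_grdSer_hq]; exact hmemh E
  have heq : (⟨grdSer τ' E, hmem E⟩ : modularFunctionFieldFullC E M) =
      (⟨s18hq a (s18hExp a) E, hmemE⟩ : modularFunctionFieldFullC E M)⁻¹ := by
    apply Subtype.ext
    show grdSer τ' E = _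
    rw [grdis_grdSer_inv hτ', IntermediateField.coe_inv, grdis_grdSer_hq]
  rw [heq]
  obtain ⟨hc, S, S', -, hinf⟩ := grdis_level M A a hℓM hA ha haM E ϖ hϖ ζ hζ hmemE
  exact ⟨grdi_coord_inv hϖ _ _ hc, S', hinf⟩

/-- (S4) THE ATLAS `h_a`, `h_a⁻¹` at a level divisible by `a = 5 - ℓ`. -/
theorem grd_atlas_small (hℓM : ¬ ℓ ∣ M) (hA : A.LiesOverPrime ℓ)
    (ha : (ℓ = 2 ∧ a = 3) ∨ (ℓ = 3 ∧ a = 2)) (haM : a ∣ M) :
    GrdAtlas M A (s18hq a (s18hExp a) ℤ) (grdisHinv a (s18hExp a)) :=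
  ⟨grdis_mul_hinv a _, grd_chart_h M A a hℓM hA ha haM,
    grd_chart_hinv M A a hℓM hA ha haM _ (grdis_mul_hinv a _)⟩

end Instantiate

end Fermat.Agent.G
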