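import Mathlib
import Fermat.Agent.G.Red.Defs
import Fermat.Agent.G.Red.Normal
import Fermat.Agent.G.Red.Gauss
import Fermat.Agent.G.Red.Val
import Fermat.Agent.G.Red.GenPlace
import Fermat.Agent.G.Red.GaussKer
import Fermat.Agent.G.Red.SectionKernel
import Fermat.Agent.G.Red.Sat
import Fermat.Agent.G.Red.Lift
import Fermat.Agent.G.Red.Kernel
import Fermat.Agent.G.Red.RelExists
import Fermat.Agent.G.Red.Zero
import Fermat.Agent.G.Red.Simple
import Fermat.Agent.G.Red.DivChart
import Fermat.Agent.G.Red.Atlas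
import Fermat.Agent.G.Red.DivFormula
import Fermat.Agent.G.Red.Inst
import Fermat.Agent.G.Red.InstSmall
import Fermat.Agent.G.GN
import Fermat.Agent.G.Open.Main
import Fermat.Agent.S24.Places
import Fermat.Agent.S24.PlacesCenter

/-!
# Program G, package G/Red : HUB (all leaves live in the leaf files imported above; everything is
proved, no stub is left)

GOAL: for `ℓ ∤ M`, `𝔸 ⊂ ℚ̄` over `ℓ` : a map `r` from the places of `F = F_ℚ̄(M)` to the places of
`F_k = F_k(M)` (`k = 𝔸/𝔪`) with the Prelude property `IsPlaceReductionAlong 𝔸 (residue 𝔸) M r`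
(`∑_{r P = Q} ord_P(y) = ord_Q(ȳ)`), CHARACTERISED BY VALUES (`GrdIsRed`), and hence
`ReductionInputsModL 𝔸 M` (with `ggn_principalGeneratedByIntegral`).

PLAN (see the board message of helper12 for the mathematics):
 §G  generic facts on places of a function field `F/K`, `K` algebraically closed (S24 API);
 §B  the Gauss ring `grdO` is a valuation ring, kernel of `grdRed`;
 §C  the chart ring `B = grdB u` (integral closure of `𝔸[u]` in `F`) : `B ⊂ grdO`,
     `B/𝔪B ≅ C = ` integral closure of `k[ū]` in `F_k` (LIFTING = normality of the special fibre,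
     `grdn_chart_normal`; SATURATION `s18t_saturated`), `grdO = ` fractions of `B`;
 §R  the reduction relation in one chart : existence / uniqueness of `Q` for `P` (`grd_rel_exists`),
     existence of zeros (`grd_exists_zero`, flat going-down over `𝔸`), the kernel of a point is
     locally principal (`grd_kernel_principal`, Nakayama at number-field level + `gop_place_fixing`),
     simple zeros (`grd_simple_zero`), the divisor formula in a chart (`grd_div_chart`);
 §T  two charts, the divisor formula, `IsPlaceReductionAlong`;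
 §I  instantiation `τ = j`, `τ' = j⁻¹` for `ℓ ≥ 5`.
-/

set_option autoImplicit false
set_option linter.unusedSectionVars false
set_option linter.unusedVariables false
set_option synthInstance.maxHeartbeats 400000

noncomputable section

namespace Fermat.Agent.G

open ModularCurve AlgebraicCurve IsLocalRing Polynomial Fermat.Agent.S18 Fermat.Agent.S24

/-! ## §T  The top theorems -/

section Top

variable (M : ℕ) [NeZero M] {ℓ : ℕ} [Fact ℓ.Prime]
variable (A : ValuationSubring (AlgebraicClosure ℚ))

/-- THE GENERIC TOP THEOREM : an atlas `(τ, τ')` at level `M` (two chart coordinates with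
`τ τ' = 1` satisfying the chart hypotheses `GrdChart`) gives `ReductionInputsModL 𝔸 M`. -/
theorem grd_reductionInputs_of_atlas (hℓM : ¬ ℓ ∣ M) (hA : A.LiesOverPrime ℓ)
    {τ τ' : LaurentSeries ℤ} (hat : GrdAtlas M A τ τ') : ReductionInputsModL A M := by
  obtain ⟨r, hr⟩ := grd_exists_isRed M A hℓM hA hat
  exact ⟨r, grd_isPlaceReductionAlong M A hℓM hA hat r hr,
    ggn_principalGeneratedByIntegral M A hℓM hA⟩

/-- (I4) THE TOP THEOREM for `ℓ ≥ 5` (atlas `(j, j⁻¹)`). -/
theorem grd_reductionInputs_large (hℓM : ¬ ℓ ∣ M) (hA : A.LiesOverPrime ℓ) (h5 : 5 ≤ ℓ) :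
    ReductionInputsModL A M := by
  obtain ⟨τ', hτ'⟩ := grd_exists_jinv
  exact grd_reductionInputs_of_atlas M A hℓM hA
    ⟨hτ', grd_chart_j M A hℓM hA h5, grd_chart_jinv M A hℓM hA h5 τ' hτ'⟩

/-- THE TOP THEOREM for `ℓ ∈ {2, 3}` at a level divisible by `a = 5 - ℓ` (atlas `(h_a, h_a⁻¹)`,
helper28's `grd_atlas_small`). -/
theorem grd_reductionInputs_small_dvd (a : ℕ) [NeZero a] (hℓM : ¬ ℓ ∣ M) (hA : A.LiesOverPrime ℓ)
    (ha : (ℓ = 2 ∧ a = 3) ∨ (ℓ = 3 ∧ a = 2)) (haM : a ∣ M) : ReductionInputsModL A M :=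
  grd_reductionInputs_of_atlas M A hℓM hA (grd_atlas_small M A a hℓM hA ha haM)

/-- THE TOP THEOREM of the package in one statement : `ReductionInputsModL 𝔸 M` for `ℓ ∤ M` as soon
as `ℓ ≥ 5` or `(5 - ℓ) ∣ M`. -/
theorem grd_reductionInputs_dvd (hℓM : ¬ ℓ ∣ M) (hA : A.LiesOverPrime ℓ)
    (h : ℓ < 5 → (5 - ℓ) ∣ M) : ReductionInputsModL A M := by
  by_cases h5 : 5 ≤ ℓ
  · exact grd_reductionInputs_large M A hℓM hA h5
  · have hlt : ℓ < 5 := by omega
    have hp : ℓ.Prime := Fact.out
    have h23 : ℓ = 2 ∨ ℓ = 3 := by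
      have h2 := hp.two_le
      interval_cases ℓ
      · exact Or.inl rfl
      · exact Or.inr rfl
      · exact absurd hp (by decide)
    rcases h23 with rfl | rfl
    · exact grd_reductionInputs_small_dvd M A 3 hℓM hA (Or.inl ⟨rfl, rfl⟩) (h hlt)
    · exact grd_reductionInputs_small_dvd M A 2 hℓM hA (Or.inr ⟨rfl, rfl⟩) (h hlt)

end Top

/-! ## §S  `ℓ ∈ {2, 3}`, `a = 5 - ℓ ∤ N` : owner helper6 (row 564, plan (B) of board message 1748) :
the S37 top uses `reductionModL 𝔸 (N * a) ∘ α^*` instead of a reduction at level `N`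
(package `G/S37`). -/

end Fermat.Agent.G
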